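import Mathlib

set_option autoImplicit false
set_option linter.style.haveILetI false
set_option linter.unusedSectionVars false

namespace Fermat.Agent.S14

open scoped NumberField Pointwise

noncomputable section

variable (F N : Type*) [Field F] [NumberField F] [Field N] [NumberField N] [Algebra F N]
  [IsGalois F N]

/-- Nonzero primes of a ring of integers have finite residue fields. -/
theorem s14_ar_finite_quot (Q : Ideal (𝓞 N)) (hQ : Q ≠ ⊥) : Finite (𝓞 N ⧸ Q) :=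
  Ring.HasFiniteQuotients.finiteQuotient hQ

/-- Existence of a Frobenius element at a nonzero prime of `𝓞 N`. -/
theorem s14_ar_exists_frobAt (Q : Ideal (𝓞 N)) [Q.IsPrime] (hQ : Q ≠ ⊥) :
    ∃ σ : N ≃ₐ[F] N, IsArithFrobAt (𝓞 F) σ Q := by
  haveI := s14_ar_finite_quot N Q hQ
  exact IsArithFrobAt.exists_of_isInvariant (𝓞 F) (N ≃ₐ[F] N) Q

/-- The action of the Galois group on the ring of integers is faithful. -/
theorem s14_ar_eq_of_smul_eq (σ τ : N ≃ₐ[F] N) (h : ∀ x : 𝓞 N, σ • x = τ • x) : σ = τ := by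
  apply AlgEquiv.ext
  intro x
  obtain ⟨a, b, hb, rfl⟩ : ∃ a b : 𝓞 N, b ≠ 0 ∧ x = (a : N) / (b : N) := by
    obtain ⟨a, b, hb, h⟩ := IsFractionRing.div_surjective (A := 𝓞 N) x
    exact ⟨a, b, nonZeroDivisors.ne_zero hb, h.symm⟩
  have ha := congrArg (fun z : 𝓞 N => (z : N)) (h a)
  have hb' := congrArg (fun z : 𝓞 N => (z : N)) (h b)
  rw [map_div₀, map_div₀]
  have e1 : ((σ • a : 𝓞 N) : N) = σ (a : N) := rfl
  have e2 : ((τ • a : 𝓞 N) : N) = τ (a : N) := rfl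
  have e3 : ((σ • b : 𝓞 N) : N) = σ (b : N) := rfl
  have e4 : ((τ • b : 𝓞 N) : N) = τ (b : N) := rfl
  rw [← e1, ← e2, ← e3, ← e4, ha, hb']

/-- A prime of `𝓞 N` is *inertia-free* over `F` if its inertia group in `Gal(N/F)` is trivial. -/
def s14_ar_Unr (Q : Ideal (𝓞 N)) : Prop :=
  ∀ σ : N ≃ₐ[F] N, (∀ x : 𝓞 N, σ • x - x ∈ Q) → σ = 1

theorem s14_ar_unr_iff (Q : Ideal (𝓞 N)) :
    s14_ar_Unr F N Q ↔ Q.inertia (N ≃ₐ[F] N) = ⊥ := by
  rw [Subgroup.eq_bot_iff_forall]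
  rfl

/-- Uniqueness of the Frobenius element at an inertia-free prime. -/
theorem s14_ar_frobAt_unique (Q : Ideal (𝓞 N)) (hunr : s14_ar_Unr F N Q)
    (σ τ : N ≃ₐ[F] N) (hσ : IsArithFrobAt (𝓞 F) σ Q) (hτ : IsArithFrobAt (𝓞 F) τ Q) : σ = τ := by
  have h := hσ.mul_inv_mem_inertia hτ
  have h1 := hunr _ h
  exact mul_inv_eq_one.mp h1

/-- An unramified prime (in Mathlib's sense) is inertia-free. -/
theorem s14_ar_unr_of_isUnramifiedAt (Q : Ideal (𝓞 N)) [Q.IsPrime] (hQ : Q ≠ ⊥)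
    [Algebra.IsUnramifiedAt (𝓞 F) Q] : s14_ar_Unr F N Q := by
  intro ι hι
  obtain ⟨σ, hσ⟩ := s14_ar_exists_frobAt F N Q hQ
  have hfrob : IsArithFrobAt (𝓞 F) (ι * σ) Q := by
    intro x
    have h1 := hι (σ • x)
    have h2 := hσ x
    simp only [MulSemiringAction.toAlgHom_apply] at h2 ⊢
    rw [mul_smul]
    have := Q.add_mem h1 h2
    simpa using this
  have h := AlgHom.IsArithFrobAt.eq_of_isUnramifiedAt hfrob hσ Q.primeCompl_le_nonZeroDivisors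
  have h2 : ι * σ = σ := by
    apply s14_ar_eq_of_smul_eq
    intro x
    exact DFunLike.congr_fun h x
  exact mul_eq_right.mp h2

/-- All primes over the same prime are conjugate. -/
theorem s14_ar_exists_smul_eq (Q Q' : Ideal (𝓞 N)) [Q.IsPrime] [Q'.IsPrime]
    (h : Q.under (𝓞 F) = Q'.under (𝓞 F)) : ∃ τ : N ≃ₐ[F] N, Q' = τ • Q :=
  Algebra.IsInvariant.exists_smul_of_under_eq (𝓞 F) (𝓞 N) (N ≃ₐ[F] N) Q Q' h

/-- Conjugate primes are simultaneously inertia-free. -/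
theorem s14_ar_unr_smul (Q : Ideal (𝓞 N)) (hunr : s14_ar_Unr F N Q) (τ : N ≃ₐ[F] N) :
    s14_ar_Unr F N (τ • Q) := by
  intro σ hσ
  have h1 : τ⁻¹ * σ * τ = 1 := by
    apply hunr
    intro x
    have h2 := hσ (τ • x)
    rw [Ideal.mem_pointwise_smul_iff_inv_smul_mem] at h2
    rw [smul_sub, inv_smul_smul] at h2
    rw [mul_smul, mul_smul]
    exact h2
  have : σ = τ * (τ⁻¹ * σ * τ) * τ⁻¹ := by group
  rw [this, h1]
  group

/-- Primes over the same prime of the base are simultaneously inertia-free. -/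
theorem s14_ar_unr_of_under_eq (Q Q' : Ideal (𝓞 N)) [Q.IsPrime] [Q'.IsPrime]
    (h : Q.under (𝓞 F) = Q'.under (𝓞 F)) (hunr : s14_ar_Unr F N Q) : s14_ar_Unr F N Q' := by
  obtain ⟨τ, rfl⟩ := s14_ar_exists_smul_eq F N Q Q' h
  exact s14_ar_unr_smul F N Q hunr τ

/-- In an abelian extension a Frobenius element at `Q` is a Frobenius element at every prime
over the same prime of the base. -/
theorem s14_ar_frobAt_of_comm (hab : ∀ σ τ : N ≃ₐ[F] N, σ * τ = τ * σ)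
    (Q Q' : Ideal (𝓞 N)) [Q.IsPrime] [Q'.IsPrime]
    (h : Q.under (𝓞 F) = Q'.under (𝓞 F)) (σ : N ≃ₐ[F] N) (hσ : IsArithFrobAt (𝓞 F) σ Q) :
    IsArithFrobAt (𝓞 F) σ Q' := by
  obtain ⟨τ, rfl⟩ := s14_ar_exists_smul_eq F N Q Q' h
  have h1 := hσ.conj τ
  have h2 : τ * σ * τ⁻¹ = σ := by rw [hab τ σ, mul_assoc, mul_inv_cancel, mul_one]
  rwa [h2] at h1

/-- The Frobenius element of a prime `q` of `𝓞 F` in `Gal(N/F)` (an arbitrary choice of a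
Frobenius element at a nonzero prime over `q`; the junk value is `1`). -/
def s14_ar_frob (q : Ideal (𝓞 F)) : N ≃ₐ[F] N :=
  open Classical in
  if h : ∃ σ : N ≃ₐ[F] N, ∃ Q : Ideal (𝓞 N), Q.IsPrime ∧ Q ≠ ⊥ ∧ Q.under (𝓞 F) = q ∧
      IsArithFrobAt (𝓞 F) σ Q
  then h.choose else 1

theorem s14_ar_frob_spec (q : Ideal (𝓞 F)) (Q : Ideal (𝓞 N)) [Q.IsPrime] (hQ : Q ≠ ⊥)
    (hQq : Q.under (𝓞 F) = q) :
    ∃ Q' : Ideal (𝓞 N), Q'.IsPrime ∧ Q' ≠ ⊥ ∧ Q'.under (𝓞 F) = q ∧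
      IsArithFrobAt (𝓞 F) (s14_ar_frob F N q) Q' := by
  have hex : ∃ σ : N ≃ₐ[F] N, ∃ Q : Ideal (𝓞 N), Q.IsPrime ∧ Q ≠ ⊥ ∧ Q.under (𝓞 F) = q ∧
      IsArithFrobAt (𝓞 F) σ Q := by
    obtain ⟨σ, hσ⟩ := s14_ar_exists_frobAt F N Q hQ
    exact ⟨σ, Q, inferInstance, hQ, hQq, hσ⟩
  have := hex.choose_spec
  rw [s14_ar_frob, dif_pos hex]
  exact this

/-- In an abelian extension, `s14_ar_frob q` is a Frobenius element at every nonzero prime
over `q`. -/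
theorem s14_ar_frob_isArithFrobAt (hab : ∀ σ τ : N ≃ₐ[F] N, σ * τ = τ * σ)
    (q : Ideal (𝓞 F)) (Q : Ideal (𝓞 N)) [Q.IsPrime] (hQ : Q ≠ ⊥)
    (hQq : Q.under (𝓞 F) = q) : IsArithFrobAt (𝓞 F) (s14_ar_frob F N q) Q := by
  obtain ⟨Q', hQ'p, -, hQ'q, hfrob⟩ := s14_ar_frob_spec F N q Q hQ hQq
  haveI := hQ'p
  exact s14_ar_frobAt_of_comm F N hab Q' Q (hQ'q.trans hQq.symm) _ hfrob

/-- Characterisation of the Frobenius element at an inertia-free prime of an abelian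
extension. -/
theorem s14_ar_eq_frob (hab : ∀ σ τ : N ≃ₐ[F] N, σ * τ = τ * σ)
    (q : Ideal (𝓞 F)) (Q : Ideal (𝓞 N)) [Q.IsPrime] (hQ : Q ≠ ⊥)
    (hQq : Q.under (𝓞 F) = q) (hunr : s14_ar_Unr F N Q)
    (σ : N ≃ₐ[F] N) (hσ : IsArithFrobAt (𝓞 F) σ Q) : σ = s14_ar_frob F N q :=
  s14_ar_frobAt_unique F N Q hunr σ _ hσ (s14_ar_frob_isArithFrobAt F N hab q Q hQ hQq)

/-- Powers of a Frobenius element act as iterated Frobenius maps on the residue ring. -/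
theorem s14_ar_pow_mk (Q : Ideal (𝓞 N)) (σ : N ≃ₐ[F] N) (hσ : IsArithFrobAt (𝓞 F) σ Q)
    (k : ℕ) (x : 𝓞 N) :
    Ideal.Quotient.mk Q ((σ ^ k) • x) =
      (Ideal.Quotient.mk Q x) ^ (Nat.card (𝓞 F ⧸ Q.under (𝓞 F)) ^ k) := by
  induction k generalizing x with
  | zero => simp
  | succ k ih =>
    rw [pow_succ, mul_smul, ih, pow_succ, pow_mul']
    congr 1
    have := AlgHom.IsArithFrobAt.mk_apply hσ x
    simpa using this

/-- The order of a Frobenius element at an inertia-free prime is the inertia degree. -/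
theorem s14_ar_orderOf_frobAt (Q : Ideal (𝓞 N)) [Q.IsPrime] (hQ : Q ≠ ⊥)
    (hunr : s14_ar_Unr F N Q) (σ : N ≃ₐ[F] N) (hσ : IsArithFrobAt (𝓞 F) σ Q) :
    orderOf σ = Q.inertiaDeg (𝓞 F) := by
  haveI hQmax : Q.IsMaximal := Ring.DimensionLEOne.maximalOfPrime hQ inferInstance
  set q : Ideal (𝓞 F) := Q.under (𝓞 F) with hq
  haveI hqmax : q.IsMaximal := Ideal.IsMaximal.under (𝓞 F) Q
  haveI := s14_ar_finite_quot N Q hQ
  letI : Field (𝓞 F ⧸ q) := Ideal.Quotient.field q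
  letI : Field (𝓞 N ⧸ Q) := Ideal.Quotient.field Q
  haveI : Finite (𝓞 F ⧸ q) := Finite.of_injective _ (algebraMap (𝓞 F ⧸ q) (𝓞 N ⧸ Q)).injective
  letI : Fintype (𝓞 F ⧸ q) := Fintype.ofFinite _
  set φ := FiniteField.frobeniusAlgEquivOfAlgebraic (𝓞 F ⧸ q) (𝓞 N ⧸ Q) with hφ
  have hφord : orderOf φ = Q.inertiaDeg (𝓞 F) := by
    rw [FiniteField.orderOf_frobeniusAlgEquivOfAlgebraic, Ideal.inertiaDeg_eq_of_isMaximal q Q]
  rw [← hφord]
  have hφpow : ∀ (k : ℕ) (y : 𝓞 N ⧸ Q), (φ ^ k) y = y ^ (Nat.card (𝓞 F ⧸ q) ^ k) := by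
    intro k y
    rw [AlgEquiv.coe_pow, FiniteField.coe_frobeniusAlgEquivOfAlgebraic_iterate,
      Nat.card_eq_fintype_card]
  apply orderOf_eq_orderOf_iff.mpr
  intro k
  constructor
  · intro h
    apply AlgEquiv.ext
    intro y
    obtain ⟨x, rfl⟩ := Ideal.Quotient.mk_surjective y
    rw [hφpow, ← s14_ar_pow_mk F N Q σ hσ k x, h]
    simp
  · intro h
    apply hunr
    intro x
    rw [← Ideal.Quotient.eq, s14_ar_pow_mk F N Q σ hσ k x, ← hφpow, h]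
    rfl

/-- The order of the Frobenius element of an inertia-free prime of an abelian extension is the
inertia degree. -/
theorem s14_ar_orderOf_frob (hab : ∀ σ τ : N ≃ₐ[F] N, σ * τ = τ * σ)
    (q : Ideal (𝓞 F)) (Q : Ideal (𝓞 N)) [Q.IsPrime] (hQ : Q ≠ ⊥)
    (hQq : Q.under (𝓞 F) = q) (hunr : s14_ar_Unr F N Q) :
    orderOf (s14_ar_frob F N q) = Q.inertiaDeg (𝓞 F) :=
  s14_ar_orderOf_frobAt F N Q hQ hunr _ (s14_ar_frob_isArithFrobAt F N hab q Q hQ hQq)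

/-- The Frobenius element is trivial iff the inertia degree is one. -/
theorem s14_ar_frob_eq_one_iff (hab : ∀ σ τ : N ≃ₐ[F] N, σ * τ = τ * σ)
    (q : Ideal (𝓞 F)) (Q : Ideal (𝓞 N)) [Q.IsPrime] (hQ : Q ≠ ⊥)
    (hQq : Q.under (𝓞 F) = q) (hunr : s14_ar_Unr F N Q) :
    s14_ar_frob F N q = 1 ↔ Q.inertiaDeg (𝓞 F) = 1 := by
  rw [← s14_ar_orderOf_frob F N hab q Q hQ hQq hunr, orderOf_eq_one_iff]

/-- `frob ^ k = 1` iff the inertia degree divides `k`. -/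
theorem s14_ar_frob_pow_eq_one_iff (hab : ∀ σ τ : N ≃ₐ[F] N, σ * τ = τ * σ)
    (q : Ideal (𝓞 F)) (Q : Ideal (𝓞 N)) [Q.IsPrime] (hQ : Q ≠ ⊥)
    (hQq : Q.under (𝓞 F) = q) (hunr : s14_ar_Unr F N Q) (k : ℕ) :
    s14_ar_frob F N q ^ k = 1 ↔ Q.inertiaDeg (𝓞 F) ∣ k := by
  rw [← s14_ar_orderOf_frob F N hab q Q hQ hQq hunr, orderOf_dvd_iff_pow_eq_one]

/-- A group of prime order is commutative. -/
theorem s14_ar_comm_of_card_prime {p : ℕ} (hp : p.Prime)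
    (hcard : Nat.card (N ≃ₐ[F] N) = p) : ∀ σ τ : N ≃ₐ[F] N, σ * τ = τ * σ := by
  haveI : Fact p.Prime := ⟨hp⟩
  haveI : IsCyclic (N ≃ₐ[F] N) := isCyclic_of_prime_card hcard
  intro σ τ
  exact (IsCyclic.commGroup (α := N ≃ₐ[F] N)).mul_comm σ τ

end
end Fermat.Agent.S14
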