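import Mathlib
import Fermat.Prelude.Def_Stickelberger_Basic

/-!
# S14 — shared vocabulary and interface statements (OWNER: helper4, architect)

Conventions (namespace `Fermat.Agent.S14`):
* number fields are TYPES `F N : Type` with `[Field F] [NumberField F]`, extensions are
  `[Algebra F N]`; `𝓞 F` is the ring of integers; `Gal(N/F) = N ≃ₐ[F] N` acts on `𝓞 N` and
  (pointwise) on its ideals;
* a "prime of `F`" in a SET of primes is `v : HeightOneSpectrum (𝓞 F)`; the ideal is `v.asIdeal`;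
  ramification / splitting / Frobenius are stated for ideals `q : Ideal (𝓞 F)`;
* every interface is a `Prop`-valued definition `s14_stmt_X`; consumers take it as an explicit
  hypothesis, producers prove it.
-/

set_option autoImplicit false

namespace Fermat.Agent.S14

open NumberField IsDedekindDomain
open scoped Pointwise

section vocabulary

variable (F N : Type*) [Field F] [NumberField F] [Field N] [NumberField N] [Algebra F N]

/-- the prime `q` of `F` is unramified in `N`: every prime of `N` above `q` has trivial inertia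
group in `Gal(N/F)`. -/
def s14_UnramAt (q : Ideal (𝓞 F)) : Prop :=
  ∀ Q : Ideal (𝓞 N), Q.IsPrime → Q.under (𝓞 F) = q → Q.inertia (N ≃ₐ[F] N) = ⊥

/-- `N/F` is unramified at every (finite) prime. -/
def s14_Unram : Prop :=
  ∀ Q : Ideal (𝓞 N), Q.IsPrime → Q ≠ ⊥ → Q.inertia (N ≃ₐ[F] N) = ⊥

/-- the prime `q` of `F` splits completely in `N`: every prime of `N` above `q` has trivial
decomposition group in `Gal(N/F)`. -/
def s14_Splits (q : Ideal (𝓞 F)) : Prop :=
  ∀ Q : Ideal (𝓞 N), Q.IsPrime → Q.under (𝓞 F) = q →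
    MulAction.stabilizer (N ≃ₐ[F] N) Q = ⊥

/-- `σ ∈ Gal(N/F)` is a Frobenius element at the prime `q` of `F`: `σ x ≡ x ^ N(q) mod Q` for
all `x ∈ 𝓞 N` and EVERY prime `Q` of `N` above `q` (i.e. Mathlib's `IsArithFrobAt (𝓞 F) σ Q`,
unfolded, for every `Q` over `q`).  In an abelian extension such a `σ` exists for every `q`, and
it is unique if `q` is unramified. -/
def s14_IsFrob (q : Ideal (𝓞 F)) (σ : N ≃ₐ[F] N) : Prop :=
  ∀ Q : Ideal (𝓞 N), Q.IsPrime → Q.under (𝓞 F) = q →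
    ∀ x : 𝓞 N, σ • x - x ^ (Ideal.absNorm q) ∈ Q

/-- `a` is coprime to the finite set of primes `T`. -/
def s14_CoprimeTo (T : Finset (HeightOneSpectrum (𝓞 F))) (a : Ideal (𝓞 F)) : Prop :=
  ∀ t ∈ T, ¬ a ≤ t.asIdeal

/-- **norm-like ideals** (lead msg #16c): for finite sets `R`, `T` of primes of `F`, the class of
`a` is trivial in `I_F^{R ∪ T} / (P · ⟨split primes, p-th powers⟩)`, where `P` consists of the
principal ideals `(x)` with `x` prime to `R ∪ T` and `x ≡ y ^ p` modulo every `t ∈ T`: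
`a * b ^ p = (x) * c` with `b` prime to `R ∪ T`, `x ∉ v` for `v ∈ R ∪ T`, `x` a `p`-th power
residue modulo every `t ∈ T`, and every prime factor of `c` outside `R ∪ T` and split completely
in `N`.  (FI uses `(∅, T)`, I2 uses `(R, ∅)`, END uses `(∅, ∅)`.) -/
def s14_NormLike (p : ℕ) (R T : Finset (HeightOneSpectrum (𝓞 F))) (a : Ideal (𝓞 F)) : Prop :=
  ∃ (b c : Ideal (𝓞 F)) (x : 𝓞 F), b ≠ ⊥ ∧ x ≠ 0 ∧ a * b ^ p = Ideal.span {x} * c ∧
    (∀ v : HeightOneSpectrum (𝓞 F), v ∈ R ∨ v ∈ T → ¬ b ≤ v.asIdeal ∧ x ∉ v.asIdeal) ∧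
    (∀ t ∈ T, ∃ y : 𝓞 F, x - y ^ p ∈ t.asIdeal) ∧
    (∀ v : HeightOneSpectrum (𝓞 F), c ≤ v.asIdeal →
      v ∉ R ∧ v ∉ T ∧ s14_Splits F N v.asIdeal)

end vocabulary

/-! ## Interface statements -/

/-- **(Z)** zeta argument (helper2): in a Galois extension of prime degree there is a prime of
absolute degree one, over a rational prime outside any given finite set, unramified and not
split completely. -/
def s14_stmt_Z : Prop :=
  ∀ (F N : Type) [Field F] [NumberField F] [Field N] [NumberField N] [Algebra F N]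
    [IsGalois F N] (p : ℕ), p.Prime → Module.finrank F N = p → ∀ T0 : Finset ℕ,
    ∃ (q : HeightOneSpectrum (𝓞 F)) (ℓ : ℕ), ℓ.Prime ∧ ℓ ∉ T0 ∧
      Ideal.absNorm q.asIdeal = ℓ ∧ s14_UnramAt F N q.asIdeal ∧ ¬ s14_Splits F N q.asIdeal

/-- **(ST)** Stickelberger via Jacobi sums (helper1): for a prime `q` of `K = ℚ(ζ_p)` of
absolute degree one over `ℓ ≠ p`, the ideal `∏_{0 < c < p/2} σ_c⁻¹(q)` is principal
(`τ c = σ_c⁻¹`, i.e. `τ c (ζ ^ c) = ζ`). -/
def s14_stmt_ST : Prop :=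
  ∀ (K : Type) [Field K] [NumberField K] (p : ℕ) [Fact p.Prime], p ≠ 2 →
    IsCyclotomicExtension {p} ℚ K →
    ∀ (q : HeightOneSpectrum (𝓞 K)) (ℓ : ℕ), ℓ.Prime → ℓ ≠ p → Ideal.absNorm q.asIdeal = ℓ →
    ∀ τ : ℕ → (K ≃ₐ[ℚ] K),
      (∀ c ∈ Stickelberger.exponentSet p, ∀ ζ : K, ζ ^ p = 1 → τ c (ζ ^ c) = ζ) →
      Submodule.IsPrincipal (∏ c ∈ Stickelberger.exponentSet p, (τ c) • q.asIdeal)

/-- **(AR1)** existence of Frobenius elements in abelian extensions (helper3). -/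
def s14_stmt_AR_exists : Prop :=
  ∀ (F N : Type) [Field F] [NumberField F] [Field N] [NumberField N] [Algebra F N]
    [IsGalois F N], (∀ σ τ : N ≃ₐ[F] N, σ * τ = τ * σ) →
    ∀ (q : HeightOneSpectrum (𝓞 F)), ∃ σ : N ≃ₐ[F] N, s14_IsFrob F N q.asIdeal σ

/-- **(AR2)** uniqueness of the Frobenius element at an unramified prime of an abelian
extension (helper3). -/
def s14_stmt_AR_unique : Prop :=
  ∀ (F N : Type) [Field F] [NumberField F] [Field N] [NumberField N] [Algebra F N]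
    [IsGalois F N], (∀ σ τ : N ≃ₐ[F] N, σ * τ = τ * σ) →
    ∀ (q : HeightOneSpectrum (𝓞 F)), s14_UnramAt F N q.asIdeal →
    ∀ σ σ' : N ≃ₐ[F] N, s14_IsFrob F N q.asIdeal σ → s14_IsFrob F N q.asIdeal σ' → σ = σ'

/-- **(AR3)** at an unramified prime, the Frobenius is trivial iff the prime splits completely
(helper3). -/
def s14_stmt_AR_split : Prop :=
  ∀ (F N : Type) [Field F] [NumberField F] [Field N] [NumberField N] [Algebra F N]
    [IsGalois F N] (q : HeightOneSpectrum (𝓞 F)), s14_UnramAt F N q.asIdeal →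
    (s14_IsFrob F N q.asIdeal 1 ↔ s14_Splits F N q.asIdeal)

/-- **(AR4)** equivariance of the Frobenius element under automorphisms of the big field
(helper3): `frob(δ q) = δ frob(q) δ⁻¹`. -/
def s14_stmt_AR_conj : Prop :=
  ∀ (K L : Type) [Field K] [NumberField K] [Field L] [NumberField L] [Algebra K L]
    [IsGalois K L] (q : Ideal (𝓞 K)) (σ σ' : L ≃ₐ[K] L) (δ : L ≃ₐ[ℚ] L) (δK : K ≃ₐ[ℚ] K),
    (∀ x : K, δ (algebraMap K L x) = algebraMap K L (δK x)) →
    (∀ x : L, σ' x = δ (σ (δ.symm x))) →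
    s14_IsFrob K L q σ → s14_IsFrob K L (δK • q) σ'

/-- **(FI)** first inequality (helper7): if `N/F` is Galois of degree `p`, `ζ_p ∈ F`, unramified
outside the finite set `T` of primes not dividing `p`, then some nonzero ideal coprime to `T` is
not norm-like. -/
def s14_stmt_FI : Prop :=
  ∀ (F N : Type) [Field F] [NumberField F] [Field N] [NumberField N] [Algebra F N]
    [IsGalois F N] (p : ℕ), p.Prime → p ≠ 2 → Module.finrank F N = p →
    (∃ ζ : F, IsPrimitiveRoot ζ p) →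
    ∀ T : Finset (HeightOneSpectrum (𝓞 F)), (∀ t ∈ T, (p : 𝓞 F) ∉ t.asIdeal) →
      (∀ v : HeightOneSpectrum (𝓞 F), v ∉ T → s14_UnramAt F N v.asIdeal) →
      ∃ a : Ideal (𝓞 F), a ≠ ⊥ ∧ s14_CoprimeTo F T a ∧ ¬ s14_NormLike F N p ∅ T a

/-- **(I2)** second inequality, strong form (helper4): for `B/F` unramified, Galois of degree
`p`, `ζ_p ∈ F`, and ANY finite set `R` of primes of `F`, the norm-like ideals (modulus `R`) have
index at most `p` in the ideals prime to `R`. -/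
def s14_stmt_I2 : Prop :=
  ∀ (F B : Type) [Field F] [NumberField F] [Field B] [NumberField B] [Algebra F B]
    [IsGalois F B] (p : ℕ), p.Prime → p ≠ 2 → Module.finrank F B = p →
    (∃ ζ : F, IsPrimitiveRoot ζ p) → s14_Unram F B →
    ∀ R : Finset (HeightOneSpectrum (𝓞 F)),
    ∀ a0 : Ideal (𝓞 F), a0 ≠ ⊥ → s14_CoprimeTo F R a0 → ¬ s14_NormLike F B p R ∅ a0 →
      ∀ a : Ideal (𝓞 F), a ≠ ⊥ → s14_CoprimeTo F R a →
        ∃ k : ℕ, k < p ∧ s14_NormLike F B p R ∅ (a * a0 ^ k)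

/-- **(CR)** crossing (helper9): for primes `q₁`, `q₂` of `K = ℚ(ζ_p)` over distinct rational
primes, with nontrivial Frobenius elements `σ₁`, `σ₂` in the unramified extension `L/K` of degree
`p`, `σ₁ ^ a = σ₂ ^ b` implies that `q₁ ^ a * q₂ ^ b'` is norm-like whenever `p ∣ b + b'`. -/
def s14_stmt_CR : Prop :=
  ∀ (p : ℕ) [Fact p.Prime], p ≠ 2 →
    ∀ (K L : Type) [Field K] [NumberField K] [Field L] [NumberField L] [Algebra K L]
      [IsGalois K L] [IsCyclotomicExtension {p} ℚ K],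
    Module.finrank K L = p → s14_Unram K L →
    ∀ (q₁ q₂ : Ideal (𝓞 K)) [q₁.IsPrime] [q₂.IsPrime], q₁ ≠ ⊥ → q₂ ≠ ⊥ →
      q₁.under ℤ ≠ q₂.under ℤ →
      ∀ (σ₁ σ₂ : L ≃ₐ[K] L), s14_IsFrob K L q₁ σ₁ → s14_IsFrob K L q₂ σ₂ → σ₁ ≠ 1 → σ₂ ≠ 1 →
      ∀ (a b b' : ℕ), σ₁ ^ a = σ₂ ^ b → p ∣ b + b' →
        s14_NormLike K L p ∅ ∅ (q₁ ^ a * q₂ ^ b')

/-- **(CORE)** the number-field statement proved by END (lead) and consumed by GAL (helper8):
there is no unramified Galois extension `L` of degree `p` of `K = ℚ(ζ_p)`, Galois over `ℚ`, on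
which `Gal(L/ℚ)` acts through the inverse cyclotomic character:
`δ g δ⁻¹ = g ^ k` whenever `δ (ζ ^ k) = ζ`. -/
def s14_stmt_CORE : Prop :=
  ∀ (K L : Type) [Field K] [NumberField K] [Field L] [NumberField L] [Algebra K L]
    [IsGalois K L] (p : ℕ) [Fact p.Prime], p ≠ 2 → IsCyclotomicExtension {p} ℚ K →
    Module.finrank K L = p → s14_Unram K L → IsGalois ℚ L →
    (∀ (δ : L ≃ₐ[ℚ] L) (g : L ≃ₐ[K] L) (k : ℕ) (ζ : K), IsPrimitiveRoot ζ p →
      δ (algebraMap K L (ζ ^ k)) = algebraMap K L ζ →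
      ∀ x : L, δ (g (δ.symm x)) = (g ^ k) x) →
    False

end Fermat.Agent.S14
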