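import Mathlib
import Fermat.Agent.S14.Defs
import Fermat.Agent.S14.ArtinCore

set_option autoImplicit false
set_option linter.style.haveILetI false
set_option linter.unusedSectionVars false
set_option linter.unusedVariables false

/-!
# S14 (AR): the interface statements `s14_stmt_AR_*` of `Defs.lean`, proved.
-/

namespace Fermat.Agent.S14

open scoped NumberField Pointwise
open IsDedekindDomain

noncomputable section

section bridge

variable (F N : Type*) [Field F] [NumberField F] [Field N] [NumberField N] [Algebra F N]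
  [IsGalois F N]

/-- the residue cardinality is the absolute norm -/
theorem s14_ar_card_quot_eq_absNorm (q : Ideal (𝓞 F)) :
    Nat.card (𝓞 F ⧸ q) = Ideal.absNorm q := by
  rw [Ideal.absNorm_apply, Submodule.cardQuot_apply]

/-- unfolding of Mathlib's `IsArithFrobAt` in terms of the absolute norm -/
theorem s14_ar_isArithFrobAt_iff (σ : N ≃ₐ[F] N) (Q : Ideal (𝓞 N)) (q : Ideal (𝓞 F))
    (hQq : Q.under (𝓞 F) = q) :
    IsArithFrobAt (𝓞 F) σ Q ↔ ∀ x : 𝓞 N, σ • x - x ^ (Ideal.absNorm q) ∈ Q := by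
  subst hQq
  rw [← s14_ar_card_quot_eq_absNorm]
  rfl

/-- a prime over a nonzero prime is nonzero -/
theorem s14_ar_ne_bot_of_under (Q : Ideal (𝓞 N)) (q : Ideal (𝓞 F)) (hq : q ≠ ⊥)
    (hQq : Q.under (𝓞 F) = q) : Q ≠ ⊥ := by
  rintro rfl
  apply hq
  rw [← hQq]
  ext a
  rw [Ideal.under_def, Ideal.mem_comap, Ideal.mem_bot, Ideal.mem_bot]
  constructor
  · intro h
    exact (FaithfulSMul.algebraMap_injective (𝓞 F) (𝓞 N)) (by rw [h, map_zero])
  · rintro rfl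
    exact map_zero _

/-- existence of a prime above a prime -/
theorem s14_ar_exists_over (q : Ideal (𝓞 F)) [q.IsPrime] :
    ∃ Q : Ideal (𝓞 N), Q.IsPrime ∧ Q.under (𝓞 F) = q := by
  obtain ⟨Q, -, hQ, hQq⟩ := Ideal.exists_ideal_over_prime_of_isIntegral q (⊥ : Ideal (𝓞 N))
    (by
      intro x hx
      rw [Ideal.mem_comap, Ideal.mem_bot] at hx
      have := (FaithfulSMul.algebraMap_injective (𝓞 F) (𝓞 N)) (by rw [hx, map_zero] : _ = algebraMap (𝓞 F) (𝓞 N) 0)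
      rw [this]
      exact q.zero_mem)
  exact ⟨Q, hQ, hQq⟩

/-- the bridge between the two notions of "inertia-free" -/
theorem s14_ar_unr_of_unramAt (q : Ideal (𝓞 F)) (h : s14_UnramAt F N q)
    (Q : Ideal (𝓞 N)) [Q.IsPrime] (hQq : Q.under (𝓞 F) = q) : s14_ar_Unr F N Q :=
  (s14_ar_unr_iff F N Q).mpr (h Q inferInstance hQq)

theorem s14_ar_unr_of_unram (h : s14_Unram F N)
    (Q : Ideal (𝓞 N)) [Q.IsPrime] (hQ : Q ≠ ⊥) : s14_ar_Unr F N Q :=
  (s14_ar_unr_iff F N Q).mpr (h Q inferInstance hQ)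

theorem s14_ar_unramAt_of_unram (h : s14_Unram F N) (q : Ideal (𝓞 F)) (hq : q ≠ ⊥) :
    s14_UnramAt F N q := fun Q hQ hQq => h Q hQ (s14_ar_ne_bot_of_under F N Q q hq hQq)

/-- `s14_IsFrob` in terms of Mathlib's `IsArithFrobAt`. -/
theorem s14_ar_isFrob_iff (q : Ideal (𝓞 F)) (σ : N ≃ₐ[F] N) :
    s14_IsFrob F N q σ ↔
      ∀ Q : Ideal (𝓞 N), Q.IsPrime → Q.under (𝓞 F) = q → IsArithFrobAt (𝓞 F) σ Q := by
  constructor
  · intro h Q hQ hQq
    exact (s14_ar_isArithFrobAt_iff F N σ Q q hQq).mpr (h Q hQ hQq)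
  · intro h Q hQ hQq
    exact (s14_ar_isArithFrobAt_iff F N σ Q q hQq).mp (h Q hQ hQq)

/-- In an abelian extension, the chosen Frobenius element is a Frobenius element in the sense of
`Defs.lean`. -/
theorem s14_ar_isFrob_frob (hab : ∀ σ τ : N ≃ₐ[F] N, σ * τ = τ * σ) (q : Ideal (𝓞 F))
    (hq : q ≠ ⊥) : s14_IsFrob F N q (s14_ar_frob F N q) := by
  rw [s14_ar_isFrob_iff]
  intro Q hQ hQq
  haveI := hQ
  exact s14_ar_frob_isArithFrobAt F N hab q Q (s14_ar_ne_bot_of_under F N Q q hq hQq) hQq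

/-- In an abelian extension, a Frobenius element at one prime above `q` is a Frobenius element
in the sense of `Defs.lean`. -/
theorem s14_ar_isFrob_of_isArithFrobAt (hab : ∀ σ τ : N ≃ₐ[F] N, σ * τ = τ * σ)
    (q : Ideal (𝓞 F)) (Q : Ideal (𝓞 N)) [Q.IsPrime] (hQq : Q.under (𝓞 F) = q)
    (σ : N ≃ₐ[F] N) (hσ : IsArithFrobAt (𝓞 F) σ Q) : s14_IsFrob F N q σ := by
  rw [s14_ar_isFrob_iff]
  intro Q' hQ' hQ'q
  haveI := hQ'
  exact s14_ar_frobAt_of_comm F N hab Q Q' (hQq.trans hQ'q.symm) σ hσ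

/-- At an unramified prime of an abelian extension, Frobenius elements (in the sense of
`Defs.lean`) are equal to the chosen one. -/
theorem s14_ar_isFrob_eq_frob (hab : ∀ σ τ : N ≃ₐ[F] N, σ * τ = τ * σ) (q : Ideal (𝓞 F))
    [q.IsPrime] (hq : q ≠ ⊥) (hunr : s14_UnramAt F N q) (σ : N ≃ₐ[F] N)
    (hσ : s14_IsFrob F N q σ) : σ = s14_ar_frob F N q := by
  obtain ⟨Q, hQ, hQq⟩ := s14_ar_exists_over F N q
  haveI := hQ
  exact s14_ar_eq_frob F N hab q Q (s14_ar_ne_bot_of_under F N Q q hq hQq) hQq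
    (s14_ar_unr_of_unramAt F N q hunr Q hQq) σ ((s14_ar_isFrob_iff F N q σ).mp hσ Q hQ hQq)

end bridge

/-- **(AR1)** -/
theorem s14_ar_stmt_exists : s14_stmt_AR_exists := by
  intro F N _ _ _ _ _ _ hab q
  exact ⟨s14_ar_frob F N q.asIdeal, s14_ar_isFrob_frob F N hab q.asIdeal q.ne_bot⟩

/-- **(AR2)** -/
theorem s14_ar_stmt_unique : s14_stmt_AR_unique := by
  intro F N _ _ _ _ _ _ hab q hunr σ σ' hσ hσ'
  haveI := q.isPrime
  rw [s14_ar_isFrob_eq_frob F N hab q.asIdeal q.ne_bot hunr σ hσ,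
    s14_ar_isFrob_eq_frob F N hab q.asIdeal q.ne_bot hunr σ' hσ']

section split

variable (F N : Type*) [Field F] [NumberField F] [Field N] [NumberField N] [Algebra F N]
  [IsGalois F N]

/-- At an inertia-free prime with inertia degree one the decomposition group is trivial. -/
theorem s14_ar_stabilizer_eq_bot (Q : Ideal (𝓞 N)) [Q.IsPrime] (hQ : Q ≠ ⊥)
    (hunr : Q.inertia (N ≃ₐ[F] N) = ⊥) (hf : Q.inertiaDeg (𝓞 F) = 1) :
    MulAction.stabilizer (N ≃ₐ[F] N) Q = ⊥ := by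
  haveI hQmax : Q.IsMaximal := Ring.DimensionLEOne.maximalOfPrime hQ inferInstance
  set q : Ideal (𝓞 F) := Q.under (𝓞 F) with hq
  haveI hqmax : q.IsMaximal := Ideal.IsMaximal.under (𝓞 F) Q
  haveI : Q.LiesOver q := ⟨rfl⟩
  haveI := s14_ar_finite_quot N Q hQ
  letI : Field (𝓞 F ⧸ q) := Ideal.Quotient.field q
  letI : Field (𝓞 N ⧸ Q) := Ideal.Quotient.field Q
  haveI : Finite (𝓞 F ⧸ q) := Finite.of_injective _ (algebraMap (𝓞 F ⧸ q) (𝓞 N ⧸ Q)).injective
  haveI : Finite q.ResidueField := by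
    exact Finite.of_surjective _ (Ideal.bijective_algebraMap_quotient_residueField q).2
  have h := Ideal.card_stabilizer_eq_card_inertia_mul_finrank (G := N ≃ₐ[F] N) q Q
  rw [hf, hunr, mul_one] at h
  rw [Subgroup.card_bot] at h
  exact (Subgroup.card_eq_one).mp h

end split

/-- **(AR3)** -/
theorem s14_ar_stmt_split : s14_stmt_AR_split := by
  intro F N _ _ _ _ _ _ q hunr
  constructor
  · intro h Q hQ hQq
    haveI := hQ
    have hQ0 : Q ≠ ⊥ := s14_ar_ne_bot_of_under F N Q q.asIdeal q.ne_bot hQq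
    have hfrob : IsArithFrobAt (𝓞 F) (1 : N ≃ₐ[F] N) Q :=
      (s14_ar_isFrob_iff F N q.asIdeal 1).mp h Q hQ hQq
    have hord := s14_ar_orderOf_frobAt F N Q hQ0 (s14_ar_unr_of_unramAt F N q.asIdeal hunr Q hQq)
      1 hfrob
    rw [orderOf_one] at hord
    exact s14_ar_stabilizer_eq_bot F N Q hQ0 (hunr Q hQ hQq) hord.symm
  · intro h
    rw [s14_ar_isFrob_iff]
    intro Q hQ hQq
    haveI := hQ
    have hQ0 : Q ≠ ⊥ := s14_ar_ne_bot_of_under F N Q q.asIdeal q.ne_bot hQq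
    obtain ⟨σ, hσ⟩ := s14_ar_exists_frobAt F N Q hQ0
    have hmem := hσ.mem_stabilizer
    rw [h Q hQ hQq, Subgroup.mem_bot] at hmem
    rwa [hmem] at hσ

section conj

variable (K L : Type*) [Field K] [NumberField K] [Field L] [NumberField L] [Algebra K L]
  [IsGalois K L]

/-- conjugate ideals have the same absolute norm -/
theorem s14_ar_absNorm_smul (δK : K ≃ₐ[ℚ] K) (q : Ideal (𝓞 K)) :
    Ideal.absNorm (δK • q) = Ideal.absNorm q := by
  rw [← s14_ar_card_quot_eq_absNorm, ← s14_ar_card_quot_eq_absNorm]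
  have e : (𝓞 K ⧸ q) ≃+* (𝓞 K ⧸ (δK • q)) :=
    Ideal.quotientEquiv q (δK • q) (MulSemiringAction.toRingEquiv (K ≃ₐ[ℚ] K) (𝓞 K) δK) rfl
  exact (Nat.card_congr e.toEquiv).symm

theorem s14_ar_under_smul_of_compat (δ : L ≃ₐ[ℚ] L) (δK : K ≃ₐ[ℚ] K)
    (hcompat : ∀ x : K, δ (algebraMap K L x) = algebraMap K L (δK x)) (Q : Ideal (𝓞 L)) :
    (δ • Q).under (𝓞 K) = δK • (Q.under (𝓞 K)) := by
  have hsmul : ∀ a : 𝓞 K, algebraMap (𝓞 K) (𝓞 L) (δK • a) = δ • (algebraMap (𝓞 K) (𝓞 L) a) := by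
    intro a
    apply Subtype.ext
    exact (hcompat (a : K)).symm
  ext a
  rw [Ideal.under_def, Ideal.mem_comap, Ideal.mem_pointwise_smul_iff_inv_smul_mem,
    Ideal.mem_pointwise_smul_iff_inv_smul_mem, Ideal.under_def, Ideal.mem_comap]
  have h := hsmul (δK⁻¹ • a)
  rw [smul_inv_smul] at h
  rw [h, inv_smul_smul]

end conj

/-- **(AR4)** -/
theorem s14_ar_stmt_conj : s14_stmt_AR_conj := by
  intro K L _ _ _ _ _ _ q σ σ' δ δK hcompat hσ' hfrob Q' hQ' hQ'q x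
  have hQ : (δ⁻¹ • Q').IsPrime := by
    haveI := hQ'
    infer_instance
  have hunder : (δ⁻¹ • Q').under (𝓞 K) = q := by
    have h1 := s14_ar_under_smul_of_compat K L δ δK hcompat (δ⁻¹ • Q')
    rw [smul_inv_smul, hQ'q] at h1
    have h2 := congrArg (fun I => δK⁻¹ • I) h1
    simp only [inv_smul_smul] at h2
    exact h2.symm
  have h := hfrob (δ⁻¹ • Q') hQ hunder (δ⁻¹ • x)
  rw [Ideal.mem_pointwise_smul_iff_inv_smul_mem, inv_inv, smul_sub, smul_pow', smul_inv_smul] at h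
  rw [s14_ar_absNorm_smul]
  have e : σ' • x = δ • (σ • (δ⁻¹ • x)) := by
    apply Subtype.ext
    exact hσ' (x : L)
  rw [e]
  exact h

end
end Fermat.Agent.S14
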