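import Fermat.Agent.S14.EndAux

/-!
# S14 / End: the chain (lead)

`s14_end_core`: the number-field statement `s14_stmt_CORE` follows from the interface statements
(Z), (ST), (AR1-4), (FI), (CR).
-/

set_option autoImplicit false
set_option linter.unusedSectionVars false

namespace Fermat.Agent.S14

open NumberField IsDedekindDomain
open scoped Pointwise

section

variable {K L : Type} [Field K] [NumberField K] [Field L] [NumberField L] [Algebra K L]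
  [IsGalois K L]

theorem s14_end_unramAt (hunr : s14_Unram K L) (v : HeightOneSpectrum (𝓞 K)) :
    s14_UnramAt K L v.asIdeal := by
  intro Q hQ hQv
  refine hunr Q hQ ?_
  rintro rfl
  apply v.ne_bot
  rw [← hQv]
  exact Ideal.under_bot _ _

theorem s14_end_NL_prod {p : ℕ} {ι : Type*} (s : Finset ι) (f : ι → Ideal (𝓞 K))
    (h : ∀ i ∈ s, s14_end_NL K L p (f i)) : s14_end_NL K L p (∏ i ∈ s, f i) := by
  classical
  induction s using Finset.induction_on with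
  | empty => simpa using (s14_end_NL_one (K := K) (L := L) (p := p))
  | insert i s hi ih =>
    rw [Finset.prod_insert hi]
    exact s14_end_NL_mul (h i (Finset.mem_insert_self i s))
      (ih (fun j hj => h j (Finset.mem_insert_of_mem hj)))

/-- the Frobenius at a non-split unramified prime is nontrivial. -/
theorem s14_end_frob_ne_one (hARs : s14_stmt_AR_split) (hunr : s14_Unram K L)
    (v : HeightOneSpectrum (𝓞 K)) (hv : ¬ s14_Splits K L v.asIdeal) {σ : L ≃ₐ[K] L}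
    (hσ : s14_IsFrob K L v.asIdeal σ) : σ ≠ 1 := by
  rintro rfl
  exact hv ((hARs K L v (s14_end_unramAt hunr v)).1 hσ)

/-- primes over distinct rational primes have distinct contractions to `ℤ`. -/
theorem s14_end_under_ne (v w : HeightOneSpectrum (𝓞 K)) (ℓ ℓ' : ℕ) (hℓ : ℓ.Prime)
    (hℓ' : ℓ'.Prime) (hne : ℓ ≠ ℓ') (hv : (ℓ : 𝓞 K) ∈ v.asIdeal) (hw : (ℓ' : 𝓞 K) ∈ w.asIdeal) :
    v.asIdeal.under ℤ ≠ w.asIdeal.under ℤ := by
  intro h
  have h1 : (ℓ : ℤ) ∈ w.asIdeal.under ℤ := by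
    rw [← h, Ideal.under_def, Ideal.mem_comap]
    simpa using hv
  have h2 : (ℓ' : ℤ) ∈ w.asIdeal.under ℤ := by
    rw [Ideal.under_def, Ideal.mem_comap]
    simpa using hw
  have hcop : IsCoprime (ℓ : ℤ) (ℓ' : ℤ) :=
    Nat.isCoprime_iff_coprime.2 ((Nat.coprime_primes hℓ hℓ').2 hne)
  obtain ⟨a, b, hab⟩ := hcop
  have h3 : (1 : ℤ) ∈ w.asIdeal.under ℤ := by
    rw [← hab]
    exact Ideal.add_mem _ (Ideal.mul_mem_left _ _ h1) (Ideal.mul_mem_left _ _ h2)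
  rw [Ideal.under_def, Ideal.mem_comap, map_one] at h3
  exact w.isPrime.ne_top ((Ideal.eq_top_iff_one _).2 h3)

/-- Step lemma: if the inert prime `q1` (over `ℓ1`) is norm-like, so is every prime over a
rational prime `ℓ ≠ ℓ1`. -/
theorem s14_end_step (hARe : s14_stmt_AR_exists) (hARs : s14_stmt_AR_split) (hCR : s14_stmt_CR)
    (p : ℕ) [Fact p.Prime] (hp2 : p ≠ 2) (hcyc : IsCyclotomicExtension {p} ℚ K)
    (hdeg : Module.finrank K L = p) (hunr : s14_Unram K L)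
    (q1 : HeightOneSpectrum (𝓞 K)) (ℓ1 : ℕ) (hℓ1 : ℓ1.Prime) (hq1 : (ℓ1 : 𝓞 K) ∈ q1.asIdeal)
    (hq1ns : ¬ s14_Splits K L q1.asIdeal) (hNL1 : s14_end_NL K L p q1.asIdeal)
    (v : HeightOneSpectrum (𝓞 K)) (ℓ : ℕ) (hℓ : ℓ.Prime) (hv : (ℓ : 𝓞 K) ∈ v.asIdeal)
    (hne : ℓ ≠ ℓ1) : s14_end_NL K L p v.asIdeal := by
  have hp : p.Prime := Fact.out
  by_cases hsp : s14_Splits K L v.asIdeal
  · exact s14_end_NL_split v hsp
  have hcard : Nat.card (L ≃ₐ[K] L) = p := by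
    rw [IsGalois.card_aut_eq_finrank, hdeg]
  have hcomm : ∀ σ τ : L ≃ₐ[K] L, σ * τ = τ * σ := by
    have := isCyclic_of_prime_card hcard
    intro σ τ
    exact IsCyclic.commGroup.mul_comm σ τ
  obtain ⟨σ1, hσ1⟩ := hARe K L hcomm q1
  obtain ⟨σ, hσ⟩ := hARe K L hcomm v
  have hσ1ne : σ1 ≠ 1 := s14_end_frob_ne_one hARs hunr q1 hq1ns hσ1
  have hσne : σ ≠ 1 := s14_end_frob_ne_one hARs hunr v hsp hσ
  obtain ⟨d, -, hd⟩ := s14_end_pow_of_ne_one hcard hσ1ne σ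
  haveI := hcyc
  haveI := v.isPrime
  haveI := q1.isPrime
  have h := hCR p hp2 K L hdeg hunr v.asIdeal q1.asIdeal v.ne_bot q1.ne_bot
    (s14_end_under_ne v q1 ℓ ℓ1 hℓ hℓ1 hne hv hq1) σ σ1 hσ hσ1 hσne hσ1ne
    1 d ((p - 1) * d) (by rw [pow_one, hd]) ⟨d, by
      have := hp.pos
      zify [this]; ring⟩
  rw [s14_end_NL_iff, pow_one] at h
  exact s14_end_NL_cancel hp.pos (pow_ne_zero _ q1.ne_bot) h (s14_end_NL_pow hNL1 _)

/-- Stickelberger step: the inert degree-one prime `q1` is norm-like. -/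
theorem s14_end_q1 (hST : s14_stmt_ST) (hARe : s14_stmt_AR_exists)
    (hARu : s14_stmt_AR_unique) (hARs : s14_stmt_AR_split) (hARc : s14_stmt_AR_conj)
    (hCR : s14_stmt_CR)
    (p : ℕ) [Fact p.Prime] (hp2 : p ≠ 2) (hcyc : IsCyclotomicExtension {p} ℚ K)
    (hdeg : Module.finrank K L = p) (hunr : s14_Unram K L) (hgalQ : IsGalois ℚ L)
    (hact : ∀ (δ : L ≃ₐ[ℚ] L) (g : L ≃ₐ[K] L) (k : ℕ) (ζ : K), IsPrimitiveRoot ζ p →
      δ (algebraMap K L (ζ ^ k)) = algebraMap K L ζ →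
      ∀ x : L, δ (g (δ.symm x)) = (g ^ k) x)
    (q0 : HeightOneSpectrum (𝓞 K)) (ℓ0 : ℕ) (hℓ0 : ℓ0.Prime) (hℓ0p : ℓ0 ≠ p)
    (hq0N : Ideal.absNorm q0.asIdeal = ℓ0)
    (hq0ns : ¬ s14_Splits K L q0.asIdeal)
    (q1 : HeightOneSpectrum (𝓞 K)) (ℓ1 : ℕ) (hℓ1 : ℓ1.Prime) (hq1 : (ℓ1 : 𝓞 K) ∈ q1.asIdeal)
    (hq1ns : ¬ s14_Splits K L q1.asIdeal) (hne : ℓ0 ≠ ℓ1) :
    s14_end_NL K L p q1.asIdeal := by
  classical
  have hp : p.Prime := Fact.out
  have hq0 : (ℓ0 : 𝓞 K) ∈ q0.asIdeal := hq0N ▸ Ideal.absNorm_mem q0.asIdeal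
  have hcard : Nat.card (L ≃ₐ[K] L) = p := by
    rw [IsGalois.card_aut_eq_finrank, hdeg]
  have hcomm : ∀ σ τ : L ≃ₐ[K] L, σ * τ = τ * σ := by
    have := isCyclic_of_prime_card hcard
    intro σ τ
    exact IsCyclic.commGroup.mul_comm σ τ
  obtain ⟨σ1, hσ1⟩ := hARe K L hcomm q1
  obtain ⟨σ0, hσ0⟩ := hARe K L hcomm q0
  have hσ1ne : σ1 ≠ 1 := s14_end_frob_ne_one hARs hunr q1 hq1ns hσ1
  have hσ0ne : σ0 ≠ 1 := s14_end_frob_ne_one hARs hunr q0 hq0ns hσ0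
  obtain ⟨d0, -, hd0⟩ := s14_end_pow_of_ne_one hcard hσ1ne σ0
  have hd0p : ¬ p ∣ d0 := by
    intro h
    apply hσ0ne
    rw [hd0]
    exact (s14_end_pow_eq_one_iff hcard hσ1ne d0).2 h
  -- the automorphisms τ c = σ_c⁻¹
  obtain ⟨τ, hτ⟩ := s14_end_exists_tau (K := K) p hcyc
  have hτ' : ∀ c ∈ Stickelberger.exponentSet p, ∀ ζ : K, ζ ^ p = 1 → τ c (ζ ^ c) = ζ := by
    intro c hc ζ hζ
    rw [Stickelberger.mem_exponentSet] at hc
    exact hτ c hc.1 (by omega) ζ hζ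
  -- Stickelberger
  have hprinc := hST K p hp2 hcyc q0 ℓ0 hℓ0 hℓ0p hq0N τ hτ'
  -- a primitive root
  have : NeZero p := ⟨hp.ne_zero⟩
  have hζ₀ : IsPrimitiveRoot (IsCyclotomicExtension.zeta p ℚ K) p :=
    IsCyclotomicExtension.zeta_spec p ℚ K
  have : IsGalois ℚ K := IsCyclotomicExtension.isGalois {p} ℚ K
  -- each conjugate
  have hconj : ∀ c ∈ Stickelberger.exponentSet p,
      s14_end_NL K L p ((τ c • q0.asIdeal) * q1.asIdeal ^ ((p - 1) * (d0 * c))) := by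
    intro c hc
    have hc' := hc
    rw [Stickelberger.mem_exponentSet] at hc'
    have hδ' : ∀ x : K, (τ c).liftNormal L (algebraMap K L x) = algebraMap K L (τ c x) :=
      fun x => AlgEquiv.liftNormal_commutes (τ c) L x
    generalize (τ c).liftNormal L = δ at hδ'
    have hact' := hact δ σ0 c _ hζ₀ (by rw [hδ', hτ' c hc _ hζ₀.pow_eq_one])
    have hfrob : s14_IsFrob K L (τ c • q0.asIdeal) (σ0 ^ c) :=
      hARc K L q0.asIdeal σ0 (σ0 ^ c) δ (τ c) hδ' (fun x => (hact' x).symm) hσ0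
    have hbot : τ c • q0.asIdeal ≠ ⊥ := by
      intro h
      apply q0.ne_bot
      have := congrArg (fun I => (τ c)⁻¹ • I) h
      simpa using this
    let vc : HeightOneSpectrum (𝓞 K) := ⟨τ c • q0.asIdeal, inferInstance, hbot⟩
    have hvcℓ : (ℓ0 : 𝓞 K) ∈ vc.asIdeal := by
      have h1 := Ideal.smul_mem_pointwise_smul (τ c) (ℓ0 : 𝓞 K) q0.asIdeal hq0
      have h2 : τ c • (ℓ0 : 𝓞 K) = (ℓ0 : 𝓞 K) :=
        map_natCast (MulSemiringAction.toRingHom (K ≃ₐ[ℚ] K) (𝓞 K) (τ c)) ℓ0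
      rw [h2] at h1
      exact h1
    have hσ0c : σ0 ^ c ≠ 1 := by
      rw [hd0, ← pow_mul, Ne, s14_end_pow_eq_one_iff hcard hσ1ne]
      intro h
      rcases (Nat.Prime.dvd_mul hp).1 h with h | h
      · exact hd0p h
      · exact absurd (Nat.le_of_dvd hc'.1 h) (by omega)
    haveI := hcyc
    haveI := vc.isPrime
    haveI := q1.isPrime
    have h := hCR p hp2 K L hdeg hunr vc.asIdeal q1.asIdeal vc.ne_bot q1.ne_bot
      (s14_end_under_ne vc q1 ℓ0 ℓ1 hℓ0 hℓ1 hne hvcℓ hq1)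
      (σ0 ^ c) σ1 hfrob hσ1 hσ0c hσ1ne 1 (d0 * c) ((p - 1) * (d0 * c))
      (by rw [pow_one, hd0, ← pow_mul]) ⟨d0 * c, by
        have := hp.pos
        zify [this]; ring⟩
    rw [s14_end_NL_iff, pow_one] at h
    exact h
  clear hARu
  have hprod := s14_end_NL_prod (L := L) (p := p) (Stickelberger.exponentSet p)
    (fun c => (τ c • q0.asIdeal) * q1.asIdeal ^ ((p - 1) * (d0 * c))) hconj
  rw [Finset.prod_mul_distrib, Finset.prod_pow_eq_pow_sum] at hprod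
  -- the Stickelberger product is principal and nonzero
  have hPne : (∏ c ∈ Stickelberger.exponentSet p, τ c • q0.asIdeal) ≠ ⊥ := by
    rw [← Ideal.zero_eq_bot, Finset.prod_ne_zero_iff]
    intro c _ h
    apply q0.ne_bot
    have := congrArg (fun I => (τ c)⁻¹ • I) h
    simpa using this
  obtain ⟨J, hJ⟩ := hprinc.principal
  have hJ' : (∏ c ∈ Stickelberger.exponentSet p, τ c • q0.asIdeal) = Ideal.span {J} := hJ
  have hJ0 : J ≠ 0 := by
    rintro rfl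
    apply hPne
    rw [hJ']
    simp
  have hNLP : s14_end_NL K L p (∏ c ∈ Stickelberger.exponentSet p, τ c • q0.asIdeal) := by
    rw [hJ']; exact s14_end_NL_principal hJ0
  rw [mul_comm] at hprod
  have hE := s14_end_NL_cancel hp.pos hPne hprod hNLP
  -- the exponent is prime to p
  set E := ∑ c ∈ Stickelberger.exponentSet p, (p - 1) * (d0 * c) with hEdef
  have hEeq : E = (p - 1) * d0 * ∑ c ∈ Stickelberger.exponentSet p, c := by
    rw [hEdef, Finset.mul_sum]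
    exact Finset.sum_congr rfl (fun c _ => by ring)
  have hEp : ¬ p ∣ E := by
    rw [hEeq]
    intro h
    rcases (Nat.Prime.dvd_mul hp).1 h with h | h
    · rcases (Nat.Prime.dvd_mul hp).1 h with h | h
      · have := hp.two_le
        exact absurd (Nat.le_of_dvd (by omega) h) (by omega)
      · exact hd0p h
    · exact s14_end_sum_exponentSet p hp hp2 h
  have hcop : Nat.Coprime E p := ((Nat.Prime.coprime_iff_not_dvd hp).2 hEp).symm
  obtain ⟨u, -, hu⟩ := Nat.exists_mul_mod_eq_one_of_coprime hcop hp.one_lt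
  have hu' : E * u = 1 + p * (E * u / p) := by
    have := Nat.div_add_mod (E * u) p
    omega
  have h1 := s14_end_NL_pow hE u
  rw [← pow_mul, hu', pow_add, pow_one, pow_mul', ← pow_mul] at h1
  refine s14_end_NL_cancel hp.pos ?_ h1 ?_
  · exact pow_ne_zero _ q1.ne_bot
  · rw [pow_mul]
    exact s14_end_NL_pow_p (pow_ne_zero _ q1.ne_bot)

end

/-- **END**: the number-field core statement follows from the interface statements. -/
theorem s14_end_core (hZ : s14_stmt_Z) (hST : s14_stmt_ST) (hARe : s14_stmt_AR_exists)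
    (hARu : s14_stmt_AR_unique) (hARs : s14_stmt_AR_split) (hARc : s14_stmt_AR_conj)
    (hFI : s14_stmt_FI) (hCR : s14_stmt_CR) : s14_stmt_CORE := by
  intro K L _ _ _ _ _ _ p _ hp2 hcyc hdeg hunr hgalQ hact
  have hp : p.Prime := Fact.out
  obtain ⟨q0, ℓ0, hℓ0, hℓ0T, hq0N, -, hq0ns⟩ := hZ K L p hp hdeg {p}
  obtain ⟨q1, ℓ1, hℓ1, hℓ1T, hq1N, -, hq1ns⟩ := hZ K L p hp hdeg {p, ℓ0}
  have hℓ0p : ℓ0 ≠ p := by simpa using hℓ0T
  have hne : ℓ0 ≠ ℓ1 := by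
    intro h
    apply hℓ1T
    simp [h]
  have hq0 : (ℓ0 : 𝓞 K) ∈ q0.asIdeal := hq0N ▸ Ideal.absNorm_mem q0.asIdeal
  have hq1 : (ℓ1 : 𝓞 K) ∈ q1.asIdeal := hq1N ▸ Ideal.absNorm_mem q1.asIdeal
  have hNL1 : s14_end_NL K L p q1.asIdeal :=
    s14_end_q1 hST hARe hARu hARs hARc hCR p hp2 hcyc hdeg hunr hgalQ hact q0 ℓ0 hℓ0 hℓ0p hq0N
      hq0ns q1 ℓ1 hℓ1 hq1 hq1ns hne
  have hNL0 : s14_end_NL K L p q0.asIdeal :=
    s14_end_step hARe hARs hCR p hp2 hcyc hdeg hunr q1 ℓ1 hℓ1 hq1 hq1ns hNL1 q0 ℓ0 hℓ0 hq0 hne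
  have hall : ∀ v : HeightOneSpectrum (𝓞 K), s14_end_NL K L p v.asIdeal := by
    intro v
    obtain ⟨ℓ, hℓ, hv⟩ := s14_end_exists_prime_mem v
    by_cases h : ℓ = ℓ1
    · subst h
      exact s14_end_step hARe hARs hCR p hp2 hcyc hdeg hunr q0 ℓ0 hℓ0 hq0 hq0ns hNL0 v ℓ hℓ hv
        (Ne.symm hne)
    · exact s14_end_step hARe hARs hCR p hp2 hcyc hdeg hunr q1 ℓ1 hℓ1 hq1 hq1ns hNL1 v ℓ hℓ hv h
  have hideal : ∀ a : Ideal (𝓞 K), a ≠ ⊥ → s14_end_NL K L p a := by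
    intro a
    induction a using UniqueFactorizationMonoid.induction_on_prime with
    | h₁ => intro h; exact absurd rfl h
    | h₂ u hu =>
      intro _
      rw [Ideal.isUnit_iff] at hu
      rw [hu]
      exact s14_end_NL_one
    | h₃ a q ha hq ih =>
      intro _
      have hq' : q.IsPrime := Ideal.isPrime_of_prime hq
      have hq0 : q ≠ ⊥ := hq.ne_zero
      exact s14_end_NL_mul (hall ⟨q, hq', hq0⟩) (ih ha)
  have hζ : ∃ ζ : K, IsPrimitiveRoot ζ p := by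
    have : NeZero p := ⟨hp.ne_zero⟩
    exact ⟨IsCyclotomicExtension.zeta p ℚ K, IsCyclotomicExtension.zeta_spec p ℚ K⟩
  obtain ⟨a, ha0, -, hnot⟩ := hFI K L p hp hp2 hdeg hζ ∅ (by simp)
    (fun v _ => s14_end_unramAt hunr v)
  exact hnot ((s14_end_NL_iff K L p a).2 (hideal a ha0))

end Fermat.Agent.S14
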