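import Mathlib
import Fermat.Prelude.Def_ExtCitation_AdmissibleExtension_v2
import Fermat.Prelude.Def_ExtCitation_KummerBridge

/-!
# S14 — END side (OWNER: helper4, architect)

`ExtVanishingCts p` is reduced to the non-existence of a purely group-theoretic object
(`s14_e_Obstruction p`): an open normal subgroup `H` of `G_ℚ`, of index `p` in the kernel `G_K`
of the mod-`p` cyclotomic character, containing all inertia groups at the primes `ℓ ≠ p` and
the groups `D_A ∩ G_K` for the valuation subrings `A` over `p`, such that `G_ℚ` acts on `G_K / H`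
by conjugation through the INVERSE of the cyclotomic character.

In field terms: `L := ℚ̄^H` is a cyclic extension of degree `p` of `K = ℚ(ζ_p)`, unramified
everywhere, in which the prime above `p` splits completely, Galois over `ℚ`, with
`Gal(K/ℚ)` acting on `Gal(L/K)` through `ω⁻¹`.
-/

set_option autoImplicit false
set_option linter.unusedSectionVars false
set_option linter.style.haveILetI false

namespace Fermat.Agent.S14

open ExtCitation

/-- the absolute Galois group of `ℚ`. -/
abbrev s14_GQ : Type := AlgebraicClosure ℚ ≃ₐ[ℚ] AlgebraicClosure ℚ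

/-- The group-theoretic obstruction to `ExtVanishingCts p`. -/
def s14_e_Obstruction (p : ℕ) [Fact p.Prime] : Prop :=
  ∃ H : Subgroup s14_GQ,
    H.Normal ∧ IsOpen (H : Set s14_GQ) ∧ H ≤ (cycloChar p).ker ∧
    H.relIndex (cycloChar p).ker = p ∧
    (∀ ℓ : ℕ, ℓ.Prime → ℓ ≠ p → ∀ A : ValuationSubring (AlgebraicClosure ℚ),
      A.LiesOverPrime ℓ → A.inertiaSubgroupIn ℚ ≤ H) ∧
    (∀ A : ValuationSubring (AlgebraicClosure ℚ), A.LiesOverPrime p →
      ∀ σ ∈ A.decompositionSubgroup ℚ, σ ∈ (cycloChar p).ker → σ ∈ H) ∧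
    (∀ (g σ : s14_GQ), σ ∈ (cycloChar p).ker → ∀ k : ℕ,
      (k : ZMod p) = (((cycloChar p g)⁻¹ : (ZMod p)ˣ) : ZMod p) →
        g * σ * g⁻¹ * (σ ^ k)⁻¹ ∈ H)

section

variable {p : ℕ} [Fact p.Prime]
variable {V : Type} [AddCommGroup V] [Module (ZMod p) V]
  [DistribMulAction s14_GQ V] [SMulCommClass s14_GQ (ZMod p) V]
variable {C : Submodule (ZMod p) V}

/-- the kernel of the action on `V`. -/
def s14_e_kernel (V : Type) [AddCommGroup V] [DistribMulAction s14_GQ V] : Subgroup s14_GQ where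
  carrier := {σ | ∀ v : V, σ • v = v}
  one_mem' := fun v => one_smul _ v
  mul_mem' := by
    intro σ τ hσ hτ v
    show (σ * τ) • v = v
    rw [mul_smul, hτ v, hσ v]
  inv_mem' := by
    intro σ hσ v
    show σ⁻¹ • v = v
    conv_lhs => rw [← hσ v]
    rw [inv_smul_smul]

lemma s14_e_mem_kernel {σ : s14_GQ} : σ ∈ s14_e_kernel V ↔ ∀ v : V, σ • v = v := Iff.rfl

lemma s14_e_kernel_normal : (s14_e_kernel V).Normal := by
  refine ⟨fun σ hσ g v => ?_⟩
  show (g * σ * g⁻¹) • v = v
  rw [mul_smul, mul_smul, hσ, smul_inv_smul]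

/-- elements of `G_K` move every vector by an element of `C`. -/
lemma s14_e_sub_mem (hadm : IsAdmissibleExtension p V C) {σ : s14_GQ}
    (hσ : σ ∈ (cycloChar p).ker) (x : V) : σ • x - x ∈ C := by
  have h := hadm.cyclo_quot σ x
  rw [← coe_cycloChar, MonoidHom.mem_ker.1 hσ, Units.val_one, one_smul] at h
  exact h

/-- general form: `σ x - χ(σ) x ∈ C`. -/
lemma s14_e_sub_mem' (hadm : IsAdmissibleExtension p V C) (σ : s14_GQ) (x : V) :
    σ • x - ((cycloChar p σ : (ZMod p)ˣ) : ZMod p) • x ∈ C := by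
  have h := hadm.cyclo_quot σ x
  rwa [← coe_cycloChar] at h

lemma s14_e_exists_not_mem (hadm : IsAdmissibleExtension p V C) : ∃ x : V, x ∉ C := by
  by_contra h
  push Not at h
  have htop : C = ⊤ := eq_top_iff.2 fun x _ => h x
  have h1 := hadm.card_sub
  have h2 := hadm.card_total
  rw [htop] at h1
  have h3 : Nat.card (⊤ : Submodule (ZMod p) V) = Nat.card V :=
    Nat.card_congr (Submodule.topEquiv (R := ZMod p) (M := V)).toEquiv
  rw [h3, h2] at h1
  have hp : 1 < p := (Fact.out : p.Prime).one_lt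
  have : p ^ 2 = p * p := sq p
  rw [this] at h1
  have : p * p = p * 1 := by rw [h1, mul_one]
  have := Nat.eq_of_mul_eq_mul_left (by omega) this
  omega


/-- `H₀ ≤ G_K`. -/
lemma s14_e_kernel_le (hadm : IsAdmissibleExtension p V C) :
    s14_e_kernel V ≤ (cycloChar p).ker := by
  intro σ hσ
  rw [MonoidHom.mem_ker]
  obtain ⟨x, hx⟩ := s14_e_exists_not_mem hadm
  by_contra hne
  have h := s14_e_sub_mem' hadm σ x
  rw [hσ x] at h
  have hne' : (1 : ZMod p) - ((cycloChar p σ : (ZMod p)ˣ) : ZMod p) ≠ 0 := by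
    intro h0
    apply hne
    apply Units.ext
    rw [Units.val_one]
    exact (sub_eq_zero.1 h0).symm
  have h' : ((1 : ZMod p) - ((cycloChar p σ : (ZMod p)ˣ) : ZMod p)) • x ∈ C := by
    rw [sub_smul, one_smul]
    exact h
  have := C.smul_mem ((1 : ZMod p) - ((cycloChar p σ : (ZMod p)ˣ) : ZMod p))⁻¹ h'
  rw [smul_smul, inv_mul_cancel₀ hne', one_smul] at this
  exact hx this

/-- `V = C + 𝔽_p x₀` for every `x₀ ∉ C`. -/
lemma s14_e_decomp (hadm : IsAdmissibleExtension p V C) {x₀ : V} (hx₀ : x₀ ∉ C) (v : V) :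
    ∃ c ∈ C, ∃ t : ZMod p, v = c + t • x₀ := by
  classical
  haveI : Finite V := by
    apply Nat.finite_of_card_ne_zero
    rw [hadm.card_total]
    exact pow_ne_zero _ (Fact.out : p.Prime).ne_zero
  haveI : Fintype V := Fintype.ofFinite V
  -- the map `C × 𝔽_p → V` is injective, hence surjective by counting
  let f : C × ZMod p → V := fun ct => (ct.1 : V) + ct.2 • x₀
  have hinj : Function.Injective f := by
    rintro ⟨c, t⟩ ⟨c', t'⟩ h
    simp only [f] at h
    have h1 : (t - t') • x₀ = (c' : V) - c := by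
      rw [sub_smul]
      have : t • x₀ = (c' : V) + t' • x₀ - c := by rw [← h]; abel
      rw [this]; abel
    have ht : t - t' = 0 := by
      by_contra hne
      have hmem : (t - t') • x₀ ∈ C := by
        rw [h1]; exact C.sub_mem c'.2 c.2
      have := C.smul_mem (t - t')⁻¹ hmem
      rw [smul_smul, inv_mul_cancel₀ hne, one_smul] at this
      exact hx₀ this
    have ht' : t = t' := sub_eq_zero.1 ht
    subst ht'
    have hc : (c : V) = c' := by
      have := h
      exact add_right_cancel this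
    exact Prod.ext (Subtype.ext hc) rfl
  have hcard : Nat.card (C × ZMod p) = Nat.card V := by
    rw [Nat.card_prod, hadm.card_sub, Nat.card_zmod, hadm.card_total, sq]
  haveI : Finite (C × ZMod p) := by
    apply Nat.finite_of_card_ne_zero
    rw [hcard, hadm.card_total]
    exact pow_ne_zero _ (Fact.out : p.Prime).ne_zero
  have hbij : Function.Bijective f :=
    (Nat.bijective_iff_injective_and_card f).2 ⟨hinj, hcard⟩
  obtain ⟨⟨c, t⟩, hct⟩ := hbij.2 v
  exact ⟨c, c.2, t, hct.symm⟩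

/-- an element of `G_K` fixing some `x₀ ∉ C` acts trivially on `V`. -/
lemma s14_e_mem_kernel_of_fix (hadm : IsAdmissibleExtension p V C) {x₀ : V} (hx₀ : x₀ ∉ C)
    {σ : s14_GQ} (hσ : σ • x₀ = x₀) : σ ∈ s14_e_kernel V := by
  intro v
  obtain ⟨c, hc, t, rfl⟩ := s14_e_decomp hadm hx₀ v
  rw [smul_add, hadm.fixed_sub σ c hc, smul_comm, hσ]


/-- the displacement map `σ ↦ σ x₀ - x₀` on `G_K`, with values in `C`. -/
noncomputable def s14_e_phi (hadm : IsAdmissibleExtension p V C) (x₀ : V) :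
    (cycloChar p).ker →* Multiplicative C where
  toFun σ := Multiplicative.ofAdd ⟨(σ : s14_GQ) • x₀ - x₀, s14_e_sub_mem hadm σ.2 x₀⟩
  map_one' := by
    apply Multiplicative.toAdd.injective
    apply Subtype.ext
    show ((1 : (cycloChar p).ker) : s14_GQ) • x₀ - x₀ = 0
    rw [Subgroup.coe_one, one_smul, sub_self]
  map_mul' := by
    intro σ τ
    apply Multiplicative.toAdd.injective
    apply Subtype.ext
    show ((σ * τ : (cycloChar p).ker) : s14_GQ) • x₀ - x₀
      = ((σ : s14_GQ) • x₀ - x₀) + ((τ : s14_GQ) • x₀ - x₀)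
    rw [Subgroup.coe_mul, mul_smul]
    have h1 : (σ : s14_GQ) • ((τ : s14_GQ) • x₀ - x₀) = (τ : s14_GQ) • x₀ - x₀ :=
      hadm.fixed_sub σ _ (s14_e_sub_mem hadm τ.2 x₀)
    rw [smul_sub] at h1
    have : (σ : s14_GQ) • (τ : s14_GQ) • x₀ =
        (σ : s14_GQ) • x₀ + ((τ : s14_GQ) • x₀ - x₀) := by
      rw [← h1]; abel
    rw [this]; abel

lemma s14_e_phi_apply (hadm : IsAdmissibleExtension p V C) (x₀ : V) (σ : (cycloChar p).ker) :
    ((Multiplicative.toAdd (s14_e_phi hadm x₀ σ) : C) : V) = (σ : s14_GQ) • x₀ - x₀ := rfl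

lemma s14_e_phi_ker (hadm : IsAdmissibleExtension p V C) {x₀ : V} (hx₀ : x₀ ∉ C) :
    (s14_e_phi hadm x₀).ker = (s14_e_kernel V).subgroupOf (cycloChar p).ker := by
  ext σ
  rw [MonoidHom.mem_ker, Subgroup.mem_subgroupOf]
  constructor
  · intro h
    apply s14_e_mem_kernel_of_fix hadm hx₀
    have := congrArg (fun c : Multiplicative C => ((Multiplicative.toAdd c : C) : V)) h
    simp only [s14_e_phi_apply] at this
    exact sub_eq_zero.1 this
  · intro h
    apply Multiplicative.toAdd.injective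
    apply Subtype.ext
    show (σ : s14_GQ) • x₀ - x₀ = 0
    rw [h x₀, sub_self]

/-- if some element of `G_K` acts nontrivially, then `[G_K : H₀] = p`. -/
lemma s14_e_relIndex (hadm : IsAdmissibleExtension p V C)
    (hnt : ∃ σ ∈ (cycloChar p).ker, σ ∉ s14_e_kernel V) :
    (s14_e_kernel V).relIndex (cycloChar p).ker = p := by
  obtain ⟨x₀, hx₀⟩ := s14_e_exists_not_mem hadm
  rw [Subgroup.relIndex, ← s14_e_phi_ker hadm hx₀, Subgroup.index_ker]
  -- the range is a nontrivial subgroup of a group of order `p`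
  have hcard : Nat.card (Multiplicative C) = p := hadm.card_sub
  have hdvd : Nat.card (s14_e_phi hadm x₀).range ∣ p := by
    have := Subgroup.card_subgroup_dvd_card (s14_e_phi hadm x₀).range
    rwa [hcard] at this
  rcases (Nat.dvd_prime (Fact.out : p.Prime)).1 hdvd with h1 | hp
  · exfalso
    obtain ⟨σ, hσ, hσn⟩ := hnt
    apply hσn
    have hbot : (s14_e_phi hadm x₀).range = ⊥ := Subgroup.card_eq_one.1 h1
    have hker : (⟨σ, hσ⟩ : (cycloChar p).ker) ∈ (s14_e_phi hadm x₀).ker := by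
      rw [MonoidHom.mem_ker]
      have : s14_e_phi hadm x₀ ⟨σ, hσ⟩ ∈ (s14_e_phi hadm x₀).range := ⟨_, rfl⟩
      rw [hbot] at this
      exact Subgroup.mem_bot.1 this
    rw [s14_e_phi_ker hadm hx₀, Subgroup.mem_subgroupOf] at hker
    exact hker
  · exact hp


/-- the displacement of a power. -/
lemma s14_e_pow_sub (hadm : IsAdmissibleExtension p V C) {σ : s14_GQ}
    (hσ : σ ∈ (cycloChar p).ker) (x : V) (k : ℕ) :
    (σ ^ k) • x - x = k • (σ • x - x) := by
  induction k with
  | zero => rw [pow_zero, one_smul, sub_self, zero_smul]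
  | succ n ih =>
    have hd : σ • x - x ∈ C := s14_e_sub_mem hadm hσ x
    have h1 : (σ ^ n) • (σ • x - x) = σ • x - x := hadm.fixed_sub _ _ hd
    have h2 : (σ ^ (n + 1)) • x = (σ ^ n) • x + (σ • x - x) := by
      rw [pow_succ, mul_smul]
      rw [smul_sub] at h1
      have : (σ ^ n) • σ • x = (σ ^ n) • x + (σ • x - x) := by
        rw [← h1]; abel
      exact this
    rw [h2, succ_nsmul, ← ih]
    abel

/-- conjugation by `g` acts on `G_K / H₀` through `χ(g)⁻¹`. -/
lemma s14_e_conj (hadm : IsAdmissibleExtension p V C) (g σ : s14_GQ)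
    (hσ : σ ∈ (cycloChar p).ker) (k : ℕ)
    (hk : (k : ZMod p) = (((cycloChar p g)⁻¹ : (ZMod p)ˣ) : ZMod p)) :
    g * σ * g⁻¹ * (σ ^ k)⁻¹ ∈ s14_e_kernel V := by
  obtain ⟨x₀, hx₀⟩ := s14_e_exists_not_mem hadm
  have hN : ((cycloChar p).ker).Normal := MonoidHom.normal_ker _
  have hconj : g * σ * g⁻¹ ∈ (cycloChar p).ker := hN.conj_mem σ hσ g
  have hpow : σ ^ k ∈ (cycloChar p).ker := Subgroup.pow_mem _ hσ k
  -- the displacement of `g σ g⁻¹`
  have h1 : (g * σ * g⁻¹) • x₀ - x₀ = (k : ZMod p) • (σ • x₀ - x₀) := by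
    have hc' := s14_e_sub_mem' hadm g⁻¹ x₀
    obtain ⟨c', hc'C, hc'eq⟩ : ∃ c' ∈ C, g⁻¹ • x₀ =
        ((cycloChar p g⁻¹ : (ZMod p)ˣ) : ZMod p) • x₀ + c' :=
      ⟨_, hc', by abel⟩
    have hchi : ((cycloChar p g⁻¹ : (ZMod p)ˣ) : ZMod p) = (k : ZMod p) := by
      rw [hk, map_inv]
    rw [hchi] at hc'eq
    have h2 : σ • (g⁻¹ • x₀) - g⁻¹ • x₀ = (k : ZMod p) • (σ • x₀ - x₀) := by
      rw [hc'eq, smul_add, hadm.fixed_sub σ c' hc'C, smul_comm, smul_sub]
      abel
    have h3 : (k : ZMod p) • (σ • x₀ - x₀) ∈ C := C.smul_mem _ (s14_e_sub_mem hadm hσ x₀)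
    have h4 : σ • (g⁻¹ • x₀) = g⁻¹ • x₀ + (k : ZMod p) • (σ • x₀ - x₀) := by
      rw [← h2]; abel
    rw [mul_smul, mul_smul, h4, smul_add, smul_inv_smul, hadm.fixed_sub g _ h3]
    abel
  -- the displacement of `σ ^ k`
  have h5 : (σ ^ k) • x₀ - x₀ = (k : ZMod p) • (σ • x₀ - x₀) := by
    rw [Nat.cast_smul_eq_nsmul]
    exact s14_e_pow_sub hadm hσ x₀ k
  -- conclusion
  have hmem : (⟨g * σ * g⁻¹, hconj⟩ * (⟨σ ^ k, hpow⟩ : (cycloChar p).ker)⁻¹ :
      (cycloChar p).ker) ∈ (s14_e_phi hadm x₀).ker := by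
    rw [MonoidHom.mem_ker, map_mul, map_inv, mul_inv_eq_one]
    apply Multiplicative.toAdd.injective
    apply Subtype.ext
    show (g * σ * g⁻¹) • x₀ - x₀ = (σ ^ k) • x₀ - x₀
    rw [h1, h5]
  rw [s14_e_phi_ker hadm hx₀, Subgroup.mem_subgroupOf] at hmem
  exact hmem

/-- Case 1: if `G_K` acts trivially on `V`, then `C` has a stable complement. -/
lemma s14_e_splits_of_trivial (hadm : IsAdmissibleExtension p V C)
    (htriv : ∀ σ ∈ (cycloChar p).ker, σ ∈ s14_e_kernel V) : SplitsGlobally C := by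
  by_cases hχ : ∀ g : s14_GQ, cycloChar p g = 1
  · -- the whole group acts trivially
    obtain ⟨C', hC'⟩ := Submodule.exists_isCompl C
    refine ⟨C', fun σ x hx => ?_, hC'⟩
    rw [htriv σ (MonoidHom.mem_ker.2 (hχ σ)) x]
    exact hx
  · push Not at hχ
    obtain ⟨g₀, hg₀⟩ := hχ
    set u : ZMod p := ((cycloChar p g₀ : (ZMod p)ˣ) : ZMod p) with hu
    have hu1 : u - 1 ≠ 0 := by
      intro h0
      apply hg₀
      apply Units.ext
      rw [Units.val_one]
      exact sub_eq_zero.1 h0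
    -- the `u`-eigenspace of `g₀`
    let C' : Submodule (ZMod p) V :=
      { carrier := {x | g₀ • x = u • x}
        zero_mem' := by
          show g₀ • (0 : V) = u • (0 : V)
          rw [smul_zero, smul_zero]
        add_mem' := by
          intro x y hx hy
          show g₀ • (x + y) = u • (x + y)
          rw [smul_add, smul_add, hx, hy]
        smul_mem' := by
          intro c x hx
          show g₀ • (c • x) = u • (c • x)
          rw [smul_comm g₀ c x, hx, smul_comm] }
    have hC' : ∀ x, x ∈ C' ↔ g₀ • x = u • x := fun x => Iff.rfl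
    refine ⟨C', ?_, ?_⟩
    · -- stability
      intro τ x hx
      rw [hC'] at hx ⊢
      -- `τ⁻¹ g₀ τ g₀⁻¹ ∈ G_K` acts trivially
      have hcomm : τ⁻¹ * g₀ * τ * g₀⁻¹ ∈ (cycloChar p).ker := by
        rw [MonoidHom.mem_ker, map_mul, map_mul, map_mul, map_inv, map_inv]
        rw [mul_comm ((cycloChar p τ)⁻¹) (cycloChar p g₀), mul_assoc (cycloChar p g₀),
          inv_mul_cancel, mul_one, mul_inv_cancel]
      have hfix := htriv _ hcomm (g₀ • x)
      rw [mul_smul, inv_smul_smul, mul_smul, mul_smul] at hfix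
      -- `τ⁻¹ (g₀ (τ x)) = g₀ x`
      have h1 : g₀ • τ • x = τ • g₀ • x := by
        rw [← hfix, smul_inv_smul]
      rw [h1, hx, smul_comm]
    · -- complement
      rw [isCompl_iff]
      constructor
      · rw [Submodule.disjoint_def]
        intro x hxC hxC'
        rw [hC', hadm.fixed_sub g₀ x hxC] at hxC'
        have h0 : (u - 1) • x = 0 := by
          rw [sub_smul, one_smul, ← hxC', sub_self]
        have := congrArg (fun y => (u - 1)⁻¹ • y) h0
        simp only [smul_smul, inv_mul_cancel₀ hu1, one_smul, smul_zero] at this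
        exact this
      · rw [codisjoint_iff, eq_top_iff]
        intro x _
        -- `x = c + x'` with `c = -(u - 1)⁻¹ (g₀ x - u x)`
        have hc₀ : g₀ • x - u • x ∈ C := s14_e_sub_mem' hadm g₀ x
        set c₀ := g₀ • x - u • x with hc₀def
        have hx' : x + (u - 1)⁻¹ • c₀ ∈ C' := by
          rw [hC', smul_add, smul_comm g₀, hadm.fixed_sub g₀ c₀ hc₀, smul_add, smul_smul]
          have hg : g₀ • x = u • x + c₀ := by rw [hc₀def]; abel
          rw [hg]
          have hsc : (u * (u - 1)⁻¹) • c₀ = c₀ + (u - 1)⁻¹ • c₀ := by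
            have h3 : u * (u - 1)⁻¹ = 1 + (u - 1)⁻¹ := by
              field_simp
              ring
            rw [h3, add_smul, one_smul]
          rw [hsc]
          abel
        have hsum : x = -((u - 1)⁻¹ • c₀) + (x + (u - 1)⁻¹ • c₀) := by abel
        rw [hsum]
        exact Submodule.add_mem_sup (C.neg_mem (C.smul_mem _ hc₀)) hx'

/-- **END side of S14**: if the group-theoretic obstruction does not exist, then every
admissible extension splits. -/
theorem s14_e_extVanishingCts (p : ℕ) [Fact p.Prime] (hno : ¬ s14_e_Obstruction p) :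
    ExtVanishingCts p := by
  intro V _ _ _ _ C hadmC
  have hadm := hadmC.toIsAdmissibleExtension
  by_cases htriv : ∀ σ ∈ (cycloChar p).ker, σ ∈ s14_e_kernel V
  · exact s14_e_splits_of_trivial hadm htriv
  · exfalso
    push Not at htriv
    apply hno
    refine ⟨s14_e_kernel V, s14_e_kernel_normal, hadmC.open_kernel, s14_e_kernel_le hadm,
      s14_e_relIndex hadm htriv, ?_, ?_, ?_⟩
    · intro ℓ hℓ hℓp A hA σ hσ v
      exact hadm.unramified_outside ℓ hℓ hℓp A hA σ hσ v
    · intro A hA σ hσD hσK v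
      obtain ⟨C', hC'stab, hcompl⟩ := hadm.locally_split A hA
      -- `σ` acts trivially on `C` and on `C'`
      have hv : v ∈ C ⊔ C' := by rw [hcompl.sup_eq_top]; exact Submodule.mem_top
      obtain ⟨c, hc, c', hc', rfl⟩ := Submodule.mem_sup.1 hv
      have h1 : σ • c' - c' ∈ C := s14_e_sub_mem hadm hσK c'
      have h2 : σ • c' - c' ∈ C' := C'.sub_mem (hC'stab σ hσD c' hc') hc'
      have h3 : σ • c' - c' = 0 := by
        have := (Submodule.disjoint_def.1 hcompl.disjoint) _ h1 h2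
        exact this
      rw [smul_add, hadm.fixed_sub σ c hc, sub_eq_zero.1 h3]
    · intro g σ hσ k hk
      exact s14_e_conj hadm g σ hσ k hk

end

end Fermat.Agent.S14
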