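import Mathlib
import Fermat.Agent.S14.EndSide
import Fermat.Agent.S13.RamGlue

/-!
# S14 / (GAL), part 1: the number fields attached to the group-theoretic obstruction
(OWNER: helper8)

`Qb = AlgebraicClosure ℚ`, `GQ = Gal(Qb/ℚ)`.  For an open normal subgroup `H` of `GQ` we get the
finite Galois extension `L = Qb^H` of `ℚ`; if `H ≤ ker (cycloChar p)` then `ζ_p ∈ L`.
-/

set_option autoImplicit false
set_option linter.unusedSectionVars false
set_option linter.unusedVariables false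
set_option linter.style.haveILetI false
set_option linter.unnecessarySimpa false

namespace Fermat.Agent.S14

open scoped Pointwise
open NumberField ExtCitation
open Fermat.Agent.S54 (Qb GQ isGalois_Qb)

noncomputable section

section Cyclo

variable {p : ℕ} [Fact p.Prime]

/-- the defining property of the mod `p` cyclotomic character on `p`-th roots of unity. -/
theorem s14_gal_cyclo_spec (σ : GQ) {ζ : Qb} (hζ : ζ ^ p = 1) :
    σ ζ = ζ ^ ((cycloChar p σ : (ZMod p)ˣ) : ZMod p).val := by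
  haveI : NeZero p := ⟨(Fact.out : p.Prime).ne_zero⟩
  have hζ0 : ζ ≠ 0 := by
    rintro rfl
    rw [zero_pow (Fact.out : p.Prime).ne_zero] at hζ
    exact zero_ne_one hζ
  let t : Qbˣ := Units.mk0 ζ hζ0
  have ht : t ∈ rootsOfUnity p Qb := by
    rw [mem_rootsOfUnity]
    apply Units.ext
    simpa [t] using hζ
  have h := modularCyclotomicCharacter.spec Qb (card_rootsOfUnity_eq_self p)
    (σ : Qb ≃+* Qb) ht
  exact h

theorem s14_gal_exists_primitiveRoot (p : ℕ) [Fact p.Prime] : ∃ ζ : Qb, IsPrimitiveRoot ζ p := by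
  haveI : NeZero p := ⟨(Fact.out : p.Prime).ne_zero⟩
  haveI : NeZero (p : Qb) := ⟨Nat.cast_ne_zero.mpr (NeZero.ne p)⟩
  exact HasEnoughRootsOfUnity.exists_primitiveRoot Qb p

/-- `(cycloChar p σ : ZMod p) = c` as soon as `σ ζ = ζ ^ c` for ONE primitive `p`-th root. -/
theorem s14_gal_cyclo_eq {σ : GQ} {ζ : Qb} (hζ : IsPrimitiveRoot ζ p) {c : ℕ}
    (h : σ ζ = ζ ^ c) : ((cycloChar p σ : (ZMod p)ˣ) : ZMod p) = (c : ZMod p) := by
  haveI : NeZero p := ⟨(Fact.out : p.Prime).ne_zero⟩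
  have h1 := s14_gal_cyclo_spec σ hζ.pow_eq_one
  rw [h] at h1
  have hfin : IsOfFinOrder ζ := isOfFinOrder_iff_pow_eq_one.2
    ⟨p, (Fact.out : p.Prime).pos, hζ.pow_eq_one⟩
  have h2 := hfin.pow_eq_pow_iff_modEq.1 h1
  rw [← hζ.eq_orderOf] at h2
  have h3 := (ZMod.natCast_eq_natCast_iff _ _ _).2 h2
  rw [h3, ZMod.natCast_zmod_val]

/-- membership in the kernel of the cyclotomic character, tested on one primitive root. -/
theorem s14_gal_mem_ker_iff {σ : GQ} {ζ : Qb} (hζ : IsPrimitiveRoot ζ p) :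
    σ ∈ (cycloChar p).ker ↔ σ ζ = ζ := by
  haveI : NeZero p := ⟨(Fact.out : p.Prime).ne_zero⟩
  rw [MonoidHom.mem_ker]
  constructor
  · intro h
    have h1 := s14_gal_cyclo_spec σ hζ.pow_eq_one
    rw [h, Units.val_one, ZMod.val_one'' ?_, pow_one] at h1
    · exact h1
    · exact (Fact.out : p.Prime).ne_one
  · intro h
    have h1 := s14_gal_cyclo_eq (c := 1) hζ (by rw [h, pow_one])
    apply Units.ext
    rw [h1, Nat.cast_one, Units.val_one]

end Cyclo

section Field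

/-- an open normal subgroup of `GQ` is the fixing subgroup of a finite Galois extension. -/
theorem s14_gal_exists_L (H : Subgroup GQ) (hN : H.Normal) (hO : IsOpen (H : Set GQ)) :
    ∃ L : IntermediateField ℚ Qb, FiniteDimensional ℚ L ∧ IsGalois ℚ L ∧
      L.fixingSubgroup = H := by
  haveI := isGalois_Qb
  have hHclosed : IsClosed (H : Set GQ) := Subgroup.isClosed_of_isOpen H hO
  let Hc : ClosedSubgroup GQ := ⟨H, hHclosed⟩
  set L : IntermediateField ℚ Qb := IntermediateField.fixedField H with hL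
  have hfix : L.fixingSubgroup = H := InfiniteGalois.fixingSubgroup_fixedField Hc
  have hLopen : IsOpen L.fixingSubgroup.carrier := by
    rw [hfix]; exact hO
  have hLnormal : L.fixingSubgroup.Normal := by
    rw [hfix]; exact hN
  obtain ⟨h1, h2⟩ :=
    (InfiniteGalois.isOpen_and_normal_iff_finite_and_isGalois L).1 ⟨hLopen, hLnormal⟩
  exact ⟨L, h1, h2, hfix⟩

variable (L : IntermediateField ℚ Qb) [FiniteDimensional ℚ L] [IsGalois ℚ L]

/-- restriction `GQ → Gal(L/ℚ)`. -/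
def s14_gal_res : GQ →* (L ≃ₐ[ℚ] L) := AlgEquiv.restrictNormalHom L

theorem s14_gal_normal' : @Normal ℚ L _ _ L.algebra' :=
  (inferInstance : Normal ℚ L)

theorem s14_gal_res_apply (σ : GQ) (x : L) : ((s14_gal_res L σ x : L) : Qb) = σ (x : Qb) := by
  haveI := s14_gal_normal' L
  exact AlgEquiv.restrictNormalHom_apply L σ x

theorem s14_gal_res_surjective : Function.Surjective (s14_gal_res L) := by
  haveI : Normal ℚ Qb := (isGalois_Qb).to_normal
  exact AlgEquiv.restrictNormalHom_surjective Qb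

theorem s14_gal_res_ker : (s14_gal_res L).ker = L.fixingSubgroup := by
  haveI := s14_gal_normal' L
  exact IntermediateField.restrictNormalHom_ker L

variable {p : ℕ} [Fact p.Prime]

/-- the cyclotomic subfield `K = ℚ(ζ)` of `L`. -/
def s14_gal_K (z : L) : IntermediateField ℚ L := IntermediateField.adjoin ℚ {z}

theorem s14_gal_z_mem (z : L) : z ∈ s14_gal_K L z :=
  IntermediateField.mem_adjoin_simple_self ℚ z

theorem s14_gal_isCyclotomic {z : L} (hz : IsPrimitiveRoot z p) :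
    IsCyclotomicExtension {p} ℚ (s14_gal_K L z) := by
  haveI : NeZero p := ⟨(Fact.out : p.Prime).ne_zero⟩
  exact hz.intermediateField_adjoin_isCyclotomicExtension ℚ

/-- an automorphism of `L` fixing `z` fixes `K = ℚ(z)` pointwise. -/
theorem s14_gal_fix_K {z : L} {g : L ≃ₐ[ℚ] L} (hg : g z = z) (x : L)
    (hx : x ∈ s14_gal_K L z) : g x = x := by
  have hle : s14_gal_K L z ≤ IntermediateField.fixedField (Subgroup.zpowers g) := by
    rw [s14_gal_K, IntermediateField.adjoin_le_iff]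
    rintro y hy
    rw [Set.mem_singleton_iff] at hy
    subst hy
    rintro ⟨h, hh⟩
    obtain ⟨n, rfl⟩ := Subgroup.mem_zpowers_iff.1 hh
    show (g ^ n) y = y
    have : ∀ m : ℕ, (g ^ m) y = y := by
      intro m
      induction m with
      | zero => simp
      | succ k ih => rw [pow_succ, AlgEquiv.mul_apply, hg, ih]
    cases n with
    | ofNat m => simpa using this m
    | negSucc m =>
      rw [zpow_negSucc]
      have h1 := this (m + 1)
      rw [AlgEquiv.aut_inv]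
      exact (AlgEquiv.symm_apply_eq _).2 h1.symm
  have := hle hx
  exact this ⟨g, Subgroup.mem_zpowers g⟩

/-- the primitive root `ζ`, as an element of `L`. -/
theorem s14_gal_isPrimitiveRoot {ζ : Qb} (hζ : IsPrimitiveRoot ζ p) (hζL : ζ ∈ L) :
    IsPrimitiveRoot (⟨ζ, hζL⟩ : L) p :=
  IsPrimitiveRoot.of_map_of_injective (f := algebraMap L Qb) (by exact hζ)
    (algebraMap L Qb).injective

/-- `ζ ∈ L` when the fixing subgroup of `L` is inside the kernel of the cyclotomic character. -/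
theorem s14_gal_zeta_mem {ζ : Qb} (hζ : IsPrimitiveRoot ζ p)
    (hle : L.fixingSubgroup ≤ (cycloChar p).ker) : ζ ∈ L := by
  haveI := isGalois_Qb
  have h1 : ζ ∈ IntermediateField.fixedField L.fixingSubgroup := by
    rintro ⟨σ, hσ⟩
    exact (s14_gal_mem_ker_iff hζ).1 (hle hσ)
  rwa [InfiniteGalois.fixedField_fixingSubgroup] at h1

/-- the Galois group of `L/K` inside `Gal(L/ℚ)` is the image of the kernel of the cyclotomic
character. -/
theorem s14_gal_fixing_K {ζ : Qb} (hζ : IsPrimitiveRoot ζ p) (hζL : ζ ∈ L) :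
    (s14_gal_K L (⟨ζ, hζL⟩ : L)).fixingSubgroup = ((cycloChar p).ker).map (s14_gal_res L) := by
  ext g
  rw [IntermediateField.mem_fixingSubgroup_iff, Subgroup.mem_map]
  constructor
  · intro hg
    obtain ⟨σ, rfl⟩ := s14_gal_res_surjective L g
    refine ⟨σ, ?_, rfl⟩
    rw [s14_gal_mem_ker_iff hζ]
    have h1 := hg ⟨ζ, hζL⟩ (s14_gal_z_mem L _)
    have h2 := s14_gal_res_apply L σ ⟨ζ, hζL⟩
    rw [h1] at h2
    exact h2.symm
  · rintro ⟨σ, hσ, rfl⟩ x hx
    apply s14_gal_fix_K L (z := ⟨ζ, hζL⟩) _ x hx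
    apply Subtype.ext
    rw [s14_gal_res_apply]
    exact (s14_gal_mem_ker_iff hζ).1 hσ

/-- `[L : K] = [G_K : H]`. -/
theorem s14_gal_finrank {ζ : Qb} (hζ : IsPrimitiveRoot ζ p) (hζL : ζ ∈ L) :
    Module.finrank (s14_gal_K L (⟨ζ, hζL⟩ : L)) L
      = L.fixingSubgroup.relIndex (cycloChar p).ker := by
  rw [← IsGalois.card_fixingSubgroup_eq_finrank, s14_gal_fixing_K L hζ hζL,
    ← s14_gal_res_ker L]
  have h1 : (s14_gal_res L).ker = (⊥ : Subgroup (L ≃ₐ[ℚ] L)).comap (s14_gal_res L) :=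
    (MonoidHom.comap_bot _).symm
  rw [h1, Subgroup.relIndex_comap, Subgroup.relIndex_bot_left]

/-- powers of `g ∈ Gal(L/K)` computed in `Gal(L/ℚ)`. -/
theorem s14_gal_restrictScalars_pow {K : IntermediateField ℚ L} (g : L ≃ₐ[K] L) (c : ℕ) (x : L) :
    ((g.restrictScalars ℚ) ^ c) x = (g ^ c) x := by
  induction c generalizing x with
  | zero => rfl
  | succ k ih =>
    rw [pow_succ, pow_succ, AlgEquiv.mul_apply, AlgEquiv.mul_apply, ih]
    rfl

/-- **The action law**, concrete form: if `δ ∈ Gal(L/ℚ)` maps a primitive `p`-th root `z'` to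
`z' ^ c`, then `g ∘ δ = δ ∘ g ^ c` for every `g ∈ Gal(L/K)`. -/
theorem s14_gal_action
    (hact : ∀ (g σ : GQ), σ ∈ (cycloChar p).ker → ∀ k : ℕ,
      (k : ZMod p) = (((cycloChar p g)⁻¹ : (ZMod p)ˣ) : ZMod p) →
        g * σ * g⁻¹ * (σ ^ k)⁻¹ ∈ L.fixingSubgroup)
    {ζ : Qb} (hζ : IsPrimitiveRoot ζ p) (hζL : ζ ∈ L)
    {z' : L} (hz' : IsPrimitiveRoot z' p)
    (δ : L ≃ₐ[ℚ] L) (g : L ≃ₐ[s14_gal_K L (⟨ζ, hζL⟩ : L)] L) (c : ℕ)
    (hδ : δ z' = z' ^ c) (x : L) : g (δ x) = δ ((g ^ c) x) := by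
  obtain ⟨τ, rfl⟩ := s14_gal_res_surjective L δ
  obtain ⟨σ, hσ⟩ := s14_gal_res_surjective L (g.restrictScalars ℚ)
  have hσker : σ ∈ (cycloChar p).ker := by
    rw [s14_gal_mem_ker_iff hζ]
    have h2 := s14_gal_res_apply L σ ⟨ζ, hζL⟩
    rw [hσ] at h2
    rw [← h2]
    have h3 : g ⟨ζ, hζL⟩ = ⟨ζ, hζL⟩ :=
      g.commutes (⟨⟨ζ, hζL⟩, s14_gal_z_mem L _⟩ : s14_gal_K L (⟨ζ, hζL⟩ : L))
    show ((g ⟨ζ, hζL⟩ : L) : Qb) = ζ
    rw [h3]
  have hz'Qb : IsPrimitiveRoot (z' : Qb) p := hz'.map_of_injective (algebraMap L Qb).injective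
  have hτ : ((cycloChar p τ : (ZMod p)ˣ) : ZMod p) = (c : ZMod p) := by
    apply s14_gal_cyclo_eq hz'Qb
    rw [← s14_gal_res_apply, hδ]
    rfl
  have hk : (c : ZMod p) = (((cycloChar p τ⁻¹)⁻¹ : (ZMod p)ˣ) : ZMod p) := by
    rw [map_inv, inv_inv, hτ]
  have hmem := hact τ⁻¹ σ hσker c hk
  rw [← s14_gal_res_ker L, MonoidHom.mem_ker] at hmem
  simp only [map_mul, map_inv, map_pow, inv_inv] at hmem
  rw [hσ] at hmem
  -- `δ⁻¹ g δ = g ^ c`
  have h1 : (s14_gal_res L τ)⁻¹ * g.restrictScalars ℚ * s14_gal_res L τ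
      = (g.restrictScalars ℚ) ^ c := mul_inv_eq_one.1 hmem
  have h2 : g.restrictScalars ℚ * s14_gal_res L τ
      = s14_gal_res L τ * (g.restrictScalars ℚ) ^ c := by
    rw [← h1]
    group
  have h3 := congrArg (fun f : L ≃ₐ[ℚ] L => f x) h2
  simp only [AlgEquiv.mul_apply] at h3
  rw [s14_gal_restrictScalars_pow] at h3
  exact h3

/-- every automorphism of `L` maps a primitive `p`-th root to a power of itself. -/
theorem s14_gal_exists_pow {z : L} (hz : IsPrimitiveRoot z p) (γ : L ≃ₐ[ℚ] L) :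
    ∃ c : ℕ, γ z = z ^ c := by
  have h1 : (γ z) ^ p = 1 := by rw [← map_pow, hz.pow_eq_one, map_one]
  obtain ⟨i, _, hi⟩ := hz.eq_pow_of_pow_eq_one h1
  exact ⟨i, hi.symm⟩

/-- **`L/K` is unramified**, concrete form. -/
theorem s14_gal_unram
    (hin : ∀ ℓ : ℕ, ℓ.Prime → ℓ ≠ p → ∀ A : ValuationSubring Qb,
      A.LiesOverPrime ℓ → A.inertiaSubgroupIn ℚ ≤ L.fixingSubgroup)
    (hdec : ∀ A : ValuationSubring Qb, A.LiesOverPrime p →
      ∀ σ ∈ A.decompositionSubgroup ℚ, σ ∈ (cycloChar p).ker → σ ∈ L.fixingSubgroup)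
    {ζ : Qb} (hζ : IsPrimitiveRoot ζ p) (hζL : ζ ∈ L)
    (Q : Ideal (𝓞 L)) (hQ : Q.IsPrime) (hQ0 : Q ≠ ⊥) :
    Q.inertia (L ≃ₐ[s14_gal_K L (⟨ζ, hζL⟩ : L)] L) = ⊥ := by
  haveI : Algebra.IsAlgebraic ℚ Qb := AlgebraicClosure.isAlgebraic ℚ
  rw [Subgroup.eq_bot_iff_forall]
  intro g hg
  have hg' : ∀ x : 𝓞 L, g • x - x ∈ Q := hg
  -- the rational prime below `Q`
  have hu : (Q.under ℤ).IsPrime := inferInstance
  have hune : Q.under ℤ ≠ ⊥ := Ideal.under_ne_bot ℤ hQ0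
  obtain ⟨ℓ, hℓ, hQℓ⟩ := (Ideal.isPrime_int_iff.1 hu).resolve_left hune
  obtain ⟨A, hA⟩ := Fermat.Agent.S13.rg_exists_liesOverPrime ℓ hℓ
  have hPu : (Fermat.Agent.S13.rg_PK A L).under ℤ = Q.under ℤ := by
    rw [hQℓ]
    have hmax : (Ideal.span {(ℓ : ℤ)}).IsMaximal :=
      PrincipalIdealRing.isMaximal_of_irreducible (Nat.prime_iff_prime_int.mp hℓ).irreducible
    symm
    apply hmax.eq_of_le (Ideal.IsPrime.ne_top inferInstance)
    rw [Ideal.span_le, Set.singleton_subset_iff]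
    show algebraMap ℤ (𝓞 L) (ℓ : ℤ) ∈ Fermat.Agent.S13.rg_PK A L
    have := Fermat.Agent.S13.rg_natCast_mem_PK A L hA
    simpa using this
  obtain ⟨γ, hγ⟩ := Algebra.IsInvariant.exists_smul_of_under_eq ℤ (𝓞 L) (L ≃ₐ[ℚ] L)
    (Fermat.Agent.S13.rg_PK A L) Q hPu
  -- the conjugate of `g` lies in the inertia group of `P`
  have hh : γ⁻¹ * g.restrictScalars ℚ * γ ∈ (Fermat.Agent.S13.rg_PK A L).inertia (L ≃ₐ[ℚ] L) := by
    intro x
    have h2 := hg' (γ • x)
    rw [hγ, Ideal.mem_pointwise_smul_iff_inv_smul_mem] at h2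
    rw [smul_sub, inv_smul_smul] at h2
    rw [mul_smul, mul_smul]
    exact h2
  obtain ⟨σ, hσI, hσ⟩ := Fermat.Agent.S13.rg_inertia_lift A L _ hh
  have hgz : g ⟨ζ, hζL⟩ = ⟨ζ, hζL⟩ :=
    g.commutes (⟨⟨ζ, hζL⟩, s14_gal_z_mem L _⟩ : s14_gal_K L (⟨ζ, hζL⟩ : L))
  have hσH : σ ∈ L.fixingSubgroup := by
    by_cases hℓp : ℓ = p
    · subst hℓp
      apply hdec A hA σ (Fermat.Agent.S13.rg_inertia_le_decomposition A σ hσI)
      rw [s14_gal_mem_ker_iff hζ]
      have h3 := hσ ⟨ζ, hζL⟩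
      rw [h3]
      obtain ⟨c, hc⟩ := s14_gal_exists_pow L (s14_gal_isPrimitiveRoot L hζ hζL) γ
      have h4 : (γ⁻¹ * g.restrictScalars ℚ * γ) (⟨ζ, hζL⟩ : L) = ⟨ζ, hζL⟩ := by
        rw [AlgEquiv.mul_apply, AlgEquiv.mul_apply, hc]
        have h5 : (g.restrictScalars ℚ) ((⟨ζ, hζL⟩ : L) ^ c) = (⟨ζ, hζL⟩ : L) ^ c := by
          rw [map_pow]
          congr 1
        rw [h5, ← hc]
        show γ⁻¹ (γ _) = _
        rw [AlgEquiv.aut_inv, AlgEquiv.symm_apply_apply]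
      rw [h4]
    · exact hin ℓ hℓ hℓp A hA hσI
  have hh1 : γ⁻¹ * g.restrictScalars ℚ * γ = 1 := by
    apply AlgEquiv.ext
    intro x
    have h6 := (IntermediateField.mem_fixingSubgroup_iff L σ).1 hσH x x.2
    rw [hσ x] at h6
    exact Subtype.ext h6
  have hg1 : g.restrictScalars ℚ = 1 := by
    have : g.restrictScalars ℚ = γ * (γ⁻¹ * g.restrictScalars ℚ * γ) * γ⁻¹ := by group
    rw [this, hh1]
    group
  apply AlgEquiv.ext
  intro x
  exact congrArg (fun f : L ≃ₐ[ℚ] L => f x) hg1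

end Field

end

end Fermat.Agent.S14
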