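import Mathlib
import Fermat.Agent.S14.Defs
import Fermat.Agent.S14.EndSide
import Fermat.Agent.S14.GalFields

/-!
# S14 / (GAL): the group-theoretic obstruction gives number fields  (OWNER: helper8)

`s14_gal`: the number-field statement `s14_stmt_CORE` (no unramified Galois extension `L` of
degree `p` of `K = ℚ(ζ_p)`, Galois over `ℚ`, with `Gal(L/ℚ)` acting on `Gal(L/K)` through the
inverse cyclotomic character) excludes the group-theoretic obstruction `s14_e_Obstruction p`.
-/

set_option autoImplicit false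
set_option linter.unusedSectionVars false
set_option linter.unusedVariables false
set_option linter.style.haveILetI false

namespace Fermat.Agent.S14

open scoped Pointwise
open NumberField ExtCitation
open Fermat.Agent.S54 (Qb GQ isGalois_Qb)

/-- **(GAL)** -/
theorem s14_gal (p : ℕ) [Fact p.Prime] (hp2 : p ≠ 2) (hcore : s14_stmt_CORE) :
    ¬ s14_e_Obstruction p := by
  rintro ⟨H, hN, hO, hle, hidx, hin, hdec, hact⟩
  obtain ⟨L, hfin, hgal, hfix⟩ := s14_gal_exists_L H hN hO
  haveI := hfin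
  haveI := hgal
  subst hfix
  obtain ⟨ζ, hζ⟩ := s14_gal_exists_primitiveRoot p
  have hζL : ζ ∈ L := s14_gal_zeta_mem L hζ hle
  have hz := s14_gal_isPrimitiveRoot L hζ hζL
  refine hcore (s14_gal_K L (⟨ζ, hζL⟩ : L)) L p hp2 (s14_gal_isCyclotomic L hz) ?_ ?_
    inferInstance ?_
  · rw [s14_gal_finrank L hζ hζL, hidx]
  · intro Q hQ hQ0
    exact s14_gal_unram L hin hdec hζ hζL Q hQ hQ0
  · intro δ g k ζ' hζ' hδ x
    have hz' : IsPrimitiveRoot (algebraMap (s14_gal_K L (⟨ζ, hζL⟩ : L)) L ζ') p :=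
      hζ'.map_of_injective (algebraMap (s14_gal_K L (⟨ζ, hζL⟩ : L)) L).injective
    have hδ' : δ.symm (algebraMap (s14_gal_K L (⟨ζ, hζL⟩ : L)) L ζ')
        = (algebraMap (s14_gal_K L (⟨ζ, hζL⟩ : L)) L ζ') ^ k := by
      rw [AlgEquiv.symm_apply_eq, ← map_pow]
      exact hδ.symm
    have h1 := s14_gal_action L hact hζ hζL hz' δ.symm g k hδ' x
    rw [h1, AlgEquiv.apply_symm_apply]

end Fermat.Agent.S14
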