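import Mathlib

set_option autoImplicit false

/-!
# S14 (ST): Stickelberger via Jacobi sums, finite-field core

`F` a finite field with `p * k + 1` elements, `R` a commutative ring with a ring homomorphism
`π : R →+* F`, `z : R` a `p`-th root of unity whose image is a primitive `p`-th root of unity.
We construct the `p`-th power residue character `χ : MulChar F R` (`π (χ x) = x ^ k`) and
show that the Jacobi sums `J(χ^n, χ^n)` lie in the kernel of `π` as soon as
`0 < 2 * (n % p) < p`.
-/

namespace Fermat.Agent.S14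

open Finset

section FiniteFieldSum

variable {F : Type*} [Field F] [Fintype F]

/-- `∑ x, x ^ m * (1 - x) ^ m = 0` in a finite field with more than `2 m + 1` elements. -/
theorem s14_st_sum_pow_mul_one_sub_pow (m : ℕ) (hm : 2 * m < Fintype.card F - 1) :
    ∑ x : F, x ^ m * (1 - x) ^ m = 0 := by
  have h1 : ∀ x : F, x ^ m * (1 - x) ^ m =
      ∑ j ∈ range (m + 1), ((m.choose j : F) * (-1) ^ j) * x ^ (m + j) := by
    intro x
    rw [sub_eq_add_neg, add_comm (1 : F), add_pow, Finset.mul_sum]
    refine Finset.sum_congr rfl fun j _ => ?_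
    rw [one_pow, neg_pow, pow_add]
    ring
  simp_rw [h1]
  rw [Finset.sum_comm]
  refine Finset.sum_eq_zero fun j hj => ?_
  rw [← Finset.mul_sum,
    FiniteField.sum_pow_lt_card_sub_one F _ (by have := mem_range.mp hj; omega), mul_zero]

end FiniteFieldSum

section Character

variable {R : Type*} [CommRing R] {F : Type*} [Field F] [Fintype F] [DecidableEq F]

/-- Existence of the power residue character. -/
theorem s14_st_exists_char (π : R →+* F) (p k : ℕ) (hp : p.Prime)
    (hcard : Fintype.card F = p * k + 1) (z : R) (hz : z ^ p = 1)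
    (hπz : IsPrimitiveRoot (π z) p) :
    ∃ χ : MulChar F R, (∀ x : F, π (χ x) = x ^ k) ∧ (∀ x : F, x ≠ 0 → (χ x) ^ p = 1) := by
  classical
  haveI : NeZero p := ⟨hp.ne_zero⟩
  have hk : k ≠ 0 := by
    rintro rfl
    have := Fintype.one_lt_card (α := F)
    omega
  obtain ⟨g, hg⟩ := IsCyclic.exists_generator (α := Fˣ)
  have hgp : (((g : Fˣ) : F) ^ k) ^ p = 1 := by
    rw [← pow_mul, mul_comm]
    have := FiniteField.pow_card_sub_one_eq_one (g : F) (Units.ne_zero g)
    rwa [hcard, Nat.add_sub_cancel] at this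
  obtain ⟨i, -, hi⟩ := hπz.eq_pow_of_pow_eq_one hgp
  set u : Rˣ := Units.ofPowEqOne z p hz hp.ne_zero with hu
  have hu' : (u : R) = z := rfl
  have hup : u ^ p = 1 := by
    apply Units.ext
    rw [Units.val_pow_eq_pow_val, hu', hz, Units.val_one]
  have hcardU : Fintype.card Fˣ = p * k := by
    rw [Fintype.card_units, hcard, Nat.add_sub_cancel]
  have hζ₀ : u ^ i ∈ rootsOfUnity (Fintype.card Fˣ) R := by
    rw [mem_rootsOfUnity, hcardU, ← pow_mul, mul_comm i, mul_assoc, pow_mul, hup, one_pow]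
  refine ⟨MulChar.ofRootOfUnity hζ₀ hg, ?_, ?_⟩
  · intro x
    by_cases hx : x = 0
    · subst hx
      rw [MulChar.map_zero, map_zero, zero_pow hk]
    · obtain ⟨n, hn⟩ := (mem_powers_iff_mem_zpowers).mpr (hg (Units.mk0 x hx))
      have hxg : x = ((g : Fˣ) : F) ^ n := by
        have := congrArg (Units.val) hn
        simp only [Units.val_pow_eq_pow_val, Units.val_mk0] at this
        exact this.symm
      rw [hxg, map_pow, MulChar.ofRootOfUnity_spec, map_pow, Units.val_pow_eq_pow_val, map_pow,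
        hu', hi, ← pow_mul, ← pow_mul, mul_comm]
  · intro x hx
    obtain ⟨n, hn⟩ := (mem_powers_iff_mem_zpowers).mpr (hg (Units.mk0 x hx))
    have hxg : x = ((g : Fˣ) : F) ^ n := by
      have := congrArg (Units.val) hn
      simp only [Units.val_pow_eq_pow_val, Units.val_mk0] at this
      exact this.symm
    rw [hxg, map_pow, MulChar.ofRootOfUnity_spec, ← pow_mul, ← Units.val_pow_eq_pow_val,
      ← pow_mul, mul_comm, pow_mul, mul_comm, pow_mul, hup, one_pow, one_pow, Units.val_one]

variable (π : R →+* F) (p k : ℕ) (hcard : Fintype.card F = p * k + 1)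
  (χ : MulChar F R) (hχ : ∀ x : F, π (χ x) = x ^ k)

include hcard hχ in
/-- The reduction of `χ ^ n` is `x ↦ x ^ (k * (n % p))`. -/
theorem s14_st_map_pow_apply (hp : 0 < p) (n : ℕ) (hn : ¬ p ∣ n) (x : F) :
    π ((χ ^ n) x) = x ^ (k * (n % p)) := by
  have hk : k ≠ 0 := by
    rintro rfl
    have := Fintype.one_lt_card (α := F)
    omega
  have hn0 : n ≠ 0 := by rintro rfl; exact hn (dvd_zero p)
  have hnp : n % p ≠ 0 := fun h => hn (Nat.dvd_of_mod_eq_zero h)
  by_cases hx : x = 0
  · subst hx
    rw [MulChar.map_zero, map_zero, zero_pow (Nat.mul_ne_zero hk hnp)]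
  · rw [MulChar.pow_apply' χ hn0, map_pow, hχ, ← pow_mul]
    have hx1 : x ^ (p * k) = 1 := by
      have := FiniteField.pow_card_sub_one_eq_one x hx
      rwa [hcard, Nat.add_sub_cancel] at this
    conv_lhs => rw [← Nat.div_add_mod n p]
    rw [mul_add, pow_add, ← mul_assoc, mul_comm k p, pow_mul, hx1, one_pow, one_mul]

include hcard hχ in
/-- The Jacobi sum `J(χ^n, χ^n)` reduces to `0` when `0 < 2 (n % p) < p`. -/
theorem s14_st_jacobiSum_pow_map_eq_zero (hp : 0 < p) (n : ℕ) (hn : ¬ p ∣ n)
    (h2 : 2 * (n % p) < p) :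
    π (jacobiSum (χ ^ n) (χ ^ n)) = 0 := by
  have hk : k ≠ 0 := by
    rintro rfl
    have := Fintype.one_lt_card (α := F)
    omega
  rw [jacobiSum, map_sum]
  simp_rw [map_mul, s14_st_map_pow_apply π p k hcard χ hχ hp n hn]
  apply s14_st_sum_pow_mul_one_sub_pow
  rw [hcard, Nat.add_sub_cancel]
  calc 2 * (k * (n % p)) = k * (2 * (n % p)) := by ring
    _ < k * p := Nat.mul_lt_mul_of_pos_left h2 (Nat.pos_of_ne_zero hk)
    _ = p * k := mul_comm _ _

include hcard hχ in
/-- `χ ^ a` is nontrivial when `(p * k) ∤ (k * a)`. -/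
theorem s14_st_pow_ne_one (a : ℕ) (ha : ¬ p ∣ a) (hp : 0 < p) : χ ^ a ≠ 1 := by
  have hk : k ≠ 0 := by
    rintro rfl
    have := Fintype.one_lt_card (α := F)
    omega
  have ha0 : a ≠ 0 := by rintro rfl; exact ha (dvd_zero p)
  intro h
  have h1 : ∀ x : Fˣ, x ^ (k * a) = 1 := by
    intro x
    apply Units.ext
    have := congrArg (fun ψ : MulChar F R => π (ψ (x : F))) h
    simp only [MulChar.one_apply_coe, map_one] at this
    rw [MulChar.pow_apply' χ ha0, map_pow, hχ, ← pow_mul] at this
    rw [Units.val_pow_eq_pow_val, this, Units.val_one]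
  rw [FiniteField.forall_pow_eq_one_iff, hcard, Nat.add_sub_cancel, mul_comm p k] at h1
  exact ha ((Nat.mul_dvd_mul_iff_left (Nat.pos_of_ne_zero hk)).mp h1)

end Character

end Fermat.Agent.S14
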