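import Mathlib
import Fermat.Agent.S14.Defs
import Fermat.Agent.S14.StickCore

set_option autoImplicit false

/-!
# S14 (ST): Stickelberger's theorem via Jacobi sums

For a prime `𝔮` of `K = ℚ(ζ_p)` of absolute degree one over `ℓ ≠ p`, the Jacobi sum
`J = J(χ, χ)` of the `p`-th power residue character `χ` modulo `𝔮` generates the ideal
`∏_{0 < c < p/2} σ_c⁻¹(𝔮)`.
-/

namespace Fermat.Agent.S14

open NumberField IsDedekindDomain
open scoped Pointwise

section general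

variable {K : Type*} [Field K] [NumberField K]

/-- The absolute norm is invariant under the Galois action. -/
theorem s14_st_absNorm_smul (σ : K ≃ₐ[ℚ] K) (I : Ideal (𝓞 K)) :
    Ideal.absNorm (σ • I) = Ideal.absNorm I := by
  rw [Ideal.absNorm_apply, Ideal.absNorm_apply, Submodule.cardQuot_apply,
    Submodule.cardQuot_apply]
  exact (Nat.card_congr
    (Ideal.quotientEquiv I (σ • I) (MulSemiringAction.toRingEquiv _ (𝓞 K) σ) rfl).toEquiv).symm

/-- The Galois action on a principal ideal. -/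
theorem s14_st_smul_span_singleton (σ : K ≃ₐ[ℚ] K) (x : 𝓞 K) :
    σ • Ideal.span {x} = Ideal.span {σ • x} := by
  rw [Ideal.smul_closure, Set.smul_set_singleton]

/-- A ring endomorphism acting on `p`-th roots of unity by `y ↦ y ^ c` maps the Jacobi sum
`J(χ, χ)` to `J(χ ^ c, χ ^ c)`. -/
theorem s14_st_map_jacobiSum {R : Type*} [CommRing R] {F : Type*} [Field F] [Fintype F]
    (p c : ℕ) (f : R →+* R) (hf : ∀ y : R, y ^ p = 1 → f y = y ^ c)
    (χ : MulChar F R) (hχ : ∀ x : F, x ≠ 0 → (χ x) ^ p = 1) :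
    f (jacobiSum χ χ) = jacobiSum (χ ^ c) (χ ^ c) := by
  have h : χ.ringHomComp f = χ ^ c := by
    apply MulChar.ext
    intro a
    rw [MulChar.ringHomComp_apply, MulChar.pow_apply_coe, hf _ (hχ _ (Units.ne_zero a))]
  rw [← jacobiSum_ringHomComp, h]

end general

section main

variable {K : Type*} [Field K] [NumberField K]

set_option maxHeartbeats 1000000 in
/-- **Stickelberger via Jacobi sums.** -/
theorem s14_st_main (p : ℕ) [hp : Fact p.Prime] (hp2 : p ≠ 2)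
    [hK : IsCyclotomicExtension {p} ℚ K]
    (𝔮 : Ideal (𝓞 K)) [h𝔮 : 𝔮.IsMaximal] (ℓ : ℕ) (hℓ : ℓ.Prime) (hℓp : ℓ ≠ p)
    (hN : Ideal.absNorm 𝔮 = ℓ) (τ : ℕ → (K ≃ₐ[ℚ] K))
    (hτ : ∀ c ∈ Stickelberger.exponentSet p, ∀ ζ : K, ζ ^ p = 1 → τ c (ζ ^ c) = ζ) :
    ∃ J : 𝓞 K, Ideal.span {J} = ∏ c ∈ Stickelberger.exponentSet p, (τ c) • 𝔮 := by
  classical
  haveI : NeZero p := ⟨hp.out.ne_zero⟩
  have hp3 : 3 ≤ p := by
    have := hp.out.two_le
    omega
  letI : Field (𝓞 K ⧸ 𝔮) := Ideal.Quotient.field 𝔮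
  letI : Fintype (𝓞 K ⧸ 𝔮) := Fintype.ofFinite _
  have hcardF : Fintype.card (𝓞 K ⧸ 𝔮) = ℓ := by
    rw [← hN, Ideal.absNorm_apply, Submodule.cardQuot_apply, Nat.card_eq_fintype_card]
  set π : 𝓞 K →+* (𝓞 K ⧸ 𝔮) := Ideal.Quotient.mk 𝔮 with hπ
  have hπker : ∀ x : 𝓞 K, π x = 0 ↔ x ∈ 𝔮 := fun x => Ideal.Quotient.eq_zero_iff_mem
  -- the primitive root
  have hζK := IsCyclotomicExtension.zeta_spec p ℚ K
  set ζ : 𝓞 K := hζK.toInteger with hζdef
  have hζ : IsPrimitiveRoot ζ p := hζK.toInteger_isPrimitiveRoot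
  have hπζ : IsPrimitiveRoot (π ζ) p := by
    refine hζ.idealQuotient_mk ?_ ?_
    · rw [hN]; exact hℓ.one_lt.ne'
    · rw [hN]; exact (Nat.coprime_primes hℓ hp.out).mpr hℓp
  -- `ℓ = p k + 1`
  have hdvd : p ∣ ℓ - 1 := by
    apply hπζ.dvd_of_pow_eq_one
    have := FiniteField.pow_card_sub_one_eq_one (π ζ) (hπζ.ne_zero hp.out.ne_zero)
    rwa [hcardF] at this
  obtain ⟨k, hk⟩ := hdvd
  have hcard : Fintype.card (𝓞 K ⧸ 𝔮) = p * k + 1 := by
    rw [hcardF]
    have := hℓ.one_lt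
    omega
  -- the character
  obtain ⟨χ, hχ1, hχ2⟩ := s14_st_exists_char π p k hp.out hcard ζ hζ.pow_eq_one hπζ
  refine ⟨jacobiSum χ χ, ?_⟩
  set J : 𝓞 K := jacobiSum χ χ with hJ
  -- Galois conjugates of `J`
  have hconj : ∀ (σ : K ≃ₐ[ℚ] K) (c : ℕ), (∀ y : 𝓞 K, y ^ p = 1 → σ • y = y ^ c) →
      σ • J = jacobiSum (χ ^ c) (χ ^ c) := by
    intro σ c hσ
    exact s14_st_map_jacobiSum p c (MulSemiringAction.toRingHom _ (𝓞 K) σ) hσ χ hχ2
  -- the action of `τ c` on roots of unity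
  have hτ' : ∀ c ∈ Stickelberger.exponentSet p, ∀ y : 𝓞 K, y ^ p = 1 →
      (τ c)⁻¹ • y = y ^ c := by
    intro c hc y hy
    rw [inv_smul_eq_iff]
    apply Subtype.ext
    have hyK : (y : K) ^ p = 1 := by
      have := congrArg (fun z : 𝓞 K => (z : K)) hy
      simpa using this
    have := hτ c hc (y : K) hyK
    change (y : K) = τ c ((y ^ c : 𝓞 K) : K)
    rw [show ((y ^ c : 𝓞 K) : K) = (y : K) ^ c from by simp]
    exact this.symm
  -- `J` lies in each `τ c • 𝔮`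
  have hmem : ∀ c ∈ Stickelberger.exponentSet p, J ∈ (τ c) • 𝔮 := by
    intro c hc
    rw [Ideal.mem_pointwise_smul_iff_inv_smul_mem, hconj _ c (hτ' c hc), ← hπker]
    obtain ⟨hc0, hc2⟩ := Stickelberger.mem_exponentSet.mp hc
    have hcp : c < p := by omega
    have hndvd : ¬ p ∣ c := fun h => by
      have := Nat.le_of_dvd hc0 h
      omega
    apply s14_st_jacobiSum_pow_map_eq_zero π p k hcard χ hχ1 hp.out.pos c hndvd
    rw [Nat.mod_eq_of_lt hcp]
    exact hc2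
  -- every element of the residue field is the image of a natural number
  have hnat : ∀ x : 𝓞 K ⧸ 𝔮, ∃ n : ℕ, x = (n : 𝓞 K ⧸ 𝔮) := by
    intro x
    let e := ZMod.ringEquivOfPrime (𝓞 K ⧸ 𝔮) hℓ hcardF
    haveI : NeZero ℓ := ⟨hℓ.ne_zero⟩
    refine ⟨(e.symm x).val, ?_⟩
    have h1 : x = e (e.symm x) := (e.apply_symm_apply x).symm
    conv_lhs => rw [h1]
    rw [← ZMod.natCast_zmod_val (e.symm x), map_natCast, ZMod.natCast_zmod_val]
  -- the stabiliser of `𝔮` fixes `ζ`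
  have hstab : ∀ σ : K ≃ₐ[ℚ] K, σ • 𝔮 = 𝔮 → σ • ζ = ζ := by
    intro σ hσ
    obtain ⟨n, hn⟩ := hnat (π ζ)
    have h1 : ζ - (n : 𝓞 K) ∈ 𝔮 := by
      rw [← hπker, map_sub, map_natCast, hn, sub_self]
    have h2 : σ • (ζ - (n : 𝓞 K)) ∈ 𝔮 := by
      have := Ideal.smul_mem_pointwise_smul σ _ 𝔮 h1
      rwa [hσ] at this
    have h3 : π (σ • ζ) = π ζ := by
      have hsn : σ • (n : 𝓞 K) = (n : 𝓞 K) :=
        map_natCast (MulSemiringAction.toRingHom _ (𝓞 K) σ) n
      rw [smul_sub, hsn] at h2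
      have := (hπker _).mpr h2
      rw [map_sub, map_natCast, sub_eq_zero] at this
      rw [this, hn]
    have h4 : (σ • ζ) ^ p = 1 := by
      rw [← smul_pow', hζ.pow_eq_one, smul_one]
    obtain ⟨a, ha, ha'⟩ := hζ.eq_pow_of_pow_eq_one h4
    rw [← ha', map_pow] at h3
    have h5 : a = 1 := hπζ.pow_inj ha hp.out.one_lt (by rw [h3, pow_one])
    rw [← ha', h5, pow_one]
  -- distinctness
  have hinj : ∀ c ∈ Stickelberger.exponentSet p, ∀ c' ∈ Stickelberger.exponentSet p,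
      (τ c) • 𝔮 = (τ c') • 𝔮 → c = c' := by
    intro c hc c' hc' h
    have h1 : ((τ c')⁻¹ * τ c) • 𝔮 = 𝔮 := by
      rw [mul_smul, h, inv_smul_smul]
    have h2 := hstab _ h1
    rw [mul_smul, inv_smul_eq_iff] at h2
    have h3 : τ c (ζ : K) = τ c' (ζ : K) := congrArg (fun z : 𝓞 K => (z : K)) h2
    have hζK' : ((ζ : 𝓞 K) : K) ^ p = 1 := by
      have := congrArg (fun z : 𝓞 K => (z : K)) hζ.pow_eq_one
      simpa using this
    have h4 := hτ c hc (ζ : K) hζK'
    have h5 := hτ c' hc' (ζ : K) hζK'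
    rw [map_pow] at h4 h5
    rw [← h3] at h5
    have hη : IsPrimitiveRoot (τ c (ζ : K)) p := by
      have : IsPrimitiveRoot ((ζ : 𝓞 K) : K) p := hζK
      exact this.map_of_injective (τ c).injective
    obtain ⟨hc0, hc2⟩ := Stickelberger.mem_exponentSet.mp hc
    obtain ⟨hc0', hc2'⟩ := Stickelberger.mem_exponentSet.mp hc'
    exact hη.pow_inj (by omega) (by omega) (h4.trans h5.symm)
  -- norms
  have hnorm : ∀ σ : K ≃ₐ[ℚ] K, Ideal.absNorm (σ • 𝔮) = ℓ := fun σ => by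
    rw [s14_st_absNorm_smul, hN]
  have hmax : ∀ σ : K ≃ₐ[ℚ] K, (σ • 𝔮).IsMaximal := by
    intro σ
    have hprime : (σ • 𝔮).IsPrime := Ideal.IsPrime.smul σ
    refine Ideal.IsPrime.isMaximal hprime ?_
    intro h
    have := hnorm σ
    rw [h, Ideal.absNorm_bot] at this
    exact hℓ.ne_zero this.symm
  -- the product divides `(J)`
  have hdvdJ : (∏ c ∈ Stickelberger.exponentSet p, (τ c) • 𝔮) ∣ Ideal.span {J} := by
    apply Finset.prod_dvd_of_coprime
    · intro c hc c' hc' hne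
      rw [Function.onFun, Ideal.isCoprime_iff_sup_eq]
      exact Ideal.IsMaximal.coprime_of_ne (hmax _) (hmax _)
        (fun h => hne (hinj c hc c' hc' h))
    · intro c hc
      rw [Ideal.dvd_iff_le, Ideal.span_singleton_le_iff_mem]
      exact hmem c hc
  -- the automorphism `ζ ↦ ζ⁻¹`
  set σm : K ≃ₐ[ℚ] K := (IsCyclotomicExtension.Rat.galEquivZMod p K).symm (-1) with hσm
  set cm : ℕ := ((IsCyclotomicExtension.Rat.galEquivZMod p K σm : (ZMod p)ˣ) : ZMod p).val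
    with hcm
  have hσm' : ∀ y : 𝓞 K, y ^ p = 1 → σm • y = y ^ cm := fun y hy =>
    IsCyclotomicExtension.Rat.galEquivZMod_smul_of_pow_eq p K σm hy
  have hcm1 : p ∣ cm + 1 := by
    rw [← ZMod.natCast_eq_zero_iff, Nat.cast_add, Nat.cast_one, hcm, ZMod.natCast_zmod_val,
      hσm, MulEquiv.apply_symm_apply]
    simp
  have hχp : χ ^ p = 1 := by
    apply MulChar.ext
    intro a
    rw [MulChar.pow_apply_coe, hχ2 _ (Units.ne_zero a), MulChar.one_apply_coe]
  have hχinv : χ ^ cm = χ⁻¹ := by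
    obtain ⟨m, hm⟩ := hcm1
    apply eq_inv_of_mul_eq_one_left
    rw [← pow_succ, hm, pow_mul, hχp, one_pow]
  have hJ' : σm • J = jacobiSum χ⁻¹ χ⁻¹ := by
    rw [hconj σm cm hσm', hχinv]
  -- `J * J' = ℓ`
  have hχne : χ ≠ 1 := by
    have := s14_st_pow_ne_one π p k hcard χ hχ1 1
      (fun h => by have := Nat.le_of_dvd one_pos h; omega) hp.out.pos
    rwa [pow_one] at this
  have hχ2ne : χ * χ ≠ 1 := by
    have := s14_st_pow_ne_one π p k hcard χ hχ1 2
      (fun h => by have := Nat.le_of_dvd two_pos h; omega) hp.out.pos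
    rwa [pow_two] at this
  have hprod : J * (σm • J) = (ℓ : 𝓞 K) := by
    have hinjK : Function.Injective (algebraMap (𝓞 K) K) := RingOfIntegers.coe_injective
    apply hinjK
    rw [map_mul, hJ', map_natCast, hJ, ← jacobiSum_ringHomComp, ← jacobiSum_ringHomComp,
      ← MulChar.ringHomComp_inv]
    have hchar : ringChar K ≠ ringChar (𝓞 K ⧸ 𝔮) := by
      haveI : Fact ℓ.Prime := ⟨hℓ⟩
      haveI : CharP (𝓞 K ⧸ 𝔮) ℓ := charP_of_card_eq_prime hcardF
      rw [ringChar.eq (𝓞 K ⧸ 𝔮) ℓ, ringChar.eq_zero]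
      exact hℓ.ne_zero.symm
    have h1 : χ.ringHomComp (algebraMap (𝓞 K) K) ≠ 1 :=
      (MulChar.ringHomComp_ne_one_iff hinjK).mpr hχne
    have h2 : χ.ringHomComp (algebraMap (𝓞 K) K) * χ.ringHomComp (algebraMap (𝓞 K) K) ≠ 1 := by
      rw [← MulChar.ringHomComp_mul]
      exact (MulChar.ringHomComp_ne_one_iff hinjK).mpr hχ2ne
    rw [jacobiSum_mul_jacobiSum_inv hchar h1 h1 h2, hcardF]
  -- the norm of `(J)`
  have hrank : Module.finrank ℤ (𝓞 K) = p - 1 := by
    rw [RingOfIntegers.rank, IsCyclotomicExtension.finrank (n := p) K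
      (Polynomial.cyclotomic.irreducible_rat hp.out.pos), Nat.totient_prime hp.out]
  obtain ⟨h, hh⟩ : ∃ h, p - 1 = 2 * h := by
    have := hp.out.eq_one_or_self_of_dvd 2
    have hodd : ¬ 2 ∣ p := fun h2 => by
      rcases this h2 with h | h
      · omega
      · exact hp2 h.symm
    exact ⟨(p - 1) / 2, by omega⟩
  have hNJ : Ideal.absNorm (Ideal.span {J}) = ℓ ^ h := by
    have h1 : Ideal.absNorm (Ideal.span {J}) * Ideal.absNorm (Ideal.span {σm • J}) =
        ℓ ^ (p - 1) := by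
      rw [← map_mul, Ideal.span_singleton_mul_span_singleton, hprod,
        Ideal.absNorm_span_natCast, hrank]
    rw [← s14_st_smul_span_singleton, s14_st_absNorm_smul, hh, mul_comm 2 h, pow_mul,
      ← pow_two] at h1
    exact Nat.pow_left_injective (by norm_num : 2 ≠ 0) h1
  -- the cardinality of the exponent set
  have hcardE : (Stickelberger.exponentSet p).card = h := by
    have : Stickelberger.exponentSet p = Finset.Icc 1 h := by
      ext c
      rw [Stickelberger.mem_exponentSet, Finset.mem_Icc]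
      omega
    rw [this, Nat.card_Icc]
    omega
  have hNprod : Ideal.absNorm (∏ c ∈ Stickelberger.exponentSet p, (τ c) • 𝔮) = ℓ ^ h := by
    rw [map_prod, Finset.prod_congr rfl (fun c _ => hnorm (τ c)), Finset.prod_const, hcardE]
  -- conclusion
  obtain ⟨C, hC⟩ := hdvdJ
  have hCnorm : Ideal.absNorm C = 1 := by
    have := congrArg Ideal.absNorm hC
    rw [map_mul, hNJ, hNprod] at this
    have hpos : 0 < ℓ ^ h := pow_pos hℓ.pos h
    exact (Nat.eq_of_mul_eq_mul_left hpos (by rw [mul_one]; exact this)).symm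
  rw [Ideal.absNorm_eq_one_iff] at hCnorm
  rw [hC, hCnorm, Ideal.mul_top]

end main

/-- **(ST)** the interface statement of `Defs.lean`. -/
theorem s14_st_stmt : s14_stmt_ST := by
  intro K _ _ p _ hp2 hK q ℓ hℓ hℓp hN τ hτ
  haveI := hK
  haveI : q.asIdeal.IsMaximal := q.isMaximal
  obtain ⟨J, hJ⟩ := s14_st_main p hp2 q.asIdeal ℓ hℓ hℓp hN τ hτ
  exact ⟨⟨J, hJ.symm⟩⟩

end Fermat.Agent.S14
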