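import Fermat.Agent.S14.ZetaGalois

/-!
# S14 (Z), part 7: existence of non-split primes of degree one

Owner: helper2.  For a Galois extension `N / F` of number fields of degree `n ≥ 2` and a finite
set `T0` of rational primes there is a prime `q` of `F` of absolute degree one, with norm outside
`T0`, unramified in `N` and not totally split in `N`.
-/

set_option autoImplicit false
set_option linter.unusedSectionVars false

namespace Fermat.Agent.S14

open NumberField Ideal Filter Topology Finset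
open scoped Pointwise

/-- the analytic contradiction: `f ^ n ≤ M * g` is impossible when both `f` and `g` have a simple
pole at `1` and `n ≥ 2`. -/
theorem s14_z_analytic (n : ℕ) (hn : 2 ≤ n) (f g : ℝ → ℝ) (a b : ℝ) (ha : 0 < a) (M : ℝ)
    (hf : Tendsto (fun s => (s - 1) * f s) (𝓝[>] 1) (𝓝 a))
    (hg : Tendsto (fun s => (s - 1) * g s) (𝓝[>] 1) (𝓝 b))
    (h : ∀ s, 1 < s → f s ^ n ≤ M * g s) : False := by
  have h1 : Tendsto (fun s => ((s - 1) * f s) ^ n) (𝓝[>] 1) (𝓝 (a ^ n)) := hf.pow n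
  have h0 : Tendsto (fun s : ℝ => (s - 1) ^ (n - 1)) (𝓝[>] 1) (𝓝 0) := by
    have hc : Continuous fun s : ℝ => (s - 1) ^ (n - 1) := by fun_prop
    have := hc.tendsto 1
    simp only [sub_self] at this
    rw [zero_pow (by omega)] at this
    exact tendsto_nhdsWithin_of_tendsto_nhds this
  have h2 : Tendsto (fun s => M * ((s - 1) ^ (n - 1) * ((s - 1) * g s))) (𝓝[>] 1)
      (𝓝 (M * (0 * b))) := (h0.mul hg).const_mul M
  have hle : ∀ᶠ s in 𝓝[>] (1 : ℝ),
      ((s - 1) * f s) ^ n ≤ M * ((s - 1) ^ (n - 1) * ((s - 1) * g s)) := by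
    filter_upwards [self_mem_nhdsWithin] with s hs
    have hs1 : 0 ≤ (s - 1) ^ n := pow_nonneg (sub_nonneg.mpr (le_of_lt hs)) n
    have h3 := mul_le_mul_of_nonneg_left (h s hs) hs1
    have h4 : (s - 1) ^ n = (s - 1) ^ (n - 1) * (s - 1) := by
      rw [← pow_succ]
      congr 1
      omega
    calc ((s - 1) * f s) ^ n = (s - 1) ^ n * f s ^ n := mul_pow _ _ _
      _ ≤ (s - 1) ^ n * (M * g s) := h3
      _ = M * ((s - 1) ^ (n - 1) * ((s - 1) * g s)) := by rw [h4]; ring
  have h5 := le_of_tendsto_of_tendsto h1 h2 hle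
  rw [zero_mul, mul_zero] at h5
  exact absurd h5 (not_le.mpr (pow_pos ha n))

variable (F N : Type*) [Field F] [NumberField F] [Field N] [NumberField N] [Algebra F N]
  [IsGalois F N]

/-- if all primes of prime norm outside `T` split completely, the sums of `N(q)^(-s)` over primes
of `F` are bounded by `(log ζ_N(s)) / [N : F]` up to a constant. -/
theorem s14_z_sum_bound {s : ℝ} (hs : 1 < s) (T : Finset ℕ) (hn : 0 < Module.finrank F N)
    (hgood : ∀ q : Ideal (𝓞 F), q.IsPrime → q ≠ ⊥ → (absNorm q).Prime → absNorm q ∉ T →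
      ∀ Q : Ideal (𝓞 N), Q.IsPrime → Q.under (𝓞 F) = q →
        MulAction.stabilizer (N ≃ₐ[F] N) Q = ⊥)
    (S : Finset (Ideal (𝓞 F))) (hS : ∀ q ∈ S, q.IsPrime ∧ q ≠ ⊥) :
    ∑ q ∈ S, s14_z_w F s q ≤
      (Real.log (s14_z_zeta N s) + s14_z_zeta N 2) / (Module.finrank F N : ℝ) +
      ((T.biUnion (s14_z_fiber F)).card : ℝ) +
      (Module.finrank ℤ (𝓞 F) : ℝ) * (Real.pi ^ 2 / 6) := by
  classical
  have hsplit1 := Finset.sum_filter_add_sum_filter_not S (fun q => (absNorm q).Prime)
    (s14_z_w F s)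
  have hsplit2 := Finset.sum_filter_add_sum_filter_not (S.filter fun q => (absNorm q).Prime)
    (fun q => absNorm q ∈ T) (s14_z_w F s)
  -- bound 1: the norm is not a prime number
  have hb1 : ∑ q ∈ S.filter (fun q => ¬ (absNorm q).Prime), s14_z_w F s q ≤
      (Module.finrank ℤ (𝓞 F) : ℝ) * (Real.pi ^ 2 / 6) :=
    s14_z_deg_sum_le F hs.le _ (fun q hq => hS q (Finset.mem_filter.mp hq).1)
      (fun q hq => (Finset.mem_filter.mp hq).2)
  -- bound 2: the norm is a prime number in `T`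
  have hb2 : ∑ q ∈ (S.filter fun q => (absNorm q).Prime).filter (fun q => absNorm q ∈ T),
      s14_z_w F s q ≤ ((T.biUnion (s14_z_fiber F)).card : ℝ) := by
    calc ∑ q ∈ (S.filter fun q => (absNorm q).Prime).filter (fun q => absNorm q ∈ T),
          s14_z_w F s q
        ≤ ∑ q ∈ (S.filter fun q => (absNorm q).Prime).filter (fun q => absNorm q ∈ T),
          (1 : ℝ) := by
          refine Finset.sum_le_sum fun q hq => ?_
          have hq' := hS q (Finset.mem_filter.mp (Finset.mem_filter.mp hq).1).1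
          have := s14_z_w_le_half F hs.le hq'.1 hq'.2
          linarith
      _ = (((S.filter fun q => (absNorm q).Prime).filter
            (fun q => absNorm q ∈ T)).card : ℝ) := by simp
      _ ≤ ((T.biUnion (s14_z_fiber F)).card : ℝ) := by
          refine Nat.cast_le.mpr (Finset.card_le_card fun q hq => ?_)
          rw [Finset.mem_biUnion]
          exact ⟨absNorm q, (Finset.mem_filter.mp hq).2, (s14_z_mem_fiber F).mpr rfl⟩
  -- bound 3: the good primes
  have hb3 : ∑ q ∈ (S.filter fun q => (absNorm q).Prime).filter (fun q => ¬ absNorm q ∈ T),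
      s14_z_w F s q ≤
      (Real.log (s14_z_zeta N s) + s14_z_zeta N 2) / (Module.finrank F N : ℝ) := by
    rw [le_div_iff₀ (by exact_mod_cast hn), mul_comm]
    refine s14_z_split_sum_le F N hs _
      (fun q hq => hS q (Finset.mem_filter.mp (Finset.mem_filter.mp hq).1).1) fun q hq => ?_
    have hq1 := Finset.mem_filter.mp hq
    have hq2 := Finset.mem_filter.mp hq1.1
    exact hgood q (hS q hq2.1).1 (hS q hq2.1).2 hq2.2 hq1.2
  linarith

/-- **(Z)** in a Galois extension `N / F` of number fields of degree `n ≥ 2` there are primes of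
`F` of absolute degree one, with norm outside any given finite set, which are unramified and do
not split completely in `N`. -/
theorem s14_z_main (n : ℕ) (hn : 2 ≤ n) (hdeg : Module.finrank F N = n) (T0 : Finset ℕ) :
    ∃ q : Ideal (𝓞 F), q.IsPrime ∧ q ≠ ⊥ ∧ (absNorm q).Prime ∧ absNorm q ∉ T0 ∧
      (∀ Q : Ideal (𝓞 N), Q.IsPrime → Q.under (𝓞 F) = q → Q.inertia (N ≃ₐ[F] N) = ⊥) ∧
      ¬ (∀ Q : Ideal (𝓞 N), Q.IsPrime → Q.under (𝓞 F) = q →
        MulAction.stabilizer (N ≃ₐ[F] N) Q = ⊥) := by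
  classical
  by_contra hcon
  set T : Finset ℕ := T0 ∪ s14_z_bad F N with hT
  have hgood : ∀ q : Ideal (𝓞 F), q.IsPrime → q ≠ ⊥ → (absNorm q).Prime → absNorm q ∉ T →
      ∀ Q : Ideal (𝓞 N), Q.IsPrime → Q.under (𝓞 F) = q →
        MulAction.stabilizer (N ≃ₐ[F] N) Q = ⊥ := by
    intro q hq hq0 hℓ hqT
    rw [hT, Finset.mem_union, not_or] at hqT
    by_contra hns
    exact hcon ⟨q, hq, hq0, hℓ, hqT.1, s14_z_unram_of_not_bad F N hq hq0 hℓ hqT.2, hns⟩
  have hnpos : 0 < Module.finrank F N := by omega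
  have hn0 : (n : ℝ) ≠ 0 := by
    have : 0 < n := by omega
    exact_mod_cast this.ne'
  set C : ℝ := s14_z_zeta N 2 / (n : ℝ) + ((T.biUnion (s14_z_fiber F)).card : ℝ) +
    (Module.finrank ℤ (𝓞 F) : ℝ) * (Real.pi ^ 2 / 6) + 2 * s14_z_zeta F 2 with hC
  have hmain : ∀ s : ℝ, 1 < s →
      s14_z_zeta F s ^ n ≤ Real.exp ((n : ℝ) * C) * s14_z_zeta N s := by
    intro s hs
    have h1 := s14_z_zeta_le_exp F hs
      (fun S hS => s14_z_sum_bound F N hs T hnpos hgood S hS)
    have hpos := s14_z_zeta_pos N hs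
    have hF := s14_z_zeta_nonneg F s
    have h2 := pow_le_pow_left₀ hF h1 n
    rw [← Real.exp_nat_mul, hdeg] at h2
    refine h2.trans (le_of_eq ?_)
    have h3 : (n : ℝ) * ((Real.log (s14_z_zeta N s) + s14_z_zeta N 2) / (n : ℝ) +
        ((T.biUnion (s14_z_fiber F)).card : ℝ) +
        (Module.finrank ℤ (𝓞 F) : ℝ) * (Real.pi ^ 2 / 6) + 2 * s14_z_zeta F 2) =
        Real.log (s14_z_zeta N s) + (n : ℝ) * C := by
      rw [hC]
      field_simp
      ring
    rw [h3, Real.exp_add, Real.exp_log hpos, mul_comm]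
  exact s14_z_analytic n hn (s14_z_zeta F) (s14_z_zeta N) _ _ (dedekindZeta_residue_pos F) _
    (s14_z_tendsto F) (s14_z_tendsto N) hmain

end Fermat.Agent.S14
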