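import Fermat.Agent.S14.Defs
import Fermat.Agent.S14.ZetaMain

/-!
# S14 (Z): the interface statement `s14_stmt_Z`

Owner: helper2.
-/

set_option autoImplicit false

namespace Fermat.Agent.S14

open NumberField IsDedekindDomain
open scoped Pointwise

/-- **(Z)**, in the team vocabulary. -/
theorem s14_z_stmt : s14_stmt_Z := by
  intro F N _ _ _ _ _ _ p hp hdeg T0
  obtain ⟨q, hq, hq0, hℓ, hT0, hunr, hns⟩ := s14_z_main F N p hp.two_le hdeg T0
  exact ⟨⟨q, hq, hq0⟩, Ideal.absNorm q, hℓ, hT0, rfl, hunr, hns⟩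

/-- **(Z)** for arbitrary degree `n ≥ 2`, in the team vocabulary. -/
theorem s14_z_stmt_general (F N : Type*) [Field F] [NumberField F] [Field N] [NumberField N]
    [Algebra F N] [IsGalois F N] (hn : 2 ≤ Module.finrank F N) (T0 : Finset ℕ) :
    ∃ (q : HeightOneSpectrum (𝓞 F)) (ℓ : ℕ), ℓ.Prime ∧ ℓ ∉ T0 ∧
      Ideal.absNorm q.asIdeal = ℓ ∧ s14_UnramAt F N q.asIdeal ∧ ¬ s14_Splits F N q.asIdeal := by
  obtain ⟨q, hq, hq0, hℓ, hT0, hunr, hns⟩ := s14_z_main F N _ hn rfl T0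
  exact ⟨⟨q, hq, hq0⟩, Ideal.absNorm q, hℓ, hT0, rfl, hunr, hns⟩

end Fermat.Agent.S14
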