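import Fermat.Statements.S14
import Fermat.Agent.S14.End
import Fermat.Agent.S14.EndSide
import Fermat.Agent.S14.Gal
import Fermat.Agent.S14.Zeta
import Fermat.Agent.S14.Stickelberger
import Fermat.Agent.S14.ArtinStmt

/-!
# S14 / Assembly (lead): the final wiring

`s14_assembly`: `ExtCitation.ExtVanishingCts p` for `p ≥ 3` from the two remaining interface
statements (FI) and (CR); everything else is plugged in.
-/

set_option autoImplicit false

namespace Fermat.Agent.S14

theorem s14_assembly (hFI : s14_stmt_FI) (hCR : s14_stmt_CR) {p : ℕ} [Fact p.Prime]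
    (h3 : 3 ≤ p) : ExtCitation.ExtVanishingCts p :=
  s14_e_extVanishingCts p
    (s14_gal p (by omega)
      (s14_end_core s14_z_stmt s14_st_stmt s14_ar_stmt_exists s14_ar_stmt_unique
        s14_ar_stmt_split s14_ar_stmt_conj hFI hCR))

end Fermat.Agent.S14
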