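import Mathlib
import Fermat.Agent.S14.Defs

/-!
# S14 (CR) crossing — internal interface statements (OWNER: helper9)

The crossing theorem `s14_stmt_CR` is proved (in `Crossing.lean`) from `s14_stmt_I2` and the four
sub-statements below.  Notation of the proof: `K = ℚ(ζ_p)`, `L/K` unramified Galois of degree `p`,
`r` an auxiliary prime, `M = L(ζ_r)`, `Γ = Gal(M/K)`, `χ : Γ → (ℤ/r)ˣ` the mod-`r` cyclotomic
character, `θ : (ℤ/r)ˣ → Gal(L/K)`, `H = {τ ∈ Γ | τ|_L = θ (χ τ)}`, `F = M ^ H`, `B = L · F`.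

* `s14_stmt_CR_fields` (FC): Galois-theoretic construction of `F` and `B` from a subgroup `H`.
* `s14_stmt_CR_tr` (TR): `L(ζ_r)/L` is totally ramified at every prime above `r`, if `r` is
  unramified in `L`.
* `s14_stmt_CR_ul` (UL): a prime `r ≠ p` is unramified in `L`.
* `s14_stmt_CR_aux` (AUX): existence of the auxiliary prime `r`.
-/

set_option autoImplicit false

namespace Fermat.Agent.S14

open scoped NumberField Pointwise

/-- **(FC)** field construction.  `L/K` Galois of prime degree `p`, unramified, `M/K` Galois with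
`L ⊆ M`, `H` a normal subgroup of `Gal(M/K)` containing an element acting nontrivially on `L`.
Then `F := M ^ H` and `B := M ^ (H ∩ Gal(M/L)) = L · F` satisfy: `F/K`, `M/F`, `B/F` Galois,
`[B : F] = p`, `B/F` unramified, `Gal(M/F) = H`, and `L ⊆ B` (inside `M`). -/
def s14_stmt_CR_fields : Prop :=
  ∀ (p : ℕ) [Fact p.Prime] (K L M : Type) [Field K] [NumberField K] [Field L] [NumberField L]
    [Field M] [NumberField M] [Algebra K L] [Algebra K M] [Algebra L M] [IsScalarTower K L M]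
    [IsGalois K L] [IsGalois K M],
    Module.finrank K L = p → s14_Unram K L →
    ∀ H : Subgroup (M ≃ₐ[K] M), H.Normal → (∃ τ ∈ H, AlgEquiv.restrictNormalHom L τ ≠ 1) →
    ∃ (F B : Type) (_ : Field F) (_ : NumberField F) (_ : Field B) (_ : NumberField B)
      (_ : Algebra K F) (_ : Algebra F B) (_ : Algebra F M) (_ : Algebra B M)
      (_ : IsScalarTower K F M) (_ : IsScalarTower F B M) (_ : IsGalois K F) (_ : IsGalois F M)
      (_ : IsGalois F B),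
      Module.finrank F B = p ∧ s14_Unram F B ∧
      (∀ τ : M ≃ₐ[K] M, τ ∈ H ↔ ∀ x : F, τ (algebraMap F M x) = algebraMap F M x) ∧
      (∀ τ : M ≃ₐ[F] M, (∀ b : B, τ (algebraMap B M b) = algebraMap B M b) →
        ∀ y : L, τ (algebraMap L M y) = algebraMap L M y)

/-- **(TR)** total ramification of `L(ζ_r)/L` above `r`: if the prime number `r` is unramified in
the number field `L` (`r ∉ 𝔭 ^ 2` for every prime `𝔭 ∋ r` of `𝓞 L`) and `M = L(ζ_r)`, then for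
every prime `𝔯 ∋ r` of `𝓞 M` and every unit `u` modulo `r` there is `ι ∈ Gal(M/L)` in the inertia
group of `𝔯` with `ι ζ = ζ ^ u`. -/
def s14_stmt_CR_tr : Prop :=
  ∀ (r : ℕ) [Fact r.Prime] (L M : Type) [Field L] [NumberField L] [Field M] [NumberField M]
    [Algebra L M] [IsCyclotomicExtension {r} L M],
    (∀ 𝔭 : Ideal (𝓞 L), 𝔭.IsPrime → (r : 𝓞 L) ∈ 𝔭 → (r : 𝓞 L) ∉ 𝔭 ^ 2) →
    ∀ (𝔯 : Ideal (𝓞 M)), 𝔯.IsPrime → (r : 𝓞 M) ∈ 𝔯 →
    ∀ (ζ : M), IsPrimitiveRoot ζ r → ∀ u : (ZMod r)ˣ,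
      ∃ ι : M ≃ₐ[L] M, (∀ x : 𝓞 M, ι • x - x ∈ 𝔯) ∧ ι ζ = ζ ^ (u : ZMod r).val

/-- **(UL)** a prime number `r ≠ p` is unramified in `L`, for `L/K` unramified and
`K = ℚ(ζ_p)`. -/
def s14_stmt_CR_ul : Prop :=
  ∀ (p : ℕ) [Fact p.Prime] (K L : Type) [Field K] [NumberField K] [Field L] [NumberField L]
    [Algebra K L] [IsGalois K L] [IsCyclotomicExtension {p} ℚ K], s14_Unram K L →
    ∀ r : ℕ, r.Prime → r ≠ p →
    ∀ 𝔭 : Ideal (𝓞 L), 𝔭.IsPrime → (r : 𝓞 L) ∈ 𝔭 → (r : 𝓞 L) ∉ 𝔭 ^ 2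

/-- **(AUX)** the auxiliary prime: for distinct primes `ℓ₁ ≠ ℓ₂`, exponents `f₁`, `f₂` prime to
the odd prime `p`, and any `k`, there is a prime `r ≡ 1 mod p` outside a given finite set such
that `ℓ₁ ^ f₁` is not a `p`-th power modulo `r` but `ℓ₂ ^ f₂ * ℓ₁ ^ (f₁ * k)` is.
(Proof: (Z) applied to `K₂/K₁`, `K₁ = ℚ(ζ_p, β^{1/p})`, `K₂ = K₁(α^{1/p})`, `α = ℓ₁ ^ f₁`,
`β = ℓ₂ ^ f₂ * ℓ₁ ^ (f₁ k)`; the prime of `K₁` of degree one over `r` which does not split in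
`K₂` gives `r`.) -/
def s14_stmt_CR_aux : Prop :=
  ∀ (p : ℕ) [Fact p.Prime], p ≠ 2 → ∀ (ℓ₁ ℓ₂ : ℕ), ℓ₁.Prime → ℓ₂.Prime → ℓ₁ ≠ ℓ₂ →
    ∀ (f₁ f₂ k : ℕ), ¬ p ∣ f₁ → ¬ p ∣ f₂ → ∀ T0 : Finset ℕ,
    ∃ r : ℕ, r.Prime ∧ r ∉ T0 ∧ p ∣ r - 1 ∧
      (¬ ∃ w : ZMod r, ((ℓ₁ : ZMod r) ^ f₁) = w ^ p) ∧
      (∃ w : ZMod r, ((ℓ₂ : ZMod r) ^ f₂ * (ℓ₁ : ZMod r) ^ (f₁ * k)) = w ^ p)

end Fermat.Agent.S14
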