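import Mathlib

set_option autoImplicit false

/-!
# S14 (I2-K): Kummer theory for cyclic extensions of prime degree

* `s14_i2k_exists_kummer` (K1): for a number field `F ∋ ζ_p` and `y ∈ F` not a `p`-th power,
  `F(y^(1/p))` as a number field, Galois of degree `p` over `F`.
* `s14_i2k_exists_generator` (K2): a Galois extension `B/F` of degree `p`, `ζ_p ∈ F`, is
  `F(β)` with `β ^ p = α ∈ Fˣ`.
* `s14_i2k_kummer_lemma` (K3): in that situation, if `u ∈ F` is a `p`-th power in `B` then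
  `u = α ^ k * c ^ p` with `c ∈ F`.
-/

namespace Fermat.Agent.S14

open Polynomial IntermediateField

/-- **(K1)** the Kummer extension `F(y^(1/p))` as a number field. -/
theorem s14_i2k_exists_kummer (F : Type) [Field F] [NumberField F] (p : ℕ) (hp : p.Prime)
    (ζ : F) (hζ : IsPrimitiveRoot ζ p) (y : F) (hy : ∀ b : F, b ^ p ≠ y) :
    ∃ (N : Type) (_ : Field N) (_ : NumberField N) (_ : Algebra F N) (_ : IsGalois F N)
      (a : N), Module.finrank F N = p ∧ a ^ p = algebraMap F N y ∧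
        IntermediateField.adjoin F {a} = ⊤ := by
  have H : Irreducible (X ^ p - C y) := X_pow_sub_C_irreducible_of_prime hp hy
  haveI := Fact.mk H
  have hζ' : (primitiveRoots p F).Nonempty := ⟨ζ, (mem_primitiveRoots hp.pos).mpr hζ⟩
  haveI hsplit : IsSplittingField F (AdjoinRoot (X ^ p - C y)) (X ^ p - C y) :=
    isSplittingField_AdjoinRoot_X_pow_sub_C hζ' H
  haveI : FiniteDimensional F (AdjoinRoot (X ^ p - C y)) :=
    Polynomial.IsSplittingField.finiteDimensional _ (X ^ p - C y)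
  have hroot : AdjoinRoot.root (X ^ p - C y) ^ p =
      algebraMap F (AdjoinRoot (X ^ p - C y)) y := root_X_pow_sub_C_pow p y
  exact ⟨AdjoinRoot (X ^ p - C y), inferInstance,
    NumberField.of_module_finite F (AdjoinRoot (X ^ p - C y)), inferInstance,
    isGalois_of_isSplittingField_X_pow_sub_C hζ' H _, AdjoinRoot.root (X ^ p - C y),
    finrank_of_isSplittingField_X_pow_sub_C hζ' H _, hroot,
    IntermediateField.adjoin_root_eq_top_of_isSplittingField hζ' H hroot⟩

section cyclic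

variable {F B : Type*} [Field F] [Field B] [Algebra F B] [FiniteDimensional F B] [IsGalois F B]

/-- A Galois extension of prime degree has cyclic Galois group. -/
theorem s14_i2k_isCyclic (p : ℕ) (hp : p.Prime) (hdeg : Module.finrank F B = p) :
    IsCyclic (B ≃ₐ[F] B) := by
  haveI : Fact p.Prime := ⟨hp⟩
  exact isCyclic_of_prime_card (by rw [IsGalois.card_aut_eq_finrank, hdeg])

/-- **(K2)** Kummer generator of a cyclic extension of prime degree. -/
theorem s14_i2k_exists_generator (p : ℕ) (hp : p.Prime) (hdeg : Module.finrank F B = p)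
    (ζ : F) (hζ : IsPrimitiveRoot ζ p) :
    ∃ (α : F) (β : B), α ≠ 0 ∧ β ^ p = algebraMap F B α ∧ F⟮β⟯ = ⊤ := by
  haveI := s14_i2k_isCyclic (F := F) (B := B) p hp hdeg
  have hK : (primitiveRoots (Module.finrank F B) F).Nonempty :=
    ⟨ζ, (mem_primitiveRoots (hdeg ▸ hp.pos)).mpr (hdeg ▸ hζ)⟩
  obtain ⟨β, ⟨α, hα⟩, hβ⟩ := exists_root_adjoin_eq_top_of_isCyclic F B hK
  rw [hdeg] at hα
  refine ⟨α, β, ?_, hα.symm, hβ⟩
  rintro rfl
  rw [map_zero] at hα
  have hβ0 : β = 0 := by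
    by_contra h
    exact pow_ne_zero p h hα.symm
  rw [hβ0, IntermediateField.adjoin_zero] at hβ
  have h1 : Module.finrank F B = 1 := by
    rw [← IntermediateField.finrank_top', ← hβ, IntermediateField.finrank_bot]
  rw [hdeg] at h1
  exact hp.one_lt.ne' h1

/-- In an extension containing a primitive `p`-th root of unity `ζ` of the base field, two
elements with the same `p`-th power differ by a power of `ζ`. -/
theorem s14_i2k_eq_zeta_pow_mul (p : ℕ) (hp : p.Prime) (ζ : F) (hζ : IsPrimitiveRoot ζ p)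
    (x y : B) (hy : y ≠ 0) (h : x ^ p = y ^ p) :
    ∃ i : ℕ, i < p ∧ x = algebraMap F B (ζ ^ i) * y := by
  haveI : NeZero p := ⟨hp.ne_zero⟩
  have hζB : IsPrimitiveRoot (algebraMap F B ζ) p :=
    hζ.map_of_injective (algebraMap F B).injective
  have h1 : (x / y) ^ p = 1 := by
    rw [div_pow, h, div_self (pow_ne_zero p hy)]
  obtain ⟨i, hi, hi'⟩ := hζB.eq_pow_of_pow_eq_one h1
  refine ⟨i, hi, ?_⟩
  rw [map_pow, hi', div_mul_cancel₀ _ hy]

/-- **(K3)** the cyclic Kummer lemma: `Fˣ ∩ B^{×p} = ⟨α⟩ · F^{×p}`. -/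
theorem s14_i2k_kummer_lemma (p : ℕ) (hp : p.Prime) (hdeg : Module.finrank F B = p)
    (ζ : F) (hζ : IsPrimitiveRoot ζ p) (α : F) (β : B) (hα : α ≠ 0)
    (hβ : β ^ p = algebraMap F B α) (hβtop : F⟮β⟯ = ⊤) (u : F) (γ : B)
    (hγ : γ ^ p = algebraMap F B u) :
    ∃ (k : ℕ) (c : F), k < p ∧ u = α ^ k * c ^ p := by
  classical
  haveI : NeZero p := ⟨hp.ne_zero⟩
  haveI : Fact p.Prime := ⟨hp⟩
  haveI hcyc := s14_i2k_isCyclic (F := F) (B := B) p hp hdeg
  have hinj : Function.Injective (algebraMap F B) := (algebraMap F B).injective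
  have hβ0 : β ≠ 0 := by
    rintro rfl
    rw [zero_pow hp.ne_zero] at hβ
    exact hα (hinj (by rw [map_zero]; exact hβ.symm))
  -- a generator of the Galois group
  obtain ⟨σ, hσ⟩ := hcyc.exists_generator
  -- the action on `β`
  obtain ⟨i, hi, hσβ⟩ := s14_i2k_eq_zeta_pow_mul p hp ζ hζ (σ β) β hβ0
    (by rw [← map_pow, hβ, AlgEquiv.commutes])
  -- `i ≠ 0`
  have hi0 : i ≠ 0 := by
    rintro rfl
    rw [pow_zero, map_one, one_mul] at hσβ
    -- `σ` fixes `β`, hence everything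
    have hσ1 : σ = 1 := by
      have hfix : ∀ x ∈ F⟮β⟯, σ x = x := by
        intro x hx
        induction hx using IntermediateField.adjoin_induction with
        | mem y hy =>
          rw [Set.mem_singleton_iff] at hy
          rw [hy, hσβ]
        | algebraMap y => exact σ.commutes y
        | add x y _ _ hx hy => rw [map_add, hx, hy]
        | inv x _ hx => rw [map_inv₀, hx]
        | mul x y _ _ hx hy => rw [map_mul, hx, hy]
      ext x
      exact hfix x (hβtop ▸ IntermediateField.mem_top)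
    -- then the group is trivial
    have hcard : Nat.card (B ≃ₐ[F] B) = p := by rw [IsGalois.card_aut_eq_finrank, hdeg]
    have htriv : ∀ τ : B ≃ₐ[F] B, τ = 1 := by
      intro τ
      obtain ⟨n, hn⟩ := Subgroup.mem_zpowers_iff.mp (hσ τ)
      rw [← hn, hσ1, one_zpow]
    have : Nat.card (B ≃ₐ[F] B) = 1 := by
      haveI : Subsingleton (B ≃ₐ[F] B) := ⟨fun a b => by rw [htriv a, htriv b]⟩
      exact Nat.card_unique
    rw [hcard] at this
    exact hp.one_lt.ne' this
  -- the action on `γ`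
  by_cases hγ0 : γ = 0
  · refine ⟨0, 0, hp.pos, ?_⟩
    rw [hγ0, zero_pow hp.ne_zero] at hγ
    rw [pow_zero, one_mul, zero_pow hp.ne_zero]
    exact hinj (by rw [map_zero]; exact hγ.symm)
  obtain ⟨j, hj, hσγ⟩ := s14_i2k_eq_zeta_pow_mul p hp ζ hζ (σ γ) γ hγ0
    (by rw [← map_pow, hγ, AlgEquiv.commutes])
  -- choose `k` with `i * k ≡ j mod p`
  have hcop : Nat.Coprime i p := by
    rw [Nat.coprime_comm, Nat.Prime.coprime_iff_not_dvd hp]
    intro h
    have := Nat.le_of_dvd (Nat.pos_of_ne_zero hi0) h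
    omega
  obtain ⟨k, hk, hkmod⟩ : ∃ k : ℕ, k < p ∧ (i * k) % p = j % p := by
    have hiu : IsUnit (i : ZMod p) := (ZMod.isUnit_iff_coprime i p).mpr hcop
    obtain ⟨v, hv⟩ := hiu
    refine ⟨(((v⁻¹ : (ZMod p)ˣ) : ZMod p) * (j : ZMod p)).val, ZMod.val_lt _, ?_⟩
    have : ((i * (((v⁻¹ : (ZMod p)ˣ) : ZMod p) * (j : ZMod p)).val : ℕ) : ZMod p) =
        ((j : ℕ) : ZMod p) := by
      rw [Nat.cast_mul, ZMod.natCast_zmod_val, ← hv, ← mul_assoc, Units.mul_inv, one_mul]
    exact (ZMod.natCast_eq_natCast_iff' _ _ _).mp this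
  -- `δ = γ / β ^ k` is fixed by `σ`
  have hζpow : ∀ a b : ℕ, a % p = b % p → ζ ^ a = ζ ^ b := by
    intro a b hab
    rw [← Nat.div_add_mod a p, ← Nat.div_add_mod b p, pow_add, pow_add, pow_mul, pow_mul,
      hζ.pow_eq_one, one_pow, one_pow, hab]
  have hδ : σ (γ / β ^ k) = γ / β ^ k := by
    rw [map_div₀, map_pow, hσγ, hσβ, mul_pow, ← map_pow, ← pow_mul, hζpow _ _ hkmod]
    have h1 : algebraMap F B (ζ ^ j) ≠ 0 := by
      rw [Ne, map_eq_zero]
      exact pow_ne_zero _ (hζ.ne_zero hp.ne_zero)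
    field_simp
  have hδall : ∀ τ : B ≃ₐ[F] B, τ (γ / β ^ k) = γ / β ^ k := by
    intro τ
    obtain ⟨n, hn⟩ := Subgroup.mem_zpowers_iff.mp (hσ τ)
    rw [← hn]
    have hfix : σ ∈ MulAction.stabilizer (B ≃ₐ[F] B) (γ / β ^ k) := hδ
    exact (Subgroup.zpow_mem _ hfix n)
  obtain ⟨c, hc⟩ := (IntermediateField.mem_bot).mp
    ((IsGalois.mem_bot_iff_fixed (F := F) (E := B) _).mpr hδall)
  refine ⟨k, c, hk, hinj ?_⟩
  rw [map_mul, map_pow, map_pow, hc, ← hβ, ← hγ, div_pow, ← pow_mul, ← pow_mul, mul_comm p k,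
    mul_div_cancel₀ _ (pow_ne_zero _ hβ0)]

end cyclic

end Fermat.Agent.S14
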