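import Mathlib
import Fermat.Agent.S14.Defs
import Fermat.Agent.S14.CrossingDefs
import Fermat.Agent.S14.I2Kummer

set_option autoImplicit false

/-!
# S14 (CR-AUX): the auxiliary prime of the crossing argument

`s14_cra_main : s14_stmt_Z → s14_stmt_CRA_lp → s14_stmt_CR_aux`.
-/

namespace Fermat.Agent.S14

open NumberField IsDedekindDomain IntermediateField

/-- The tame local input (LP1s): if `N = F(a)`, `a ^ p = y`, `v ∤ p y` and `y` is a `p`-th power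
residue modulo `v`, then `v` splits completely in `N`. -/
def s14_stmt_CRA_lp : Prop :=
  ∀ (F N : Type) [Field F] [NumberField F] [Field N] [NumberField N] [Algebra F N]
    [IsGalois F N] (p : ℕ), p.Prime → (∃ ζ : F, IsPrimitiveRoot ζ p) →
    ∀ (v : HeightOneSpectrum (𝓞 F)), (p : 𝓞 F) ∉ v.asIdeal →
    ∀ (y c : 𝓞 F) (a : N), y ∉ v.asIdeal → a ^ p = algebraMap F N (y : F) → F⟮a⟯ = ⊤ →
      y - c ^ p ∈ v.asIdeal → s14_Splits F N v.asIdeal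

/-- A rational number which is a `p`-th power in `ℚ(ζ_p)` is a `p`-th power in `ℚ`. -/
theorem s14_cra_rat_pow (p : ℕ) (hp : p.Prime) (K : Type*) [Field K] [NumberField K]
    [IsCyclotomicExtension {p} ℚ K] (x : ℚ) (c : K) (hc : c ^ p = algebraMap ℚ K x) :
    ∃ d : ℚ, d ^ p = x := by
  haveI : NeZero p := ⟨hp.ne_zero⟩
  by_cases hx : x = 0
  · exact ⟨0, by rw [hx, zero_pow hp.ne_zero]⟩
  have hrank : Module.finrank ℚ K = p - 1 := by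
    rw [IsCyclotomicExtension.finrank (n := p) K
      (Polynomial.cyclotomic.irreducible_rat hp.pos), Nat.totient_prime hp]
  have h1 : (Algebra.norm ℚ c) ^ p = x ^ (p - 1) := by
    rw [← map_pow, hc, Algebra.norm_algebraMap, hrank]
  have hN0 : Algebra.norm ℚ c ≠ 0 := by
    intro h
    rw [h, zero_pow hp.ne_zero] at h1
    exact pow_ne_zero _ hx h1.symm
  refine ⟨x / Algebra.norm ℚ c, ?_⟩
  rw [div_pow, h1]
  have : x ^ p = x ^ (p - 1) * x := by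
    rw [← pow_succ, Nat.sub_add_cancel hp.one_le]
  rw [this, mul_comm, mul_div_assoc, div_self (pow_ne_zero _ hx), mul_one]

/-- Valuation bookkeeping in `ℚ`. -/
theorem s14_cra_padic (p ℓ₁ ℓ₂ : ℕ) (hp : p ≠ 0) (hℓ₁ : ℓ₁.Prime) (hℓ₂ : ℓ₂.Prime)
    (hne : ℓ₁ ≠ ℓ₂)
    (a₁ a₂ b₁ b₂ : ℕ) (d : ℚ)
    (hd : d ^ p * ((ℓ₁ : ℚ) ^ a₁ * (ℓ₂ : ℚ) ^ a₂) = (ℓ₁ : ℚ) ^ b₁ * (ℓ₂ : ℚ) ^ b₂) :
    (p : ℤ) ∣ (b₁ : ℤ) - a₁ ∧ (p : ℤ) ∣ (b₂ : ℤ) - a₂ := by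
  haveI : Fact ℓ₁.Prime := ⟨hℓ₁⟩
  haveI : Fact ℓ₂.Prime := ⟨hℓ₂⟩
  have h1 : (ℓ₁ : ℚ) ≠ 0 := Nat.cast_ne_zero.mpr hℓ₁.ne_zero
  have h2 : (ℓ₂ : ℚ) ≠ 0 := Nat.cast_ne_zero.mpr hℓ₂.ne_zero
  have hd0 : d ≠ 0 := by
    rintro rfl
    rw [zero_pow hp, zero_mul] at hd
    exact (mul_ne_zero (pow_ne_zero _ h1) (pow_ne_zero _ h2)) hd.symm
  have key : ∀ (ℓ : ℕ) [Fact ℓ.Prime], padicValRat ℓ (d ^ p * ((ℓ₁ : ℚ) ^ a₁ * (ℓ₂ : ℚ) ^ a₂)) =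
      p * padicValRat ℓ d + (a₁ * padicValRat ℓ (ℓ₁ : ℚ) + a₂ * padicValRat ℓ (ℓ₂ : ℚ)) := by
    intro ℓ _
    rw [padicValRat.mul (pow_ne_zero _ hd0) (mul_ne_zero (pow_ne_zero _ h1) (pow_ne_zero _ h2)),
      padicValRat.mul (pow_ne_zero _ h1) (pow_ne_zero _ h2), padicValRat.pow, padicValRat.pow,
      padicValRat.pow]
  have key' : ∀ (ℓ : ℕ) [Fact ℓ.Prime], padicValRat ℓ ((ℓ₁ : ℚ) ^ b₁ * (ℓ₂ : ℚ) ^ b₂) =
      (b₁ * padicValRat ℓ (ℓ₁ : ℚ) + b₂ * padicValRat ℓ (ℓ₂ : ℚ)) := by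
    intro ℓ _
    rw [padicValRat.mul (pow_ne_zero _ h1) (pow_ne_zero _ h2), padicValRat.pow, padicValRat.pow]
  have v11 : padicValRat ℓ₁ (ℓ₁ : ℚ) = 1 := padicValRat.self hℓ₁.one_lt
  have v22 : padicValRat ℓ₂ (ℓ₂ : ℚ) = 1 := padicValRat.self hℓ₂.one_lt
  have v12 : padicValRat ℓ₁ (ℓ₂ : ℚ) = 0 := by
    rw [padicValRat.of_nat, padicValNat_primes hne, Nat.cast_zero]
  have v21 : padicValRat ℓ₂ (ℓ₁ : ℚ) = 0 := by
    rw [padicValRat.of_nat, padicValNat_primes hne.symm, Nat.cast_zero]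
  constructor
  · have := key ℓ₁
    rw [hd, key' ℓ₁, v11, v12] at this
    exact ⟨padicValRat ℓ₁ d, by linarith⟩
  · have := key ℓ₂
    rw [hd, key' ℓ₂, v22, v21] at this
    exact ⟨padicValRat ℓ₂ d, by linarith⟩

set_option maxHeartbeats 1000000 in
/-- **(AUX)** the auxiliary prime. -/
theorem s14_cra_main (hZ : s14_stmt_Z) (hLP : s14_stmt_CRA_lp) : s14_stmt_CR_aux := by
  intro p hpF hp2 ℓ₁ ℓ₂ hℓ₁ hℓ₂ hne f₁ f₂ k hf₁ hf₂ T0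
  classical
  have hp : p.Prime := hpF.out
  haveI : NeZero p := ⟨hp.ne_zero⟩
  haveI : NeZero ((p : ℕ) : ℚ) := ⟨Nat.cast_ne_zero.mpr hp.ne_zero⟩
  -- the cyclotomic field
  haveI : IsCyclotomicExtension {p} ℚ (CyclotomicField p ℚ) :=
    CyclotomicField.isCyclotomicExtension p ℚ
  have hζ : IsPrimitiveRoot (IsCyclotomicExtension.zeta p ℚ (CyclotomicField p ℚ)) p :=
    IsCyclotomicExtension.zeta_spec p ℚ (CyclotomicField p ℚ)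
  set ζ : CyclotomicField p ℚ := IsCyclotomicExtension.zeta p ℚ (CyclotomicField p ℚ) with hζdef
  set βn : ℕ := ℓ₂ ^ f₂ * ℓ₁ ^ (f₁ * k) with hβn
  set αn : ℕ := ℓ₁ ^ f₁ with hαn
  have hβn0 : βn ≠ 0 := by
    rw [hβn]
    exact Nat.mul_ne_zero (pow_ne_zero _ hℓ₂.ne_zero) (pow_ne_zero _ hℓ₁.ne_zero)
  have hαn0 : αn ≠ 0 := pow_ne_zero _ hℓ₁.ne_zero
  -- `β` is not a `p`-th power in `K`
  have hβ : ∀ b : CyclotomicField p ℚ, b ^ p ≠ ((βn : ℕ) : CyclotomicField p ℚ) := by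
    intro b hb
    obtain ⟨d, hd⟩ := s14_cra_rat_pow p hp (CyclotomicField p ℚ) (βn : ℚ) b
      (by rw [hb, map_natCast])
    have := s14_cra_padic p ℓ₁ ℓ₂ hp.ne_zero hℓ₁ hℓ₂ hne 0 0 (f₁ * k) f₂ d
      (by rw [hd, hβn]; push_cast; ring)
    have h2 := this.2
    rw [Nat.cast_zero, sub_zero] at h2
    exact hf₂ (Int.natCast_dvd_natCast.mp h2)
  -- the first Kummer extension
  obtain ⟨K₁, _, _, _, _, b₁, hdeg₁, hb₁, htop₁⟩ :=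
    s14_i2k_exists_kummer (CyclotomicField p ℚ) p hp ζ hζ ((βn : ℕ) : CyclotomicField p ℚ) hβ
  haveI : FiniteDimensional (CyclotomicField p ℚ) K₁ :=
    Module.finite_of_finrank_pos (by rw [hdeg₁]; exact hp.pos)
  have hβ0 : ((βn : ℕ) : CyclotomicField p ℚ) ≠ 0 := Nat.cast_ne_zero.mpr hβn0
  -- `α` is not a `p`-th power in `K₁`
  have hα : ∀ g : K₁, g ^ p ≠ ((αn : ℕ) : K₁) := by
    intro g hg
    obtain ⟨j, c, hj, hc⟩ := s14_i2k_kummer_lemma p hp hdeg₁ ζ hζ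
      ((βn : ℕ) : CyclotomicField p ℚ) b₁ hβ0 hb₁ htop₁ ((αn : ℕ) : CyclotomicField p ℚ) g
      (by rw [hg, map_natCast])
    have hc' : c ^ p = algebraMap ℚ (CyclotomicField p ℚ) ((αn : ℚ) / (βn : ℚ) ^ j) := by
      rw [map_div₀, map_pow, map_natCast, map_natCast, hc]
      field_simp
    obtain ⟨d, hd⟩ := s14_cra_rat_pow p hp (CyclotomicField p ℚ) _ c hc'
    have hβq : (βn : ℚ) ≠ 0 := Nat.cast_ne_zero.mpr hβn0
    have hd' : d ^ p * ((ℓ₁ : ℚ) ^ (f₁ * k * j) * (ℓ₂ : ℚ) ^ (f₂ * j)) =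
        (ℓ₁ : ℚ) ^ f₁ * (ℓ₂ : ℚ) ^ 0 := by
      rw [hd, pow_zero, mul_one]
      have : ((ℓ₁ : ℚ) ^ (f₁ * k * j) * (ℓ₂ : ℚ) ^ (f₂ * j)) = (βn : ℚ) ^ j := by
        rw [hβn]; push_cast; ring
      rw [this, div_mul_cancel₀ _ (pow_ne_zero _ hβq), hαn]
      push_cast
      rfl
    obtain ⟨h1, h2⟩ := s14_cra_padic p ℓ₁ ℓ₂ hp.ne_zero hℓ₁ hℓ₂ hne _ _ _ _ d hd'
    -- `p ∣ f₂ * j`, hence `j = 0`
    have hj0 : j = 0 := by
      have h3 : (p : ℤ) ∣ ((f₂ * j : ℕ) : ℤ) := by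
        have := dvd_neg.mpr h2
        rwa [Nat.cast_zero, zero_sub, neg_neg] at this
      have h4 : p ∣ f₂ * j := Int.natCast_dvd_natCast.mp h3
      rcases (Nat.Prime.dvd_mul hp).mp h4 with h5 | h5
      · exact absurd h5 hf₂
      · by_contra hne0
        have := Nat.le_of_dvd (Nat.pos_of_ne_zero hne0) h5
        omega
    rw [hj0, mul_zero, Nat.cast_zero, sub_zero] at h1
    exact hf₁ (Int.natCast_dvd_natCast.mp h1)
  -- the second Kummer extension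
  have hζ₁ : IsPrimitiveRoot (algebraMap (CyclotomicField p ℚ) K₁ ζ) p :=
    hζ.map_of_injective (algebraMap (CyclotomicField p ℚ) K₁).injective
  obtain ⟨K₂, _, _, _, _, a₂, hdeg₂, ha₂, htop₂⟩ :=
    s14_i2k_exists_kummer K₁ p hp _ hζ₁ ((αn : ℕ) : K₁) hα
  -- apply (Z)
  obtain ⟨q, r, hr, hrT, hN, -, hnsplit⟩ := hZ K₁ K₂ p hp hdeg₂ (T0 ∪ {p, ℓ₁, ℓ₂})
  have hrT0 : r ∉ T0 := fun h => hrT (Finset.mem_union_left _ h)
  have hrp : r ≠ p := fun h => hrT (Finset.mem_union_right _ (by rw [h]; simp))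
  have hrℓ₁ : r ≠ ℓ₁ := fun h => hrT (Finset.mem_union_right _ (by rw [h]; simp))
  -- the residue field
  haveI : q.asIdeal.IsMaximal := q.isMaximal
  letI : Field (𝓞 K₁ ⧸ q.asIdeal) := Ideal.Quotient.field q.asIdeal
  letI : Fintype (𝓞 K₁ ⧸ q.asIdeal) := Fintype.ofFinite _
  have hcardF : Fintype.card (𝓞 K₁ ⧸ q.asIdeal) = r := by
    rw [← hN, Ideal.absNorm_apply, Submodule.cardQuot_apply, Nat.card_eq_fintype_card]
  haveI : NeZero r := ⟨hr.ne_zero⟩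
  set e : ZMod r ≃+* (𝓞 K₁ ⧸ q.asIdeal) := ZMod.ringEquivOfPrime (𝓞 K₁ ⧸ q.asIdeal) hr hcardF
    with he
  set π : 𝓞 K₁ →+* (𝓞 K₁ ⧸ q.asIdeal) := Ideal.Quotient.mk q.asIdeal with hπ
  have hπker : ∀ x : 𝓞 K₁, π x = 0 ↔ x ∈ q.asIdeal := fun x => Ideal.Quotient.eq_zero_iff_mem
  have hnat : ∀ n : ℕ, ((n : 𝓞 K₁) ∈ q.asIdeal ↔ r ∣ n) := by
    intro n
    rw [← hπker, map_natCast, ← map_natCast e, map_eq_zero_iff e e.injective,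
      ZMod.natCast_eq_zero_iff]
  refine ⟨r, hr, hrT0, ?_, ?_, ?_⟩
  · -- `p ∣ r - 1`
    set ζ₁ : 𝓞 K₁ := hζ₁.toInteger with hζ₁def
    have hζ₁' : IsPrimitiveRoot ζ₁ p := hζ₁.toInteger_isPrimitiveRoot
    have hπζ : IsPrimitiveRoot (π ζ₁) p := by
      refine hζ₁'.idealQuotient_mk ?_ ?_
      · rw [hN]; exact hr.one_lt.ne'
      · rw [hN]; exact (Nat.coprime_primes hr hp).mpr hrp
    apply hπζ.dvd_of_pow_eq_one
    have := FiniteField.pow_card_sub_one_eq_one (π ζ₁) (hπζ.ne_zero hp.ne_zero)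
    rwa [hcardF] at this
  · -- `α` is not a `p`-th power modulo `r`
    rintro ⟨w, hw⟩
    apply hnsplit
    have hpq : (p : 𝓞 K₁) ∉ q.asIdeal := by
      rw [hnat]
      exact fun h => hrp ((Nat.prime_dvd_prime_iff_eq hr hp).mp h)
    have hy : ((αn : ℕ) : 𝓞 K₁) ∉ q.asIdeal := by
      rw [hnat, hαn]
      exact fun h => hrℓ₁ ((Nat.prime_dvd_prime_iff_eq hr hℓ₁).mp (hr.dvd_of_dvd_pow h))
    have hyc : ((αn : ℕ) : 𝓞 K₁) - ((w.val : ℕ) : 𝓞 K₁) ^ p ∈ q.asIdeal := by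
      rw [← hπker, map_sub, map_pow, map_natCast, map_natCast, ← map_natCast e,
        ← map_natCast e, ZMod.natCast_zmod_val, ← map_pow, ← hw, hαn, Nat.cast_pow, sub_self]
    refine hLP K₁ K₂ p hp ⟨_, hζ₁⟩ q hpq ((αn : ℕ) : 𝓞 K₁) ((w.val : ℕ) : 𝓞 K₁) a₂ hy ?_
      htop₂ hyc
    rw [ha₂]
    simp
  · -- `β` is a `p`-th power modulo `r`
    have hb₁' : b₁ ^ p = ((βn : ℕ) : K₁) := by rw [hb₁, map_natCast]
    have hint : IsIntegral ℤ b₁ := by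
      refine IsIntegral.of_pow hp.pos ?_
      rw [hb₁']
      exact isIntegral_natCast _
    set B₁ : 𝓞 K₁ := ⟨b₁, hint⟩ with hB₁
    have hB₁p : B₁ ^ p = ((βn : ℕ) : 𝓞 K₁) := by
      apply RingOfIntegers.coe_injective
      change (algebraMap (𝓞 K₁) K₁) (B₁ ^ p) = (algebraMap (𝓞 K₁) K₁) ((βn : ℕ) : 𝓞 K₁)
      rw [map_pow, map_natCast]
      exact hb₁'
    refine ⟨e.symm (π B₁), ?_⟩
    rw [← map_pow, ← map_pow, hB₁p, map_natCast, map_natCast, hβn]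
    push_cast
    rfl

end Fermat.Agent.S14
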