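import Mathlib
import Fermat.Agent.S14.Defs
import Fermat.Agent.S14.CrossingDefs
import Fermat.Agent.S14.I2Kummer
import Fermat.Agent.S14.CrossingAux

set_option autoImplicit false

/-!
# S14 (CR-AUX): the tame local input, proved directly

If `N = F(a)`, `a ^ p = y`, `v ∤ p y` and `y ≡ c ^ p mod v`, then every prime of `N` above `v`
has trivial decomposition group.  Consequently `s14_stmt_CR_aux` follows from `s14_stmt_Z` alone.
-/

namespace Fermat.Agent.S14

open NumberField IsDedekindDomain IntermediateField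
open scoped Pointwise

set_option maxHeartbeats 1000000 in
/-- The tame splitting criterion (integral form of LP1s). -/
theorem s14_cra_lp : s14_stmt_CRA_lp := by
  intro F N _ _ _ _ _ _ p hp hζex v hpv y c a hy ha htop hyc Q hQ hQv
  classical
  haveI : NeZero p := ⟨hp.ne_zero⟩
  haveI := hQ
  obtain ⟨ζ, hζ⟩ := hζex
  have hζN : IsPrimitiveRoot (algebraMap F N ζ) p :=
    hζ.map_of_injective (algebraMap F N).injective
  -- membership in `v` via `Q`
  have hunder : ∀ x : 𝓞 F, x ∈ v.asIdeal ↔ algebraMap (𝓞 F) (𝓞 N) x ∈ Q := by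
    intro x
    rw [← hQv, Ideal.under_def, Ideal.mem_comap]
  -- `a` as an algebraic integer
  have hint : IsIntegral ℤ a := by
    refine IsIntegral.of_pow hp.pos ?_
    rw [ha]
    exact (RingOfIntegers.isIntegral_coe y).map (IsScalarTower.toAlgHom ℤ F N)
  set A : 𝓞 N := ⟨a, hint⟩ with hA
  have hAp : A ^ p = algebraMap (𝓞 F) (𝓞 N) y := by
    apply RingOfIntegers.coe_injective
    change (algebraMap (𝓞 N) N) (A ^ p) = algebraMap F N (y : F)
    rw [map_pow]
    exact ha
  have hAQ : A ∉ Q := by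
    intro h
    have : A ^ p ∈ Q := Ideal.pow_mem_of_mem Q h p hp.pos
    rw [hAp, ← hunder] at this
    exact hy this
  have ha0 : a ≠ 0 := by
    rintro rfl
    apply hAQ
    have : A = 0 := RingOfIntegers.coe_injective rfl
    rw [this]
    exact Q.zero_mem
  -- the integral primitive root
  set Z : 𝓞 N := hζN.toInteger with hZ
  have hZprim : IsPrimitiveRoot Z p := hζN.toInteger_isPrimitiveRoot
  have hZcoe : ((Z : 𝓞 N) : N) = algebraMap F N ζ := rfl
  -- the stabiliser is trivial
  rw [Subgroup.eq_bot_iff_forall]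
  intro σ hσ
  rw [MulAction.mem_stabilizer_iff] at hσ
  -- `σ` fixes the image of `F`
  have hσF : ∀ x : 𝓞 F, σ • (algebraMap (𝓞 F) (𝓞 N) x) = algebraMap (𝓞 F) (𝓞 N) x := by
    intro x
    apply RingOfIntegers.coe_injective
    change σ (algebraMap F N (x : F)) = algebraMap F N (x : F)
    exact σ.commutes _
  -- `σ` fixes the `p`-th roots of unity
  have hσμ : ∀ μ : 𝓞 N, μ ^ p = 1 → σ • μ = μ := by
    intro μ hμ
    obtain ⟨m, -, hm⟩ := hZprim.eq_pow_of_pow_eq_one hμ
    rw [← hm]
    apply RingOfIntegers.coe_injective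
    change σ (((Z ^ m : 𝓞 N) : 𝓞 N) : N) = ((Z ^ m : 𝓞 N) : N)
    have : ((Z ^ m : 𝓞 N) : N) = algebraMap F N (ζ ^ m) := by
      rw [map_pow]
      change (algebraMap (𝓞 N) N) (Z ^ m) = _
      rw [map_pow]
      rfl
    rw [this]
    exact σ.commutes _
  -- a factor of `A ^ p - C ^ p` lies in `Q`
  have hprod : A ^ p - (algebraMap (𝓞 F) (𝓞 N) c) ^ p ∈ Q := by
    rw [hAp, ← map_pow, ← map_sub, ← hunder]
    exact hyc
  rw [hZprim.pow_sub_pow_eq_prod_sub_mul _ _ hp.pos, Ideal.IsPrime.prod_mem_iff] at hprod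
  obtain ⟨μ, hμ, hμQ⟩ := hprod
  rw [Polynomial.mem_nthRootsFinset hp.pos] at hμ
  -- hence `σ A ≡ A mod Q`
  have h1 : σ • A - A ∈ Q := by
    have h2 : σ • (A - μ * algebraMap (𝓞 F) (𝓞 N) c) ∈ Q := by
      have := Ideal.smul_mem_pointwise_smul σ _ Q hμQ
      rwa [hσ] at this
    rw [smul_sub, smul_mul', hσμ μ hμ, hσF] at h2
    have := Q.sub_mem h2 hμQ
    rwa [sub_sub_sub_cancel_right] at this
  -- `σ a = ζ ^ i a`
  obtain ⟨i, hi, hσa⟩ := s14_i2k_eq_zeta_pow_mul p hp ζ hζ (σ a) a ha0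
    (by rw [← map_pow, ha, AlgEquiv.commutes])
  have hσA : σ • A = Z ^ i * A := by
    apply RingOfIntegers.coe_injective
    change σ a = (algebraMap (𝓞 N) N) (Z ^ i * A)
    rw [map_mul, map_pow, hσa, map_pow]
    rfl
  have h3 : (Z ^ i - 1) * A ∈ Q := by
    have : (Z ^ i - 1) * A = σ • A - A := by rw [hσA]; ring
    rw [this]
    exact h1
  have h4 : Z ^ i - 1 ∈ Q := (hQ.mem_or_mem h3).resolve_right hAQ
  -- `i = 0`
  have hi0 : i = 0 := by
    by_contra hne
    have hcop : Nat.Coprime i p := by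
      rw [Nat.coprime_comm, Nat.Prime.coprime_iff_not_dvd hp]
      intro h
      have := Nat.le_of_dvd (Nat.pos_of_ne_zero hne) h
      omega
    -- in the quotient, the image of `Z` is `1`
    set π : 𝓞 N →+* (𝓞 N ⧸ Q) := Ideal.Quotient.mk Q with hπ
    have hz1 : (π Z) ^ i = 1 := by
      have := Ideal.Quotient.eq_zero_iff_mem.mpr h4
      rwa [map_sub, map_pow, map_one, sub_eq_zero] at this
    have hz2 : (π Z) ^ p = 1 := by
      rw [← map_pow, hZprim.pow_eq_one, map_one]
    have hz : π Z = 1 := by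
      have := pow_gcd_eq_one.mpr ⟨hz1, hz2⟩
      rwa [hcop, pow_one] at this
    have hsum := hZprim.geom_sum_eq_zero hp.one_lt
    have hsum' := congrArg π hsum
    rw [map_sum, map_zero] at hsum'
    simp only [map_pow, hz, one_pow, Finset.sum_const, Finset.card_range, nsmul_eq_mul,
      mul_one] at hsum'
    have hpQ : (p : 𝓞 N) ∈ Q := by
      rw [← Ideal.Quotient.eq_zero_iff_mem, map_natCast]
      exact hsum'
    apply hpv
    rw [hunder, map_natCast]
    exact hpQ
  -- conclusion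
  rw [hi0, pow_zero, map_one, one_mul] at hσa
  have hfix : ∀ x ∈ F⟮a⟯, σ x = x := by
    intro x hx
    induction hx using IntermediateField.adjoin_induction with
    | mem z hz =>
      rw [Set.mem_singleton_iff] at hz
      rw [hz, hσa]
    | algebraMap z => exact σ.commutes z
    | add x z _ _ hx hz => rw [map_add, hx, hz]
    | inv x _ hx => rw [map_inv₀, hx]
    | mul x z _ _ hx hz => rw [map_mul, hx, hz]
  ext x
  exact hfix x (htop ▸ IntermediateField.mem_top)

/-- **(AUX)** from (Z) alone. -/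
theorem s14_cra_aux_of_Z (hZ : s14_stmt_Z) : s14_stmt_CR_aux :=
  s14_cra_main hZ s14_cra_lp

end Fermat.Agent.S14
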