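import Mathlib
import Fermat.Agent.S14.Defs

/-!
# S14 (CR) crossing — internal interface statements, part 2 (OWNER: helper9)

* `s14_stmt_CR_setup` (MS): the field `M = L(ζ_r)` with its cyclotomic character on `Gal(M/K)`.
* `s14_stmt_CR_nk` (NK): primes of `ℚ(ζ_p)` above `r ≡ 1 mod p` have absolute norm `r`.
* `s14_stmt_CR_nq` (NQ): the absolute norm of a prime of `ℚ(ζ_p)` is `ℓ ^ f` with `p ∤ f`.
-/

set_option autoImplicit false

namespace Fermat.Agent.S14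

open scoped NumberField Pointwise

/-- **(MS)** the field `M = L(ζ_r)`: for `L/K` abelian there are a number field `M ⊇ L`, Galois
and abelian over `K`, with `M = L(ζ_r)`, a primitive `r`-th root of unity `ζ ∈ M` and the
cyclotomic character `χ : Gal(M/K) → (ℤ/r)ˣ`, `τ ζ = ζ ^ χ(τ)`. -/
def s14_stmt_CR_setup : Prop :=
  ∀ (r : ℕ) [Fact r.Prime] (K L : Type) [Field K] [NumberField K] [Field L] [NumberField L]
    [Algebra K L] [IsGalois K L], (∀ σ τ : L ≃ₐ[K] L, σ * τ = τ * σ) →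
    ∃ (M : Type) (_ : Field M) (_ : NumberField M) (_ : Algebra K M) (_ : Algebra L M)
      (_ : IsScalarTower K L M) (_ : IsGalois K M) (_ : IsGalois L M)
      (_ : IsCyclotomicExtension {r} L M) (ζ : M) (χ : (M ≃ₐ[K] M) →* (ZMod r)ˣ),
      IsPrimitiveRoot ζ r ∧ (∀ σ τ : M ≃ₐ[K] M, σ * τ = τ * σ) ∧
      (∀ τ : M ≃ₐ[K] M, τ ζ = ζ ^ ((χ τ : ZMod r).val))

/-- **(NK)** a prime of `K = ℚ(ζ_p)` above a prime number `r ≡ 1 mod p` has absolute norm `r`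
(`r` splits completely in `K`). -/
def s14_stmt_CR_nk : Prop :=
  ∀ (p : ℕ) [Fact p.Prime] (K : Type) [Field K] [NumberField K]
    [IsCyclotomicExtension {p} ℚ K] (r : ℕ), r.Prime → p ∣ r - 1 →
    ∀ 𝔭 : Ideal (𝓞 K), 𝔭.IsPrime → (r : 𝓞 K) ∈ 𝔭 → Ideal.absNorm 𝔭 = r

/-- **(NQ)** the absolute norm of a nonzero prime `q` of `K = ℚ(ζ_p)` is `ℓ ^ f` with `ℓ` the
prime number below `q` and `p ∤ f`. -/
def s14_stmt_CR_nq : Prop :=
  ∀ (p : ℕ) [Fact p.Prime] (K : Type) [Field K] [NumberField K]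
    [IsCyclotomicExtension {p} ℚ K] (q : Ideal (𝓞 K)), q.IsPrime → q ≠ ⊥ →
    ∃ ℓ f : ℕ, ℓ.Prime ∧ ¬ p ∣ f ∧ Ideal.absNorm q = ℓ ^ f ∧
      q.under ℤ = Ideal.span {(ℓ : ℤ)} ∧ (ℓ : 𝓞 K) ∈ q

end Fermat.Agent.S14
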