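import Mathlib
import Fermat.Agent.S14.ArtinCore

set_option autoImplicit false
set_option linter.style.haveILetI false
set_option linter.unusedSectionVars false

namespace Fermat.Agent.S14

open scoped NumberField Pointwise

noncomputable section

variable (K F L B : Type*) [Field K] [NumberField K] [Field F] [NumberField F]
  [Field L] [NumberField L] [Field B] [NumberField B]
  [Algebra K F] [Algebra K L] [Algebra F B] [Algebra L B] [Algebra K B]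
  [IsScalarTower K F B] [IsScalarTower K L B] [IsGalois K L] [IsGalois F B]


/-- Restriction `Gal(B/F) → Gal(L/K)`. -/
def s14_ar_res (σ : B ≃ₐ[F] B) : L ≃ₐ[K] L :=
  (σ.restrictScalars K).restrictNormal L

theorem s14_ar_res_commutes (σ : B ≃ₐ[F] B) (x : L) :
    algebraMap L B (s14_ar_res K F L B σ x) = σ (algebraMap L B x) :=
  AlgEquiv.restrictNormal_commutes (σ.restrictScalars K) L x

theorem s14_ar_res_smul (σ : B ≃ₐ[F] B) (x : 𝓞 L) :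
    algebraMap (𝓞 L) (𝓞 B) (s14_ar_res K F L B σ • x) = σ • algebraMap (𝓞 L) (𝓞 B) x := by
  apply Subtype.ext
  exact s14_ar_res_commutes K F L B σ (x : L)

/-- Two elements of `Gal(N/F)` that are congruent modulo an inertia-free prime are equal. -/
theorem s14_ar_eq_of_congr (F N : Type*) [Field F] [NumberField F] [Field N] [NumberField N]
    [Algebra F N] [IsGalois F N] (Q : Ideal (𝓞 N)) (hunr : s14_ar_Unr F N Q)
    (σ τ : N ≃ₐ[F] N) (h : ∀ x : 𝓞 N, σ • x - τ • x ∈ Q) : σ = τ := by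
  have h1 : σ * τ⁻¹ = 1 := by
    apply hunr
    intro x
    have := h (τ⁻¹ • x)
    rw [smul_inv_smul] at this
    rw [mul_smul]
    exact this
  exact mul_inv_eq_one.mp h1

/-- residue cardinalities in a tower -/
theorem s14_ar_card_quot_pow (Q : Ideal (𝓞 F)) [Q.IsPrime] (hQ : Q ≠ ⊥) :
    Nat.card (𝓞 K ⧸ Q.under (𝓞 K)) ^ (Q.inertiaDeg (𝓞 K)) = Nat.card (𝓞 F ⧸ Q) := by
  haveI hQmax : Q.IsMaximal := Ring.DimensionLEOne.maximalOfPrime hQ inferInstance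
  haveI : (Q.under (𝓞 K)).IsMaximal := Ideal.IsMaximal.under (𝓞 K) Q
  have := Ideal.cardQuot_pow_inertiaDeg (Q.under (𝓞 K)) Q
  simpa [Submodule.cardQuot_apply] using this

/-- **Functoriality of the Frobenius element**: for `K ⊆ F ⊆ B`, `K ⊆ L ⊆ B` with `B/F` and `L/K`
abelian, the restriction to `L` of the Frobenius of a prime `Q` of `F` in `B/F` is the
`f(Q/q)`-th power of the Frobenius of `q = Q ∩ K` in `L/K`. -/
theorem s14_ar_frob_res (habB : ∀ σ τ : B ≃ₐ[F] B, σ * τ = τ * σ)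
    (habL : ∀ σ τ : L ≃ₐ[K] L, σ * τ = τ * σ)
    (Q : Ideal (𝓞 F)) [Q.IsPrime] (𝔔 : Ideal (𝓞 B)) [𝔔.IsPrime] (h𝔔 : 𝔔 ≠ ⊥)
    (h𝔔Q : 𝔔.under (𝓞 F) = Q) (hunrL : s14_ar_Unr K L (𝔔.under (𝓞 L))) :
    s14_ar_res K F L B (s14_ar_frob F B Q) =
      (s14_ar_frob K L (Q.under (𝓞 K))) ^ (Q.inertiaDeg (𝓞 K)) := by
  have hQ : Q ≠ ⊥ := by
    rw [← h𝔔Q]
    exact Ideal.under_ne_bot (𝓞 F) h𝔔
  have h𝔔L : 𝔔.under (𝓞 L) ≠ ⊥ := Ideal.under_ne_bot (𝓞 L) h𝔔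
  have hq : (𝔔.under (𝓞 L)).under (𝓞 K) = Q.under (𝓞 K) := by
    rw [Ideal.under_under, ← h𝔔Q, Ideal.under_under]
  have hσ' := s14_ar_frob_isArithFrobAt F B habB Q 𝔔 h𝔔 h𝔔Q
  have hφ := s14_ar_frob_isArithFrobAt K L habL (Q.under (𝓞 K)) (𝔔.under (𝓞 L)) h𝔔L hq
  set σ' := s14_ar_frob F B Q with hσ'def
  set φ := s14_ar_frob K L (Q.under (𝓞 K)) with hφdef
  set f := Q.inertiaDeg (𝓞 K) with hf
  apply s14_ar_eq_of_congr K L (𝔔.under (𝓞 L)) hunrL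
  intro x
  -- both sides are congruent to `x ^ c'`
  have hc : Nat.card (𝓞 K ⧸ (𝔔.under (𝓞 L)).under (𝓞 K)) ^ f = Nat.card (𝓞 F ⧸ 𝔔.under (𝓞 F)) := by
    rw [hq, h𝔔Q]
    exact s14_ar_card_quot_pow K F Q hQ
  have h1 : (φ ^ f) • x - x ^ Nat.card (𝓞 F ⧸ 𝔔.under (𝓞 F)) ∈ 𝔔.under (𝓞 L) := by
    rw [← Ideal.Quotient.eq, s14_ar_pow_mk K L (𝔔.under (𝓞 L)) φ hφ f x, map_pow, hc]
  have h2 : s14_ar_res K F L B σ' • x - x ^ Nat.card (𝓞 F ⧸ 𝔔.under (𝓞 F)) ∈ 𝔔.under (𝓞 L) := by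
    rw [Ideal.under_def, Ideal.mem_comap, map_sub, map_pow, s14_ar_res_smul]
    exact hσ' (algebraMap (𝓞 L) (𝓞 B) x)
  have := (𝔔.under (𝓞 L)).sub_mem h2 h1
  simpa using this

end

section base

variable (K L B : Type*) [Field K] [NumberField K]
  [Field L] [NumberField L] [Field B] [NumberField B]
  [Algebra K L] [Algebra L B] [Algebra K B]
  [IsScalarTower K L B] [IsGalois K L] [IsGalois K B]

theorem s14_ar_restrictNormal_smul (σ : B ≃ₐ[K] B) (x : 𝓞 L) :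
    algebraMap (𝓞 L) (𝓞 B) (σ.restrictNormal L • x) = σ • algebraMap (𝓞 L) (𝓞 B) x := by
  apply Subtype.ext
  exact AlgEquiv.restrictNormal_commutes σ L (x : L)

/-- **Functoriality, base case**: for `K ⊆ L ⊆ B` with `B/K` abelian, the Frobenius of `q` in
`B/K` restricts to the Frobenius of `q` in `L/K`. -/
theorem s14_ar_frob_restrictNormal (habB : ∀ σ τ : B ≃ₐ[K] B, σ * τ = τ * σ)
    (habL : ∀ σ τ : L ≃ₐ[K] L, σ * τ = τ * σ)
    (q : Ideal (𝓞 K)) (𝔔 : Ideal (𝓞 B)) [𝔔.IsPrime] (h𝔔 : 𝔔 ≠ ⊥)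
    (h𝔔q : 𝔔.under (𝓞 K) = q) (hunrL : s14_ar_Unr K L (𝔔.under (𝓞 L))) :
    (s14_ar_frob K B q).restrictNormal L = s14_ar_frob K L q := by
  have h𝔔L : 𝔔.under (𝓞 L) ≠ ⊥ := Ideal.under_ne_bot (𝓞 L) h𝔔
  have hq : (𝔔.under (𝓞 L)).under (𝓞 K) = q := by
    rw [Ideal.under_under, h𝔔q]
  have hσ' := s14_ar_frob_isArithFrobAt K B habB q 𝔔 h𝔔 h𝔔q
  have hφ := s14_ar_frob_isArithFrobAt K L habL q (𝔔.under (𝓞 L)) h𝔔L hq
  set σ' := s14_ar_frob K B q with hσ'def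
  set φ := s14_ar_frob K L q with hφdef
  apply s14_ar_eq_of_congr K L (𝔔.under (𝓞 L)) hunrL
  intro x
  have hc : Nat.card (𝓞 K ⧸ (𝔔.under (𝓞 L)).under (𝓞 K)) = Nat.card (𝓞 K ⧸ 𝔔.under (𝓞 K)) := by
    rw [hq, h𝔔q]
  have h1 : φ • x - x ^ Nat.card (𝓞 K ⧸ 𝔔.under (𝓞 K)) ∈ 𝔔.under (𝓞 L) := by
    rw [← hc]
    exact hφ x
  have h2 : σ'.restrictNormal L • x - x ^ Nat.card (𝓞 K ⧸ 𝔔.under (𝓞 K)) ∈ 𝔔.under (𝓞 L) := by
    rw [Ideal.under_def, Ideal.mem_comap, map_sub, map_pow, s14_ar_restrictNormal_smul]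
    exact hσ' (algebraMap (𝓞 L) (𝓞 B) x)
  have := (𝔔.under (𝓞 L)).sub_mem h2 h1
  simpa using this

end base

noncomputable section

end
end Fermat.Agent.S14
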