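import Mathlib
import Fermat.Agent.S14.ArtinCore
import Fermat.Agent.S14.ArtinFunct

set_option autoImplicit false
set_option linter.style.haveILetI false
set_option linter.unusedSectionVars false
set_option linter.unusedVariables false

/-!
# S14 (AR): restriction of Frobenius elements and of inertia in predicate form
-/

namespace Fermat.Agent.S14

open scoped NumberField Pointwise

noncomputable section

section base

variable (K L B : Type*) [Field K] [NumberField K]
  [Field L] [NumberField L] [Field B] [NumberField B]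
  [Algebra K L] [Algebra L B] [Algebra K B]
  [IsScalarTower K L B] [IsGalois K L] [IsGalois K B]

/-- **Restriction of a Frobenius element** (predicate form): for `K ⊆ L ⊆ B`, if `σ ∈ Gal(B/K)`
is a Frobenius element at `𝔔`, then `σ|_L` is a Frobenius element at `𝔔 ∩ L`. -/
theorem s14_ar_isArithFrobAt_restrictNormal (σ : B ≃ₐ[K] B) (𝔔 : Ideal (𝓞 B))
    (hσ : IsArithFrobAt (𝓞 K) σ 𝔔) :
    IsArithFrobAt (𝓞 K) (σ.restrictNormal L) (𝔔.under (𝓞 L)) := by
  intro x
  have hc : Nat.card (𝓞 K ⧸ (𝔔.under (𝓞 L)).under (𝓞 K)) = Nat.card (𝓞 K ⧸ 𝔔.under (𝓞 K)) := by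
    rw [Ideal.under_under]
  simp only [MulSemiringAction.toAlgHom_apply]
  rw [hc, Ideal.under_def, Ideal.mem_comap, map_sub, map_pow, s14_ar_restrictNormal_smul]
  exact hσ (algebraMap (𝓞 L) (𝓞 B) x)

/-- Restriction of inertia: an element of the inertia group of `𝔔` in `Gal(B/K)` restricts to an
element of the inertia group of `𝔔 ∩ L` in `Gal(L/K)`. -/
theorem s14_ar_inertia_restrictNormal (σ : B ≃ₐ[K] B) (𝔔 : Ideal (𝓞 B))
    (hσ : ∀ x : 𝓞 B, σ • x - x ∈ 𝔔) (x : 𝓞 L) :
    σ.restrictNormal L • x - x ∈ 𝔔.under (𝓞 L) := by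
  rw [Ideal.under_def, Ideal.mem_comap, map_sub, s14_ar_restrictNormal_smul]
  exact hσ (algebraMap (𝓞 L) (𝓞 B) x)

end base

section tower

variable (K F L B : Type*) [Field K] [NumberField K] [Field F] [NumberField F]
  [Field L] [NumberField L] [Field B] [NumberField B]
  [Algebra K F] [Algebra K L] [Algebra F B] [Algebra L B] [Algebra K B]
  [IsScalarTower K F B] [IsScalarTower K L B] [IsGalois K L] [IsGalois F B]

/-- Restriction of inertia in a square `K ⊆ F, L ⊆ B`. -/
theorem s14_ar_inertia_res (σ : B ≃ₐ[F] B) (𝔔 : Ideal (𝓞 B))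
    (hσ : ∀ x : 𝓞 B, σ • x - x ∈ 𝔔) (x : 𝓞 L) :
    s14_ar_res K F L B σ • x - x ∈ 𝔔.under (𝓞 L) := by
  rw [Ideal.under_def, Ideal.mem_comap, map_sub, s14_ar_res_smul]
  exact hσ (algebraMap (𝓞 L) (𝓞 B) x)

/-- **Unramifiedness lifts to a compositum** (inertia form): in a square `K ⊆ F, L ⊆ B` with
`B = L·F` (in the form: restriction `Gal(B/F) → Gal(L/K)` is injective), if `𝔔 ∩ L` is
inertia-free in `L/K` then `𝔔` is inertia-free in `B/F`. -/
theorem s14_ar_unr_of_res_injective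
    (hinj : ∀ σ : B ≃ₐ[F] B, s14_ar_res K F L B σ = 1 → σ = 1)
    (𝔔 : Ideal (𝓞 B)) (hunrL : s14_ar_Unr K L (𝔔.under (𝓞 L))) : s14_ar_Unr F B 𝔔 := by
  intro σ hσ
  apply hinj
  apply hunrL
  intro x
  exact s14_ar_inertia_res K F L B σ 𝔔 hσ x

/-- The same with Mathlib's inertia subgroups. -/
theorem s14_ar_inertia_eq_bot_of_res_injective
    (hinj : ∀ σ : B ≃ₐ[F] B, s14_ar_res K F L B σ = 1 → σ = 1)
    (𝔔 : Ideal (𝓞 B)) (hunrL : (𝔔.under (𝓞 L)).inertia (L ≃ₐ[K] L) = ⊥) :
    𝔔.inertia (B ≃ₐ[F] B) = ⊥ :=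
  (s14_ar_unr_iff F B 𝔔).mp
    (s14_ar_unr_of_res_injective K F L B hinj 𝔔 ((s14_ar_unr_iff K L _).mpr hunrL))

/-- The restriction `Gal(B/F) → Gal(L/K)` is injective if `B` is generated over `F` by (the image
of) `L`. -/
theorem s14_ar_res_injective_of_adjoin
    (hgen : IntermediateField.adjoin F (Set.range (algebraMap L B)) = ⊤)
    (σ : B ≃ₐ[F] B) (h : s14_ar_res K F L B σ = 1) : σ = 1 := by
  have hfix : ∀ y ∈ Set.range (algebraMap L B), σ y = y := by
    rintro _ ⟨x, rfl⟩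
    rw [← s14_ar_res_commutes K F L B σ x, h]
    rfl
  apply AlgEquiv.ext
  intro b
  have hb : b ∈ IntermediateField.adjoin F (Set.range (algebraMap L B)) := by
    rw [hgen]; trivial
  have hle : IntermediateField.adjoin F (Set.range (algebraMap L B)) ≤
      IntermediateField.fixedField (Subgroup.zpowers σ) := by
    rw [IntermediateField.adjoin_le_iff]
    intro y hy
    rw [SetLike.mem_coe, IntermediateField.mem_fixedField_iff]
    intro τ hτ
    obtain ⟨k, rfl⟩ := Subgroup.mem_zpowers_iff.mp hτ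
    have h1 : σ y = y := hfix y hy
    have : ∀ k : ℤ, (σ ^ k) y = y := by
      intro k
      have hmem : σ ∈ MulAction.stabilizer (B ≃ₐ[F] B) y := by
        rw [MulAction.mem_stabilizer_iff]; exact h1
      have := Subgroup.zpow_mem _ hmem k
      rw [MulAction.mem_stabilizer_iff] at this
      exact this
    exact this k
  have := hle hb
  rw [IntermediateField.mem_fixedField_iff] at this
  exact this σ (Subgroup.mem_zpowers σ)

/-- **Unramifiedness lifts to a compositum**: if `B = F·L` and `L/K` is unramified (every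
nonzero prime has trivial inertia group), then so is `B/F`. -/
theorem s14_ar_unram_of_adjoin
    (hgen : IntermediateField.adjoin F (Set.range (algebraMap L B)) = ⊤)
    (hunr : ∀ Q : Ideal (𝓞 L), Q.IsPrime → Q ≠ ⊥ → Q.inertia (L ≃ₐ[K] L) = ⊥) :
    ∀ 𝔔 : Ideal (𝓞 B), 𝔔.IsPrime → 𝔔 ≠ ⊥ → 𝔔.inertia (B ≃ₐ[F] B) = ⊥ := by
  intro 𝔔 h𝔔 h𝔔0
  haveI := h𝔔
  apply s14_ar_inertia_eq_bot_of_res_injective K F L B
    (s14_ar_res_injective_of_adjoin K F L B hgen) 𝔔
  exact hunr _ inferInstance (Ideal.under_ne_bot (𝓞 L) h𝔔0)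

end tower

end
end Fermat.Agent.S14
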