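import Mathlib
import Fermat.Agent.S14.CrossingDefs
import Fermat.Agent.S14.ArtinRes

set_option autoImplicit false
set_option linter.style.haveILetI false
set_option linter.unusedSectionVars false
set_option linter.unusedVariables false

namespace Fermat.Agent.S14

open scoped NumberField Pointwise
open IntermediateField

noncomputable section

section general

variable (K L M : Type*) [Field K] [Field L] [Field M]
  [Algebra K L] [Algebra K M] [Algebra L M] [IsScalarTower K L M]
  [Normal K L]

/-!
# S14 (CR/FC): the fields `F = M ^ H` and `B = L · F` of the crossing argument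
-/

/-- the restriction `Gal(M/F) → Gal(L/K)` for an intermediate field `F` of `M/K` -/
def s14_crfc_rho (F : IntermediateField K M) : (M ≃ₐ[F] M) →* (L ≃ₐ[K] L) :=
  (AlgEquiv.restrictNormalHom L).comp (AlgEquiv.restrictScalarsHom K)

theorem s14_crfc_rho_commutes (F : IntermediateField K M) (τ : M ≃ₐ[F] M) (y : L) :
    algebraMap L M (s14_crfc_rho K L M F τ y) = τ (algebraMap L M y) :=
  AlgEquiv.restrictNormal_commutes (τ.restrictScalars K) L y

theorem s14_crfc_rho_eq_one_iff (F : IntermediateField K M) (τ : M ≃ₐ[F] M) :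
    s14_crfc_rho K L M F τ = 1 ↔ ∀ y : L, τ (algebraMap L M y) = algebraMap L M y := by
  constructor
  · intro h y
    rw [← s14_crfc_rho_commutes, h]
    rfl
  · intro h
    apply AlgEquiv.ext
    intro y
    apply (algebraMap L M).injective
    rw [s14_crfc_rho_commutes, h]
    rfl

/-- the field `B = L·F` as the fixed field of the kernel of the restriction -/
def s14_crfc_B (F : IntermediateField K M) : IntermediateField F M :=
  IntermediateField.fixedField (s14_crfc_rho K L M F).ker

theorem s14_crfc_algebraMap_mem (F : IntermediateField K M) (y : L) :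
    algebraMap L M y ∈ s14_crfc_B K L M F := by
  rw [s14_crfc_B, IntermediateField.mem_fixedField_iff]
  intro τ hτ
  exact (s14_crfc_rho_eq_one_iff K L M F τ).mp (MonoidHom.mem_ker.mp hτ) y

/-- `L` embeds into `B` -/
@[reducible] def s14_crfc_algLB (F : IntermediateField K M) : Algebra L (s14_crfc_B K L M F) :=
  ((algebraMap L M).codRestrict (s14_crfc_B K L M F).toSubfield
    (s14_crfc_algebraMap_mem K L M F)).toAlgebra

theorem s14_crfc_algLB_coe (F : IntermediateField K M) (y : L) :
    letI := s14_crfc_algLB K L M F
    ((algebraMap L (s14_crfc_B K L M F) y : s14_crfc_B K L M F) : M) = algebraMap L M y := rfl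

/-- an element of `H` as an element of `Gal(M/M^H)` -/
def s14_crfc_lift (H : Subgroup (M ≃ₐ[K] M)) (τ : M ≃ₐ[K] M) (hτ : τ ∈ H) :
    M ≃ₐ[fixedField H] M :=
  { τ.toRingEquiv with
    commutes' := fun x => by
      have := (IntermediateField.mem_fixedField_iff H (x : M)).mp x.2 τ hτ
      exact this }

theorem s14_crfc_lift_apply (H : Subgroup (M ≃ₐ[K] M)) (τ : M ≃ₐ[K] M) (hτ : τ ∈ H) (x : M) :
    s14_crfc_lift K M H τ hτ x = τ x := rfl

end general

section main

variable (K L M : Type*) [Field K] [Field L] [Field M]
  [Algebra K L] [Algebra K M] [Algebra L M] [IsScalarTower K L M]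
  [FiniteDimensional K L] [FiniteDimensional K M]
  [IsGalois K L] [IsGalois K M] (H : Subgroup (M ≃ₐ[K] M))

theorem s14_crfc_card_range {p : ℕ} (hp : p.Prime) (hdeg : Module.finrank K L = p)
    (hex : ∃ τ ∈ H, AlgEquiv.restrictNormalHom L τ ≠ 1) :
    Nat.card (s14_crfc_rho K L M (fixedField H)).range = p := by
  have hcard : Nat.card (L ≃ₐ[K] L) = p := by
    rw [IsGalois.card_aut_eq_finrank, hdeg]
  have hdvd := Subgroup.card_subgroup_dvd_card (s14_crfc_rho K L M (fixedField H)).range
  rw [hcard] at hdvd
  rcases (Nat.dvd_prime hp).mp hdvd with h1 | h1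
  · exfalso
    obtain ⟨τ, hτ, hne⟩ := hex
    apply hne
    have hbot : (s14_crfc_rho K L M (fixedField H)).range = ⊥ :=
      Subgroup.card_eq_one.mp h1
    have hmem : s14_crfc_rho K L M (fixedField H) (s14_crfc_lift K M H τ hτ) ∈
        (s14_crfc_rho K L M (fixedField H)).range := ⟨_, rfl⟩
    rw [hbot, Subgroup.mem_bot] at hmem
    apply AlgEquiv.ext
    intro y
    apply (algebraMap L M).injective
    have h2 := s14_crfc_rho_commutes K L M (fixedField H) (s14_crfc_lift K M H τ hτ) y
    rw [hmem] at h2
    have h3 : algebraMap L M ((AlgEquiv.restrictNormalHom L τ) y) = τ (algebraMap L M y) :=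
      AlgEquiv.restrictNormal_commutes τ L y
    rw [h3, h2]
    rfl
  · exact h1

theorem s14_crfc_finrank {p : ℕ} (hp : p.Prime) (hdeg : Module.finrank K L = p)
    (hex : ∃ τ ∈ H, AlgEquiv.restrictNormalHom L τ ≠ 1) :
    Module.finrank (fixedField H) (s14_crfc_B K L M (fixedField H)) = p := by
  have h1 := Module.finrank_mul_finrank (fixedField H) (s14_crfc_B K L M (fixedField H)) M
  have h2 : Module.finrank (s14_crfc_B K L M (fixedField H)) M =
      Nat.card (s14_crfc_rho K L M (fixedField H)).ker :=
    IntermediateField.finrank_fixedField_eq_card _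
  have h3 : Module.finrank (fixedField H) M = Nat.card (M ≃ₐ[fixedField H] M) :=
    (IsGalois.card_aut_eq_finrank (fixedField H) M).symm
  have h4 := Subgroup.card_mul_index (s14_crfc_rho K L M (fixedField H)).ker
  have h5 := Subgroup.index_ker (s14_crfc_rho K L M (fixedField H))
  rw [s14_crfc_card_range K L M H hp hdeg hex] at h5
  rw [h2, h3, ← h4, h5, mul_comm] at h1
  have hpos : 0 < Nat.card (s14_crfc_rho K L M (fixedField H)).ker := Nat.card_pos
  exact Nat.eq_of_mul_eq_mul_left hpos h1

end main

section unram

variable (K L M : Type*) [Field K] [NumberField K] [Field L] [NumberField L] [Field M]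
  [NumberField M] [Algebra K L] [Algebra K M] [Algebra L M] [IsScalarTower K L M]
  [IsGalois K L] [IsGalois K M] (H : Subgroup (M ≃ₐ[K] M)) [H.Normal]

theorem s14_crfc_isGalois_B :
    IsGalois (fixedField H) (s14_crfc_B K L M (fixedField H)) := by
  unfold s14_crfc_B
  infer_instance

theorem s14_crfc_isScalarTower :
    letI := s14_crfc_algLB K L M (fixedField H)
    IsScalarTower K L (s14_crfc_B K L M (fixedField H)) := by
  letI := s14_crfc_algLB K L M (fixedField H)
  apply IsScalarTower.of_algebraMap_eq
  intro x
  apply Subtype.ext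
  exact IsScalarTower.algebraMap_apply K L M x

/-- the restriction `Gal(B/F) → Gal(L/K)` is injective -/
theorem s14_crfc_res_injective :
    letI := s14_crfc_algLB K L M (fixedField H)
    haveI := s14_crfc_isScalarTower K L M H
    haveI := s14_crfc_isGalois_B K L M H
    ∀ σ : (s14_crfc_B K L M (fixedField H)) ≃ₐ[fixedField H] (s14_crfc_B K L M (fixedField H)),
      s14_ar_res K (fixedField H) L (s14_crfc_B K L M (fixedField H)) σ = 1 → σ = 1 := by
  letI := s14_crfc_algLB K L M (fixedField H)
  haveI := s14_crfc_isScalarTower K L M H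
  haveI := s14_crfc_isGalois_B K L M H
  intro σ hσ
  obtain ⟨σ', rfl⟩ := AlgEquiv.restrictNormalHom_surjective M (F := fixedField H)
    (K₁ := s14_crfc_B K L M (fixedField H)) σ
  have hker : σ' ∈ (s14_crfc_rho K L M (fixedField H)).ker := by
    rw [MonoidHom.mem_ker, s14_crfc_rho_eq_one_iff]
    intro y
    have h1 := s14_ar_res_commutes K (fixedField H) L (s14_crfc_B K L M (fixedField H))
      (AlgEquiv.restrictNormalHom (s14_crfc_B K L M (fixedField H)) σ') y
    rw [hσ] at h1
    have h2 := AlgEquiv.restrictNormal_commutes σ' (s14_crfc_B K L M (fixedField H))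
      (algebraMap L (s14_crfc_B K L M (fixedField H)) y)
    have h3 : (AlgEquiv.restrictNormalHom (s14_crfc_B K L M (fixedField H)) σ')
        (algebraMap L (s14_crfc_B K L M (fixedField H)) y) =
        algebraMap L (s14_crfc_B K L M (fixedField H)) y := h1.symm
    have h4 : algebraMap (s14_crfc_B K L M (fixedField H)) M
        (algebraMap L (s14_crfc_B K L M (fixedField H)) y) = algebraMap L M y := rfl
    rw [← h4, ← h2]
    exact congrArg _ h3
  apply AlgEquiv.ext
  intro b
  apply Subtype.ext
  have h2 := AlgEquiv.restrictNormal_commutes σ' (s14_crfc_B K L M (fixedField H)) b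
  have h5 : σ' (b : M) = (b : M) :=
    (IntermediateField.mem_fixedField_iff _ (b : M)).mp b.2 σ' hker
  exact h2.trans h5

/-- `B/F` is unramified if `L/K` is. -/
theorem s14_crfc_unram (hunr : s14_Unram K L) :
    s14_Unram (fixedField H) (s14_crfc_B K L M (fixedField H)) := by
  letI := s14_crfc_algLB K L M (fixedField H)
  haveI := s14_crfc_isScalarTower K L M H
  haveI := s14_crfc_isGalois_B K L M H
  intro 𝔔 h𝔔 h𝔔0
  haveI := h𝔔
  apply s14_ar_inertia_eq_bot_of_res_injective K (fixedField H) L
    (s14_crfc_B K L M (fixedField H)) (s14_crfc_res_injective K L M H) 𝔔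
  exact hunr _ inferInstance (Ideal.under_ne_bot (𝓞 L) h𝔔0)

end unram

/-- **(FC)** -/
theorem s14_crfc_main : s14_stmt_CR_fields := by
  intro p hp K L M _ _ _ _ _ _ _ _ _ _ _ _ hdeg hunr H hH hex
  haveI := hH
  refine ⟨fixedField H, s14_crfc_B K L M (fixedField H), inferInstance, inferInstance,
    inferInstance, inferInstance, inferInstance, inferInstance, inferInstance, inferInstance,
    inferInstance, inferInstance, inferInstance, inferInstance,
    s14_crfc_isGalois_B K L M H, ?_, ?_, ?_, ?_⟩
  · exact s14_crfc_finrank K L M H hp.out hdeg hex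
  · exact s14_crfc_unram K L M H hunr
  · intro τ
    constructor
    · intro hτ x
      exact (IntermediateField.mem_fixedField_iff H (x : M)).mp x.2 τ hτ
    · intro h
      rw [← IntermediateField.fixingSubgroup_fixedField H, IntermediateField.mem_fixingSubgroup_iff]
      intro x hx
      exact h ⟨x, hx⟩
  · intro τ hτ y
    have hmem : τ ∈ (s14_crfc_rho K L M (fixedField H)).ker := by
      rw [← IntermediateField.fixingSubgroup_fixedField (s14_crfc_rho K L M (fixedField H)).ker,
        IntermediateField.mem_fixingSubgroup_iff]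
      intro x hx
      exact hτ ⟨x, hx⟩
    exact (s14_crfc_rho_eq_one_iff K L M (fixedField H) τ).mp (MonoidHom.mem_ker.mp hmem) y

end
end Fermat.Agent.S14
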