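import Mathlib
import Fermat.Agent.S14.Defs
import Fermat.Agent.S14.CrossingDefs2

/-!
# S14 (CR) — sub-statement (MS): the field `M = L(ζ_r)`  (OWNER: helper8)

For `L/K` an abelian extension of number fields and a prime `r`, the field
`M = CyclotomicField r L` is a number field, Galois and abelian over `K`, with its cyclotomic
character `χ : Gal(M/K) → (ℤ/r)ˣ`.

* `s14_crms_main : s14_stmt_CR_setup`.
-/

set_option autoImplicit false
set_option linter.unusedSectionVars false
set_option linter.unusedVariables false
set_option linter.style.haveILetI false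

namespace Fermat.Agent.S14

open NumberField Polynomial
open scoped Pointwise

section

variable {r : ℕ} [NeZero r] {K L M : Type*} [Field K] [Field L] [Field M]
  [Algebra K L] [Algebra K M] [Algebra L M] [IsScalarTower K L M]
  [IsCyclotomicExtension {r} L M]

/-- two `K`-automorphisms of `M = L(ζ)` that agree on `L` and on `ζ` are equal. -/
theorem s14_crms_eq_of {ζ : M} (hζ : IsPrimitiveRoot ζ r) (σ τ : M ≃ₐ[K] M)
    (hL : ∀ l : L, σ (algebraMap L M l) = τ (algebraMap L M l)) (hz : σ ζ = τ ζ) : σ = τ := by
  -- `ρ = τ⁻¹ σ` is an `L`-algebra endomorphism fixing `ζ`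
  let ρ : M →ₐ[L] M :=
    { ((τ.symm : M ≃ₐ[K] M).toAlgHom.comp σ.toAlgHom).toRingHom with
      commutes' := fun l => by
        show τ.symm (σ (algebraMap L M l)) = algebraMap L M l
        rw [hL, AlgEquiv.symm_apply_apply] }
  have hρ : ρ = AlgHom.id L M := by
    apply (hζ.powerBasis L).algHom_ext
    rw [IsPrimitiveRoot.powerBasis_gen]
    show τ.symm (σ ζ) = ζ
    rw [hz, AlgEquiv.symm_apply_apply]
  apply AlgEquiv.ext
  intro x
  have h1 : ρ x = x := by rw [hρ]; rfl
  have h2 : τ.symm (σ x) = x := h1
  rw [AlgEquiv.symm_apply_eq] at h2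
  exact h2

end

/-- **(MS)** -/
theorem s14_crms_main : s14_stmt_CR_setup := by
  intro r _ K L _ _ _ _ _ _ hab
  haveI : NeZero r := ⟨(Fact.out : r.Prime).ne_zero⟩
  haveI : NumberField (CyclotomicField r L) := IsCyclotomicExtension.numberField {r} L _
  haveI hgalL : IsGalois L (CyclotomicField r L) := IsCyclotomicExtension.isGalois {r} L _
  have hζ : IsPrimitiveRoot (IsCyclotomicExtension.zeta r L (CyclotomicField r L)) r :=
    IsCyclotomicExtension.zeta_spec r L (CyclotomicField r L)
  -- normality over `K`
  haveI : FiniteDimensional K L := inferInstance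
  obtain ⟨f, hf0, hf⟩ : ∃ f : K[X], f ≠ 0 ∧ IsSplittingField K L f := by
    obtain ⟨f, hf⟩ := Normal.exists_isSplittingField K L
    by_cases h0 : f = 0
    · subst h0
      refine ⟨1, one_ne_zero, ⟨?_, ?_⟩⟩
      · rw [Polynomial.map_one]
        exact Splits.one
      · have := hf.adjoin_rootSet'
        rw [Polynomial.rootSet_zero] at this
        rw [Polynomial.rootSet_one]
        exact this
    · exact ⟨f, h0, hf⟩
  haveI := hf
  haveI : IsSplittingField L (CyclotomicField r L) ((cyclotomic r K).map (algebraMap K L)) := by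
    rw [map_cyclotomic]
    exact IsCyclotomicExtension.splitting_field_cyclotomic r L (CyclotomicField r L)
  haveI hsplit : IsSplittingField K (CyclotomicField r L) (f * cyclotomic r K) :=
    IsSplittingField.mul (K := L) (CyclotomicField r L) f (cyclotomic r K) hf0
      (cyclotomic_ne_zero r K)
  haveI : Normal K (CyclotomicField r L) := Normal.of_isSplittingField (f * cyclotomic r K)
  haveI : FiniteDimensional K (CyclotomicField r L) :=
    IsSplittingField.finiteDimensional (CyclotomicField r L) (f * cyclotomic r K)
  haveI hgalK : IsGalois K (CyclotomicField r L) := ⟨⟩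
  refine ⟨CyclotomicField r L, inferInstance, inferInstance, inferInstance, inferInstance,
    inferInstance, hgalK, hgalL, inferInstance,
    IsCyclotomicExtension.zeta r L (CyclotomicField r L), hζ.autToPow K, hζ, ?_, ?_⟩
  · intro σ τ
    apply s14_crms_eq_of (L := L) hζ
    · intro l
      simp only [AlgEquiv.mul_apply]
      have hτ := AlgEquiv.restrictNormal_commutes τ L l
      have hσ := AlgEquiv.restrictNormal_commutes σ L l
      rw [← hτ, ← hσ, ← AlgEquiv.restrictNormal_commutes σ L, ← AlgEquiv.restrictNormal_commutes τ L]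
      congr 1
      have := hab (σ.restrictNormal L) (τ.restrictNormal L)
      exact congrArg (fun g : L ≃ₐ[K] L => g l) this
    · simp only [AlgEquiv.mul_apply]
      rw [← hζ.autToPow_spec K τ, ← hζ.autToPow_spec K σ, map_pow, map_pow,
        ← hζ.autToPow_spec K τ, ← hζ.autToPow_spec K σ, ← pow_mul, ← pow_mul, mul_comm]
  · intro τ
    exact (hζ.autToPow_spec K τ).symm

end Fermat.Agent.S14
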