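import Mathlib
import Fermat.Agent.S14.Defs
import Fermat.Agent.S14.ArtinStmt
import Fermat.Agent.S14.ArtinRes

/-!
# S14 (CR) crossing — Frobenius lemmas (OWNER: helper9)

* `s14_cr_frob_zeta`: a Frobenius element at `𝔖` raises roots of unity of order prime to `𝔖` to
  the power `absNorm (𝔖 ∩ F)`;
* `s14_cr_inertiaDeg_dvd`: if a Frobenius element `σ` at `Q` satisfies `σ ^ k = 1`, then the
  inertia degree of `Q` divides `k` (no ramification hypothesis).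
-/

set_option autoImplicit false
set_option linter.unusedSectionVars false
set_option linter.style.haveILetI false

namespace Fermat.Agent.S14

open scoped NumberField Pointwise

noncomputable section

variable (F N : Type*) [Field F] [NumberField F] [Field N] [NumberField N] [Algebra F N]
  [IsGalois F N]

/-- A Frobenius element at `𝔖` acts on the roots of unity of order prime to `𝔖` by raising to
the power `absNorm (𝔖 ∩ F)`. -/
theorem s14_cr_frob_zeta (φ : N ≃ₐ[F] N) (𝔖 : Ideal (𝓞 N)) (hφ : IsArithFrobAt (𝓞 F) φ 𝔖)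
    (r : ℕ) (hr : (r : 𝓞 N) ∉ 𝔖) (ζ : N) (hζ : ζ ^ r = 1) :
    φ ζ = ζ ^ (Ideal.absNorm (𝔖.under (𝓞 F))) := by
  have hr0 : r ≠ 0 := by
    rintro rfl
    apply hr
    simp
  have hint : IsIntegral ℤ ζ := by
    refine ⟨Polynomial.X ^ r - 1, Polynomial.monic_X_pow_sub_C 1 hr0, ?_⟩
    simp [hζ]
  set ζ' : 𝓞 N := ⟨ζ, hint⟩ with hζ'
  have hζ'c : (ζ' : N) = ζ := rfl
  have hζ'r : ζ' ^ r = 1 := by
    apply Subtype.ext
    show (ζ' : N) ^ r = 1
    rw [hζ'c, hζ]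
  have h := AlgHom.IsArithFrobAt.apply_of_pow_eq_one hφ hζ'r hr
  rw [s14_ar_card_quot_eq_absNorm] at h
  have h2 := congrArg (fun z : 𝓞 N => (z : N)) h
  have e1 : ((MulSemiringAction.toAlgHom (𝓞 F) (𝓞 N) φ ζ' : 𝓞 N) : N) = φ ζ := rfl
  have e2 : ((ζ' ^ Ideal.absNorm (𝔖.under (𝓞 F)) : 𝓞 N) : N) =
      ζ ^ Ideal.absNorm (𝔖.under (𝓞 F)) := rfl
  rw [← e1, ← e2]
  exact h2

/-- If a Frobenius element `σ` at `Q` satisfies `σ ^ k = 1`, the inertia degree divides `k`. -/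
theorem s14_cr_inertiaDeg_dvd (Q : Ideal (𝓞 N)) [Q.IsPrime] (hQ : Q ≠ ⊥)
    (σ : N ≃ₐ[F] N) (hσ : IsArithFrobAt (𝓞 F) σ Q) (k : ℕ) (h : σ ^ k = 1) :
    Q.inertiaDeg (𝓞 F) ∣ k := by
  haveI hQmax : Q.IsMaximal := Ring.DimensionLEOne.maximalOfPrime hQ inferInstance
  set q : Ideal (𝓞 F) := Q.under (𝓞 F) with hq
  haveI hqmax : q.IsMaximal := Ideal.IsMaximal.under (𝓞 F) Q
  haveI := s14_ar_finite_quot N Q hQ
  letI : Field (𝓞 F ⧸ q) := Ideal.Quotient.field q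
  letI : Field (𝓞 N ⧸ Q) := Ideal.Quotient.field Q
  haveI : Finite (𝓞 F ⧸ q) := Finite.of_injective _ (algebraMap (𝓞 F ⧸ q) (𝓞 N ⧸ Q)).injective
  letI : Fintype (𝓞 F ⧸ q) := Fintype.ofFinite _
  set φ := FiniteField.frobeniusAlgEquivOfAlgebraic (𝓞 F ⧸ q) (𝓞 N ⧸ Q) with hφ
  have hφord : orderOf φ = Q.inertiaDeg (𝓞 F) := by
    rw [FiniteField.orderOf_frobeniusAlgEquivOfAlgebraic, Ideal.inertiaDeg_eq_of_isMaximal q Q]
  rw [← hφord]
  have hφpow : ∀ (k : ℕ) (y : 𝓞 N ⧸ Q), (φ ^ k) y = y ^ (Nat.card (𝓞 F ⧸ q) ^ k) := by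
    intro k y
    rw [AlgEquiv.coe_pow, FiniteField.coe_frobeniusAlgEquivOfAlgebraic_iterate,
      Nat.card_eq_fintype_card]
  apply orderOf_dvd_of_pow_eq_one
  apply AlgEquiv.ext
  intro y
  obtain ⟨x, rfl⟩ := Ideal.Quotient.mk_surjective y
  rw [hφpow, ← s14_ar_pow_mk F N Q σ hσ k x, h]
  simp

/-- The inertia degree is one at a prime where the identity is a Frobenius element. -/
theorem s14_cr_inertiaDeg_eq_one (Q : Ideal (𝓞 N)) [Q.IsPrime] (hQ : Q ≠ ⊥)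
    (h1 : IsArithFrobAt (𝓞 F) (1 : N ≃ₐ[F] N) Q) : Q.inertiaDeg (𝓞 F) = 1 := by
  have := s14_cr_inertiaDeg_dvd F N Q hQ 1 h1 1 (by simp)
  exact Nat.dvd_one.mp this

end

end Fermat.Agent.S14
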