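import Mathlib

/-!
# S14 (CR) crossing — elementary group theory (OWNER: helper9)

* `s14_cr_psi r θ n`: the value of a character `θ : (ℤ/r)ˣ → G` at a natural number `n`
  (junk value `1` if `n` is not prime to `r`);
* `s14_cr_exists_pow_of_pow_eq_one`: in `(ℤ/r)ˣ`, `u ^ ((r-1)/p) = 1` implies that `u` is a
  `p`-th power;
* `s14_cr_exists_theta`: construction of a character `θ : (ℤ/r)ˣ → G` (`G` of prime order `p`)
  with prescribed values at two units.
-/

set_option autoImplicit false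

namespace Fermat.Agent.S14

noncomputable section

/-- The value at the natural number `n` of a character `θ` of `(ℤ/r)ˣ`. -/
def s14_cr_psi {G : Type*} [Group G] (r : ℕ) (θ : (ZMod r)ˣ →* G) (n : ℕ) : G :=
  if h : n.Coprime r then θ (ZMod.unitOfCoprime n h) else 1

section psi

variable {G : Type*} [Group G] (r : ℕ) (θ : (ZMod r)ˣ →* G)

theorem s14_cr_psi_of_coprime {n : ℕ} (h : n.Coprime r) :
    s14_cr_psi r θ n = θ (ZMod.unitOfCoprime n h) := dif_pos h

theorem s14_cr_psi_one : s14_cr_psi r θ 1 = 1 := by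
  rw [s14_cr_psi_of_coprime r θ (Nat.coprime_one_left r)]
  have : ZMod.unitOfCoprime 1 (Nat.coprime_one_left r) = 1 := by
    ext; simp
  rw [this, map_one]

theorem s14_cr_psi_mul {m n : ℕ} (hm : m.Coprime r) (hn : n.Coprime r) :
    s14_cr_psi r θ (m * n) = s14_cr_psi r θ m * s14_cr_psi r θ n := by
  rw [s14_cr_psi_of_coprime r θ hm, s14_cr_psi_of_coprime r θ hn,
    s14_cr_psi_of_coprime r θ (Nat.Coprime.mul_left hm hn), ← map_mul]
  congr 1
  ext; simp

theorem s14_cr_psi_pow {m : ℕ} (hm : m.Coprime r) (k : ℕ) :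
    s14_cr_psi r θ (m ^ k) = s14_cr_psi r θ m ^ k := by
  induction k with
  | zero => simp [s14_cr_psi_one]
  | succ k ih =>
    rw [pow_succ, pow_succ, s14_cr_psi_mul r θ (Nat.Coprime.pow_left k hm) hm, ih]

/-- `ψ(n) = θ(u)` if `n ≡ u mod r`. -/
theorem s14_cr_psi_eq [Fact r.Prime] (u : (ZMod r)ˣ) (n : ℕ) (h : (n : ZMod r) = (u : ZMod r)) :
    s14_cr_psi r θ n = θ u := by
  have hcop : n.Coprime r := by
    rw [← ZMod.isUnit_iff_coprime, h]
    exact u.isUnit
  rw [s14_cr_psi_of_coprime r θ hcop]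
  congr 1
  ext
  simpa using h

/-- `ψ` only depends on the residue class. -/
theorem s14_cr_psi_congr [Fact r.Prime] {m n : ℕ} (hm : m.Coprime r)
    (h : (n : ZMod r) = (m : ZMod r)) : s14_cr_psi r θ n = s14_cr_psi r θ m := by
  rw [s14_cr_psi_of_coprime r θ hm]
  apply s14_cr_psi_eq
  simpa using h

end psi

/-- Exponents of a primitive `r`-th root of unity are determined modulo `r`. -/
theorem s14_cr_natCast_eq_of_pow_eq {M : Type*} [CommMonoid M] {ζ : M} {r : ℕ}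
    (hζ : IsPrimitiveRoot ζ r) (hr : 0 < r) {a b : ℕ} (h : ζ ^ a = ζ ^ b) :
    (a : ZMod r) = (b : ZMod r) := by
  have key : ∀ c : ℕ, ζ ^ c = ζ ^ (c % r) := by
    intro c
    conv_lhs => rw [← Nat.div_add_mod c r, pow_add, pow_mul, hζ.pow_eq_one, one_pow, one_mul]
  have h2 : ζ ^ (a % r) = ζ ^ (b % r) := (key a).symm.trans (h.trans (key b))
  have := hζ.pow_inj (Nat.mod_lt _ hr) (Nat.mod_lt _ hr) h2
  exact (ZMod.natCast_eq_natCast_iff' a b r).mpr this

section cyclic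

variable (p r : ℕ) [Fact p.Prime] [Fact r.Prime]

/-- In the cyclic group `(ℤ/r)ˣ` of order `r - 1`, the elements killed by `(r-1)/p` are `p`-th
powers. -/
theorem s14_cr_exists_pow_of_pow_eq_one (hpr : p ∣ r - 1) (u : (ZMod r)ˣ)
    (hu : u ^ ((r - 1) / p) = 1) : ∃ w : (ZMod r)ˣ, u = w ^ p := by
  obtain ⟨g, hg⟩ := IsCyclic.exists_generator (α := (ZMod r)ˣ)
  have hord : orderOf g = r - 1 := by
    rw [orderOf_eq_card_of_forall_mem_zpowers hg, Nat.card_eq_fintype_card, ZMod.card_units]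
  obtain ⟨k, hk⟩ : ∃ k : ℕ, g ^ k = u := by
    have := hg u
    rw [← mem_powers_iff_mem_zpowers] at this
    exact this
  obtain ⟨e, he⟩ := hpr
  have hp0 : 0 < p := (Fact.out : p.Prime).pos
  have he' : (r - 1) / p = e := by rw [he, Nat.mul_div_cancel_left _ hp0]
  rw [he', ← hk, ← pow_mul] at hu
  have hdvd : r - 1 ∣ k * e := by
    rw [← hord]; exact orderOf_dvd_of_pow_eq_one hu
  have he0 : 0 < e := by
    rcases Nat.eq_zero_or_pos e with h | h
    · exfalso
      rw [h, mul_zero] at he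
      have := (Fact.out : r.Prime).two_le
      omega
    · exact h
  have hpk : p ∣ k := by
    rw [he, mul_comm k e, mul_comm p e] at hdvd
    exact (Nat.mul_dvd_mul_iff_left he0).mp hdvd
  obtain ⟨k', rfl⟩ := hpk
  exact ⟨g ^ k', by rw [← hk, ← pow_mul, mul_comm]⟩

variable {G : Type*} [Group G]

/-- `ψ(n) = 1` if `n ^ ((r-1)/p) ≡ 1 mod r` and `G` has exponent `p`. -/
theorem s14_cr_psi_eq_one_of_pow (hpr : p ∣ r - 1) (θ : (ZMod r)ˣ →* G)
    (hG : ∀ g : G, g ^ p = 1) (n : ℕ) (hn : (n : ZMod r) ^ ((r - 1) / p) = 1) :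
    s14_cr_psi r θ n = 1 := by
  have hu : IsUnit (n : ZMod r) := by
    by_cases h0 : (r - 1) / p = 0
    · exfalso
      obtain ⟨e, he⟩ := hpr
      have hp0 : 0 < p := (Fact.out : p.Prime).pos
      rw [he, Nat.mul_div_cancel_left _ hp0] at h0
      rw [h0, mul_zero] at he
      have := (Fact.out : r.Prime).two_le
      omega
    · exact IsUnit.of_pow_eq_one hn h0
  obtain ⟨u, hu⟩ := hu
  rw [s14_cr_psi_eq r θ u n hu.symm]
  have hu' : u ^ ((r - 1) / p) = 1 := by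
    ext
    rw [Units.val_pow_eq_pow_val, hu]
    simpa using hn
  obtain ⟨w, rfl⟩ := s14_cr_exists_pow_of_pow_eq_one p r hpr u hu'
  rw [map_pow, hG]

/-- Construction of the character `θ`. -/
theorem s14_cr_exists_theta (hG : Nat.card G = p) (u₁ u₂ : (ZMod r)ˣ) (σ₁ : G) (k : ℕ)
    (hu₁ : ¬ ∃ w : (ZMod r)ˣ, u₁ = w ^ p) (hu₂ : ∃ w : (ZMod r)ˣ, u₂ = u₁ ^ k * w ^ p) :
    ∃ θ : (ZMod r)ˣ →* G, θ u₁ = σ₁ ∧ θ u₂ = σ₁ ^ k := by
  have hp : p.Prime := Fact.out
  have hGp : ∀ g : G, g ^ p = 1 := by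
    intro g
    rw [← hG]
    exact pow_card_eq_one'
  obtain ⟨g, hg⟩ := IsCyclic.exists_generator (α := (ZMod r)ˣ)
  obtain ⟨m, hm⟩ : ∃ m : ℕ, g ^ m = u₁ := by
    have := hg u₁
    rw [← mem_powers_iff_mem_zpowers] at this
    exact this
  have hpm : ¬ p ∣ m := by
    rintro ⟨m', rfl⟩
    exact hu₁ ⟨g ^ m', by rw [← hm, ← pow_mul, mul_comm]⟩
  -- `p` divides the order of `g`
  have hpord : p ∣ orderOf g := by
    by_contra hnd
    have hcop : Nat.Coprime (Nat.card (ZMod r)ˣ) p := by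
      rw [← orderOf_eq_card_of_forall_mem_zpowers hg]
      exact (Nat.Coprime.symm ((Nat.Prime.coprime_iff_not_dvd hp).mpr hnd))
    obtain ⟨w, hw⟩ := (powCoprime hcop).surjective u₁
    exact hu₁ ⟨w, by rw [← hw]; rfl⟩
  -- inverse of `m` modulo `p`
  have hcopm : Nat.Coprime m p := (Nat.Coprime.symm ((Nat.Prime.coprime_iff_not_dvd hp).mpr hpm))
  obtain ⟨m', -, hm'⟩ := Nat.exists_mul_mod_eq_one_of_coprime hcopm hp.one_lt
  have hdvd : orderOf (σ₁ ^ m') ∣ orderOf g := by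
    refine dvd_trans ?_ hpord
    exact orderOf_dvd_of_pow_eq_one (hGp _)
  let θ : (ZMod r)ˣ →* G := monoidHomOfForallMemZpowers hg hdvd
  have hθg : θ g = σ₁ ^ m' := monoidHomOfForallMemZpowers_apply_gen hg hdvd
  have hθ₁ : θ u₁ = σ₁ := by
    rw [← hm, map_pow, hθg, ← pow_mul]
    have h1 : m' * m = p * ((m' * m) / p) + 1 := by
      have := Nat.div_add_mod (m' * m) p
      rw [mul_comm m' m, hm'] at this
      rw [mul_comm m' m]
      omega
    rw [h1, pow_add, pow_mul, hGp, one_pow, one_mul, pow_one]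
  refine ⟨θ, hθ₁, ?_⟩
  obtain ⟨w, rfl⟩ := hu₂
  rw [map_mul, map_pow, map_pow, hθ₁, hGp, mul_one]

end cyclic

end

end Fermat.Agent.S14
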