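import Mathlib
import Fermat.Agent.S14.Defs
import Fermat.Agent.S14.ArtinStmt
import Fermat.Agent.S14.ArtinRes
import Fermat.Agent.S14.CrossingPsi
import Fermat.Agent.S14.CrossingFrob

/-!
# S14 (CR) crossing — the abstract crossing core (OWNER: helper9)

Setting (`s14_cr_Data`): `K ⊆ L ⊆ M`, `K ⊆ F ⊆ B ⊆ M` number fields, `L/K` unramified Galois of
degree `p`, `M/K` abelian, `ζ ∈ M` a primitive `r`-th root of unity, `χ : Gal(M/K) → (ℤ/r)ˣ` the
cyclotomic character, `θ : (ℤ/r)ˣ → Gal(L/K)` onto, `Gal(M/F) = {τ | τ|_L = θ (χ τ)}`, `L ⊆ B`,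
`M/L` totally ramified above `r`.
-/

set_option autoImplicit false
set_option linter.unusedSectionVars false
set_option linter.style.haveILetI false
set_option linter.unusedVariables false

namespace Fermat.Agent.S14

open scoped NumberField Pointwise
open IsDedekindDomain

noncomputable section

/-- The data of the crossing argument. -/
structure s14_cr_Data (p r : ℕ) (K L M F B : Type) [Field K] [NumberField K] [Field L]
    [NumberField L] [Field M] [NumberField M] [Field F] [NumberField F] [Field B] [NumberField B]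
    [Algebra K L] [Algebra K M] [Algebra L M] [IsScalarTower K L M]
    [Algebra K F] [Algebra F B] [Algebra F M] [Algebra B M]
    [IsScalarTower K F M] [IsScalarTower F B M]
    [IsGalois K L] [IsGalois K M] [IsGalois L M] [IsGalois K F] [IsGalois F M] [IsGalois F B]
    where
  hp2 : p ≠ 2
  hpr : p ∣ r - 1
  hNK : ∀ 𝔭 : Ideal (𝓞 K), 𝔭.IsPrime → (r : 𝓞 K) ∈ 𝔭 → Ideal.absNorm 𝔭 = r
  hdegL : Module.finrank K L = p
  hunrL : s14_Unram K L
  habM : ∀ σ τ : M ≃ₐ[K] M, σ * τ = τ * σ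
  ζ : M
  hζ : IsPrimitiveRoot ζ r
  χ : (M ≃ₐ[K] M) →* (ZMod r)ˣ
  hχ : ∀ τ : M ≃ₐ[K] M, τ ζ = ζ ^ ((χ τ : ZMod r).val)
  θ : (ZMod r)ˣ →* (L ≃ₐ[K] L)
  hθ : Function.Surjective θ
  hF : ∀ τ : M ≃ₐ[K] M, (AlgEquiv.restrictNormalHom L τ = θ (χ τ)) ↔
    ∀ x : F, τ (algebraMap F M x) = algebraMap F M x
  hB : ∀ τ : M ≃ₐ[F] M, (∀ b : B, τ (algebraMap B M b) = algebraMap B M b) →
    ∀ y : L, τ (algebraMap L M y) = algebraMap L M y
  hTR : ∀ 𝔯 : Ideal (𝓞 M), 𝔯.IsPrime → (r : 𝓞 M) ∈ 𝔯 → ∀ u : (ZMod r)ˣ,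
    ∃ ι : M ≃ₐ[L] M, (∀ x : 𝓞 M, ι • x - x ∈ 𝔯) ∧ ι ζ = ζ ^ (u : ZMod r).val

variable {p r : ℕ} [Fact p.Prime] [Fact r.Prime]
variable {K L M F B : Type} [Field K] [NumberField K] [Field L] [NumberField L]
  [Field M] [NumberField M] [Field F] [NumberField F] [Field B] [NumberField B]
  [Algebra K L] [Algebra K M] [Algebra L M] [IsScalarTower K L M]
  [Algebra K F] [Algebra F B] [Algebra F M] [Algebra B M]
  [IsScalarTower K F M] [IsScalarTower F B M]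
  [IsGalois K L] [IsGalois K M] [IsGalois L M] [IsGalois K F] [IsGalois F M] [IsGalois F B]

namespace s14_cr_Data

variable (D : s14_cr_Data p r K L M F B)
include D

/-- `M/F` is abelian. -/
theorem habMF (σ τ : M ≃ₐ[F] M) : σ * τ = τ * σ := by
  apply AlgEquiv.restrictScalars_injective K
  have := D.habM (σ.restrictScalars K) (τ.restrictScalars K)
  exact this

/-- `L/K` is abelian. -/
theorem habL (σ τ : L ≃ₐ[K] L) : σ * τ = τ * σ := by
  have hcard : Nat.card (L ≃ₐ[K] L) = p := by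
    rw [IsGalois.card_aut_eq_finrank, D.hdegL]
  exact s14_ar_comm_of_card_prime K L (Fact.out : p.Prime) hcard σ τ

theorem pow_p_eq_one (σ : L ≃ₐ[K] L) : σ ^ p = 1 := by
  have hcard : Nat.card (L ≃ₐ[K] L) = p := by
    rw [IsGalois.card_aut_eq_finrank, D.hdegL]
  rw [← hcard]
  exact pow_card_eq_one'

/-- Elements of `Gal(M/F)` lie in `H`. -/
theorem res_eq_theta (φ : M ≃ₐ[F] M) :
    s14_ar_res K F L M φ = D.θ (D.χ (φ.restrictScalars K)) := by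
  have := (D.hF (φ.restrictScalars K)).mpr (fun x => φ.commutes x)
  exact this

/-- The cyclotomic character of a Frobenius element is the absolute norm. -/
theorem chi_frob (φ : M ≃ₐ[F] M) (𝔖 : Ideal (𝓞 M)) (hφ : IsArithFrobAt (𝓞 F) φ 𝔖)
    (hr : (r : 𝓞 M) ∉ 𝔖) :
    ((Ideal.absNorm (𝔖.under (𝓞 F)) : ℕ) : ZMod r) = (D.χ (φ.restrictScalars K) : ZMod r) := by
  have h1 := s14_cr_frob_zeta F M φ 𝔖 hφ r hr D.ζ D.hζ.pow_eq_one
  have h2 := D.hχ (φ.restrictScalars K)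
  have h3 : (φ.restrictScalars K) D.ζ = φ D.ζ := rfl
  rw [h3, h1] at h2
  have h4 := s14_cr_natCast_eq_of_pow_eq D.hζ (Fact.out : r.Prime).pos h2
  rw [h4, ZMod.natCast_zmod_val]

/-- **Reciprocity for the cyclotomic extension**: for a prime `v` of `F` not above `r`,
`ψ(v) = θ (N v mod r)` is the restriction to `L` of the Frobenius element of `v` in `M/F`. -/
theorem psi_eq_res_frob (v : HeightOneSpectrum (𝓞 F)) (hvr : (r : 𝓞 F) ∉ v.asIdeal) :
    s14_cr_psi r D.θ (Ideal.absNorm v.asIdeal) =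
      s14_ar_res K F L M (s14_ar_frob F M v.asIdeal) := by
  haveI := v.isPrime
  obtain ⟨𝔖, h𝔖, h𝔖v⟩ := s14_ar_exists_over F M v.asIdeal
  haveI := h𝔖
  have h𝔖0 : 𝔖 ≠ ⊥ := s14_ar_ne_bot_of_under F M 𝔖 v.asIdeal v.ne_bot h𝔖v
  have hφ := s14_ar_frob_isArithFrobAt F M D.habMF v.asIdeal 𝔖 h𝔖0 h𝔖v
  have hr : (r : 𝓞 M) ∉ 𝔖 := by
    intro h
    apply hvr
    rw [← h𝔖v, Ideal.under_def, Ideal.mem_comap]
    simpa using h
  have h1 := D.chi_frob _ 𝔖 hφ hr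
  rw [h𝔖v] at h1
  rw [s14_cr_psi_eq r D.θ _ _ h1, D.res_eq_theta]

/-- A prime of `F` which splits completely in `B` has trivial Frobenius restriction to `L`. -/
theorem res_frob_eq_one_of_splits (v : HeightOneSpectrum (𝓞 F))
    (hv : s14_Splits F B v.asIdeal) :
    s14_ar_res K F L M (s14_ar_frob F M v.asIdeal) = 1 := by
  haveI := v.isPrime
  obtain ⟨𝔖, h𝔖, h𝔖v⟩ := s14_ar_exists_over F M v.asIdeal
  haveI := h𝔖
  have h𝔖0 : 𝔖 ≠ ⊥ := s14_ar_ne_bot_of_under F M 𝔖 v.asIdeal v.ne_bot h𝔖v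
  have hφ := s14_ar_frob_isArithFrobAt F M D.habMF v.asIdeal 𝔖 h𝔖0 h𝔖v
  set φ := s14_ar_frob F M v.asIdeal with hφdef
  have hφB := s14_ar_isArithFrobAt_restrictNormal F B M φ 𝔖 hφ
  have hmem := hφB.mem_stabilizer
  have hunder : (𝔖.under (𝓞 B)).under (𝓞 F) = v.asIdeal := by
    rw [Ideal.under_under, h𝔖v]
  rw [hv (𝔖.under (𝓞 B)) inferInstance hunder, Subgroup.mem_bot] at hmem
  have hfixB : ∀ b : B, φ (algebraMap B M b) = algebraMap B M b := by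
    intro b
    have := AlgEquiv.restrictNormal_commutes φ B b
    rw [hmem] at this
    exact this.symm
  have hfixL := D.hB φ hfixB
  apply AlgEquiv.ext
  intro y
  apply (algebraMap L M).injective
  rw [s14_ar_res_commutes K F L M φ y, hfixL y]
  rfl

/-- `ψ` is trivial on the primes of `F` which split completely in `B`. -/
theorem psi_eq_one_of_splits (v : HeightOneSpectrum (𝓞 F)) (hvr : (r : 𝓞 F) ∉ v.asIdeal)
    (hv : s14_Splits F B v.asIdeal) :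
    s14_cr_psi r D.θ (Ideal.absNorm v.asIdeal) = 1 := by
  rw [D.psi_eq_res_frob v hvr, D.res_frob_eq_one_of_splits v hv]

/-- Norm descent for a prime of `F` which splits completely in `B`: its relative norm to `K` is
a `p`-th power or a power of a prime which splits completely in `L`. -/
theorem relNorm_of_splits (v : HeightOneSpectrum (𝓞 F)) (hv : s14_Splits F B v.asIdeal) :
    ∃ f : ℕ, Ideal.relNorm (𝓞 K) v.asIdeal = (v.asIdeal.under (𝓞 K)) ^ f ∧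
      (p ∣ f ∨ s14_Splits K L (v.asIdeal.under (𝓞 K))) := by
  haveI := v.isPrime
  haveI := v.isMaximal
  haveI : (v.asIdeal.under (𝓞 K)).IsMaximal := Ideal.IsMaximal.under (𝓞 K) v.asIdeal
  refine ⟨v.asIdeal.inertiaDeg (𝓞 K),
    Ideal.relNorm_eq_pow_of_isMaximal v.asIdeal (v.asIdeal.under (𝓞 K)), ?_⟩
  obtain ⟨𝔖, h𝔖, h𝔖v⟩ := s14_ar_exists_over F M v.asIdeal
  haveI := h𝔖
  have h𝔖0 : 𝔖 ≠ ⊥ := s14_ar_ne_bot_of_under F M 𝔖 v.asIdeal v.ne_bot h𝔖v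
  have h𝔖L0 : 𝔖.under (𝓞 L) ≠ ⊥ := Ideal.under_ne_bot (𝓞 L) h𝔖0
  have hs0 : v.asIdeal.under (𝓞 K) ≠ ⊥ := Ideal.under_ne_bot (𝓞 K) v.ne_bot
  have hunrL' : s14_ar_Unr K L (𝔖.under (𝓞 L)) :=
    s14_ar_unr_of_unram K L D.hunrL (𝔖.under (𝓞 L)) h𝔖L0
  have h1 := s14_ar_frob_res K F L M D.habMF D.habL v.asIdeal 𝔖 h𝔖0 h𝔖v hunrL'
  rw [D.res_frob_eq_one_of_splits v hv] at h1
  set g := s14_ar_frob K L (v.asIdeal.under (𝓞 K)) with hg
  by_cases hg1 : g = 1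
  · right
    have hfrob : s14_IsFrob K L (v.asIdeal.under (𝓞 K)) g :=
      s14_ar_isFrob_frob K L D.habL _ hs0
    rw [hg1] at hfrob
    have hun : s14_UnramAt K L (v.asIdeal.under (𝓞 K)) :=
      s14_ar_unramAt_of_unram K L D.hunrL _ hs0
    exact (s14_ar_stmt_split K L ⟨v.asIdeal.under (𝓞 K), inferInstance, hs0⟩ hun).mp hfrob
  · left
    have hord : orderOf g = p := by
      have hdvd : orderOf g ∣ p := orderOf_dvd_of_pow_eq_one (D.pow_p_eq_one g)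
      rcases (Nat.dvd_prime (Fact.out : p.Prime)).mp hdvd with h | h
      · exact absurd (orderOf_eq_one_iff.mp h) hg1
      · exact h
    rw [← hord]
    exact orderOf_dvd_of_pow_eq_one h1.symm

/-- The cyclotomic character of a Frobenius element of `M/K` is the absolute norm. -/
theorem chi_frobK (Φ : M ≃ₐ[K] M) (𝔖 : Ideal (𝓞 M)) (hΦ : IsArithFrobAt (𝓞 K) Φ 𝔖)
    (hr : (r : 𝓞 M) ∉ 𝔖) :
    ((Ideal.absNorm (𝔖.under (𝓞 K)) : ℕ) : ZMod r) = (D.χ Φ : ZMod r) := by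
  have h1 := s14_cr_frob_zeta K M Φ 𝔖 hΦ r hr D.ζ D.hζ.pow_eq_one
  have h2 := D.hχ Φ
  rw [h1] at h2
  have h4 := s14_cr_natCast_eq_of_pow_eq D.hζ (Fact.out : r.Prime).pos h2
  rw [h4, ZMod.natCast_zmod_val]

/-- An element of `Gal(M/K)` which fixes `F` pointwise restricts to the identity of `F`. -/
theorem restrictNormal_eq_one (τ : M ≃ₐ[K] M)
    (h : ∀ x : F, τ (algebraMap F M x) = algebraMap F M x) : τ.restrictNormal F = 1 := by
  apply AlgEquiv.ext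
  intro x
  apply (algebraMap F M).injective
  rw [AlgEquiv.restrictNormal_commutes, h]
  rfl

/-- **The primes `Q_i`**: a prime `q ∤ r` of `K` whose Frobenius element in `L/K` is
`θ (N q mod r)` has a prime `Q` of `F` above it of residue degree one. -/
theorem exists_prime_over (q : Ideal (𝓞 K)) [q.IsPrime] (hq : q ≠ ⊥) (hqr : (r : 𝓞 K) ∉ q)
    (σ : L ≃ₐ[K] L) (hσ : s14_IsFrob K L q σ)
    (hθ : s14_cr_psi r D.θ (Ideal.absNorm q) = σ) :
    ∃ Q : HeightOneSpectrum (𝓞 F), Q.asIdeal.under (𝓞 K) = q ∧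
      Ideal.absNorm Q.asIdeal = Ideal.absNorm q ∧ Ideal.relNorm (𝓞 K) Q.asIdeal = q ∧
      (r : 𝓞 F) ∉ Q.asIdeal := by
  obtain ⟨𝔔, h𝔔, h𝔔q⟩ := s14_ar_exists_over K M q
  haveI := h𝔔
  have h𝔔0 : 𝔔 ≠ ⊥ := s14_ar_ne_bot_of_under K M 𝔔 q hq h𝔔q
  have hΦ := s14_ar_frob_isArithFrobAt K M D.habM q 𝔔 h𝔔0 h𝔔q
  set Φ := s14_ar_frob K M q with hΦdef
  have h𝔔L0 : 𝔔.under (𝓞 L) ≠ ⊥ := Ideal.under_ne_bot (𝓞 L) h𝔔0
  have hunrL' : s14_ar_Unr K L (𝔔.under (𝓞 L)) :=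
    s14_ar_unr_of_unram K L D.hunrL (𝔔.under (𝓞 L)) h𝔔L0
  have hres : Φ.restrictNormal L = s14_ar_frob K L q :=
    s14_ar_frob_restrictNormal K L M D.habM D.habL q 𝔔 h𝔔0 h𝔔q hunrL'
  have hσeq : σ = s14_ar_frob K L q :=
    s14_ar_isFrob_eq_frob K L D.habL q hq (s14_ar_unramAt_of_unram K L D.hunrL q hq) σ hσ
  have hr : (r : 𝓞 M) ∉ 𝔔 := by
    intro h
    apply hqr
    rw [← h𝔔q, Ideal.under_def, Ideal.mem_comap]
    simpa using h
  have hχ := D.chi_frobK Φ 𝔔 hΦ hr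
  rw [h𝔔q] at hχ
  have hψ := s14_cr_psi_eq r D.θ _ _ hχ
  have hfix : ∀ x : F, Φ (algebraMap F M x) = algebraMap F M x := by
    apply (D.hF Φ).mp
    rw [← hψ, hθ, hσeq, ← hres]
    rfl
  have hone := D.restrictNormal_eq_one Φ hfix
  have hQfrob := s14_ar_isArithFrobAt_restrictNormal K F M Φ 𝔔 hΦ
  rw [hone] at hQfrob
  have hQ0 : 𝔔.under (𝓞 F) ≠ ⊥ := Ideal.under_ne_bot (𝓞 F) h𝔔0
  have hf := s14_cr_inertiaDeg_eq_one K F (𝔔.under (𝓞 F)) hQ0 hQfrob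
  have hunder : (𝔔.under (𝓞 F)).under (𝓞 K) = q := by
    rw [Ideal.under_under, h𝔔q]
  haveI hQmax : (𝔔.under (𝓞 F)).IsMaximal :=
    Ring.DimensionLEOne.maximalOfPrime hQ0 inferInstance
  haveI : ((𝔔.under (𝓞 F)).under (𝓞 K)).IsMaximal := Ideal.IsMaximal.under (𝓞 K) _
  refine ⟨⟨𝔔.under (𝓞 F), inferInstance, hQ0⟩, hunder, ?_, ?_, ?_⟩
  · have := s14_ar_card_quot_pow K F (𝔔.under (𝓞 F)) hQ0
    rw [hf, pow_one, s14_ar_card_quot_eq_absNorm, s14_ar_card_quot_eq_absNorm, hunder] at this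
    exact this.symm
  · have := Ideal.relNorm_eq_pow_of_isMaximal (𝔔.under (𝓞 F)) ((𝔔.under (𝓞 F)).under (𝓞 K))
    rw [hf, pow_one, hunder] at this
    exact this
  · intro h
    apply hqr
    rw [← hunder, Ideal.under_def, Ideal.mem_comap]
    simpa using h

/-- The cyclotomic character is determined by the action on `ζ`. -/
theorem chi_eq_of_apply (τ : M ≃ₐ[K] M) (u : (ZMod r)ˣ)
    (h : τ D.ζ = D.ζ ^ (u : ZMod r).val) : D.χ τ = u := by
  have h2 := D.hχ τ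
  rw [h] at h2
  have h3 := s14_cr_natCast_eq_of_pow_eq D.hζ (Fact.out : r.Prime).pos h2
  rw [ZMod.natCast_zmod_val, ZMod.natCast_zmod_val] at h3
  exact Units.ext h3.symm

/-- Elements of `Gal(M/L)` restrict to the identity of `L`. -/
theorem res_restrictScalars (ι : M ≃ₐ[L] M) :
    AlgEquiv.restrictNormalHom L (ι.restrictScalars K) = 1 := by
  apply AlgEquiv.ext
  intro y
  apply (algebraMap L M).injective
  have h1 := AlgEquiv.restrictNormal_commutes (ι.restrictScalars K) L y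
  have h2 : (AlgEquiv.restrictNormalHom L (ι.restrictScalars K)) y =
      (ι.restrictScalars K).restrictNormal L y := rfl
  rw [h2, h1]
  exact ι.commutes y

/-- **Total ramification**: every element of `Gal(M/K)` acts trivially on `𝓞 F` modulo every
prime of `M` above `r`. -/
theorem smul_sub_mem (𝔯 : Ideal (𝓞 M)) (h𝔯p : 𝔯.IsPrime) (h𝔯 : (r : 𝓞 M) ∈ 𝔯)
    (τ : M ≃ₐ[K] M) (x : 𝓞 F) :
    τ • (algebraMap (𝓞 F) (𝓞 M) x) - algebraMap (𝓞 F) (𝓞 M) x ∈ 𝔯 := by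
  obtain ⟨u, hu⟩ := D.hθ (D.θ (D.χ τ) * (AlgEquiv.restrictNormalHom L τ)⁻¹)
  obtain ⟨ι, hι, hιζ⟩ := D.hTR 𝔯 h𝔯p h𝔯 u
  have hχι : D.χ (ι.restrictScalars K) = u := D.chi_eq_of_apply (ι.restrictScalars K) u hιζ
  have hresι := D.res_restrictScalars ι
  have hh : ∀ x : F, ((ι.restrictScalars K)⁻¹ * τ) (algebraMap F M x) = algebraMap F M x := by
    apply (D.hF _).mp
    have e1 : AlgEquiv.restrictNormalHom L ((ι.restrictScalars K)⁻¹ * τ) =
        AlgEquiv.restrictNormalHom L τ := by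
      rw [map_mul, map_inv, hresι, inv_one, one_mul]
    have e2 : D.θ (D.χ ((ι.restrictScalars K)⁻¹ * τ)) = AlgEquiv.restrictNormalHom L τ := by
      rw [map_mul, map_inv, hχι, map_mul, map_inv, hu, mul_inv_rev, inv_inv, mul_assoc,
        inv_mul_cancel, mul_one]
    rw [e1, e2]
  have hτ : τ = (ι.restrictScalars K) * ((ι.restrictScalars K)⁻¹ * τ) := by
    rw [mul_inv_cancel_left]
  have hx : ((ι.restrictScalars K)⁻¹ * τ) • (algebraMap (𝓞 F) (𝓞 M) x) =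
      algebraMap (𝓞 F) (𝓞 M) x := Subtype.ext (hh x)
  rw [hτ, mul_smul, hx]
  exact hι _

/-- Primes above `r` are nonzero. -/
theorem ne_bot_of_mem {S : Type*} [CommRing S] [CharZero S] (𝔯 : Ideal S)
    (h𝔯 : (r : S) ∈ 𝔯) : 𝔯 ≠ ⊥ := by
  rintro rfl
  rw [Ideal.mem_bot] at h𝔯
  exact (Fact.out : r.Prime).ne_zero (by exact_mod_cast h𝔯)

/-- The residue field of `F` at a prime above `r` is `𝔽_r`. -/
theorem pow_r_sub_mem (𝔯 : Ideal (𝓞 M)) (h𝔯p : 𝔯.IsPrime) (h𝔯 : (r : 𝓞 M) ∈ 𝔯) (x : 𝓞 F) :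
    (algebraMap (𝓞 F) (𝓞 M) x) ^ r - algebraMap (𝓞 F) (𝓞 M) x ∈ 𝔯 := by
  haveI := h𝔯p
  have h𝔯0 : 𝔯 ≠ ⊥ := D.ne_bot_of_mem 𝔯 h𝔯
  obtain ⟨Φ, hΦ⟩ := s14_ar_exists_frobAt K M 𝔯 h𝔯0
  have hcard : Nat.card (𝓞 K ⧸ 𝔯.under (𝓞 K)) = r := by
    rw [s14_ar_card_quot_eq_absNorm]
    apply D.hNK _ inferInstance
    rw [Ideal.under_def, Ideal.mem_comap]
    simpa using h𝔯
  have h1 := hΦ (algebraMap (𝓞 F) (𝓞 M) x)
  rw [hcard] at h1
  have h2 := D.smul_sub_mem 𝔯 h𝔯p h𝔯 Φ x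
  have := 𝔯.sub_mem h2 h1
  simpa using this

/-- There is a prime of a number field above every prime number. -/
theorem exists_prime_nat (N : Type*) [Field N] [NumberField N] :
    ∃ Q : Ideal (𝓞 N), Q.IsPrime ∧ Q.under ℤ = Ideal.span {(r : ℤ)} ∧ (r : 𝓞 N) ∈ Q := by
  have hr : (r : ℕ).Prime := Fact.out
  haveI : (Ideal.span {(r : ℤ)}).IsPrime := by
    rw [Ideal.span_singleton_prime (by exact_mod_cast hr.ne_zero)]
    exact Nat.prime_iff_prime_int.mp hr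
  obtain ⟨Q, -, hQ, hQr⟩ := Ideal.exists_ideal_over_prime_of_isIntegral
    (Ideal.span {(r : ℤ)}) (⊥ : Ideal (𝓞 N))
    (by
      intro x hx
      rw [Ideal.mem_comap, Ideal.mem_bot] at hx
      have : x = 0 := by
        have h0 : algebraMap ℤ (𝓞 N) x = algebraMap ℤ (𝓞 N) 0 := by rw [hx, map_zero]
        exact (FaithfulSMul.algebraMap_injective ℤ (𝓞 N)) h0
      rw [this]
      exact Ideal.zero_mem _)
  refine ⟨Q, hQ, hQr, ?_⟩
  have : (r : ℤ) ∈ Q.comap (algebraMap ℤ (𝓞 N)) := by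
    rw [hQr]
    exact Ideal.mem_span_singleton_self _
  rw [Ideal.mem_comap] at this
  simpa using this

/-- `p` divides the degree of `F/K`. -/
theorem p_dvd_card : p ∣ Nat.card (F ≃ₐ[K] F) := by
  have hp : p.Prime := Fact.out
  have hcard : Nat.card (L ≃ₐ[K] L) = p := by
    rw [IsGalois.card_aut_eq_finrank, D.hdegL]
  -- a nontrivial element of `Gal(L/K)`
  obtain ⟨g₀, hg₀⟩ : ∃ g₀ : L ≃ₐ[K] L, g₀ ≠ 1 := by
    haveI : Nontrivial (L ≃ₐ[K] L) := by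
      rw [← Finite.one_lt_card_iff_nontrivial, hcard]
      exact hp.one_lt
    exact exists_ne 1
  obtain ⟨u₀, hu₀⟩ := D.hθ g₀
  obtain ⟨𝔯, h𝔯p, -, h𝔯⟩ := D.exists_prime_nat M
  obtain ⟨ι, -, hιζ⟩ := D.hTR 𝔯 h𝔯p h𝔯 u₀
  have hχι : D.χ (ι.restrictScalars K) = u₀ := D.chi_eq_of_apply (ι.restrictScalars K) u₀ hιζ
  have hresι := D.res_restrictScalars ι
  set τ₀ : F ≃ₐ[K] F := AlgEquiv.restrictNormalHom F (ι.restrictScalars K) with hτ₀
  have hpow : τ₀ ^ p = 1 := by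
    rw [hτ₀, ← map_pow]
    apply D.restrictNormal_eq_one
    apply (D.hF _).mp
    rw [map_pow, hresι, one_pow, map_pow, map_pow, hχι, hu₀, D.pow_p_eq_one]
  have hne : τ₀ ≠ 1 := by
    intro h1
    apply hg₀
    have hfix : ∀ x : F, (ι.restrictScalars K) (algebraMap F M x) = algebraMap F M x := by
      intro x
      have := AlgEquiv.restrictNormal_commutes (ι.restrictScalars K) F x
      rw [← this]
      have h2 : (ι.restrictScalars K).restrictNormal F = τ₀ := rfl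
      rw [h2, h1]
      rfl
    have := (D.hF _).mpr hfix
    rw [hresι, hχι, hu₀] at this
    exact this.symm
  have hord : orderOf τ₀ = p := orderOf_eq_prime hpow hne
  rw [← hord]
  exact orderOf_dvd_natCard τ₀

/-- The relative norm of an integer of `F` as a product over `Gal(F/K)`. -/
theorem algebraMap_norm_eq_prod (x : 𝓞 F) :
    algebraMap (𝓞 K) (𝓞 F) (RingOfIntegers.norm K x) = ∏ τ : F ≃ₐ[K] F, τ • x := by
  apply NumberField.RingOfIntegers.ext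
  rw [RingOfIntegers.coe_algebraMap_norm K x, Algebra.norm_eq_prod_automorphisms]
  rw [NumberField.RingOfIntegers.coe_eq_algebraMap (∏ τ : F ≃ₐ[K] F, τ • x), map_prod]
  rfl

/-- Modulo a prime of `M` above `r`, an integer of `F` prime to `r` is an `(r-1)`-th root of
unity. -/
theorem pow_sub_one_mem (𝔯 : Ideal (𝓞 M)) (h𝔯p : 𝔯.IsPrime) (h𝔯 : (r : 𝓞 M) ∈ 𝔯) (x : 𝓞 F)
    (hx : ∀ v : HeightOneSpectrum (𝓞 F), (r : 𝓞 F) ∈ v.asIdeal → x ∉ v.asIdeal) :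
    (algebraMap (𝓞 F) (𝓞 M) x) ^ (r - 1) - 1 ∈ 𝔯 := by
  haveI := h𝔯p
  have h1 := D.pow_r_sub_mem 𝔯 h𝔯p h𝔯 x
  have hr1 : r = (r - 1) + 1 := by
    have := (Fact.out : r.Prime).pos
    omega
  have h2 : (algebraMap (𝓞 F) (𝓞 M) x) ^ r - algebraMap (𝓞 F) (𝓞 M) x =
      algebraMap (𝓞 F) (𝓞 M) x * ((algebraMap (𝓞 F) (𝓞 M) x) ^ (r - 1) - 1) := by
    conv_lhs => rw [hr1, pow_succ]
    ring
  rw [h2] at h1
  rcases h𝔯p.mem_or_mem h1 with h | h
  · exfalso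
    have h𝔯0 : 𝔯 ≠ ⊥ := D.ne_bot_of_mem 𝔯 h𝔯
    have hQ0 : 𝔯.under (𝓞 F) ≠ ⊥ := Ideal.under_ne_bot (𝓞 F) h𝔯0
    have hrQ : (r : 𝓞 F) ∈ 𝔯.under (𝓞 F) := by
      rw [Ideal.under_def, Ideal.mem_comap]
      simpa using h𝔯
    exact hx ⟨𝔯.under (𝓞 F), inferInstance, hQ0⟩ hrQ h
  · exact h

/-- **(A1)**: the relative norm to `K` of an integer of `F` prime to `r` is a `p`-th power
residue modulo every prime of `K` above `r`. -/
theorem norm_pow_sub_one_mem (x : 𝓞 F)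
    (hx : ∀ v : HeightOneSpectrum (𝓞 F), (r : 𝓞 F) ∈ v.asIdeal → x ∉ v.asIdeal)
    (𝔭 : Ideal (𝓞 K)) (h𝔭p : 𝔭.IsPrime) (h𝔭 : (r : 𝓞 K) ∈ 𝔭) :
    (RingOfIntegers.norm K x) ^ ((r - 1) / p) - 1 ∈ 𝔭 := by
  haveI := h𝔭p
  obtain ⟨𝔯, h𝔯p, h𝔯𝔭⟩ := s14_ar_exists_over K M 𝔭
  haveI := h𝔯p
  have h𝔯 : (r : 𝓞 M) ∈ 𝔯 := by
    have : (r : 𝓞 K) ∈ 𝔯.under (𝓞 K) := by rw [h𝔯𝔭]; exact h𝔭
    rw [Ideal.under_def, Ideal.mem_comap] at this
    simpa using this
  rw [← h𝔯𝔭, Ideal.under_def, Ideal.mem_comap, map_sub, map_pow, map_one]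
  rw [IsScalarTower.algebraMap_apply (𝓞 K) (𝓞 F) (𝓞 M), D.algebraMap_norm_eq_prod x, map_prod]
  rw [← Ideal.Quotient.eq, map_pow, map_prod, map_one]
  -- every factor is congruent to `x`
  have hfac : ∀ τ : F ≃ₐ[K] F, Ideal.Quotient.mk 𝔯 (algebraMap (𝓞 F) (𝓞 M) (τ • x)) =
      Ideal.Quotient.mk 𝔯 (algebraMap (𝓞 F) (𝓞 M) x) := by
    intro τ
    obtain ⟨τ', hτ'⟩ := AlgEquiv.restrictNormalHom_surjective M τ
    have e : algebraMap (𝓞 F) (𝓞 M) (τ • x) = τ' • algebraMap (𝓞 F) (𝓞 M) x := by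
      apply NumberField.RingOfIntegers.ext
      have := AlgEquiv.restrictNormal_commutes τ' F (x : F)
      have h2 : τ'.restrictNormal F = τ := hτ'
      rw [h2] at this
      exact this
    rw [e, Ideal.Quotient.eq]
    exact D.smul_sub_mem 𝔯 h𝔯p h𝔯 τ' x
  rw [Finset.prod_congr rfl (fun τ _ => hfac τ), Finset.prod_const, Finset.card_univ, ← pow_mul]
  obtain ⟨m, hm⟩ := D.p_dvd_card
  obtain ⟨e, he⟩ := D.hpr
  have hp0 : 0 < p := (Fact.out : p.Prime).pos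
  rw [← Nat.card_eq_fintype_card, hm, he, Nat.mul_div_cancel_left _ hp0]
  have hexp : p * m * e = (r - 1) * m := by rw [he]; ring
  rw [hexp, pow_mul]
  have h3 := D.pow_sub_one_mem 𝔯 h𝔯p h𝔯 x hx
  rw [← Ideal.Quotient.eq, map_pow, map_one] at h3
  rw [h3, one_pow]

section principal

variable [IsGalois ℚ K]

/-- The absolute norm of an integer of `K` as a product over `Gal(K/ℚ)`. -/
theorem algebraMap_norm_int_eq_prod (y : 𝓞 K) :
    algebraMap ℤ (𝓞 K) (Algebra.norm ℤ y) = ∏ γ : K ≃ₐ[ℚ] K, γ • y := by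
  apply NumberField.RingOfIntegers.ext
  rw [NumberField.RingOfIntegers.coe_eq_algebraMap (∏ γ : K ≃ₐ[ℚ] K, γ • y), map_prod]
  have h1 : ((algebraMap ℤ (𝓞 K) (Algebra.norm ℤ y) : 𝓞 K) : K) =
      algebraMap ℚ K ((Algebra.norm ℤ y : ℤ) : ℚ) := by
    simp
  rw [h1, Algebra.coe_norm_int, Algebra.norm_eq_prod_automorphisms]
  rfl

/-- **(A2)**: the absolute norm of an integer of `F` prime to `r` is a `p`-th power residue
modulo `r`. -/
theorem norm_int_pow (x : 𝓞 F)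
    (hx : ∀ v : HeightOneSpectrum (𝓞 F), (r : 𝓞 F) ∈ v.asIdeal → x ∉ v.asIdeal) :
    ((Algebra.norm ℤ (RingOfIntegers.norm K x) : ℤ) : ZMod r) ^ ((r - 1) / p) = 1 := by
  obtain ⟨𝔭₀, h𝔭₀p, h𝔭₀r, h𝔭₀⟩ := D.exists_prime_nat K
  haveI := h𝔭₀p
  set y := RingOfIntegers.norm K x with hy
  set e := (r - 1) / p with he
  have hmem : algebraMap ℤ (𝓞 K) ((Algebra.norm ℤ y) ^ e - 1) ∈ 𝔭₀ := by
    rw [map_sub, map_pow, map_one, D.algebraMap_norm_int_eq_prod y, ← Ideal.Quotient.eq,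
      map_pow, map_prod, map_one, ← Finset.prod_pow]
    apply Finset.prod_eq_one
    intro γ _
    rw [← map_pow, ← map_one (Ideal.Quotient.mk 𝔭₀), Ideal.Quotient.eq]
    have hprime : (γ⁻¹ • 𝔭₀).IsPrime := by
      have : γ⁻¹ • 𝔭₀ = 𝔭₀.comap (MulSemiringAction.toRingHom (K ≃ₐ[ℚ] K) (𝓞 K) γ) := by
        ext z
        rw [Ideal.mem_comap, Ideal.mem_pointwise_smul_iff_inv_smul_mem, inv_inv]
        rfl
      rw [this]
      exact Ideal.comap_isPrime _ _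
    have hr' : (r : 𝓞 K) ∈ γ⁻¹ • 𝔭₀ := by
      rw [Ideal.mem_pointwise_smul_iff_inv_smul_mem, inv_inv]
      have : γ • (r : 𝓞 K) = (r : 𝓞 K) := by
        apply NumberField.RingOfIntegers.ext
        show γ ((r : 𝓞 K) : K) = ((r : 𝓞 K) : K)
        simp
      rw [this]
      exact h𝔭₀
    have h1 := D.norm_pow_sub_one_mem x hx (γ⁻¹ • 𝔭₀) hprime hr'
    rw [Ideal.mem_pointwise_smul_iff_inv_smul_mem, inv_inv] at h1
    have h2 : γ • (y ^ e - 1) = (γ • y) ^ e - 1 := by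
      rw [smul_sub, smul_pow', smul_one]
    rw [← h2]
    exact h1
  have hmem2 : (Algebra.norm ℤ y) ^ e - 1 ∈ 𝔭₀.under ℤ := by
    rw [Ideal.under_def, Ideal.mem_comap]
    exact hmem
  rw [h𝔭₀r, Ideal.mem_span_singleton] at hmem2
  have h3 := (ZMod.intCast_zmod_eq_zero_iff_dvd _ r).mpr hmem2
  push_cast at h3
  exact sub_eq_zero.mp h3

/-- **(ψ1)**: `ψ` is trivial on the principal ideals generated by integers prime to `r`. -/
theorem psi_principal (x : 𝓞 F)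
    (hx : ∀ v : HeightOneSpectrum (𝓞 F), (r : 𝓞 F) ∈ v.asIdeal → x ∉ v.asIdeal) :
    s14_cr_psi r D.θ (Ideal.absNorm (Ideal.span {x})) = 1 := by
  have hp : p.Prime := Fact.out
  have hr : r.Prime := Fact.out
  rw [Ideal.absNorm_span_singleton]
  have hnorm : Algebra.norm ℤ x = Algebra.norm ℤ (RingOfIntegers.norm K x) := by
    apply Int.cast_injective (α := ℚ)
    rw [Algebra.coe_norm_int, Algebra.coe_norm_int, RingOfIntegers.coe_norm,
      Algebra.norm_norm]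
  apply s14_cr_psi_eq_one_of_pow p r D.hpr D.θ D.pow_p_eq_one
  have h1 := D.norm_int_pow x hx
  rw [← hnorm] at h1
  -- `(r - 1) / p` is even
  have heven : Even ((r - 1) / p) := by
    obtain ⟨e, he⟩ := D.hpr
    rw [he, Nat.mul_div_cancel_left _ hp.pos]
    have hpodd : Odd p := hp.odd_of_ne_two D.hp2
    have hr2 : r ≠ 2 := by
      rintro rfl
      have : p ∣ 1 := D.hpr
      exact hp.one_lt.ne' (Nat.dvd_one.mp this)
    have hrodd : Odd r := hr.odd_of_ne_two hr2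
    have hev : Even (p * e) := by
      rw [← he]
      exact Nat.Odd.sub_odd hrodd odd_one
    rcases Nat.even_mul.mp hev with h | h
    · exact absurd h (Nat.not_even_iff_odd.mpr hpodd)
    · exact h
  rcases Int.natAbs_eq (Algebra.norm ℤ x) with h | h
  · have h1' : (((((Algebra.norm ℤ x).natAbs : ℕ) : ℤ) : ℤ) : ZMod r) ^ ((r - 1) / p) = 1 := by
      rw [← h]; exact h1
    rw [Int.cast_natCast] at h1'
    exact h1'
  · have h1' : (((-(((Algebra.norm ℤ x).natAbs : ℕ) : ℤ)) : ℤ) : ZMod r) ^ ((r - 1) / p) = 1 := by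
      rw [← h]; exact h1
    rw [Int.cast_neg, Int.cast_natCast, heven.neg_pow] at h1'
    exact h1'

end principal

end s14_cr_Data

end

end Fermat.Agent.S14
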