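import Mathlib
import Fermat.Agent.S14.Defs
import Fermat.Agent.S14.ArtinStmt
import Fermat.Agent.S14.ArtinRes
import Fermat.Agent.S14.CrossingPsi
import Fermat.Agent.S14.CrossingFrob
import Fermat.Agent.S14.CrossingCore

/-!
# S14 (CR) crossing — the abstract crossing theorem (OWNER: helper9)

`s14_cr_core`: in the setting `s14_cr_Data` (see `CrossingCore.lean`), the second inequality (I2)
for `B/F` implies that `q₁ ^ a * q₂ ^ b'` is norm-like for `L/K`.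
-/

set_option autoImplicit false
set_option linter.unusedSectionVars false
set_option linter.style.haveILetI false
set_option linter.unusedVariables false

namespace Fermat.Agent.S14

open scoped NumberField Pointwise
open IsDedekindDomain

noncomputable section

/-- An ideal which is contained in no prime above `r` has absolute norm prime to `r`. -/
theorem s14_cr_coprime_absNorm {F : Type*} [Field F] [NumberField F] (r : ℕ) [Fact r.Prime]
    (I : Ideal (𝓞 F)) (hI : I ≠ ⊥)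
    (h : ∀ v : HeightOneSpectrum (𝓞 F), (r : 𝓞 F) ∈ v.asIdeal → ¬ I ≤ v.asIdeal) :
    (Ideal.absNorm I).Coprime r := by
  have hr : r.Prime := Fact.out
  by_contra hnc
  have hdvd : r ∣ Ideal.absNorm I := by
    by_contra hnd
    exact hnc ((Nat.Prime.coprime_iff_not_dvd hr).mpr hnd).symm
  haveI : Finite (𝓞 F ⧸ I) := Ring.HasFiniteQuotients.finiteQuotient hI
  rw [Ideal.absNorm_apply, Submodule.cardQuot_apply] at hdvd
  obtain ⟨x, hx⟩ := exists_prime_addOrderOf_dvd_card' r hdvd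
  have hx0 : x ≠ 0 := by
    rintro rfl
    rw [addOrderOf_zero] at hx
    exact hr.one_lt.ne hx
  have hrx : r • x = 0 := by
    rw [← hx]
    exact addOrderOf_nsmul_eq_zero x
  have hsup : I ⊔ Ideal.span {(r : 𝓞 F)} = ⊤ := by
    by_contra hne
    obtain ⟨m, hm, hle⟩ := Ideal.exists_le_maximal _ hne
    have hrm : (r : 𝓞 F) ∈ m := hle (Ideal.mem_sup_right (Ideal.mem_span_singleton_self _))
    have hm0 : m ≠ ⊥ := by
      rintro rfl
      rw [Ideal.mem_bot] at hrm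
      exact hr.ne_zero (by exact_mod_cast hrm)
    exact h ⟨m, hm.isPrime, hm0⟩ hrm (le_trans le_sup_left hle)
  have h1 : (1 : 𝓞 F) ∈ I ⊔ Ideal.span {(r : 𝓞 F)} := by rw [hsup]; trivial
  obtain ⟨a, ha, b, hb, hab⟩ := Submodule.mem_sup.mp h1
  obtain ⟨b', rfl⟩ := Ideal.mem_span_singleton'.mp hb
  apply hx0
  have h2 : (Ideal.Quotient.mk I (b' * (r : 𝓞 F))) = 1 := by
    rw [← map_one (Ideal.Quotient.mk I), ← hab, map_add, Ideal.Quotient.eq_zero_iff_mem.mpr ha,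
      zero_add]
  calc x = 1 * x := (one_mul x).symm
    _ = Ideal.Quotient.mk I (b' * (r : 𝓞 F)) * x := by rw [h2]
    _ = Ideal.Quotient.mk I b' * (r • x) := by
        rw [map_mul, mul_assoc, nsmul_eq_mul, map_natCast]
    _ = 0 := by rw [hrx, mul_zero]

variable {p r : ℕ} [Fact p.Prime] [Fact r.Prime]
variable {K L M F B : Type} [Field K] [NumberField K] [Field L] [NumberField L]
  [Field M] [NumberField M] [Field F] [NumberField F] [Field B] [NumberField B]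
  [Algebra K L] [Algebra K M] [Algebra L M] [IsScalarTower K L M]
  [Algebra K F] [Algebra F B] [Algebra F M] [Algebra B M]
  [IsScalarTower K F M] [IsScalarTower F B M]
  [IsGalois K L] [IsGalois K M] [IsGalois L M] [IsGalois K F] [IsGalois F M] [IsGalois F B]
  [IsGalois ℚ K]

namespace s14_cr_Data

variable (D : s14_cr_Data p r K L M F B)
include D

/-- A prime which does not contain `r` has absolute norm prime to `r`. -/
theorem coprime_absNorm_prime (v : HeightOneSpectrum (𝓞 F)) (hvr : (r : 𝓞 F) ∉ v.asIdeal) :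
    (Ideal.absNorm v.asIdeal).Coprime r := by
  apply s14_cr_coprime_absNorm r v.asIdeal v.ne_bot
  intro w hw hle
  have : v.asIdeal = w.asIdeal := v.isMaximal.eq_of_le w.isPrime.ne_top hle
  exact hvr (this ▸ hw)

/-- **Multiplicative induction**: an ideal of `F` all of whose prime factors are prime to `r`
and split completely in `B` is killed by `ψ`, and its relative norm to `K` is the product of a
`p`-th power and of an ideal all of whose prime factors split completely in `L`. -/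
theorem splits_induction (c : Ideal (𝓞 F)) :
    c ≠ ⊥ → (∀ v : HeightOneSpectrum (𝓞 F), c ≤ v.asIdeal →
      (r : 𝓞 F) ∉ v.asIdeal ∧ s14_Splits F B v.asIdeal) →
    (Ideal.absNorm c).Coprime r ∧ s14_cr_psi r D.θ (Ideal.absNorm c) = 1 ∧
      ∃ c' 𝔡 : Ideal (𝓞 K), 𝔡 ≠ ⊥ ∧ Ideal.relNorm (𝓞 K) c = c' * 𝔡 ^ p ∧
        ∀ w : HeightOneSpectrum (𝓞 K), c' ≤ w.asIdeal → s14_Splits K L w.asIdeal := by
  induction c using UniqueFactorizationMonoid.induction_on_prime with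
  | h₁ => intro h; exact absurd rfl h
  | h₂ c hc =>
    intro _ _
    have : c = ⊤ := Ideal.isUnit_iff.mp hc
    subst this
    refine ⟨by simp, by simpa using s14_cr_psi_one r D.θ, ⊤, ⊤, by simp, ?_, ?_⟩
    · rw [Ideal.relNorm_top, ← Ideal.one_eq_top, one_pow, one_mul]
    intro w hw
    exact absurd (top_le_iff.mp hw) w.isPrime.ne_top
  | h₃ a P ha hP ih =>
    intro _ h
    have hP0 : P ≠ ⊥ := hP.ne_zero
    have hPprime : P.IsPrime := Ideal.isPrime_of_prime hP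
    set v₀ : HeightOneSpectrum (𝓞 F) := ⟨P, hPprime, hP0⟩ with hv₀
    obtain ⟨hv₀r, hv₀s⟩ := h v₀ Ideal.mul_le_left
    have ha' : ∀ v : HeightOneSpectrum (𝓞 F), a ≤ v.asIdeal →
        (r : 𝓞 F) ∉ v.asIdeal ∧ s14_Splits F B v.asIdeal :=
      fun v hv => h v (le_trans Ideal.mul_le_right hv)
    obtain ⟨hcopa, hψa, c', 𝔡, h𝔡, hrel, hc'⟩ := ih ha ha'
    have hcopP : (Ideal.absNorm P).Coprime r := D.coprime_absNorm_prime v₀ hv₀r
    have hψP : s14_cr_psi r D.θ (Ideal.absNorm P) = 1 := D.psi_eq_one_of_splits v₀ hv₀r hv₀s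
    refine ⟨?_, ?_, ?_⟩
    · rw [map_mul]
      exact Nat.Coprime.mul_left hcopP hcopa
    · rw [map_mul, s14_cr_psi_mul r D.θ hcopP hcopa, hψP, hψa, one_mul]
    · obtain ⟨f, hf, hcase⟩ := D.relNorm_of_splits v₀ hv₀s
      have hs0 : P.under (𝓞 K) ≠ ⊥ := Ideal.under_ne_bot (𝓞 K) hP0
      rcases hcase with ⟨f', rfl⟩ | hsplit
      · refine ⟨c', (P.under (𝓞 K)) ^ f' * 𝔡, ?_, ?_, hc'⟩
        · exact mul_ne_zero (pow_ne_zero _ hs0) h𝔡
        · rw [map_mul, hrel, hf, mul_pow, ← pow_mul, mul_comm f' p]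
          ring
      · refine ⟨(P.under (𝓞 K)) ^ f * c', 𝔡, h𝔡, ?_, ?_⟩
        · rw [map_mul, hrel, hf]
          ring
        · intro w hw
          rcases (w.isPrime.mul_le).mp hw with h1 | h1
          · have h2 : P.under (𝓞 K) ≤ w.asIdeal := w.isPrime.le_of_pow_le h1
            haveI : (P.under (𝓞 K)).IsPrime := Ideal.IsPrime.under (𝓞 K) P
            haveI hsmax : (P.under (𝓞 K)).IsMaximal :=
              Ring.DimensionLEOne.maximalOfPrime hs0 inferInstance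
            have h3 : P.under (𝓞 K) = w.asIdeal := hsmax.eq_of_le w.isPrime.ne_top h2
            rw [← h3]
            exact hsplit
          · exact hc' w h1

/-- `ψ` is trivial on norm-like ideals (modulus: the primes above `r`). -/
theorem psi_eq_one_of_normLike (R : Finset (HeightOneSpectrum (𝓞 F)))
    (hR : ∀ v : HeightOneSpectrum (𝓞 F), v ∈ R ↔ (r : 𝓞 F) ∈ v.asIdeal)
    (a : Ideal (𝓞 F)) (ha : a ≠ ⊥) (hcop : s14_CoprimeTo F R a)
    (hNL : s14_NormLike F B p R ∅ a) :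
    s14_cr_psi r D.θ (Ideal.absNorm a) = 1 := by
  obtain ⟨b, c, x, hb, hx, heq, hbx, -, hc⟩ := hNL
  have hc0 : c ≠ ⊥ := by
    rintro rfl
    rw [Ideal.mul_bot] at heq
    exact (mul_ne_zero ha (pow_ne_zero p hb)) heq
  have hcopa : (Ideal.absNorm a).Coprime r :=
    s14_cr_coprime_absNorm r a ha (fun v hv => hcop v ((hR v).mpr hv))
  have hcopb : (Ideal.absNorm b).Coprime r :=
    s14_cr_coprime_absNorm r b hb (fun v hv => (hbx v (Or.inl ((hR v).mpr hv))).1)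
  have hxv : ∀ v : HeightOneSpectrum (𝓞 F), (r : 𝓞 F) ∈ v.asIdeal → x ∉ v.asIdeal :=
    fun v hv => (hbx v (Or.inl ((hR v).mpr hv))).2
  have hx0 : Ideal.span {x} ≠ ⊥ := by
    rw [Ne, Ideal.span_singleton_eq_bot]
    exact hx
  have hcopx : (Ideal.absNorm (Ideal.span {x})).Coprime r :=
    s14_cr_coprime_absNorm r _ hx0
      (fun v hv hle => hxv v hv (hle (Ideal.mem_span_singleton_self x)))
  obtain ⟨hcopc, hψc, -⟩ := D.splits_induction c hc0
    (fun v hv => ⟨fun hr => (hc v hv).1 ((hR v).mpr hr), (hc v hv).2.2⟩)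
  have h1 := congrArg (fun I => s14_cr_psi r D.θ (Ideal.absNorm I)) heq
  simp only [map_mul, map_pow] at h1
  rw [s14_cr_psi_mul r D.θ hcopa (Nat.Coprime.pow_left p hcopb), s14_cr_psi_pow r D.θ hcopb,
    D.pow_p_eq_one, mul_one, s14_cr_psi_mul r D.θ hcopx hcopc, D.psi_principal x hxv, hψc,
    mul_one] at h1
  exact h1

/-- The finite set of primes of `F` above `r`. -/
theorem exists_R : ∃ R : Finset (HeightOneSpectrum (𝓞 F)),
    ∀ v : HeightOneSpectrum (𝓞 F), v ∈ R ↔ (r : 𝓞 F) ∈ v.asIdeal := by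
  have hr0 : Ideal.span {(r : 𝓞 F)} ≠ 0 := by
    rw [Ne, Ideal.zero_eq_bot, Ideal.span_singleton_eq_bot]
    exact_mod_cast (Fact.out : r.Prime).ne_zero
  have hfin := Ideal.finite_factors hr0
  refine ⟨hfin.toFinset, fun v => ?_⟩
  rw [Set.Finite.mem_toFinset, Set.mem_ofPred_eq, Ideal.dvd_span_singleton]

/-- **The abstract crossing theorem.** -/
theorem core (hI2 : s14_stmt_I2) (hdegB : Module.finrank F B = p) (hunrB : s14_Unram F B)
    (hζp : ∃ ζ : F, IsPrimitiveRoot ζ p)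
    (q₁ q₂ : Ideal (𝓞 K)) [q₁.IsPrime] [q₂.IsPrime] (hq₁ : q₁ ≠ ⊥) (hq₂ : q₂ ≠ ⊥)
    (hr₁ : (r : 𝓞 K) ∉ q₁) (hr₂ : (r : 𝓞 K) ∉ q₂)
    (σ₁ σ₂ : L ≃ₐ[K] L) (hσ₁ : s14_IsFrob K L q₁ σ₁) (hσ₂ : s14_IsFrob K L q₂ σ₂)
    (hσ₁1 : σ₁ ≠ 1)
    (hθ₁ : s14_cr_psi r D.θ (Ideal.absNorm q₁) = σ₁)
    (hθ₂ : s14_cr_psi r D.θ (Ideal.absNorm q₂) = σ₂)
    (a b' : ℕ) (hrel : σ₁ ^ a * σ₂ ^ b' = 1) :
    s14_NormLike K L p ∅ ∅ (q₁ ^ a * q₂ ^ b') := by
  have hp : p.Prime := Fact.out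
  obtain ⟨Q₁, hQ₁q, hQ₁N, hQ₁rel, hQ₁r⟩ := D.exists_prime_over q₁ hq₁ hr₁ σ₁ hσ₁ hθ₁
  obtain ⟨Q₂, hQ₂q, hQ₂N, hQ₂rel, hQ₂r⟩ := D.exists_prime_over q₂ hq₂ hr₂ σ₂ hσ₂ hθ₂
  obtain ⟨R, hR⟩ := D.exists_R
  have hcopQ : ∀ Q : HeightOneSpectrum (𝓞 F), (r : 𝓞 F) ∉ Q.asIdeal →
      ∀ t ∈ R, ¬ Q.asIdeal ≤ t.asIdeal := by
    intro Q hQr t ht hle
    have : Q.asIdeal = t.asIdeal := Q.isMaximal.eq_of_le t.isPrime.ne_top hle
    exact hQr (this ▸ (hR t).mp ht)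
  have hcop1 : s14_CoprimeTo F R Q₁.asIdeal := hcopQ Q₁ hQ₁r
  have hψ1 : s14_cr_psi r D.θ (Ideal.absNorm Q₁.asIdeal) = σ₁ := by rw [hQ₁N, hθ₁]
  have hψ2 : s14_cr_psi r D.θ (Ideal.absNorm Q₂.asIdeal) = σ₂ := by rw [hQ₂N, hθ₂]
  have hnot : ¬ s14_NormLike F B p R ∅ Q₁.asIdeal := by
    intro hNL
    have := D.psi_eq_one_of_normLike R hR Q₁.asIdeal Q₁.ne_bot hcop1 hNL
    rw [hψ1] at this
    exact hσ₁1 this
  set 𝔞 : Ideal (𝓞 F) := Q₁.asIdeal ^ a * Q₂.asIdeal ^ b' with h𝔞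
  have h𝔞0 : 𝔞 ≠ ⊥ := mul_ne_zero (pow_ne_zero _ Q₁.ne_bot) (pow_ne_zero _ Q₂.ne_bot)
  have hcop𝔞 : s14_CoprimeTo F R 𝔞 := by
    intro t ht hle
    rcases (t.isPrime.mul_le).mp hle with h1 | h1
    · exact hcopQ Q₁ hQ₁r t ht (t.isPrime.le_of_pow_le h1)
    · exact hcopQ Q₂ hQ₂r t ht (t.isPrime.le_of_pow_le h1)
  obtain ⟨k, hk, hNL⟩ := hI2 F B p hp D.hp2 hdegB hζp hunrB R Q₁.asIdeal Q₁.ne_bot hcop1 hnot
    𝔞 h𝔞0 hcop𝔞
  have hcopN1 : (Ideal.absNorm Q₁.asIdeal).Coprime r := D.coprime_absNorm_prime Q₁ hQ₁r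
  have hcopN2 : (Ideal.absNorm Q₂.asIdeal).Coprime r := D.coprime_absNorm_prime Q₂ hQ₂r
  -- `k = 0`
  have hk0 : k = 0 := by
    have hcopk : s14_CoprimeTo F R (𝔞 * Q₁.asIdeal ^ k) := by
      intro t ht hle
      rcases (t.isPrime.mul_le).mp hle with h1 | h1
      · exact hcop𝔞 t ht h1
      · exact hcopQ Q₁ hQ₁r t ht (t.isPrime.le_of_pow_le h1)
    have h1 := D.psi_eq_one_of_normLike R hR _
      (mul_ne_zero h𝔞0 (pow_ne_zero _ Q₁.ne_bot)) hcopk hNL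
    rw [h𝔞, map_mul, map_mul, map_pow, map_pow, map_pow,
      s14_cr_psi_mul r D.θ (Nat.Coprime.mul_left (Nat.Coprime.pow_left a hcopN1)
        (Nat.Coprime.pow_left b' hcopN2)) (Nat.Coprime.pow_left k hcopN1),
      s14_cr_psi_mul r D.θ (Nat.Coprime.pow_left a hcopN1) (Nat.Coprime.pow_left b' hcopN2),
      s14_cr_psi_pow r D.θ hcopN1, s14_cr_psi_pow r D.θ hcopN2, s14_cr_psi_pow r D.θ hcopN1,
      hψ1, hψ2, hrel, one_mul] at h1
    have hord : orderOf σ₁ = p := orderOf_eq_prime (D.pow_p_eq_one σ₁) hσ₁1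
    have hdvd : p ∣ k := by
      rw [← hord]
      exact orderOf_dvd_of_pow_eq_one h1
    exact Nat.eq_zero_of_dvd_of_lt hdvd hk
  rw [hk0, pow_zero, mul_one] at hNL
  -- norm descent
  obtain ⟨b, c, x, hb, hx, heq, hbx, -, hc⟩ := hNL
  have hc0 : c ≠ ⊥ := by
    rintro rfl
    rw [Ideal.mul_bot] at heq
    exact (mul_ne_zero h𝔞0 (pow_ne_zero p hb)) heq
  obtain ⟨-, -, c', 𝔡, h𝔡, hrelc, hc'⟩ := D.splits_induction c hc0
    (fun v hv => ⟨fun hr => (hc v hv).1 ((hR v).mpr hr), (hc v hv).2.2⟩)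
  obtain ⟨y, hy𝔡, hy0⟩ := Submodule.exists_mem_ne_zero_of_ne_bot h𝔡
  obtain ⟨𝔡', h𝔡'⟩ := Ideal.dvd_span_singleton.mpr hy𝔡
  have h𝔡'0 : 𝔡' ≠ ⊥ := by
    rintro rfl
    rw [Ideal.mul_bot, Ideal.span_singleton_eq_bot] at h𝔡'
    exact hy0 h𝔡'
  have hN := congrArg (Ideal.relNorm (𝓞 K)) heq
  rw [h𝔞, map_mul, map_mul, map_pow, map_pow, map_pow, hQ₁rel, hQ₂rel, map_mul,
    Ideal.relNorm_singleton, hrelc] at hN
  refine ⟨Ideal.relNorm (𝓞 K) b * 𝔡', c', Algebra.intNorm (𝓞 K) (𝓞 F) x * y ^ p, ?_, ?_, ?_,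
    ?_, ?_, ?_⟩
  · exact mul_ne_zero (by rwa [Ne, Ideal.zero_eq_bot, Ideal.relNorm_eq_bot_iff]) h𝔡'0
  · exact mul_ne_zero (Algebra.intNorm_ne_zero.mpr hx) (pow_ne_zero _ hy0)
  · rw [mul_pow, ← mul_assoc, hN, ← Ideal.span_singleton_mul_span_singleton,
      ← Ideal.span_singleton_pow, h𝔡', mul_pow]
    ring
  · intro v hv
    rcases hv with hv | hv <;> exact absurd hv (Finset.notMem_empty v)
  · intro t ht
    exact absurd ht (Finset.notMem_empty t)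
  · intro v hv
    exact ⟨Finset.notMem_empty v, Finset.notMem_empty v, hc' v hv⟩

end s14_cr_Data

end

end Fermat.Agent.S14
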