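import Mathlib
import Fermat.Agent.S14.Defs
import Fermat.Agent.S14.CrossingDefs2

/-!
# S14 (CR) crossing — (NK) and (NQ): absolute norms of primes of `ℚ(ζ_p)` (lead)
-/

set_option autoImplicit false

namespace Fermat.Agent.S14

open scoped NumberField Pointwise

/-- the prime number below a nonzero prime of a number field. -/
theorem s14_crn_below (K : Type) [Field K] [NumberField K] (q : Ideal (𝓞 K)) (hq : q.IsPrime)
    (hq0 : q ≠ ⊥) :
    ∃ ℓ : ℕ, ℓ.Prime ∧ q.under ℤ = Ideal.span {(ℓ : ℤ)} ∧ (ℓ : 𝓞 K) ∈ q := by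
  have := hq
  have hne : q.under ℤ ≠ ⊥ := Ideal.under_ne_bot (A := ℤ) hq0
  have hpr : (q.under ℤ).IsPrime := inferInstance
  obtain ⟨n, hn⟩ : ∃ n : ℤ, q.under ℤ = Ideal.span {n} :=
    ⟨_, (Submodule.IsPrincipal.span_singleton_generator (q.under ℤ)).symm⟩
  have hn0 : n ≠ 0 := by
    rintro rfl
    apply hne
    rw [hn]
    simp
  have hnp : Prime n := by
    rw [hn] at hpr
    exact (Ideal.span_singleton_prime hn0).mp hpr
  refine ⟨n.natAbs, Int.prime_iff_natAbs_prime.mp hnp, ?_, ?_⟩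
  · rw [hn]
    exact (Ideal.span_singleton_eq_span_singleton.mpr
      (Int.associated_natAbs n)).trans rfl
  · have h1 : (n.natAbs : ℤ) ∈ q.under ℤ := by
      rw [hn, Ideal.mem_span_singleton]
      exact Int.dvd_natAbs.mpr (dvd_refl n)
    have h2 := Ideal.mem_comap.mp h1
    simpa using h2

theorem s14_crn_absNorm (K : Type) [Field K] [NumberField K] (q : Ideal (𝓞 K)) [hq : q.IsPrime]
    (ℓ : ℕ) (hℓ : ℓ.Prime) [hlo : q.LiesOver (Ideal.span {(ℓ : ℤ)})] :
    Ideal.absNorm q = ℓ ^ (q.inertiaDeg ℤ) := by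
  have hq0 : q ≠ ⊥ := by
    rintro rfl
    have h := hlo.over
    rw [Ideal.under_bot] at h
    have : (ℓ : ℤ) = 0 := by
      have := h ▸ Ideal.mem_span_singleton_self (ℓ : ℤ)
      simpa using this
    exact hℓ.ne_zero (by exact_mod_cast this)
  have : q.IsMaximal := hq.isMaximal hq0
  have : (Ideal.span {(ℓ : ℤ)}).IsMaximal :=
    ((Ideal.span_singleton_prime (by exact_mod_cast hℓ.ne_zero)).mpr
      (Nat.prime_iff_prime_int.mp hℓ)).isMaximal (by simpa using hℓ.ne_zero)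
  rw [Ideal.absNorm_eq_pow_inertiaDeg' q hℓ, Ideal.inertiaDeg'_eq_inertiaDeg]

theorem s14_crn_nq : s14_stmt_CR_nq := by
  intro p _ K _ _ _ q hq hq0
  have := hq
  obtain ⟨ℓ, hℓ, hunder, hmem⟩ := s14_crn_below K q hq hq0
  have : Fact ℓ.Prime := ⟨hℓ⟩
  have hlo : q.LiesOver (Ideal.span {(ℓ : ℤ)}) := ⟨hunder.symm⟩
  have hp : p.Prime := Fact.out
  refine ⟨ℓ, q.inertiaDeg ℤ, hℓ, ?_, s14_crn_absNorm K q ℓ hℓ, hunder, hmem⟩
  by_cases hlp : ℓ = p
  · subst hlp
    rw [IsCyclotomicExtension.Rat.inertiaDeg_eq_of_prime ℓ K q]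
    exact hℓ.one_lt.ne' ∘ Nat.dvd_one.mp
  · have hnd : ¬ ℓ ∣ p := fun h => hlp ((Nat.prime_dvd_prime_iff_eq hℓ hp).mp h)
    have : NeZero p := ⟨hp.ne_zero⟩
    rw [IsCyclotomicExtension.Rat.inertiaDeg_eq_of_not_dvd ℓ K q hnd]
    intro hdvd
    have hcop : Nat.Coprime ℓ p := (Nat.coprime_primes hℓ hp).mpr hlp
    have hu : (ZMod.unitOfCoprime ℓ hcop : ZMod p) = (ℓ : ZMod p) := ZMod.coe_unitOfCoprime ℓ hcop
    have hord : orderOf (ℓ : ZMod p) = orderOf (ZMod.unitOfCoprime ℓ hcop) := by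
      rw [← hu, orderOf_units]
    have h1 : orderOf (ZMod.unitOfCoprime ℓ hcop) ∣ p - 1 := by
      have := orderOf_dvd_card (x := ZMod.unitOfCoprime ℓ hcop)
      rwa [ZMod.card_units_eq_totient, Nat.totient_prime hp] at this
    rw [hord] at hdvd
    have h2 : p ∣ p - 1 := hdvd.trans h1
    have h3 := Nat.le_of_dvd (by have := hp.two_le; omega) h2
    have := hp.two_le
    omega

theorem s14_crn_nk : s14_stmt_CR_nk := by
  intro p _ K _ _ _ r hr hpr 𝔭 h𝔭 hmem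
  have := h𝔭
  have hp : p.Prime := Fact.out
  have : Fact r.Prime := ⟨hr⟩
  have hrp : r ≠ p := by
    rintro rfl
    have h3 := Nat.le_of_dvd (by have := hp.two_le; omega) hpr
    have := hp.two_le
    omega
  have hmax : (Ideal.span {(r : ℤ)}).IsMaximal :=
    ((Ideal.span_singleton_prime (by exact_mod_cast hr.ne_zero)).mpr
      (Nat.prime_iff_prime_int.mp hr)).isMaximal (by simpa using hr.ne_zero)
  have hlo : 𝔭.LiesOver (Ideal.span {(r : ℤ)}) := by
    refine ⟨?_⟩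
    have hle : Ideal.span {(r : ℤ)} ≤ 𝔭.under ℤ := by
      rw [Ideal.span_singleton_le_iff_mem, Ideal.under, Ideal.mem_comap]
      simpa using hmem
    exact hmax.eq_of_le (Ideal.IsPrime.ne_top inferInstance) hle
  have hnd : ¬ r ∣ p := fun h => hrp ((Nat.prime_dvd_prime_iff_eq hr hp).mp h)
  have : NeZero p := ⟨hp.ne_zero⟩
  rw [s14_crn_absNorm K 𝔭 r hr, IsCyclotomicExtension.Rat.inertiaDeg_eq_of_not_dvd r K 𝔭 hnd]
  have h1 : (r : ZMod p) = 1 := by
    have hr1 : 1 ≤ r := hr.one_lt.le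
    have : ((r - 1 : ℕ) : ZMod p) = 0 := (ZMod.natCast_eq_zero_iff _ _).mpr hpr
    rw [Nat.cast_sub hr1] at this
    simpa [sub_eq_zero] using this
  rw [h1, orderOf_one, pow_one]

end Fermat.Agent.S14
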