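import Mathlib
import Fermat.Agent.S14.Defs

/-!
# S14 — bridge lemmas between the S14 vocabulary and Mathlib's ramification API
(OWNER: helper8)

`N/F` a Galois extension of number fields, `Q` a prime of `𝓞 N`, `q` a prime of `𝓞 F`.

* (B4) `s14_br_card_inertia`, `s14_br_card_stabilizer`, `s14_br_exists_smul_eq`,
  `s14_br_fundamental`;
* (B1) `s14_br_inertia_eq_bot_iff`, `s14_br_inertia_eq_bot_iff_isUnramifiedAt`,
  `s14_br_unramAt_iff`, `s14_br_unramAt_iff_isUnramifiedAt`, `s14_br_unram_iff`,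
  `s14_br_unramAt_of_unram`;
* (B2) `s14_br_stabilizer_eq_bot_iff`, `s14_br_splits_iff`, `s14_br_splits_iff_ncard`,
  `s14_br_unramAt_of_splits`;
* (B3) `s14_br_dichotomy`.
-/

set_option autoImplicit false
set_option linter.unusedSectionVars false
set_option linter.unusedVariables false
set_option linter.style.haveILetI false

namespace Fermat.Agent.S14

open NumberField IsDedekindDomain
open scoped Pointwise

section

variable (F N : Type*) [Field F] [NumberField F] [Field N] [NumberField N] [Algebra F N]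
  [IsGalois F N]

theorem s14_br_mul_eq_one_iff (a b : ℕ) : a * b = 1 ↔ a = 1 ∧ b = 1 := by
  constructor
  · intro h
    have ha : a ∣ 1 := ⟨b, h.symm⟩
    have hb : b ∣ 1 := ⟨a, by rw [mul_comm]; exact h.symm⟩
    exact ⟨Nat.dvd_one.1 ha, Nat.dvd_one.1 hb⟩
  · rintro ⟨rfl, rfl⟩
    rfl

/-! ### (B4) cardinalities and transitivity -/

/-- the inertia group has `e` elements. -/
theorem s14_br_card_inertia (Q : Ideal (𝓞 N)) [Q.IsPrime] :
    Nat.card (Q.inertia (N ≃ₐ[F] N)) = Q.ramificationIdx (𝓞 F) := by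
  rw [Ideal.card_inertia_eq_ramificationIdxIn (G := N ≃ₐ[F] N) (Q.under (𝓞 F)) Q,
    Ideal.ramificationIdxIn_eq_ramificationIdx (Q.under (𝓞 F)) Q (N ≃ₐ[F] N)]

/-- the decomposition group has `e * f` elements. -/
theorem s14_br_card_stabilizer (Q : Ideal (𝓞 N)) [Q.IsPrime] :
    Nat.card (MulAction.stabilizer (N ≃ₐ[F] N) Q)
      = Q.ramificationIdx (𝓞 F) * Q.inertiaDeg (𝓞 F) := by
  rw [Ideal.card_stabilizer_eq (G := N ≃ₐ[F] N) (Q.under (𝓞 F)) Q,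
    Ideal.ramificationIdxIn_eq_ramificationIdx (Q.under (𝓞 F)) Q (N ≃ₐ[F] N),
    Ideal.inertiaDegIn_eq_inertiaDeg (Q.under (𝓞 F)) Q (N ≃ₐ[F] N)]

/-- the Galois group acts transitively on the primes over a given prime. -/
theorem s14_br_exists_smul_eq (Q Q' : Ideal (𝓞 N)) [Q.IsPrime] [Q'.IsPrime]
    (h : Q.under (𝓞 F) = Q'.under (𝓞 F)) : ∃ σ : N ≃ₐ[F] N, σ • Q = Q' := by
  obtain ⟨σ, hσ⟩ := Algebra.IsInvariant.exists_smul_of_under_eq (𝓞 F) (𝓞 N) (N ≃ₐ[F] N) Q Q' h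
  exact ⟨σ, hσ.symm⟩

theorem s14_br_ramificationIdx_eq (Q Q' : Ideal (𝓞 N)) [Q.IsPrime] [Q'.IsPrime]
    (h : Q.under (𝓞 F) = Q'.under (𝓞 F)) :
    Q.ramificationIdx (𝓞 F) = Q'.ramificationIdx (𝓞 F) := by
  obtain ⟨σ, rfl⟩ := s14_br_exists_smul_eq F N Q Q' h
  rw [Ideal.ramificationIdx_smul]

theorem s14_br_inertiaDeg_eq (Q Q' : Ideal (𝓞 N)) [Q.IsPrime] [Q'.IsPrime]
    (h : Q.under (𝓞 F) = Q'.under (𝓞 F)) :
    Q.inertiaDeg (𝓞 F) = Q'.inertiaDeg (𝓞 F) := by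
  obtain ⟨σ, rfl⟩ := s14_br_exists_smul_eq F N Q Q' h
  rw [Ideal.inertiaDeg_smul]

theorem s14_br_ramificationIdx_pos (Q : Ideal (𝓞 N)) [Q.IsPrime] :
    0 < Q.ramificationIdx (𝓞 F) := Ideal.ramificationIdx_pos Q (𝓞 F)

theorem s14_br_inertiaDeg_pos (Q : Ideal (𝓞 N)) [Q.IsPrime] :
    0 < Q.inertiaDeg (𝓞 F) := Ideal.inertiaDeg_pos Q (𝓞 F)

/-- there is a prime of `𝓞 N` over every prime of `𝓞 F`. -/
theorem s14_br_exists_over (q : Ideal (𝓞 F)) [q.IsPrime] :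
    ∃ Q : Ideal (𝓞 N), Q.IsPrime ∧ Q.under (𝓞 F) = q := by
  obtain ⟨⟨Q, hQ, hQq⟩⟩ := (inferInstance : Nonempty (q.primesOver (𝓞 N)))
  exact ⟨Q, hQ, hQq.over.symm⟩

/-- the fundamental identity `g * e * f = [N : F]`. -/
theorem s14_br_fundamental (Q : Ideal (𝓞 N)) [Q.IsPrime] :
    ((Q.under (𝓞 F)).primesOver (𝓞 N)).ncard
      * (Q.ramificationIdx (𝓞 F) * Q.inertiaDeg (𝓞 F)) = Module.finrank F N := by
  rw [← Ideal.ramificationIdxIn_eq_ramificationIdx (Q.under (𝓞 F)) Q (N ≃ₐ[F] N),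
    ← Ideal.inertiaDegIn_eq_inertiaDeg (Q.under (𝓞 F)) Q (N ≃ₐ[F] N),
    Ideal.ncard_primesOver_mul_ramificationIdxIn_mul_inertiaDegIn (Q.under (𝓞 F)) (𝓞 N)
      (N ≃ₐ[F] N), IsGalois.card_aut_eq_finrank]

/-! ### (B1) unramified -/

theorem s14_br_inertia_eq_bot_iff (Q : Ideal (𝓞 N)) [Q.IsPrime] :
    Q.inertia (N ≃ₐ[F] N) = ⊥ ↔ Q.ramificationIdx (𝓞 F) = 1 := by
  rw [Subgroup.eq_bot_iff_card, s14_br_card_inertia]

theorem s14_br_ramificationIdx_eq_one_iff (Q : Ideal (𝓞 N)) [Q.IsPrime] :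
    Q.ramificationIdx (𝓞 F) = 1 ↔ Algebra.IsUnramifiedAt (𝓞 F) Q :=
  Ideal.ramificationIdx_eq_one_iff

theorem s14_br_inertia_eq_bot_iff_isUnramifiedAt (Q : Ideal (𝓞 N)) [Q.IsPrime] :
    Q.inertia (N ≃ₐ[F] N) = ⊥ ↔ Algebra.IsUnramifiedAt (𝓞 F) Q := by
  rw [s14_br_inertia_eq_bot_iff, s14_br_ramificationIdx_eq_one_iff]

theorem s14_br_unramAt_iff (q : Ideal (𝓞 F)) :
    s14_UnramAt F N q ↔
      ∀ Q : Ideal (𝓞 N), Q.IsPrime → Q.under (𝓞 F) = q → Q.ramificationIdx (𝓞 F) = 1 := by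
  constructor
  · intro h Q hQ hQq
    haveI := hQ
    exact (s14_br_inertia_eq_bot_iff F N Q).1 (h Q hQ hQq)
  · intro h Q hQ hQq
    haveI := hQ
    exact (s14_br_inertia_eq_bot_iff F N Q).2 (h Q hQ hQq)

theorem s14_br_unramAt_iff_isUnramifiedAt (q : Ideal (𝓞 F)) :
    s14_UnramAt F N q ↔
      ∀ (Q : Ideal (𝓞 N)) [Q.IsPrime], Q.under (𝓞 F) = q → Algebra.IsUnramifiedAt (𝓞 F) Q := by
  constructor
  · intro h Q hQ hQq
    exact (s14_br_inertia_eq_bot_iff_isUnramifiedAt F N Q).1 (h Q hQ hQq)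
  · intro h Q hQ hQq
    haveI := hQ
    exact (s14_br_inertia_eq_bot_iff_isUnramifiedAt F N Q).2 (h Q hQq)

/-- it suffices to test ONE prime above `q`. -/
theorem s14_br_unramAt_of_one (Q : Ideal (𝓞 N)) [Q.IsPrime]
    (h : Q.inertia (N ≃ₐ[F] N) = ⊥) : s14_UnramAt F N (Q.under (𝓞 F)) := by
  rw [s14_br_unramAt_iff]
  intro Q' hQ' hQ'q
  haveI := hQ'
  rw [s14_br_ramificationIdx_eq F N Q' Q hQ'q]
  exact (s14_br_inertia_eq_bot_iff F N Q).1 h

theorem s14_br_unram_iff :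
    s14_Unram F N ↔
      ∀ Q : Ideal (𝓞 N), Q.IsPrime → Q ≠ ⊥ → Q.ramificationIdx (𝓞 F) = 1 := by
  constructor
  · intro h Q hQ hQ0
    haveI := hQ
    exact (s14_br_inertia_eq_bot_iff F N Q).1 (h Q hQ hQ0)
  · intro h Q hQ hQ0
    haveI := hQ
    exact (s14_br_inertia_eq_bot_iff F N Q).2 (h Q hQ hQ0)

/-- a prime of `𝓞 N` over a nonzero prime is nonzero. -/
theorem s14_br_ne_bot_of_under (Q : Ideal (𝓞 N)) (hQ : Q.under (𝓞 F) ≠ ⊥) : Q ≠ ⊥ := by
  rintro rfl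
  apply hQ
  rw [eq_bot_iff]
  intro x hx
  rw [Ideal.under_def, Ideal.mem_comap, Ideal.mem_bot] at hx
  rw [Ideal.mem_bot]
  exact (FaithfulSMul.algebraMap_injective (𝓞 F) (𝓞 N)) (by rw [hx, map_zero])

theorem s14_br_unramAt_of_unram (h : s14_Unram F N) (q : Ideal (𝓞 F)) (hq : q ≠ ⊥) :
    s14_UnramAt F N q := by
  intro Q hQ hQq
  exact h Q hQ (s14_br_ne_bot_of_under F N Q (by rw [hQq]; exact hq))

/-! ### (B2) split completely -/

theorem s14_br_stabilizer_eq_bot_iff (Q : Ideal (𝓞 N)) [Q.IsPrime] :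
    MulAction.stabilizer (N ≃ₐ[F] N) Q = ⊥ ↔
      Q.ramificationIdx (𝓞 F) = 1 ∧ Q.inertiaDeg (𝓞 F) = 1 := by
  rw [Subgroup.eq_bot_iff_card, s14_br_card_stabilizer, s14_br_mul_eq_one_iff]

theorem s14_br_splits_iff (q : Ideal (𝓞 F)) :
    s14_Splits F N q ↔
      ∀ Q : Ideal (𝓞 N), Q.IsPrime → Q.under (𝓞 F) = q →
        Q.ramificationIdx (𝓞 F) = 1 ∧ Q.inertiaDeg (𝓞 F) = 1 := by
  constructor
  · intro h Q hQ hQq
    haveI := hQ
    exact (s14_br_stabilizer_eq_bot_iff F N Q).1 (h Q hQ hQq)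
  · intro h Q hQ hQq
    haveI := hQ
    exact (s14_br_stabilizer_eq_bot_iff F N Q).2 (h Q hQ hQq)

/-- it suffices to test ONE prime above `q`. -/
theorem s14_br_splits_of_one (Q : Ideal (𝓞 N)) [Q.IsPrime]
    (h : MulAction.stabilizer (N ≃ₐ[F] N) Q = ⊥) : s14_Splits F N (Q.under (𝓞 F)) := by
  rw [s14_br_splits_iff]
  intro Q' hQ' hQ'q
  haveI := hQ'
  rw [s14_br_ramificationIdx_eq F N Q' Q hQ'q, s14_br_inertiaDeg_eq F N Q' Q hQ'q]
  exact (s14_br_stabilizer_eq_bot_iff F N Q).1 h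

theorem s14_br_unramAt_of_splits (q : Ideal (𝓞 F)) (h : s14_Splits F N q) :
    s14_UnramAt F N q := by
  rw [s14_br_unramAt_iff]
  intro Q hQ hQq
  exact ((s14_br_splits_iff F N q).1 h Q hQ hQq).1

theorem s14_br_splits_iff_ncard (q : Ideal (𝓞 F)) [q.IsPrime] :
    s14_Splits F N q ↔ (q.primesOver (𝓞 N)).ncard = Module.finrank F N := by
  obtain ⟨Q, hQ, hQq⟩ := s14_br_exists_over F N q
  haveI := hQ
  have hfund := s14_br_fundamental F N Q
  rw [hQq] at hfund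
  have hpos : 0 < Module.finrank F N := Module.finrank_pos
  constructor
  · intro h
    obtain ⟨h1, h2⟩ := (s14_br_splits_iff F N q).1 h Q hQ hQq
    rw [h1, h2, mul_one, mul_one] at hfund
    exact hfund
  · intro h
    rw [← hQq]
    apply s14_br_splits_of_one
    rw [s14_br_stabilizer_eq_bot_iff, ← s14_br_mul_eq_one_iff]
    rw [h] at hfund
    have h3 : Module.finrank F N * (Q.ramificationIdx (𝓞 F) * Q.inertiaDeg (𝓞 F))
        = Module.finrank F N * 1 := by rw [hfund, mul_one]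
    exact Nat.eq_of_mul_eq_mul_left hpos h3

theorem s14_br_not_splits_of_inertiaDeg (q : Ideal (𝓞 F)) (Q : Ideal (𝓞 N)) [Q.IsPrime]
    (hQq : Q.under (𝓞 F) = q) (hf : Q.inertiaDeg (𝓞 F) ≠ 1) : ¬ s14_Splits F N q := by
  intro h
  exact hf ((s14_br_splits_iff F N q).1 h Q inferInstance hQq).2

theorem s14_br_not_splits_of_ramificationIdx (q : Ideal (𝓞 F)) (Q : Ideal (𝓞 N)) [Q.IsPrime]
    (hQq : Q.under (𝓞 F) = q) (hf : Q.ramificationIdx (𝓞 F) ≠ 1) : ¬ s14_Splits F N q := by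
  intro h
  exact hf ((s14_br_splits_iff F N q).1 h Q inferInstance hQq).1

/-- `Q.LiesOver q` in terms of `Ideal.under`. -/
theorem s14_br_liesOver_iff (q : Ideal (𝓞 F)) (Q : Ideal (𝓞 N)) :
    Q.LiesOver q ↔ Q.under (𝓞 F) = q := by
  rw [Ideal.liesOver_iff]
  exact eq_comm

/-- the `LiesOver` forms of `s14_UnramAt` and `s14_Splits`. -/
theorem s14_br_unramAt_iff_liesOver (q : Ideal (𝓞 F)) :
    s14_UnramAt F N q ↔
      ∀ (Q : Ideal (𝓞 N)) [Q.IsPrime] [Q.LiesOver q], Q.ramificationIdx (𝓞 F) = 1 := by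
  rw [s14_br_unramAt_iff]
  constructor
  · intro h Q hQ hQq
    exact h Q hQ ((s14_br_liesOver_iff F N q Q).1 hQq)
  · intro h Q hQ hQq
    haveI := hQ
    haveI : Q.LiesOver q := (s14_br_liesOver_iff F N q Q).2 hQq
    exact h Q

theorem s14_br_splits_iff_liesOver (q : Ideal (𝓞 F)) :
    s14_Splits F N q ↔
      ∀ (Q : Ideal (𝓞 N)) [Q.IsPrime] [Q.LiesOver q],
        Q.ramificationIdx (𝓞 F) = 1 ∧ Q.inertiaDeg (𝓞 F) = 1 := by
  rw [s14_br_splits_iff]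
  constructor
  · intro h Q hQ hQq
    exact h Q hQ ((s14_br_liesOver_iff F N q Q).1 hQq)
  · intro h Q hQ hQq
    haveI := hQ
    haveI : Q.LiesOver q := (s14_br_liesOver_iff F N q Q).2 hQq
    exact h Q

/-! ### (B3) dichotomy in prime degree -/

/-- **Dichotomy**: in a Galois extension of prime degree, an unramified prime either splits
completely or is inert (one prime above it, of inertia degree `p`, fixed by the whole Galois
group). -/
theorem s14_br_dichotomy (p : ℕ) (hp : p.Prime) (hdeg : Module.finrank F N = p)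
    (q : Ideal (𝓞 F)) [q.IsPrime] (hun : s14_UnramAt F N q) :
    s14_Splits F N q ∨
      ((q.primesOver (𝓞 N)).ncard = 1 ∧
        ∀ Q : Ideal (𝓞 N), Q.IsPrime → Q.under (𝓞 F) = q →
          Q.inertiaDeg (𝓞 F) = p ∧ MulAction.stabilizer (N ≃ₐ[F] N) Q = ⊤) := by
  obtain ⟨Q, hQ, hQq⟩ := s14_br_exists_over F N q
  haveI := hQ
  have hfund := s14_br_fundamental F N Q
  rw [hQq, hdeg] at hfund
  have he : Q.ramificationIdx (𝓞 F) = 1 := (s14_br_unramAt_iff F N q).1 hun Q hQ hQq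
  rw [he, one_mul] at hfund
  have hdvd : Q.inertiaDeg (𝓞 F) ∣ p := ⟨_, by rw [mul_comm]; exact hfund.symm⟩
  rcases (Nat.dvd_prime hp).1 hdvd with hf | hf
  · left
    rw [← hQq]
    apply s14_br_splits_of_one
    rw [s14_br_stabilizer_eq_bot_iff]
    exact ⟨he, hf⟩
  · right
    rw [hf] at hfund
    have hn : (q.primesOver (𝓞 N)).ncard = 1 := by
      have h3 : (q.primesOver (𝓞 N)).ncard * p = 1 * p := by rw [hfund, one_mul]
      exact Nat.eq_of_mul_eq_mul_right hp.pos h3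
    refine ⟨hn, fun Q' hQ' hQ'q => ?_⟩
    haveI := hQ'
    have hf' : Q'.inertiaDeg (𝓞 F) = p := by
      rw [s14_br_inertiaDeg_eq F N Q' Q (hQ'q.trans hQq.symm), hf]
    have he' : Q'.ramificationIdx (𝓞 F) = 1 := (s14_br_unramAt_iff F N q).1 hun Q' hQ' hQ'q
    refine ⟨hf', ?_⟩
    apply Subgroup.eq_top_of_card_eq
    rw [s14_br_card_stabilizer, he', hf', one_mul, IsGalois.card_aut_eq_finrank, hdeg]

/-- not split + unramified (prime degree) ⇒ inert. -/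
theorem s14_br_inert_of_not_splits (p : ℕ) (hp : p.Prime) (hdeg : Module.finrank F N = p)
    (q : Ideal (𝓞 F)) [q.IsPrime] (hun : s14_UnramAt F N q) (hns : ¬ s14_Splits F N q) :
    (q.primesOver (𝓞 N)).ncard = 1 ∧
      ∀ Q : Ideal (𝓞 N), Q.IsPrime → Q.under (𝓞 F) = q →
        Q.inertiaDeg (𝓞 F) = p ∧ MulAction.stabilizer (N ≃ₐ[F] N) Q = ⊤ :=
  (s14_br_dichotomy F N p hp hdeg q hun).resolve_left hns

end

end Fermat.Agent.S14
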