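import Mathlib
import Fermat.Agent.S14.Defs
import Fermat.Agent.S14.Bridge
import Fermat.Agent.S14.CrossingDefs

/-!
# S14 (CR) — sub-statement (UL): a prime `r ≠ p` is unramified in `L`  (OWNER: helper8)

* `s14_crul_ramificationIdx_eq_one_iff`: for a prime `𝔭 ∋ r` of a number field,
  `e(𝔭 | ℤ) = 1 ↔ r ∉ 𝔭 ^ 2`;
* `s14_crul_main : s14_stmt_CR_ul`.
-/

set_option autoImplicit false
set_option linter.unusedSectionVars false
set_option linter.unusedVariables false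
set_option linter.style.haveILetI false

namespace Fermat.Agent.S14

open NumberField
open scoped Pointwise

section General

variable (L : Type*) [Field L] [NumberField L]

/-- a prime of `𝓞 L` containing the prime number `r` lies over `r`. -/
theorem s14_crul_under_eq (r : ℕ) (hr : r.Prime) (𝔭 : Ideal (𝓞 L)) [𝔭.IsPrime]
    (h : (r : 𝓞 L) ∈ 𝔭) : 𝔭.under ℤ = Ideal.span {(r : ℤ)} := by
  have hmax : (Ideal.span {(r : ℤ)}).IsMaximal :=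
    PrincipalIdealRing.isMaximal_of_irreducible (Nat.prime_iff_prime_int.mp hr).irreducible
  symm
  apply hmax.eq_of_le (Ideal.IsPrime.ne_top inferInstance)
  rw [Ideal.span_le, Set.singleton_subset_iff]
  show algebraMap ℤ (𝓞 L) (r : ℤ) ∈ 𝔭
  simpa using h

theorem s14_crul_ne_bot (r : ℕ) (hr : r.Prime) (𝔭 : Ideal (𝓞 L))
    (h : (r : 𝓞 L) ∈ 𝔭) : 𝔭 ≠ ⊥ := by
  rintro rfl
  rw [Ideal.mem_bot] at h
  exact hr.ne_zero (by exact_mod_cast h)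

/-- `e(𝔭 | ℤ) = 1 ↔ r ∉ 𝔭 ^ 2` for a prime `𝔭 ∋ r`. -/
theorem s14_crul_ramificationIdx_eq_one_iff (r : ℕ) (hr : r.Prime) (𝔭 : Ideal (𝓞 L))
    [h𝔭 : 𝔭.IsPrime] (h : (r : 𝓞 L) ∈ 𝔭) :
    𝔭.ramificationIdx ℤ = 1 ↔ (r : 𝓞 L) ∉ 𝔭 ^ 2 := by
  haveI : 𝔭.LiesOver (Ideal.span {(r : ℤ)}) := ⟨(s14_crul_under_eq L r hr 𝔭 h).symm⟩
  have hmap : (Ideal.span {(r : ℤ)}).map (algebraMap ℤ (𝓞 L)) = Ideal.span {(r : 𝓞 L)} := by
    rw [Ideal.map_span, Set.image_singleton]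
    simp
  have hne : Ideal.span {(r : 𝓞 L)} ≠ ⊥ := by
    rw [Ne, Ideal.span_singleton_eq_bot]
    exact_mod_cast hr.ne_zero
  have h𝔭0 : 𝔭 ≠ ⊥ := s14_crul_ne_bot L r hr 𝔭 h
  rw [Ideal.IsDedekindDomain.ramificationIdx_eq_multiplicity (Ideal.span {(r : ℤ)}) 𝔭
    (by rw [hmap]; exact hne), hmap]
  have hfin : FiniteMultiplicity 𝔭 (Ideal.span {(r : 𝓞 L)}) :=
    FiniteMultiplicity.of_prime_left (Ideal.prime_of_isPrime h𝔭0 h𝔭) hne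
  rw [hfin.multiplicity_eq_iff, pow_one, Ideal.dvd_iff_le, Ideal.dvd_iff_le,
    Ideal.span_singleton_le_iff_mem, Ideal.span_singleton_le_iff_mem]
  exact ⟨fun h1 => h1.2, fun h1 => ⟨h, h1⟩⟩

end General

/-- **(UL)** -/
theorem s14_crul_main : s14_stmt_CR_ul := by
  intro p _ K L _ _ _ _ _ _ _ hun r hr hrp 𝔭 h𝔭 hr𝔭
  haveI := h𝔭
  haveI : Fact r.Prime := ⟨hr⟩
  haveI : NeZero p := ⟨(Fact.out : p.Prime).ne_zero⟩
  rw [← s14_crul_ramificationIdx_eq_one_iff L r hr 𝔭 hr𝔭]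
  have h𝔭0 : 𝔭 ≠ ⊥ := s14_crul_ne_bot L r hr 𝔭 hr𝔭
  -- the prime of `K` below `𝔭`
  have hPr : (r : 𝓞 K) ∈ 𝔭.under (𝓞 K) := by
    rw [Ideal.under_def, Ideal.mem_comap]
    simpa using hr𝔭
  haveI : (𝔭.under (𝓞 K)).LiesOver (Ideal.span {(r : ℤ)}) :=
    ⟨(s14_crul_under_eq K r hr (𝔭.under (𝓞 K)) hPr).symm⟩
  have h1 : (𝔭.under (𝓞 K)).ramificationIdx ℤ = 1 :=
    IsCyclotomicExtension.Rat.ramificationIdx_eq_of_not_dvd r K (𝔭.under (𝓞 K))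
      (fun hdvd => hrp ((Nat.prime_dvd_prime_iff_eq hr (Fact.out : p.Prime)).1 hdvd))
  have h2 : 𝔭.ramificationIdx (𝓞 K) = 1 := (s14_br_unram_iff K L).1 hun 𝔭 h𝔭 h𝔭0
  rw [Ideal.ramificationIdx_tower (R := ℤ) (𝔭.under (𝓞 K)) 𝔭, h1, h2]

end Fermat.Agent.S14
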