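import Mathlib
import Fermat.Agent.S14.Defs
import Fermat.Agent.S14.Bridge
import Fermat.Agent.S14.CrossingDefs
import Fermat.Agent.S14.CrossingUL

/-!
# S14 (CR) — sub-statement (TR): `L(ζ_r)/L` is totally ramified above `r`  (OWNER: helper8)

If the prime number `r` is unramified in the number field `L` and `M = L(ζ_r)`, then the inertia
group in `Gal(M/L)` of every prime `𝔯 ∋ r` of `𝓞 M` is the whole Galois group, and the
cyclotomic character `Gal(M/L) → (ℤ/r)ˣ` is bijective.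

* `s14_crtr_main : s14_stmt_CR_tr`.
-/

set_option autoImplicit false
set_option linter.unusedSectionVars false
set_option linter.unusedVariables false
set_option linter.style.haveILetI false

namespace Fermat.Agent.S14

open NumberField
open scoped Pointwise

section

variable (r : ℕ) [Fact r.Prime] (L M : Type*) [Field L] [NumberField L] [Field M] [NumberField M]
  [Algebra L M] [IsCyclotomicExtension {r} L M]

/-- `r - 1` divides the absolute ramification index of every prime `𝔯 ∋ r` of `𝓞 M`, if `M`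
contains a primitive `r`-th root of unity. -/
theorem s14_crtr_dvd_ramificationIdx (𝔯 : Ideal (𝓞 M)) [𝔯.IsPrime] (hr𝔯 : (r : 𝓞 M) ∈ 𝔯)
    (ζ : M) (hζ : IsPrimitiveRoot ζ r) : (r - 1) ∣ 𝔯.ramificationIdx ℤ := by
  have hr := (Fact.out : r.Prime)
  haveI : NeZero r := ⟨hr.ne_zero⟩
  let E : IntermediateField ℚ M := IntermediateField.adjoin ℚ {ζ}
  haveI : IsCyclotomicExtension {r} ℚ E := hζ.intermediateField_adjoin_isCyclotomicExtension ℚ
  have hPr : (r : 𝓞 E) ∈ 𝔯.under (𝓞 E) := by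
    rw [Ideal.under_def, Ideal.mem_comap]
    simpa using hr𝔯
  haveI : (𝔯.under (𝓞 E)).LiesOver (Ideal.span {(r : ℤ)}) :=
    ⟨(s14_crul_under_eq E r hr (𝔯.under (𝓞 E)) hPr).symm⟩
  have heP : (𝔯.under (𝓞 E)).ramificationIdx ℤ = r - 1 :=
    IsCyclotomicExtension.Rat.ramificationIdx_eq_of_prime r E (𝔯.under (𝓞 E))
  rw [Ideal.ramificationIdx_tower (R := ℤ) (𝔯.under (𝓞 E)) 𝔯, heP]
  exact dvd_mul_right _ _

end

/-- **(TR)** -/
theorem s14_crtr_main : s14_stmt_CR_tr := by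
  intro r _ L M _ _ _ _ _ _ hunr 𝔯 h𝔯 hr𝔯 ζ hζ u
  haveI := h𝔯
  have hr := (Fact.out : r.Prime)
  haveI : NeZero r := ⟨hr.ne_zero⟩
  haveI : IsGalois L M := IsCyclotomicExtension.isGalois {r} L M
  -- `e(𝔯 | ℤ) = e(𝔯 | 𝓞 L)`
  have h𝔭r : (r : 𝓞 L) ∈ 𝔯.under (𝓞 L) := by
    rw [Ideal.under_def, Ideal.mem_comap]
    simpa using hr𝔯
  have he𝔭 : (𝔯.under (𝓞 L)).ramificationIdx ℤ = 1 :=
    (s14_crul_ramificationIdx_eq_one_iff L r hr (𝔯.under (𝓞 L)) h𝔭r).2
      (hunr (𝔯.under (𝓞 L)) inferInstance h𝔭r)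
  have htowerL : 𝔯.ramificationIdx ℤ = 𝔯.ramificationIdx (𝓞 L) := by
    rw [Ideal.ramificationIdx_tower (R := ℤ) (𝔯.under (𝓞 L)) 𝔯, he𝔭, one_mul]
  have hdvd : (r - 1) ∣ 𝔯.ramificationIdx (𝓞 L) := by
    rw [← htowerL]
    exact s14_crtr_dvd_ramificationIdx r M 𝔯 hr𝔯 ζ hζ
  -- the inertia group has `e` elements
  have hI : Nat.card (𝔯.inertia (M ≃ₐ[L] M)) = 𝔯.ramificationIdx (𝓞 L) :=
    s14_br_card_inertia L M 𝔯
  have hepos : 0 < 𝔯.ramificationIdx (𝓞 L) := Ideal.ramificationIdx_pos 𝔯 (𝓞 L)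
  have hr1 : 0 < r - 1 := by have := hr.two_le; omega
  have hle1 : r - 1 ≤ Nat.card (𝔯.inertia (M ≃ₐ[L] M)) := by
    rw [hI]
    exact Nat.le_of_dvd hepos hdvd
  -- the cyclotomic character is injective
  have hχ : Function.Injective (hζ.autToPow L) := hζ.autToPow_injective L
  have hZ : Nat.card (ZMod r)ˣ = r - 1 := by
    rw [Nat.card_eq_fintype_card, ZMod.card_units]
  have hcardG : Nat.card (M ≃ₐ[L] M) ≤ r - 1 := by
    have h1 := Nat.card_le_card_of_injective _ hχ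
    rwa [hZ] at h1
  have hle2 : Nat.card (𝔯.inertia (M ≃ₐ[L] M)) ≤ Nat.card (M ≃ₐ[L] M) :=
    Subgroup.card_le_card_group _
  have hItop : 𝔯.inertia (M ≃ₐ[L] M) = ⊤ := by
    apply Subgroup.eq_top_of_card_eq
    omega
  have hcardG' : Nat.card (M ≃ₐ[L] M) = Nat.card (ZMod r)ˣ := by
    rw [hZ]
    omega
  have hbij : Function.Bijective (hζ.autToPow L) :=
    (Nat.bijective_iff_injective_and_card _).2 ⟨hχ, hcardG'⟩
  obtain ⟨ι, hι⟩ := hbij.2 u
  refine ⟨ι, ?_, ?_⟩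
  · have : ι ∈ 𝔯.inertia (M ≃ₐ[L] M) := by rw [hItop]; trivial
    exact this
  · rw [← hι]
    exact (hζ.autToPow_spec L ι).symm

end Fermat.Agent.S14
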