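import Mathlib
import Fermat.Agent.S14.Defs
import Fermat.Agent.S14.CrossingDefs
import Fermat.Agent.S14.CrossingDefs2
import Fermat.Agent.S14.CrossingMain
import Fermat.Agent.S14.CrossingFC
import Fermat.Agent.S14.CrossingTR
import Fermat.Agent.S14.CrossingUL
import Fermat.Agent.S14.CrossingAuxLP
import Fermat.Agent.S14.CrossingMS
import Fermat.Agent.S14.CrossingNorm
import Fermat.Agent.S14.Zeta

/-!
# S14 (CR) crossing — assembly (OWNER: helper9)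

`s14_cr_main : s14_stmt_I2 → s14_stmt_CR`.
-/

set_option autoImplicit false
set_option linter.unusedSectionVars false
set_option linter.style.haveILetI false
set_option linter.unusedVariables false

namespace Fermat.Agent.S14

open scoped NumberField Pointwise
open IsDedekindDomain

noncomputable section

/-- A prime number which is not below `q` does not belong to `q`. -/
theorem s14_cr_natCast_notMem {K : Type*} [Field K] [NumberField K] (q : Ideal (𝓞 K))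
    (ℓ r : ℕ) (hℓ : ℓ.Prime) (hr : r.Prime) (hne : r ≠ ℓ)
    (hq : q.under ℤ = Ideal.span {(ℓ : ℤ)}) : (r : 𝓞 K) ∉ q := by
  intro h
  have h1 : (r : ℤ) ∈ q.under ℤ := by
    rw [Ideal.under_def, Ideal.mem_comap]
    simpa using h
  rw [hq, Ideal.mem_span_singleton] at h1
  have h2 : ℓ ∣ r := by exact_mod_cast h1
  rcases (Nat.dvd_prime hr).mp h2 with h3 | h3
  · exact hℓ.one_lt.ne' h3
  · exact hne h3.symm

/-- **(CR)** from its sub-statements. -/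
theorem s14_cr_of (hI2 : s14_stmt_I2) (hFC : s14_stmt_CR_fields) (hTR : s14_stmt_CR_tr)
    (hUL : s14_stmt_CR_ul) (hAUX : s14_stmt_CR_aux) (hMS : s14_stmt_CR_setup)
    (hNK : s14_stmt_CR_nk) (hNQ : s14_stmt_CR_nq) : s14_stmt_CR := by
  intro p _ hp2 K L _ _ _ _ _ _ _ hdeg hunr q₁ q₂ _ _ hq₁ hq₂ hne σ₁ σ₂ hσ₁ hσ₂ hσ₁1 hσ₂1
    a b b' hab hdvd
  have hp : p.Prime := Fact.out
  haveI : NeZero p := ⟨hp.ne_zero⟩
  haveI hgalQK : IsGalois ℚ K := IsCyclotomicExtension.isGalois {p} ℚ K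
  have hcard : Nat.card (L ≃ₐ[K] L) = p := by
    rw [IsGalois.card_aut_eq_finrank, hdeg]
  have habL : ∀ σ τ : L ≃ₐ[K] L, σ * τ = τ * σ := s14_ar_comm_of_card_prime K L hp hcard
  have hpowp : ∀ g : L ≃ₐ[K] L, g ^ p = 1 := by
    intro g
    rw [← hcard]
    exact pow_card_eq_one'
  -- the rational primes below `q₁`, `q₂`
  obtain ⟨ℓ₁, f₁, hℓ₁, hf₁, hN₁, hu₁, hm₁⟩ := hNQ p K q₁ inferInstance hq₁
  obtain ⟨ℓ₂, f₂, hℓ₂, hf₂, hN₂, hu₂, hm₂⟩ := hNQ p K q₂ inferInstance hq₂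
  have hℓne : ℓ₁ ≠ ℓ₂ := by
    rintro rfl
    exact hne (hu₁.trans hu₂.symm)
  -- `σ₂ = σ₁ ^ k`
  obtain ⟨k, hk⟩ : ∃ k : ℕ, σ₁ ^ k = σ₂ := by
    have := mem_powers_of_prime_card (G := L ≃ₐ[K] L) hcard hσ₁1 (g' := σ₂)
    exact (Submonoid.mem_powers_iff _ _).mp this
  -- the auxiliary prime
  obtain ⟨r, hr, hrT, hpr, hnp, ⟨w₀, hw₀⟩⟩ := hAUX p hp2 ℓ₁ ℓ₂ hℓ₁ hℓ₂ hℓne f₁ f₂ ((p - 1) * k)
    hf₁ hf₂ ({p, ℓ₁, ℓ₂} : Finset ℕ)
  haveI : Fact r.Prime := ⟨hr⟩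
  have hrp : r ≠ p := by
    rintro rfl; exact hrT (by simp)
  have hrℓ₁ : r ≠ ℓ₁ := by
    rintro rfl; exact hrT (by simp)
  have hrℓ₂ : r ≠ ℓ₂ := by
    rintro rfl; exact hrT (by simp)
  have hr₁ : (r : 𝓞 K) ∉ q₁ := s14_cr_natCast_notMem q₁ ℓ₁ r hℓ₁ hr hrℓ₁ hu₁
  have hr₂ : (r : 𝓞 K) ∉ q₂ := s14_cr_natCast_notMem q₂ ℓ₂ r hℓ₂ hr hrℓ₂ hu₂
  -- the units `N(q_i) mod r`
  have hcopℓ₁ : ℓ₁.Coprime r := (Nat.coprime_primes hℓ₁ hr).mpr (Ne.symm hrℓ₁)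
  have hcopℓ₂ : ℓ₂.Coprime r := (Nat.coprime_primes hℓ₂ hr).mpr (Ne.symm hrℓ₂)
  have hcop₁ : (Ideal.absNorm q₁).Coprime r := by rw [hN₁]; exact Nat.Coprime.pow_left _ hcopℓ₁
  have hcop₂ : (Ideal.absNorm q₂).Coprime r := by rw [hN₂]; exact Nat.Coprime.pow_left _ hcopℓ₂
  set u₁ : (ZMod r)ˣ := ZMod.unitOfCoprime _ hcop₁ with hu₁def
  set u₂ : (ZMod r)ˣ := ZMod.unitOfCoprime _ hcop₂ with hu₂def
  have hu₁v : (u₁ : ZMod r) = (ℓ₁ : ZMod r) ^ f₁ := by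
    rw [hu₁def, ZMod.coe_unitOfCoprime, hN₁]; push_cast; rfl
  have hu₂v : (u₂ : ZMod r) = (ℓ₂ : ZMod r) ^ f₂ := by
    rw [hu₂def, ZMod.coe_unitOfCoprime, hN₂]; push_cast; rfl
  have hnpow : ¬ ∃ w : (ZMod r)ˣ, u₁ = w ^ p := by
    rintro ⟨w, hw⟩
    apply hnp
    refine ⟨(w : ZMod r), ?_⟩
    rw [← hu₁v, hw, Units.val_pow_eq_pow_val]
  have hpow2 : ∃ w : (ZMod r)ˣ, u₂ = u₁ ^ k * w ^ p := by
    have hw₀' : (u₂ : ZMod r) * (u₁ : ZMod r) ^ ((p - 1) * k) = w₀ ^ p := by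
      rw [hu₁v, hu₂v, ← pow_mul]; exact hw₀
    have hw₀u : IsUnit w₀ := by
      have : IsUnit (w₀ ^ p) := by
        rw [← hw₀']
        exact (u₂.isUnit).mul ((u₁.isUnit).pow _)
      exact (isUnit_pow_iff hp.ne_zero).mp this
    obtain ⟨W, hW⟩ := hw₀u
    have hWeq : u₂ * u₁ ^ ((p - 1) * k) = W ^ p := by
      apply Units.ext
      rw [Units.val_mul, Units.val_pow_eq_pow_val, Units.val_pow_eq_pow_val, hW]
      exact hw₀'
    refine ⟨W * (u₁ ^ k)⁻¹, ?_⟩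
    have e : u₁ ^ k * u₁ ^ ((p - 1) * k) = (u₁ ^ k) ^ p := by
      rw [← pow_add, ← pow_mul]
      congr 1
      have := hp.pos
      calc k + (p - 1) * k = (1 + (p - 1)) * k := by ring
        _ = k * p := by rw [Nat.add_sub_cancel' hp.pos, mul_comm]
    rw [mul_pow, inv_pow, ← hWeq, ← e]
    rw [mul_inv_rev]
    calc u₂ = u₂ * (u₁ ^ ((p - 1) * k) * (u₁ ^ ((p - 1) * k))⁻¹) * (u₁ ^ k * (u₁ ^ k)⁻¹) := by
          rw [mul_inv_cancel, mul_one, mul_inv_cancel, mul_one]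
      _ = u₁ ^ k * (u₂ * u₁ ^ ((p - 1) * k) * ((u₁ ^ ((p - 1) * k))⁻¹ * (u₁ ^ k)⁻¹)) := by
          simp only [mul_comm, mul_left_comm, mul_assoc]
  -- the character `θ`
  obtain ⟨θ, hθ₁, hθ₂⟩ := s14_cr_exists_theta p r hcard u₁ u₂ σ₁ k hnpow hpow2
  rw [hk] at hθ₂
  have hψ₁ : s14_cr_psi r θ (Ideal.absNorm q₁) = σ₁ := by
    rw [s14_cr_psi_of_coprime r θ hcop₁]; exact hθ₁
  have hψ₂ : s14_cr_psi r θ (Ideal.absNorm q₂) = σ₂ := by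
    rw [s14_cr_psi_of_coprime r θ hcop₂]; exact hθ₂
  have hθsurj : Function.Surjective θ := by
    intro g
    have := mem_powers_of_prime_card (G := L ≃ₐ[K] L) hcard hσ₁1 (g' := g)
    obtain ⟨j, hj⟩ := (Submonoid.mem_powers_iff _ _).mp this
    exact ⟨u₁ ^ j, by rw [map_pow, hθ₁, hj]⟩
  -- the field `M`
  obtain ⟨M, _, _, _, _, _, _, _, _, ζ, χ, hζ, habM, hχ⟩ := hMS r K L habL
  -- the subgroup `H`
  set H : Subgroup (M ≃ₐ[K] M) :=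
    MonoidHom.eqLocus (AlgEquiv.restrictNormalHom L) (θ.comp χ) with hH
  have hHmem : ∀ τ : M ≃ₐ[K] M, τ ∈ H ↔ AlgEquiv.restrictNormalHom L τ = θ (χ τ) :=
    fun τ => Iff.rfl
  have hHnormal : H.Normal := by
    refine ⟨fun n hn g => ?_⟩
    have : g * n * g⁻¹ = n := by rw [habM g n, mul_assoc, mul_inv_cancel, mul_one]
    rw [this]
    exact hn
  -- the Frobenius element of `q₁` in `M/K` lies in `H`
  have hex : ∃ τ ∈ H, AlgEquiv.restrictNormalHom L τ ≠ 1 := by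
    obtain ⟨𝔔, h𝔔, h𝔔q⟩ := s14_ar_exists_over K M q₁
    haveI := h𝔔
    have h𝔔0 : 𝔔 ≠ ⊥ := s14_ar_ne_bot_of_under K M 𝔔 q₁ hq₁ h𝔔q
    have hΦ := s14_ar_frob_isArithFrobAt K M habM q₁ 𝔔 h𝔔0 h𝔔q
    set Φ := s14_ar_frob K M q₁ with hΦdef
    have h𝔔L0 : 𝔔.under (𝓞 L) ≠ ⊥ := Ideal.under_ne_bot (𝓞 L) h𝔔0
    have hunrL' : s14_ar_Unr K L (𝔔.under (𝓞 L)) :=
      s14_ar_unr_of_unram K L hunr (𝔔.under (𝓞 L)) h𝔔L0
    have hres : Φ.restrictNormal L = s14_ar_frob K L q₁ :=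
      s14_ar_frob_restrictNormal K L M habM habL q₁ 𝔔 h𝔔0 h𝔔q hunrL'
    have hσeq : σ₁ = s14_ar_frob K L q₁ :=
      s14_ar_isFrob_eq_frob K L habL q₁ hq₁ (s14_ar_unramAt_of_unram K L hunr q₁ hq₁) σ₁ hσ₁
    have hrM : (r : 𝓞 M) ∉ 𝔔 := by
      intro h
      apply hr₁
      rw [← h𝔔q, Ideal.under_def, Ideal.mem_comap]
      simpa using h
    have h1 := s14_cr_frob_zeta K M Φ 𝔔 hΦ r hrM ζ hζ.pow_eq_one
    have h2 := hχ Φ
    rw [h1, h𝔔q] at h2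
    have h4 := s14_cr_natCast_eq_of_pow_eq hζ hr.pos h2
    rw [ZMod.natCast_zmod_val] at h4
    have hψΦ := s14_cr_psi_eq r θ _ _ h4
    have hresΦ : AlgEquiv.restrictNormalHom L Φ = σ₁ := by
      rw [hσeq, ← hres]; rfl
    refine ⟨Φ, ?_, ?_⟩
    · rw [hHmem, hresΦ, ← hψΦ, hψ₁]
    · rw [hresΦ]; exact hσ₁1
  -- the fields `F` and `B`
  obtain ⟨F, B, _, _, _, _, _, _, _, _, _, _, _, _, _, hdegB, hunrB, hF, hB⟩ :=
    hFC p K L M hdeg hunr H hHnormal hex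
  -- the crossing data
  let D : s14_cr_Data p r K L M F B :=
    { hp2 := hp2
      hpr := hpr
      hNK := hNK p K r hr hpr
      hdegL := hdeg
      hunrL := hunr
      habM := habM
      ζ := ζ
      hζ := hζ
      χ := χ
      hχ := hχ
      θ := θ
      hθ := hθsurj
      hF := fun τ => (hHmem τ).symm.trans (hF τ)
      hB := hB
      hTR := fun 𝔯 h𝔯 hr𝔯 u => hTR r L M (hUL p K L hunr r hr hrp) 𝔯 h𝔯 hr𝔯 ζ hζ u }
  have hζp : ∃ ζ' : F, IsPrimitiveRoot ζ' p := by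
    have h0 := IsCyclotomicExtension.zeta_spec p ℚ K
    exact ⟨algebraMap K F (IsCyclotomicExtension.zeta p ℚ K),
      h0.map_of_injective (algebraMap K F).injective⟩
  have hrel : σ₁ ^ a * σ₂ ^ b' = 1 := by
    obtain ⟨m, hm⟩ := hdvd
    rw [hab, ← pow_add, hm, pow_mul, hpowp, one_pow]
  exact D.core hI2 hdegB hunrB hζp q₁ q₂ hq₁ hq₂ hr₁ hr₂ σ₁ σ₂ hσ₁ hσ₂ hσ₁1 hψ₁ hψ₂ a b' hrel

/-- **(CR)** crossing: the second inequality implies the crossing statement. -/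
theorem s14_cr_main (hI2 : s14_stmt_I2) : s14_stmt_CR :=
  s14_cr_of hI2 s14_crfc_main s14_crtr_main s14_crul_main (s14_cra_aux_of_Z s14_z_stmt)
    s14_crms_main s14_crn_nk s14_crn_nq

end

end Fermat.Agent.S14
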