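import Mathlib

/-!
# S14 (FI) — ideal bookkeeping in a Dedekind domain   (OWNER: helper7)

Generic lemmas about ideals and adic valuations in a Dedekind domain `R`:

* `s14_fi_intVal_eq_one`        : `r ∉ v` ⇒ `v.intValuation r = 1`;
* `s14_fi_val_eq_of_span_mul`   : `(a) I = (b) J`, `v ∤ I`, `v ∤ J` ⇒ `v(a) = v(b)`;
* `s14_fi_exists_split_ideal`   : `I = I₁ I₂`, `I₁` prime to `Σ`, `I₂` supported on `Σ`;
* `s14_fi_intVal_of_mul_pow`    : `I v^n = (x) J`, `v ∤ I`, `v ∤ J` ⇒ `v(x) = exp (-n)`;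
* `s14_fi_exists_generating`    : a finite set of primes generating the class group;
* `s14_fi_exists_root`          : an ideal all of whose multiplicities are divisible by `p` is a
                                  `p`-th power.
-/

set_option autoImplicit false

open IsDedekindDomain IsDedekindDomain.HeightOneSpectrum WithZero

namespace Fermat.Agent.S14

variable {R : Type*} [CommRing R] [IsDedekindDomain R]

theorem s14_fi_intVal_eq_one (v : HeightOneSpectrum R) {r : R} (hr : r ∉ v.asIdeal) :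
    v.intValuation r = 1 := by
  refine le_antisymm (v.intValuation_le_one r) ?_
  by_contra h
  exact hr ((v.intValuation_lt_one_iff_mem r).1 (not_le.1 h))

theorem s14_fi_val_le_of_span_mul (v : HeightOneSpectrum R) {a b : R} {I J : Ideal R}
    (h : Ideal.span {a} * I = Ideal.span {b} * J) (hI : ¬ I ≤ v.asIdeal) :
    v.intValuation a ≤ v.intValuation b := by
  obtain ⟨i, hiI, hiv⟩ := SetLike.not_le_iff_exists.1 hI
  have h1 : a * i ∈ Ideal.span {b} * J := by
    rw [← h]
    exact Ideal.mul_mem_mul (Ideal.mem_span_singleton_self a) hiI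
  obtain ⟨j, -, hj⟩ := Ideal.mem_span_singleton_mul.1 h1
  have h2 : v.intValuation (a * i) = v.intValuation (b * j) := by rw [hj]
  rw [map_mul, map_mul, s14_fi_intVal_eq_one v hiv, mul_one] at h2
  rw [h2]
  calc v.intValuation b * v.intValuation j ≤ v.intValuation b * 1 :=
        mul_le_mul_right (v.intValuation_le_one j) _
    _ = v.intValuation b := mul_one _

/-- `(a) I = (b) J` with `I`, `J` prime to `v` forces `v(a) = v(b)`. -/
theorem s14_fi_val_eq_of_span_mul (v : HeightOneSpectrum R) {a b : R} {I J : Ideal R}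
    (h : Ideal.span {a} * I = Ideal.span {b} * J) (hI : ¬ I ≤ v.asIdeal)
    (hJ : ¬ J ≤ v.asIdeal) : v.intValuation a = v.intValuation b :=
  le_antisymm (s14_fi_val_le_of_span_mul v h hI) (s14_fi_val_le_of_span_mul v h.symm hJ)

/-- `I v^n = (x) J` with `I`, `J` prime to `v` forces `v(x) = exp (-n)`. -/
theorem s14_fi_intVal_of_mul_pow (v : HeightOneSpectrum R) {x : R} {I J : Ideal R} (n : ℕ)
    (h : I * v.asIdeal ^ n = Ideal.span {x} * J) (hI : ¬ I ≤ v.asIdeal)
    (hJ : ¬ J ≤ v.asIdeal) : v.intValuation x = exp (-(n : ℤ)) := by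
  obtain ⟨π, hπ⟩ := v.intValuation_exists_uniformizer
  have hπn : v.intValuation (π ^ n) = exp (-(n : ℤ)) := by
    rw [map_pow, hπ, ← exp_nsmul]; simp
  have hπmem : π ^ n ∈ v.asIdeal ^ n := by
    rw [← v.intValuation_le_pow_iff_mem, hπn]
  refine le_antisymm ?_ ?_
  · -- `x j ∈ v^n` for `j ∈ J \ v`
    obtain ⟨j, hjJ, hjv⟩ := SetLike.not_le_iff_exists.1 hJ
    have h1 : x * j ∈ I * v.asIdeal ^ n := by
      rw [h]; exact Ideal.mul_mem_mul (Ideal.mem_span_singleton_self x) hjJ
    have h2 : x * j ∈ v.asIdeal ^ n := Ideal.mul_le_left (I := v.asIdeal ^ n) (J := I) (by rwa [mul_comm] at h1)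
    have h3 := (v.intValuation_le_pow_iff_mem _ _).2 h2
    rwa [map_mul, s14_fi_intVal_eq_one v hjv, mul_one] at h3
  · obtain ⟨i, hiI, hiv⟩ := SetLike.not_le_iff_exists.1 hI
    have h1 : i * π ^ n ∈ Ideal.span {x} * J := by
      rw [← h]; exact Ideal.mul_mem_mul hiI hπmem
    obtain ⟨j, -, hj⟩ := Ideal.mem_span_singleton_mul.1 h1
    have h2 : v.intValuation (i * π ^ n) = v.intValuation (x * j) := by rw [hj]
    rw [map_mul, map_mul, s14_fi_intVal_eq_one v hiv, one_mul, hπn] at h2
    rw [h2]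
    calc v.intValuation x * v.intValuation j ≤ v.intValuation x * 1 :=
          mul_le_mul_right (v.intValuation_le_one j) _
      _ = v.intValuation x := mul_one _

/-- Every nonzero ideal is the product of a part prime to `Σ` and a part supported on `Σ`. -/
theorem s14_fi_exists_split_ideal (Sg : Set (HeightOneSpectrum R)) (I : Ideal R) (hI : I ≠ ⊥) :
    ∃ I₁ I₂ : Ideal R, I = I₁ * I₂ ∧ (∀ v ∈ Sg, ¬ I₁ ≤ v.asIdeal) ∧
      (∀ v : HeightOneSpectrum R, I₂ ≤ v.asIdeal → v ∈ Sg) := by
  classical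
  revert hI
  refine UniqueFactorizationMonoid.induction_on_prime I ?_ ?_ ?_
  · intro h; exact absurd rfl h
  · intro J hJ _
    have hJ' : J = ⊤ := Ideal.isUnit_iff.1 hJ
    refine ⟨⊤, ⊤, by rw [hJ']; simp, fun v _ h => ?_, fun v h => ?_⟩
    · exact v.isPrime.ne_top (top_le_iff.1 h)
    · exact absurd (top_le_iff.1 h) v.isPrime.ne_top
  · intro J q hJ0 hq ih _
    obtain ⟨I₁, I₂, hJ, h1, h2⟩ := ih hJ0
    have hq0 : q ≠ ⊥ := hq.ne_zero
    have hqp : q.IsPrime := Ideal.isPrime_of_prime hq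
    let vq : HeightOneSpectrum R := ⟨q, hqp, hq0⟩
    by_cases hv : vq ∈ Sg
    · refine ⟨I₁, q * I₂, by rw [hJ]; ring, h1, fun v h => ?_⟩
      rcases (v.isPrime.mul_le).1 h with h' | h'
      · have : vq = v := HeightOneSpectrum.ext
          ((hqp.isMaximal hq0).eq_of_le v.isPrime.ne_top h')
        rwa [← this]
      · exact h2 v h'
    · refine ⟨q * I₁, I₂, by rw [hJ]; ring, fun v hvS h => ?_, h2⟩
      rcases (v.isPrime.mul_le).1 h with h' | h'
      · have : vq = v := HeightOneSpectrum.ext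
          ((hqp.isMaximal hq0).eq_of_le v.isPrime.ne_top h')
        exact hv (this ▸ hvS)
      · exact h1 v hvS h'

/-- If `(a) = I₁ I₂` and `v ∤ I₂`, then `v(a) = exp (- mult_v I₁)`. -/
theorem s14_fi_intVal_eq_exp_multiplicity (v : HeightOneSpectrum R) {a : R} (ha : a ≠ 0)
    {I₁ I₂ : Ideal R} (h : Ideal.span {a} = I₁ * I₂) (hI₂ : ¬ I₂ ≤ v.asIdeal) :
    v.intValuation a = exp (-(multiplicity v.asIdeal I₁ : ℤ)) := by
  have h0 : I₁ * I₂ ≠ ⊥ := by
    rw [← h]; simpa using ha
  have hfin : FiniteMultiplicity v.asIdeal (I₁ * I₂) :=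
    FiniteMultiplicity.of_prime_left v.prime h0
  have h2 : multiplicity v.asIdeal I₂ = 0 :=
    multiplicity_eq_zero.2 (fun hd => hI₂ (Ideal.le_of_dvd hd))
  rw [v.intValuation_eq_exp_neg_multiplicity ha, h, multiplicity_mul v.prime hfin, h2, add_zero]

/-- An ideal all of whose multiplicities are divisible by `p` is a `p`-th power. -/
theorem s14_fi_exists_root (p : ℕ) (hp : p ≠ 0) (I : Ideal R) (hI : I ≠ ⊥)
    (h : ∀ v : HeightOneSpectrum R, I ≤ v.asIdeal → p ∣ multiplicity v.asIdeal I) :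
    ∃ J : Ideal R, J ≠ ⊥ ∧ J ^ p = I := by
  classical
  have hcount : ∀ q ∈ UniqueFactorizationMonoid.normalizedFactors I,
      p ∣ (UniqueFactorizationMonoid.normalizedFactors I).count q := by
    intro q hq
    have hqprime : Prime q := UniqueFactorizationMonoid.prime_of_normalized_factor q hq
    have hqdvd : q ∣ I := UniqueFactorizationMonoid.dvd_of_mem_normalizedFactors hq
    have hqp : q.IsPrime := Ideal.isPrime_of_prime hqprime
    let vq : HeightOneSpectrum R := ⟨q, hqp, hqprime.ne_zero⟩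
    have h1 := h vq (Ideal.le_of_dvd hqdvd)
    have h2 : emultiplicity q I = (UniqueFactorizationMonoid.normalizedFactors I).count q := by
      rw [UniqueFactorizationMonoid.emultiplicity_eq_count_normalizedFactors
        hqprime.irreducible hI, normalize_eq]
    have hfin : FiniteMultiplicity q I := FiniteMultiplicity.of_prime_left hqprime hI
    have h3 : multiplicity q I = (UniqueFactorizationMonoid.normalizedFactors I).count q := by
      have := hfin.emultiplicity_eq_multiplicity
      rw [h2] at this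
      exact_mod_cast this.symm
    rw [← h3]
    exact h1
  obtain ⟨u, hu⟩ := Multiset.exists_smul_of_dvd_count _ hcount
  have hprod : (UniqueFactorizationMonoid.normalizedFactors I).prod = I :=
    associated_iff_eq.1 (UniqueFactorizationMonoid.prod_normalizedFactors hI)
  have hpow : u.prod ^ p = I := by
    rw [← Multiset.prod_nsmul, ← hu, hprod]
  refine ⟨u.prod, ?_, hpow⟩
  intro h0
  have hz : (⊥ : Ideal R) ^ p = ⊥ := by
    rw [← Ideal.zero_eq_bot]; exact zero_pow hp
  rw [h0, hz] at hpow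
  exact hI hpow.symm

/-- In a Dedekind domain with finite class group there is a finite set of primes whose classes
generate the class group, in the following explicit form: every nonzero ideal becomes principal
after multiplication by an ideal supported on the set. -/
theorem s14_fi_exists_generating [Finite (ClassGroup R)] :
    ∃ Sg : Finset (HeightOneSpectrum R), ∀ I : Ideal R, I ≠ ⊥ →
      ∃ (z : R) (J : Ideal R), z ≠ 0 ∧ J ≠ ⊥ ∧ Ideal.span {z} = I * J ∧
        ∀ v : HeightOneSpectrum R, J ≤ v.asIdeal → v ∈ Sg := by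
  classical
  have : Fintype (ClassGroup R) := Fintype.ofFinite _
  choose Jf hJf using fun C : ClassGroup R => ClassGroup.mk0_surjective (C⁻¹)
  have hJ0 : ∀ C, ((Jf C : Ideal R)) ≠ ⊥ := fun C => by
    have := mem_nonZeroDivisors_iff_ne_zero.1 (Jf C).2
    simpa [Ideal.zero_eq_bot] using this
  have hfin : ∀ C, {v : HeightOneSpectrum R | v.asIdeal ∣ (Jf C : Ideal R)}.Finite :=
    fun C => Ideal.finite_factors (hJ0 C)
  refine ⟨Finset.univ.biUnion (fun C => (hfin C).toFinset), fun I hI => ?_⟩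
  have hI' : I ∈ nonZeroDivisors (Ideal R) := mem_nonZeroDivisors_iff_ne_zero.2 hI
  let I0 : nonZeroDivisors (Ideal R) := ⟨I, hI'⟩
  have h1 : ClassGroup.mk0 (I0 * Jf (ClassGroup.mk0 I0)) = 1 := by
    rw [map_mul, hJf, mul_inv_cancel]
  have h2 : (I * (Jf (ClassGroup.mk0 I0) : Ideal R)).IsPrincipal :=
    (ClassGroup.mk0_eq_one_iff (I0 * Jf (ClassGroup.mk0 I0)).2).1 h1
  obtain ⟨z, hz⟩ := h2
  have hIJ : I * (Jf (ClassGroup.mk0 I0) : Ideal R) ≠ ⊥ := by
    intro h0
    rcases Ideal.mul_eq_bot.1 h0 with h | h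
    · exact hI h
    · exact hJ0 _ h
  refine ⟨z, Jf (ClassGroup.mk0 I0), ?_, hJ0 _, ?_, fun v hv => ?_⟩
  · rintro rfl
    apply hIJ
    rw [hz]
    simp
  · rw [hz]
  · simp only [Finset.mem_biUnion, Finset.mem_univ, true_and, Set.Finite.mem_toFinset,
      Set.mem_setOf_eq]
    exact ⟨ClassGroup.mk0 I0, Ideal.dvd_iff_le.2 hv⟩

end Fermat.Agent.S14
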