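import Mathlib
import Fermat.Agent.S14.Defs
import Fermat.Agent.S14.FIIdeal

/-!
# S14 (FI) — Galois action on primes and valuations   (OWNER: helper7)
-/

set_option autoImplicit false
set_option linter.unusedSectionVars false

open IsDedekindDomain IsDedekindDomain.HeightOneSpectrum WithZero NumberField
open scoped Pointwise

namespace Fermat.Agent.S14

variable (F N : Type*) [Field F] [NumberField F] [Field N] [NumberField N] [Algebra F N]
  [IsGalois F N]

/-- the prime `g • w` of `𝓞 N`. -/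
noncomputable def s14_fi_gprime (g : N ≃ₐ[F] N) (w : HeightOneSpectrum (𝓞 N)) :
    HeightOneSpectrum (𝓞 N) where
  asIdeal := g • w.asIdeal
  isPrime := inferInstance
  ne_bot := by
    intro h
    have : g⁻¹ • (g • w.asIdeal) = g⁻¹ • (⊥ : Ideal (𝓞 N)) := by rw [h]
    rw [inv_smul_smul] at this
    apply w.ne_bot
    rw [this]
    simp

theorem s14_fi_gprime_asIdeal (g : N ≃ₐ[F] N) (w : HeightOneSpectrum (𝓞 N)) :
    (s14_fi_gprime F N g w).asIdeal = g • w.asIdeal := rfl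

theorem s14_fi_smul_mem_gprime_pow (g : N ≃ₐ[F] N) (w : HeightOneSpectrum (𝓞 N)) (x : 𝓞 N)
    (n : ℕ) : g • x ∈ (s14_fi_gprime F N g w).asIdeal ^ n ↔ x ∈ w.asIdeal ^ n := by
  rw [s14_fi_gprime_asIdeal, ← smul_pow']
  exact Ideal.smul_mem_pointwise_smul_iff

theorem s14_fi_gprime_intVal (g : N ≃ₐ[F] N) (w : HeightOneSpectrum (𝓞 N)) (x : 𝓞 N) :
    (s14_fi_gprime F N g w).intValuation (g • x) = w.intValuation x := by
  rcases eq_or_ne x 0 with rfl | hx
  · simp
  have hgx : g • x ≠ 0 := by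
    intro h
    apply hx
    have : g⁻¹ • (g • x) = g⁻¹ • (0 : 𝓞 N) := by rw [h]
    rwa [inv_smul_smul, smul_zero] at this
  -- both are `exp (-k)`; compare via membership in powers
  obtain ⟨k, hk⟩ : ∃ k : ℕ, w.intValuation x = exp (-(k : ℤ)) :=
    ⟨_, w.intValuation_if_neg hx⟩
  obtain ⟨l, hl⟩ : ∃ l : ℕ, (s14_fi_gprime F N g w).intValuation (g • x) = exp (-(l : ℤ)) :=
    ⟨_, (s14_fi_gprime F N g w).intValuation_if_neg hgx⟩
  have h1 : ∀ n : ℕ, (s14_fi_gprime F N g w).intValuation (g • x) ≤ exp (-(n : ℤ)) ↔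
      w.intValuation x ≤ exp (-(n : ℤ)) := by
    intro n
    rw [intValuation_le_pow_iff_mem, intValuation_le_pow_iff_mem, s14_fi_smul_mem_gprime_pow]
  rw [hk, hl]
  have h2 := (h1 l).1 hl.le
  have h3 := (h1 k).2 hk.le
  rw [hk, exp_le_exp] at h2
  rw [hl, exp_le_exp] at h3
  congr 1
  omega

theorem s14_fi_coe_smul (g : N ≃ₐ[F] N) (x : 𝓞 N) : ((g • x : 𝓞 N) : N) = g (x : N) := rfl

/-- `(g • w)(g x) = w(x)` for `x ∈ N`. -/
theorem s14_fi_gprime_val (g : N ≃ₐ[F] N) (w : HeightOneSpectrum (𝓞 N)) (x : N) :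
    (s14_fi_gprime F N g w).valuation N (g x) = w.valuation N x := by
  obtain ⟨a, b, hb, rfl⟩ := IsFractionRing.div_surjective (A := 𝓞 N) x
  have ha' : g (algebraMap (𝓞 N) N a) = algebraMap (𝓞 N) N (g • a) := rfl
  have hb' : g (algebraMap (𝓞 N) N b) = algebraMap (𝓞 N) N (g • b) := rfl
  rw [map_div₀, map_div₀, map_div₀, ha', hb', valuation_of_algebraMap, valuation_of_algebraMap,
    valuation_of_algebraMap, valuation_of_algebraMap, s14_fi_gprime_intVal,
    s14_fi_gprime_intVal]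

/-- `g • w` lies over the same prime of `F` as `w`. -/
theorem s14_fi_gprime_under (g : N ≃ₐ[F] N) (w : HeightOneSpectrum (𝓞 N)) :
    (s14_fi_gprime F N g w).under (𝓞 F) = w.under (𝓞 F) := by
  apply HeightOneSpectrum.ext
  show (g • w.asIdeal).under (𝓞 F) = w.asIdeal.under (𝓞 F)
  ext a
  simp only [Ideal.under_def, Ideal.mem_comap]
  have h : g • (algebraMap (𝓞 F) (𝓞 N) a) = algebraMap (𝓞 F) (𝓞 N) a := by
    apply Subtype.ext
    show g (algebraMap (𝓞 F) (𝓞 N) a : N) = _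
    have : ((algebraMap (𝓞 F) (𝓞 N) a : 𝓞 N) : N) = algebraMap F N (a : F) := rfl
    rw [this, AlgEquiv.commutes]
    rfl
  constructor
  · intro ha
    rw [← h] at ha
    exact Ideal.smul_mem_pointwise_smul_iff.1 ha
  · intro ha
    rw [← h]
    exact Ideal.smul_mem_pointwise_smul_iff.2 ha

/-- valuation of a norm: `w(N x) = ∏_g w(g x)`. -/
theorem s14_fi_val_norm (w : HeightOneSpectrum (𝓞 N)) (x : N) :
    w.valuation N (algebraMap F N (Algebra.norm F x)) = ∏ g : N ≃ₐ[F] N, w.valuation N (g x) := by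
  rw [Algebra.norm_eq_prod_automorphisms, map_prod]

/-- inertia trivial ⇒ ramification index one ⇒ valuations agree. -/
theorem s14_fi_val_unram (v : HeightOneSpectrum (𝓞 F)) (w : HeightOneSpectrum (𝓞 N))
    (hw : w.under (𝓞 F) = v) (hun : s14_UnramAt F N v.asIdeal) (x : F) :
    w.valuation N (algebraMap F N x) = v.valuation F x := by
  have hlo : w.asIdeal.LiesOver v.asIdeal := ⟨by rw [← hw]; rfl⟩
  have h1 : Nat.card (w.asIdeal.inertia (N ≃ₐ[F] N)) = 1 := by
    rw [hun w.asIdeal w.isPrime (by rw [← hw]; rfl)]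
    simp
  have h2 : Nat.card (w.asIdeal.inertia (N ≃ₐ[F] N)) = v.asIdeal.ramificationIdxIn (𝓞 N) :=
    Ideal.card_inertia_eq_ramificationIdxIn (G := N ≃ₐ[F] N) v.asIdeal w.asIdeal
  have h3 : v.asIdeal.ramificationIdxIn (𝓞 N) = w.asIdeal.ramificationIdx (𝓞 F) :=
    Ideal.ramificationIdxIn_eq_ramificationIdx v.asIdeal w.asIdeal (N ≃ₐ[F] N)
  have h4 : v.asIdeal.ramificationIdx' w.asIdeal = w.asIdeal.ramificationIdx (𝓞 F) :=
    Ideal.ramificationIdx'_eq_ramificationIdx v.asIdeal w.asIdeal v.ne_bot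
  have h5 := valuation_liesOver N v w x
  rw [h4, ← h3, ← h2, h1, pow_one] at h5
  exact h5.symm

/-- there is a prime of `N` above every prime of `F`. -/
theorem s14_fi_exists_above (v : HeightOneSpectrum (𝓞 F)) :
    ∃ w : HeightOneSpectrum (𝓞 N), w.under (𝓞 F) = v := by
  obtain ⟨Q, hQmax, hQ⟩ := Ideal.exists_maximal_ideal_liesOver_of_isIntegral (S := 𝓞 N) v.asIdeal
  have hQ0 : Q ≠ ⊥ := by
    intro h
    have := hQ.over
    rw [h] at this
    apply v.ne_bot
    rw [this]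
    exact Ideal.under_bot _ _
  refine ⟨⟨Q, hQmax.isPrime, hQ0⟩, HeightOneSpectrum.ext ?_⟩
  exact hQ.over.symm

/-- `gprime` is an action. -/
theorem s14_fi_gprime_mul (g h : N ≃ₐ[F] N) (w : HeightOneSpectrum (𝓞 N)) :
    s14_fi_gprime F N (g * h) w = s14_fi_gprime F N g (s14_fi_gprime F N h w) := by
  apply HeightOneSpectrum.ext
  show (g * h) • w.asIdeal = g • (h • w.asIdeal)
  rw [mul_smul]

theorem s14_fi_gprime_one (w : HeightOneSpectrum (𝓞 N)) : s14_fi_gprime F N 1 w = w := by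
  apply HeightOneSpectrum.ext
  show (1 : N ≃ₐ[F] N) • w.asIdeal = w.asIdeal
  rw [one_smul]

/-- `w(g x) = (g⁻¹ • w)(x)`. -/
theorem s14_fi_val_apply (g : N ≃ₐ[F] N) (w : HeightOneSpectrum (𝓞 N)) (x : N) :
    w.valuation N (g x) = (s14_fi_gprime F N g⁻¹ w).valuation N x := by
  rw [← s14_fi_gprime_val F N g (s14_fi_gprime F N g⁻¹ w) x, ← s14_fi_gprime_mul,
    mul_inv_cancel, s14_fi_gprime_one]

/-- at a prime that does not split completely in an extension of prime degree, all primes above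
it are fixed by the Galois group. -/
theorem s14_fi_gprime_eq_of_not_splits {p : ℕ} (hp : p.Prime) (hdeg : Module.finrank F N = p)
    (v : HeightOneSpectrum (𝓞 F)) (hns : ¬ s14_Splits F N v.asIdeal)
    (w : HeightOneSpectrum (𝓞 N)) (hw : w.under (𝓞 F) = v) (g : N ≃ₐ[F] N) :
    s14_fi_gprime F N g w = w := by
  classical
  have hcard : Nat.card (N ≃ₐ[F] N) = p := by
    rw [IsGalois.card_aut_eq_finrank, hdeg]
  have hfact : Fact (Nat.card (N ≃ₐ[F] N)).Prime := ⟨by rw [hcard]; exact hp⟩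
  obtain ⟨Q, hQp, hQv, hQs⟩ : ∃ Q : Ideal (𝓞 N), Q.IsPrime ∧ Q.under (𝓞 F) = v.asIdeal ∧
      MulAction.stabilizer (N ≃ₐ[F] N) Q ≠ ⊥ := by
    by_contra hcon
    apply hns
    intro Q hQp hQv
    by_contra hQs
    exact hcon ⟨Q, hQp, hQv, hQs⟩
  have htop : MulAction.stabilizer (N ≃ₐ[F] N) Q = ⊤ :=
    (Subgroup.eq_bot_or_eq_top_of_prime_card (MulAction.stabilizer (N ≃ₐ[F] N) Q)).resolve_left hQs
  have hQlo : Q.LiesOver v.asIdeal := ⟨hQv.symm⟩
  have hwlo : w.asIdeal.LiesOver v.asIdeal := ⟨by rw [← hw]; rfl⟩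
  obtain ⟨τ, hτ⟩ := Ideal.exists_smul_eq_of_isGaloisGroup v.asIdeal Q w.asIdeal (N ≃ₐ[F] N)
  apply HeightOneSpectrum.ext
  show g • w.asIdeal = w.asIdeal
  have hfix : ∀ h : N ≃ₐ[F] N, h • Q = Q := fun h => by
    have : h ∈ MulAction.stabilizer (N ≃ₐ[F] N) Q := by rw [htop]; trivial
    exact this
  rw [← hτ, ← mul_smul]
  have : g * τ = τ * (τ⁻¹ * g * τ) := by group
  rw [this, mul_smul, hfix]

/-- the valuation of a norm at a non-split unramified prime is a `p`-th power. -/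
theorem s14_fi_val_norm_inert {p : ℕ} (hp : p.Prime) (hdeg : Module.finrank F N = p)
    (v : HeightOneSpectrum (𝓞 F)) (hun : s14_UnramAt F N v.asIdeal)
    (hns : ¬ s14_Splits F N v.asIdeal)
    (w : HeightOneSpectrum (𝓞 N)) (hw : w.under (𝓞 F) = v) (z : N) :
    v.valuation F (Algebra.norm F z) = (w.valuation N z) ^ p := by
  rw [← s14_fi_val_unram F N v w hw hun, s14_fi_val_norm]
  have : ∀ g : N ≃ₐ[F] N, w.valuation N (g z) = w.valuation N z := fun g => by
    rw [s14_fi_val_apply, s14_fi_gprime_eq_of_not_splits F N hp hdeg v hns w hw]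
  rw [Finset.prod_congr rfl (fun g _ => this g), Finset.prod_const, Finset.card_univ,
    ← Nat.card_eq_fintype_card, IsGalois.card_aut_eq_finrank, hdeg]

/-- the valuation of the norm of an element whose valuations are Galois-invariant. -/
theorem s14_fi_val_norm_of_invariant {p : ℕ} (hdeg : Module.finrank F N = p)
    (v : HeightOneSpectrum (𝓞 F)) (hun : s14_UnramAt F N v.asIdeal)
    (w : HeightOneSpectrum (𝓞 N)) (hw : w.under (𝓞 F) = v) (y : N)
    (hinv : ∀ g : N ≃ₐ[F] N, w.valuation N (g y) = w.valuation N y) :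
    v.valuation F (Algebra.norm F y) = (w.valuation N y) ^ p := by
  rw [← s14_fi_val_unram F N v w hw hun, s14_fi_val_norm]
  rw [Finset.prod_congr rfl (fun g _ => hinv g), Finset.prod_const, Finset.card_univ,
    ← Nat.card_eq_fintype_card, IsGalois.card_aut_eq_finrank, hdeg]

end Fermat.Agent.S14
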