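import Mathlib
import Fermat.Agent.S14.Defs

/-!
# S14 (FI) — interface between (SU3/HQ) and (FI)   (OWNER of this file: helper7)

`s14_fi_above F N S` : the primes of `N` above the finite set `S` of primes of `F`.
`s14_stmt_SU3`       : the Herbrand quotient of the `S`-units of `N`, in the elementwise form
                       consumed by (FI):  if `H¹(G, E') = 1` then `|E_S(F) / Nm(E')| * p = p ^ n`,
                       `n` = number of primes of `S` that do not split completely in `N`.
-/

set_option autoImplicit false

namespace Fermat.Agent.S14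

open NumberField IsDedekindDomain
open scoped Pointwise

/-- the primes of `N` lying above the primes of the finite set `S` of primes of `F`. -/
def s14_fi_above (F N : Type*) [Field F] [NumberField F] [Field N] [NumberField N] [Algebra F N]
    (S : Finset (HeightOneSpectrum (𝓞 F))) : Set (HeightOneSpectrum (𝓞 N)) :=
  {w | w.under (𝓞 F) ∈ S}

open Classical in
/-- **(SU3 + HQ)**, elementwise form.  `N/F` Galois of odd prime degree `p`, `σ` a generator of
`G = Gal(N/F)`, `S` a finite set of primes of `F`, `E' = ` units of `N` outside the primes above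
`S`, `E = ` units of `F` outside `S`.  The Herbrand quotient is
`|E / Nm E'| / |H¹(G, E')| = p ^ (n - 1)`, `n = #{v ∈ S, v not split completely}`.  Hence: if
`H¹(G, E') = 1` (every `u ∈ E'` of norm one is `w / σ w` with `w ∈ E'`), then any family of
elements of `E` that are pairwise inequivalent modulo `Nm E'` has at most `p ^ (n - 1)` members
(stated as `card * p ≤ p ^ n`, which also covers `n = 0`, where no such `u`-condition can hold). -/
def s14_stmt_SU3 : Prop :=
  ∀ (F N : Type) [Field F] [NumberField F] [Field N] [NumberField N] [Algebra F N]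
    [IsGalois F N] (p : ℕ), p.Prime → p ≠ 2 → Module.finrank F N = p →
    ∀ (S : Finset (HeightOneSpectrum (𝓞 F))) (σ : N ≃ₐ[F] N), σ ≠ 1 →
    (∀ u : Nˣ, u ∈ (s14_fi_above F N S).unit N → Algebra.norm F (u : N) = 1 →
        ∃ w : Nˣ, w ∈ (s14_fi_above F N S).unit N ∧ (u : N) = (w : N) / σ (w : N)) →
    ∀ A : Finset Fˣ, (∀ a ∈ A, a ∈ (S : Set (HeightOneSpectrum (𝓞 F))).unit F) →
      (∀ a ∈ A, ∀ b ∈ A, a ≠ b → ¬ ∃ w : Nˣ, w ∈ (s14_fi_above F N S).unit N ∧
          Algebra.norm F (w : N) = ((a / b : Fˣ) : F)) →
      A.card * p ≤ p ^ (S.filter (fun v => ¬ s14_Splits F N v.asIdeal)).card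

end Fermat.Agent.S14
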