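import Mathlib
import Fermat.Agent.S14.Defs
import Fermat.Agent.S14.FIStmt
import Fermat.Agent.S14.FIIdeal
import Fermat.Agent.S14.FIGalois

/-!
# S14 (FI) — norms of ideals, split primes, invariant valuations   (OWNER: helper7)
-/

set_option autoImplicit false
set_option linter.unusedSectionVars false

open IsDedekindDomain IsDedekindDomain.HeightOneSpectrum WithZero NumberField
open scoped Pointwise

namespace Fermat.Agent.S14

variable (F N : Type*) [Field F] [NumberField F] [Field N] [NumberField N] [Algebra F N]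
  [IsGalois F N]

/-- a prime above a completely split prime has relative norm the prime below. -/
theorem s14_fi_relNorm_of_splits (v : HeightOneSpectrum (𝓞 F))
    (hs : s14_Splits F N v.asIdeal) (w : HeightOneSpectrum (𝓞 N)) (hw : w.under (𝓞 F) = v) :
    Ideal.relNorm (𝓞 F) w.asIdeal = v.asIdeal := by
  have hlo : w.asIdeal.LiesOver v.asIdeal := ⟨by rw [← hw]; rfl⟩
  have hvmax : v.asIdeal.IsMaximal := v.isMaximal
  have hwmax : w.asIdeal.IsMaximal := w.isMaximal
  have h1 : Nat.card (MulAction.stabilizer (N ≃ₐ[F] N) w.asIdeal) = 1 := by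
    rw [hs w.asIdeal w.isPrime (by rw [← hw]; rfl)]
    simp
  have h2 := Ideal.card_stabilizer_eq (G := N ≃ₐ[F] N) v.asIdeal w.asIdeal
  rw [h1] at h2
  have h3 : v.asIdeal.inertiaDegIn (𝓞 N) = 1 := Nat.eq_one_of_mul_eq_one_left h2.symm
  have h4 : v.asIdeal.inertiaDegIn (𝓞 N) = w.asIdeal.inertiaDeg (𝓞 F) :=
    Ideal.inertiaDegIn_eq_inertiaDeg v.asIdeal w.asIdeal (N ≃ₐ[F] N)
  rw [Ideal.relNorm_eq_pow_of_isMaximal w.asIdeal v.asIdeal, ← h4, h3, pow_one]

/-- an ideal all of whose prime factors split completely is a relative norm. -/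
theorem s14_fi_exists_relNorm_eq (c : Ideal (𝓞 F)) (hc : c ≠ ⊥)
    (h : ∀ v : HeightOneSpectrum (𝓞 F), c ≤ v.asIdeal → s14_Splits F N v.asIdeal) :
    ∃ A : Ideal (𝓞 N), A ≠ ⊥ ∧ Ideal.relNorm (𝓞 F) A = c := by
  classical
  revert hc h
  refine UniqueFactorizationMonoid.induction_on_prime c ?_ ?_ ?_
  · intro h; exact absurd rfl h
  · intro J hJ _ _
    have hJ' : J = ⊤ := Ideal.isUnit_iff.1 hJ
    refine ⟨⊤, ?_, by rw [hJ', Ideal.relNorm_top]⟩
    exact top_ne_bot
  · intro J q hJ0 hq ih _ h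
    have hq0 : q ≠ ⊥ := hq.ne_zero
    have hqp : q.IsPrime := Ideal.isPrime_of_prime hq
    let vq : HeightOneSpectrum (𝓞 F) := ⟨q, hqp, hq0⟩
    have hsq : s14_Splits F N vq.asIdeal := h vq Ideal.mul_le_left
    obtain ⟨w, hw⟩ := s14_fi_exists_above F N vq
    obtain ⟨A', hA'0, hA'⟩ := ih hJ0 (fun v hv => h v (le_trans Ideal.mul_le_right hv))
    refine ⟨w.asIdeal * A', ?_, ?_⟩
    · intro h0
      rcases Ideal.mul_eq_bot.1 h0 with h1 | h1
      · exact w.ne_bot h1
      · exact hA'0 h1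
    · rw [map_mul, s14_fi_relNorm_of_splits F N vq hsq w hw, hA']

/-- the relative norm of an ideal supported above `S` is supported on `S`. -/
theorem s14_fi_relNorm_supported (S : Set (HeightOneSpectrum (𝓞 F))) (I : Ideal (𝓞 N))
    (h : ∀ w : HeightOneSpectrum (𝓞 N), I ≤ w.asIdeal → w.under (𝓞 F) ∈ S) :
    ∀ v : HeightOneSpectrum (𝓞 F), Ideal.relNorm (𝓞 F) I ≤ v.asIdeal → v ∈ S := by
  classical
  revert h
  refine UniqueFactorizationMonoid.induction_on_prime I ?_ ?_ ?_
  · intro h v _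
    obtain ⟨w, hw⟩ := s14_fi_exists_above F N v
    rw [← hw]
    exact h w bot_le
  · intro J hJ _ v hv
    have hJ' : J = ⊤ := Ideal.isUnit_iff.1 hJ
    rw [hJ', Ideal.relNorm_top] at hv
    exact absurd (top_le_iff.1 hv) v.isPrime.ne_top
  · intro J q hJ0 hq ih h v hv
    have hq0 : q ≠ ⊥ := hq.ne_zero
    have hqp : q.IsPrime := Ideal.isPrime_of_prime hq
    let wq : HeightOneSpectrum (𝓞 N) := ⟨q, hqp, hq0⟩
    rw [map_mul] at hv
    rcases (v.isPrime.mul_le).1 hv with h1 | h1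
    · -- `relNorm q = (q.under)^f ≤ v`
      have hwq : wq.under (𝓞 F) ∈ S := h wq Ideal.mul_le_left
      have hlo : wq.asIdeal.LiesOver (wq.under (𝓞 F)).asIdeal := ⟨rfl⟩
      have hmax1 : (wq.under (𝓞 F)).asIdeal.IsMaximal := (wq.under (𝓞 F)).isMaximal
      have hmax2 : wq.asIdeal.IsMaximal := wq.isMaximal
      have h2 : Ideal.relNorm (𝓞 F) wq.asIdeal =
          (wq.under (𝓞 F)).asIdeal ^ wq.asIdeal.inertiaDeg (𝓞 F) :=
        Ideal.relNorm_eq_pow_of_isMaximal wq.asIdeal (wq.under (𝓞 F)).asIdeal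
      have h3 : (wq.under (𝓞 F)).asIdeal ^ wq.asIdeal.inertiaDeg (𝓞 F) ≤ v.asIdeal := by
        rw [← h2]; exact h1
      have h4 : (wq.under (𝓞 F)).asIdeal ≤ v.asIdeal := v.isPrime.le_of_pow_le h3
      have h5 : wq.under (𝓞 F) = v :=
        HeightOneSpectrum.ext (hmax1.eq_of_le v.isPrime.ne_top h4)
      rw [← h5]; exact hwq
    · exact ih (fun w hw => h w (le_trans Ideal.mul_le_right hw)) v h1

/-- if `w(σ y) = w(y)` for all primes `w` outside the primes above `S`, the same holds for every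
`g` in the group generated by `σ`. -/
theorem s14_fi_val_invariant (S : Finset (HeightOneSpectrum (𝓞 F))) (σ : N ≃ₐ[F] N)
    (hσ : ∀ g : N ≃ₐ[F] N, g ∈ Subgroup.zpowers σ) (y : N)
    (h : ∀ w : HeightOneSpectrum (𝓞 N), w ∉ s14_fi_above F N S →
      w.valuation N (σ y) = w.valuation N y) :
    ∀ g : N ≃ₐ[F] N, ∀ w : HeightOneSpectrum (𝓞 N), w ∉ s14_fi_above F N S →
      w.valuation N (g y) = w.valuation N y := by
  have hmem : ∀ (g : N ≃ₐ[F] N) (w : HeightOneSpectrum (𝓞 N)), w ∉ s14_fi_above F N S →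
      s14_fi_gprime F N g w ∉ s14_fi_above F N S := by
    intro g w hw hgw
    apply hw
    show w.under (𝓞 F) ∈ S
    rw [← s14_fi_gprime_under F N g w]
    exact hgw
  let H : Subgroup (N ≃ₐ[F] N) :=
    { carrier := {g | ∀ w : HeightOneSpectrum (𝓞 N), w ∉ s14_fi_above F N S →
        w.valuation N (g y) = w.valuation N y}
      one_mem' := fun w _ => rfl
      mul_mem' := by
        intro a b ha hb w hw
        show w.valuation N (a (b y)) = _
        rw [s14_fi_val_apply F N a w (b y), hb _ (hmem a⁻¹ w hw), ← s14_fi_val_apply F N a w y]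
        exact ha w hw
      inv_mem' := by
        intro a ha w hw
        have h1 := s14_fi_val_apply F N a⁻¹ w y
        rw [inv_inv] at h1
        rw [h1, ← ha _ (hmem a w hw), s14_fi_gprime_val] }
  have hσH : σ ∈ H := h
  have hle : Subgroup.zpowers σ ≤ H := (Subgroup.zpowers_le).2 hσH
  intro g
  exact hle (hσ g)

end Fermat.Agent.S14
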