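import Mathlib
import Fermat.Agent.S14.Defs
import Fermat.Agent.S14.FIStmt

/-!
# S14 (FI) — sub-interfaces of the first inequality (OWNER: helper7)

* `s14_fi_stmt_RAM` : at a (tamely) ramified prime `t` of a Galois extension of prime degree `p`
  with `ζ_p ∈ F`, some `t`-unit `z` is not congruent to a norm: `z / Nm b ≢ 1 (mod t)` for
  every `b ∈ Nˣ`  (the local norm group at `t` is a proper subgroup).
* `s14_fi_stmt_H1` : if `S` contains the ramified primes and generates the class group of `F`,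
  then `H¹(Gal(N/F), E_{N,S}) = 1`: an `S`-unit of `N` of norm one is `w / σ w` for an `S`-unit
  `w` of `N` (`σ` a generator).
-/

set_option autoImplicit false

namespace Fermat.Agent.S14

open NumberField IsDedekindDomain

/-- **(FI-RAM)** local norm group at a tamely ramified prime is proper. -/
def s14_fi_stmt_RAM : Prop :=
  ∀ (F N : Type) [Field F] [NumberField F] [Field N] [NumberField N] [Algebra F N]
    [IsGalois F N] (p : ℕ), p.Prime → Module.finrank F N = p →
    (∃ ζ : F, IsPrimitiveRoot ζ p) →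
    ∀ t : HeightOneSpectrum (𝓞 F), (p : 𝓞 F) ∉ t.asIdeal → ¬ s14_UnramAt F N t.asIdeal →
      ∃ z : 𝓞 F, z ∉ t.asIdeal ∧ ∀ b : N, b ≠ 0 →
        ¬ t.valuation F (algebraMap (𝓞 F) F z / Algebra.norm F b - 1) < 1

/-- **(FI-H1)** vanishing of `H¹` of the `S`-units when `S` generates the class group of `F`
and contains the ramified primes. -/
def s14_fi_stmt_H1 : Prop :=
  ∀ (F N : Type) [Field F] [NumberField F] [Field N] [NumberField N] [Algebra F N]
    [IsGalois F N] (p : ℕ), p.Prime → Module.finrank F N = p →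
    ∀ S : Finset (HeightOneSpectrum (𝓞 F)),
      (∀ v : HeightOneSpectrum (𝓞 F), v ∉ S → s14_UnramAt F N v.asIdeal) →
      (∀ I : Ideal (𝓞 F), I ≠ ⊥ → ∃ (z : 𝓞 F) (J : Ideal (𝓞 F)), z ≠ 0 ∧ J ≠ ⊥ ∧
        Ideal.span {z} = I * J ∧ ∀ v : HeightOneSpectrum (𝓞 F), J ≤ v.asIdeal → v ∈ S) →
      ∀ σ : N ≃ₐ[F] N, σ ≠ 1 →
        ∀ u : Nˣ, u ∈ (s14_fi_above F N S).unit N → Algebra.norm F (u : N) = 1 →
          ∃ w : Nˣ, w ∈ (s14_fi_above F N S).unit N ∧ (u : N) = (w : N) / σ (w : N)

end Fermat.Agent.S14
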