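import Mathlib
import Fermat.Agent.S14.Defs
import Fermat.Agent.S14.FIStmt
import Fermat.Agent.S14.FIStmt2
import Fermat.Agent.S14.FIIdeal
import Fermat.Agent.S14.FIGalois
import Fermat.Agent.S14.FINorm

/-!
# S14 (FI-H1) — `H¹(Gal(N/F), E_{N,S}) = 1` when `S` generates the class group of `F`

`s14_fih_main : s14_fi_stmt_H1`.

Proof: Hilbert 90 gives `u = y / σ y`; scale `y` by an element of `F` to `y₁ ∈ 𝓞 N`; the
valuations of `y₁` outside the primes above `S` are Galois invariant, so the norm `a` of `y₁` has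
`v(a) = w(y₁) ^ p` for `v ∉ S`; the part of `(a)` prime to `S` is a `p`-th power `J ^ p`, and
`J` is principal `(z)` up to an ideal supported on `S`; then `w := y₁ / z` is an `S`-unit of `N`
with `w / σ w = u`.
-/

set_option autoImplicit false

open IsDedekindDomain IsDedekindDomain.HeightOneSpectrum WithZero NumberField

namespace Fermat.Agent.S14

/-- every element of `N` becomes integral after multiplication by a nonzero integer of `F`. -/
theorem s14_fih_exists_integral (F N : Type*) [Field F] [NumberField F] [Field N]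
    [NumberField N] [Algebra F N] (y : N) :
    ∃ (d : 𝓞 F) (y₁ : 𝓞 N), d ≠ 0 ∧ (y₁ : N) = algebraMap F N (d : F) * y := by
  obtain ⟨m, hm⟩ := IsIntegral.exists_multiple_integral_of_isLocalization
    (nonZeroDivisors (𝓞 F)) (Rₘ := F) y (Algebra.IsIntegral.isIntegral y)
  obtain ⟨y₁, hy₁⟩ := (IsIntegralClosure.isIntegral_iff (A := 𝓞 N)).1 hm
  refine ⟨m, y₁, nonZeroDivisors.coe_ne_zero m, ?_⟩
  have h1 : (y₁ : N) = m • y := hy₁
  rw [h1, Submonoid.smul_def, Algebra.smul_def]
  rfl

/-- the valuation of a nonzero integer is `exp (-k)`. -/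
theorem s14_fih_val_eq_exp {R : Type*} [CommRing R] [IsDedekindDomain R]
    (v : HeightOneSpectrum R) {x : R} (hx : x ≠ 0) :
    ∃ k : ℕ, v.intValuation x = exp (-(k : ℤ)) :=
  ⟨_, v.intValuation_if_neg hx⟩

theorem s14_fih_main : s14_fi_stmt_H1 := by
  intro F N _ _ _ _ _ _ p hp hdeg S hun hgen σ hσ u hu hnorm
  classical
  haveI : Fact p.Prime := ⟨hp⟩
  have hcard : Nat.card (N ≃ₐ[F] N) = p := by rw [IsGalois.card_aut_eq_finrank, hdeg]
  have hzp : ∀ g : N ≃ₐ[F] N, g ∈ Subgroup.zpowers σ := fun g =>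
    mem_zpowers_of_prime_card hcard hσ
  haveI : IsCyclic (N ≃ₐ[F] N) := isCyclic_of_prime_card hcard
  obtain ⟨y, hy⟩ := groupCohomology.exists_div_of_norm_eq_one hzp hnorm
  -- scale to an integer
  obtain ⟨d, y₁, hd0, hy₁⟩ := s14_fih_exists_integral F N (y : N)
  have hdF : (d : F) ≠ 0 := by
    intro h
    exact hd0 (RingOfIntegers.coe_injective (by simpa using h))
  have hdN : algebraMap F N (d : F) ≠ 0 := by
    simpa using hdF
  have hy₁0N : (y₁ : N) ≠ 0 := by
    rw [hy₁]
    exact mul_ne_zero hdN y.ne_zero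
  have hy₁0 : y₁ ≠ 0 := by
    rintro rfl
    exact hy₁0N rfl
  have hσy₁ : σ (y₁ : N) = algebraMap F N (d : F) * σ (y : N) := by
    rw [hy₁, map_mul, AlgEquiv.commutes]
  have hu₁ : (u : N) = (y₁ : N) / σ (y₁ : N) := by
    rw [hσy₁, hy₁, ← hy, mul_div_mul_left _ _ hdN]
  have hσy₁0 : σ (y₁ : N) ≠ 0 := by
    simpa using hy₁0N
  -- invariance of the valuations
  have hinvσ : ∀ w : HeightOneSpectrum (𝓞 N), w ∉ s14_fi_above F N S →
      w.valuation N (σ (y₁ : N)) = w.valuation N (y₁ : N) := by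
    intro w hw
    have h1 : w.valuation N (u : N) = 1 := Set.unit_valuation_eq_one _ N ⟨u, hu⟩ hw
    rw [hu₁, map_div₀] at h1
    have h2 : w.valuation N (σ (y₁ : N)) ≠ 0 := by
      simpa using hσy₁0
    exact ((div_eq_one_iff_eq h2).1 h1).symm
  have hinv := s14_fi_val_invariant F N S σ hzp (y₁ : N) hinvσ
  -- the norm
  set a : 𝓞 F := RingOfIntegers.norm F y₁ with ha
  have haN : (a : F) = Algebra.norm F (y₁ : N) := RingOfIntegers.coe_norm F y₁
  have ha0 : a ≠ 0 := by
    intro h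
    have : Algebra.norm F (y₁ : N) = 0 := by rw [← haN, h]; rfl
    exact hy₁0N (Algebra.norm_eq_zero_iff.1 this)
  have hva : ∀ v : HeightOneSpectrum (𝓞 F), v ∉ S → ∀ w : HeightOneSpectrum (𝓞 N),
      w.under (𝓞 F) = v → v.intValuation a = (w.intValuation y₁) ^ p := by
    intro v hv w hw
    have hwS : w ∉ s14_fi_above F N S := by
      intro h
      apply hv
      rw [← hw]
      exact h
    have := s14_fi_val_norm_of_invariant F N hdeg v (hun v hv) w hw (y₁ : N)
      (fun g => hinv g w hwS)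
    rw [← haN] at this
    rw [← valuation_of_algebraMap (K := F), ← valuation_of_algebraMap (K := N)]
    exact this
  -- split the ideal `(a)`
  obtain ⟨I₁, I₂, hI, hI₁, hI₂⟩ := s14_fi_exists_split_ideal
    (S : Set (HeightOneSpectrum (𝓞 F))) (Ideal.span {a}) (by simpa using ha0)
  have hI₁0 : I₁ ≠ ⊥ := by
    rintro rfl
    rw [Ideal.bot_mul] at hI
    exact ha0 (by simpa using hI)
  have hdiv : ∀ v : HeightOneSpectrum (𝓞 F), I₁ ≤ v.asIdeal →
      p ∣ multiplicity v.asIdeal I₁ := by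
    intro v hv
    have hvS : v ∉ S := fun h => hI₁ v (by simpa using h) hv
    obtain ⟨w, hw⟩ := s14_fi_exists_above F N v
    have h1 := s14_fi_intVal_eq_exp_multiplicity v ha0 hI (fun h => hvS (by simpa using hI₂ v h))
    obtain ⟨k, hk⟩ := s14_fih_val_eq_exp w hy₁0
    rw [hva v hvS w hw, hk, ← exp_nsmul, exp_inj] at h1
    refine ⟨k, ?_⟩
    have : (multiplicity v.asIdeal I₁ : ℤ) = p * k := by
      simp only [nsmul_eq_mul, mul_neg, neg_inj] at h1
      exact h1.symm
    exact_mod_cast this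
  obtain ⟨J, hJ0, hJ⟩ := s14_fi_exists_root p hp.ne_zero I₁ hI₁0 hdiv
  obtain ⟨z, J', hz0, hJ'0, hzJ, hJ'⟩ := hgen J hJ0
  have hzF : (z : F) ≠ 0 := by
    intro h
    exact hz0 (RingOfIntegers.coe_injective (by simpa using h))
  have hzN : algebraMap F N (z : F) ≠ 0 := by
    simpa using hzF
  -- `v(a) = v(z) ^ p` outside `S`
  have hvz : ∀ v : HeightOneSpectrum (𝓞 F), v ∉ S →
      v.intValuation a = (v.intValuation z) ^ p := by
    intro v hv
    have hJ'v : ¬ J' ≤ v.asIdeal := fun h => hv (hJ' v h)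
    have hI₂v : ¬ I₂ ≤ v.asIdeal := fun h => hv (by simpa using hI₂ v h)
    have hJ'pv : ¬ J' ^ p ≤ v.asIdeal := fun h => hJ'v (v.isPrime.le_of_pow_le h)
    have heq : Ideal.span {a} * J' ^ p = Ideal.span {z ^ p} * I₂ := by
      rw [hI, ← hJ, ← Ideal.span_singleton_pow, hzJ, mul_pow]
      ring
    rw [s14_fi_val_eq_of_span_mul v heq hJ'pv hI₂v, map_pow]
  -- the element `w₀ := y₁ / z`
  have hw₀0 : (y₁ : N) / algebraMap F N (z : F) ≠ 0 := div_ne_zero hy₁0N hzN
  refine ⟨Units.mk0 _ hw₀0, ?_, ?_⟩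
  · intro w hw
    have hvS : w.under (𝓞 F) ∉ S := hw
    have h1 := hva _ hvS w rfl
    rw [hvz _ hvS] at h1
    have h2 : (w.under (𝓞 F)).intValuation z = w.intValuation y₁ :=
      (pow_left_inj₀ zero_le' zero_le' hp.ne_zero).1 h1
    have h3 : w.valuation N (algebraMap F N (z : F)) = (w.under (𝓞 F)).valuation F (z : F) :=
      s14_fi_val_unram F N _ w rfl (hun _ hvS) (z : F)
    show w.valuation N ((y₁ : N) / algebraMap F N (z : F)) = 1
    rw [map_div₀, h3]
    have h4 : (w.under (𝓞 F)).valuation F (z : F) = (w.under (𝓞 F)).intValuation z :=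
      valuation_of_algebraMap _ z
    have h5 : w.valuation N (y₁ : N) = w.intValuation y₁ := valuation_of_algebraMap _ y₁
    rw [h4, h5, h2]
    apply div_self
    rw [← h5]
    simpa using hy₁0N
  · show (u : N) = (y₁ : N) / algebraMap F N (z : F) / σ ((y₁ : N) / algebraMap F N (z : F))
    rw [map_div₀, AlgEquiv.commutes, hu₁]
    field_simp

end Fermat.Agent.S14
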