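import Mathlib

/-!
# S14 (LP) — local `p`-th powers: definitions and valuation facts (OWNER: helper6)

`F` is a number field, `v` a height one prime of `𝓞 F`, `p` a prime number.

* `s14_lp_IsLocPow p v x` : `x` is a local `p`-th power at `v`, i.e. there is `z ≠ 0` with
  `ord_v (x / z ^ p - 1) > (p / (p - 1)) * ord_v p`.  If `F` contains a primitive `p`-th root of
  unity `ζ` this says `ord_v (x / z ^ p - 1) ≥ p * ord_v (1 - ζ) + 1` (`s14_lp_isLocPow_iff`);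
  if `v ∤ p` it says that `x / z ^ p ≡ 1 mod v` (`s14_lp_isLocPow_iff_of_notMem`).
* `s14_lp_locPow p v : Subgroup Fˣ` : the group of local `p`-th powers.
-/

set_option autoImplicit false
set_option linter.unusedSectionVars false

namespace Fermat.Agent.S14

open NumberField IsDedekindDomain

section general

variable {K : Type*} [Field K] (val : Valuation K (WithZero (Multiplicative ℤ)))

theorem s14_lp_val_root {ζ : K} {n : ℕ} (hn : n ≠ 0) (h : ζ ^ n = 1) : val ζ = 1 := by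
  have h1 : val ζ ^ n = 1 := by rw [← map_pow, h, map_one]
  exact (pow_eq_one_iff_left hn).mp h1

theorem s14_lp_val_geom_le {η : K} (hη : val η ≤ 1) (k : ℕ) :
    val (∑ i ∈ Finset.range k, η ^ i) ≤ 1 := by
  apply Valuation.map_sum_le
  intro i _
  rw [map_pow]
  exact pow_le_one₀ zero_le hη

theorem s14_lp_val_one_sub_pow_le {η : K} (hη : val η ≤ 1) (k : ℕ) :
    val (1 - η ^ k) ≤ val (1 - η) := by
  have h : 1 - η ^ k = (1 - η) * ∑ i ∈ Finset.range k, η ^ i := by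
    exact (mul_neg_geom_sum η k).symm
  rw [h, map_mul]
  exact mul_le_of_le_one_right zero_le (s14_lp_val_geom_le val hη k)

theorem s14_lp_val_one_sub_pow {p : ℕ} (hp : p.Prime) {ζ : K} (hζ : IsPrimitiveRoot ζ p)
    {j : ℕ} (hj : ¬ p ∣ j) : val (1 - ζ ^ j) = val (1 - ζ) := by
  have h1 : val ζ = 1 := s14_lp_val_root val hp.ne_zero hζ.pow_eq_one
  have hcop : j.Coprime p := (Nat.Coprime.symm ((Nat.Prime.coprime_iff_not_dvd hp).mpr hj))
  have hη : IsPrimitiveRoot (ζ ^ j) p := hζ.pow_of_coprime j hcop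
  have hη1 : val (ζ ^ j) = 1 := s14_lp_val_root val hp.ne_zero hη.pow_eq_one
  have : NeZero p := ⟨hp.ne_zero⟩
  obtain ⟨k, -, hk⟩ := hη.eq_pow_of_pow_eq_one hζ.pow_eq_one
  apply le_antisymm (s14_lp_val_one_sub_pow_le val h1.le j)
  have := s14_lp_val_one_sub_pow_le val hη1.le k
  rwa [hk] at this

theorem s14_lp_val_prime {p : ℕ} (hp : p.Prime) {ζ : K} (hζ : IsPrimitiveRoot ζ p) :
    val (p : K) = val (1 - ζ) ^ (p - 1) := by
  obtain ⟨n, rfl⟩ : ∃ n, p = n + 1 := ⟨p - 1, (Nat.succ_pred_eq_of_pos hp.pos).symm⟩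
  have h := hζ.prod_one_sub_pow_eq_order
  have h2 : ((n + 1 : ℕ) : K) = ∏ k ∈ Finset.range n, (1 - ζ ^ (k + 1)) := by
    rw [h]; push_cast; rfl
  rw [h2, map_prod, Nat.add_sub_cancel]
  rw [Finset.prod_congr rfl (fun k hk => s14_lp_val_one_sub_pow val hp hζ (j := k + 1) ?_)]
  · simp
  · intro hdvd
    have := Nat.le_of_dvd (Nat.succ_pos k) hdvd
    have := Finset.mem_range.mp hk
    omega

theorem s14_lp_one_sub_ne_zero {p : ℕ} (hp : p.Prime) {ζ : K} (hζ : IsPrimitiveRoot ζ p) :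
    (1 : K) - ζ ≠ 0 := by
  intro h
  have h1 : ζ = 1 := (sub_eq_zero.mp h).symm
  exact hζ.ne_one hp.one_lt h1

theorem s14_lp_val_one_sub_le {p : ℕ} (hp : p.Prime) {ζ : K} (hζ : IsPrimitiveRoot ζ p) :
    val (1 - ζ) ≤ 1 := by
  have h1 : val ζ = 1 := s14_lp_val_root val hp.ne_zero hζ.pow_eq_one
  have := s14_lp_val_one_sub_pow_le val h1.le 1
  calc val (1 - ζ) ≤ max (val 1) (val ζ) := Valuation.map_sub _ _ _
    _ = 1 := by rw [h1, map_one, max_self]

/-- the two shapes of the "local `p`-th power" inequality agree. -/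
theorem s14_lp_ineq_iff {p : ℕ} (hp : p.Prime) {ζ : K} (hζ : IsPrimitiveRoot ζ p)
    (x : K) {z : K} (hz : z ≠ 0) :
    val (x - z ^ p) ^ (p - 1) < val ((p : K) * z ^ (p - 1)) ^ p ↔
      val (x / z ^ p - 1) < val (1 - ζ) ^ p := by
  have hp1 : p - 1 ≠ 0 := by have := hp.two_le; omega
  have hvz : val z ≠ 0 := (Valuation.ne_zero_iff val).mpr hz
  have hvzp : val z ^ p ≠ 0 := pow_ne_zero _ hvz
  have e1 : val ((p : K) * z ^ (p - 1)) ^ p = (val (1 - ζ) ^ p * val z ^ p) ^ (p - 1) := by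
    rw [map_mul, s14_lp_val_prime val hp hζ, map_pow, mul_pow, mul_pow, ← pow_mul, ← pow_mul,
      ← pow_mul, ← pow_mul, mul_comm (p - 1) p]
  have e2 : x / z ^ p - 1 = (x - z ^ p) / z ^ p := by
    field_simp
  rw [e1, pow_lt_pow_iff_left₀ zero_le zero_le hp1, e2, map_div₀, map_pow,
    div_lt_iff₀ (zero_lt_iff.mpr hvzp)]

/-- `ζ`-free normal form of the inequality. -/
theorem s14_lp_ineq_iff' {p : ℕ} (_hp : 2 ≤ p) (x : K) {z : K} (hz : z ≠ 0) :
    val (x - z ^ p) ^ (p - 1) < val ((p : K) * z ^ (p - 1)) ^ p ↔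
      val (x / z ^ p - 1) ^ (p - 1) < val (p : K) ^ p := by
  have hvz : val z ≠ 0 := (Valuation.ne_zero_iff val).mpr hz
  have hvzp : 0 < (val z ^ p) ^ (p - 1) := zero_lt_iff.mpr (pow_ne_zero _ (pow_ne_zero _ hvz))
  have e2 : x / z ^ p - 1 = (x - z ^ p) / z ^ p := by
    field_simp
  have e1 : val ((p : K) * z ^ (p - 1)) ^ p = val (p : K) ^ p * (val z ^ p) ^ (p - 1) := by
    rw [map_mul, map_pow, mul_pow, ← pow_mul, ← pow_mul, mul_comm (p - 1) p]
  rw [e1, e2, map_div₀, map_pow, div_pow, div_lt_iff₀ hvzp]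

/-- if the inequality holds then `x / z ^ p - 1` has valuation `< 1`. -/
theorem s14_lp_lt_one_of_ineq {p : ℕ} (_hp : 2 ≤ p) (hp1 : val (p : K) ≤ 1) {t : K}
    (h : val t ^ (p - 1) < val (p : K) ^ p) : val t < 1 := by
  have hp1' : p - 1 ≠ 0 := by omega
  have h1 : val t ^ (p - 1) < 1 := lt_of_lt_of_le h (pow_le_one₀ zero_le hp1)
  by_contra hcon
  have hge : 1 ≤ val t := not_lt.mp hcon
  exact absurd h1 (not_lt.mpr (one_le_pow₀ hge))

theorem s14_lp_val_one_add {t : K} (h : val t < 1) : val (1 + t) = 1 := by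
  have h2 : val t < val (1 : K) := by rwa [map_one]
  have := Valuation.map_add_eq_of_lt_left val h2
  rwa [map_one] at this

theorem s14_lp_mul_aux {p : ℕ} (hp : 2 ≤ p) (hp1 : val (p : K) ≤ 1) {t₁ t₂ : K}
    (h₁ : val t₁ ^ (p - 1) < val (p : K) ^ p) (h₂ : val t₂ ^ (p - 1) < val (p : K) ^ p) :
    val (t₁ + t₂ + t₁ * t₂) ^ (p - 1) < val (p : K) ^ p := by
  have hp1' : p - 1 ≠ 0 := by omega
  have l₁ := s14_lp_lt_one_of_ineq val hp hp1 h₁
  have l₂ := s14_lp_lt_one_of_ineq val hp hp1 h₂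
  have hle : val (t₁ + t₂ + t₁ * t₂) ≤ max (val t₁) (val t₂) := by
    refine le_trans (Valuation.map_add _ _ _) (max_le (Valuation.map_add _ _ _) ?_)
    rw [map_mul]
    exact le_trans (mul_le_of_le_one_right zero_le l₂.le) (le_max_left _ _)
  rcases le_total (val t₁) (val t₂) with h | h
  · rw [max_eq_right h] at hle
    exact lt_of_le_of_lt (pow_le_pow_left₀ zero_le hle _) h₂
  · rw [max_eq_left h] at hle
    exact lt_of_le_of_lt (pow_le_pow_left₀ zero_le hle _) h₁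

theorem s14_lp_inv_aux {p : ℕ} (hp : 2 ≤ p) (hp1 : val (p : K) ≤ 1) {t : K}
    (h : val t ^ (p - 1) < val (p : K) ^ p) :
    val (-t / (1 + t)) ^ (p - 1) < val (p : K) ^ p := by
  have l := s14_lp_lt_one_of_ineq val hp hp1 h
  rw [map_div₀, Valuation.map_neg, s14_lp_val_one_add val l, div_one]
  exact h

end general

variable {F : Type*} [Field F] [NumberField F]

/-- `x` is a local `p`-th power at `v`: there is `z ≠ 0` with
`ord_v (x / z ^ p - 1) > (p / (p - 1)) * ord_v p`. -/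
def s14_lp_IsLocPow (p : ℕ) (v : HeightOneSpectrum (𝓞 F)) (x : F) : Prop :=
  ∃ z : F, z ≠ 0 ∧
    v.valuation F (x - z ^ p) ^ (p - 1) < v.valuation F ((p : F) * z ^ (p - 1)) ^ p

theorem s14_lp_isLocPow_iff {p : ℕ} (hp : p.Prime) {ζ : F} (hζ : IsPrimitiveRoot ζ p)
    (v : HeightOneSpectrum (𝓞 F)) (x : F) :
    s14_lp_IsLocPow p v x ↔
      ∃ z : F, z ≠ 0 ∧ v.valuation F (x / z ^ p - 1) < v.valuation F (1 - ζ) ^ p := by
  constructor
  · rintro ⟨z, hz, h⟩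
    exact ⟨z, hz, (s14_lp_ineq_iff _ hp hζ x hz).mp h⟩
  · rintro ⟨z, hz, h⟩
    exact ⟨z, hz, (s14_lp_ineq_iff _ hp hζ x hz).mpr h⟩

theorem s14_lp_val_natCast_le (v : HeightOneSpectrum (𝓞 F)) (n : ℕ) :
    v.valuation F (n : F) ≤ 1 := by
  have : (n : F) = algebraMap (𝓞 F) F (n : 𝓞 F) := by simp
  rw [this]
  exact v.valuation_le_one _

theorem s14_lp_val_natCast_eq_one {v : HeightOneSpectrum (𝓞 F)} {n : ℕ}
    (h : (n : 𝓞 F) ∉ v.asIdeal) : v.valuation F (n : F) = 1 := by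
  have : (n : F) = algebraMap (𝓞 F) F (n : 𝓞 F) := by simp
  rw [this]
  exact (v.valuation_eq_one_iff_notMem).mpr h

theorem s14_lp_val_natCast_lt_one {v : HeightOneSpectrum (𝓞 F)} {n : ℕ}
    (h : (n : 𝓞 F) ∈ v.asIdeal) : v.valuation F (n : F) < 1 := by
  have : (n : F) = algebraMap (𝓞 F) F (n : 𝓞 F) := by simp
  rw [this]
  exact (v.valuation_lt_one_iff_mem _).mpr h

theorem s14_lp_isLocPow_iff' {p : ℕ} (hp : 2 ≤ p) (v : HeightOneSpectrum (𝓞 F)) (x : F) :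
    s14_lp_IsLocPow p v x ↔
      ∃ z : F, z ≠ 0 ∧ v.valuation F (x / z ^ p - 1) ^ (p - 1) < v.valuation F (p : F) ^ p := by
  constructor
  · rintro ⟨z, hz, h⟩
    exact ⟨z, hz, (s14_lp_ineq_iff' _ hp x hz).mp h⟩
  · rintro ⟨z, hz, h⟩
    exact ⟨z, hz, (s14_lp_ineq_iff' _ hp x hz).mpr h⟩

/-- tame case: at `v ∤ p`, a local `p`-th power is an element `≡ z ^ p mod v` (multiplicatively). -/
theorem s14_lp_isLocPow_iff_of_notMem {p : ℕ} (hp : 2 ≤ p) {v : HeightOneSpectrum (𝓞 F)}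
    (hpv : (p : 𝓞 F) ∉ v.asIdeal) (x : F) :
    s14_lp_IsLocPow p v x ↔ ∃ z : F, z ≠ 0 ∧ v.valuation F (x / z ^ p - 1) < 1 := by
  have hp1' : p - 1 ≠ 0 := by omega
  rw [s14_lp_isLocPow_iff' hp]
  have h1 : v.valuation F (p : F) = 1 := s14_lp_val_natCast_eq_one hpv
  constructor
  · rintro ⟨z, hz, h⟩
    refine ⟨z, hz, ?_⟩
    rw [h1, one_pow] at h
    have h' : v.valuation F (x / z ^ p - 1) ^ (p - 1) < 1 ^ (p - 1) := by rwa [one_pow]
    exact (pow_lt_pow_iff_left₀ zero_le zero_le hp1').mp h'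
  · rintro ⟨z, hz, h⟩
    refine ⟨z, hz, ?_⟩
    rw [h1, one_pow]
    have h' := (pow_lt_pow_iff_left₀ (n := p - 1) zero_le zero_le hp1').mpr h
    rwa [one_pow] at h'

/-- a local `p`-th power is nonzero and its valuation is a `p`-th power. -/
theorem s14_lp_val_of_isLocPow {p : ℕ} (hp : 2 ≤ p) {v : HeightOneSpectrum (𝓞 F)} {x : F}
    (h : s14_lp_IsLocPow p v x) :
    ∃ z : F, z ≠ 0 ∧ v.valuation F (x / z ^ p - 1) < 1 ∧
      v.valuation F x = v.valuation F z ^ p := by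
  obtain ⟨z, hz, h⟩ := (s14_lp_isLocPow_iff' hp v x).mp h
  have hlt := s14_lp_lt_one_of_ineq (v.valuation F) hp (s14_lp_val_natCast_le v p) h
  refine ⟨z, hz, hlt, ?_⟩
  have h1 : v.valuation F (x / z ^ p) = 1 := by
    have h2 : v.valuation F (x / z ^ p - 1) < v.valuation F (1 : F) := by rwa [map_one]
    have := Valuation.map_add_eq_of_lt_right (v.valuation F) h2
    rwa [sub_add_cancel, map_one] at this
  rw [map_div₀, map_pow] at h1
  have hvz : v.valuation F z ^ p ≠ 0 :=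
    pow_ne_zero _ ((Valuation.ne_zero_iff _).mpr hz)
  exact (div_eq_one_iff_eq hvz).mp h1

theorem s14_lp_isLocPow_one {p : ℕ} (hp : 2 ≤ p) (v : HeightOneSpectrum (𝓞 F)) :
    s14_lp_IsLocPow p v (1 : F) := by
  rw [s14_lp_isLocPow_iff' hp]
  refine ⟨1, one_ne_zero, ?_⟩
  have hp0 : (p : F) ≠ 0 := by
    have : p ≠ 0 := by omega
    exact_mod_cast this
  have hp1' : p - 1 ≠ 0 := by omega
  simp only [one_pow, div_one, sub_self, map_zero]
  rw [zero_pow hp1']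
  exact zero_lt_iff.mpr (pow_ne_zero _ ((Valuation.ne_zero_iff _).mpr hp0))

theorem s14_lp_isLocPow_pow {p : ℕ} (hp : 2 ≤ p) (v : HeightOneSpectrum (𝓞 F)) {u : F}
    (hu : u ≠ 0) : s14_lp_IsLocPow p v (u ^ p) := by
  rw [s14_lp_isLocPow_iff' hp]
  refine ⟨u, hu, ?_⟩
  have hp0 : (p : F) ≠ 0 := by
    have : p ≠ 0 := by omega
    exact_mod_cast this
  have hp1' : p - 1 ≠ 0 := by omega
  rw [div_self (pow_ne_zero _ hu), sub_self, map_zero, zero_pow hp1']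
  exact zero_lt_iff.mpr (pow_ne_zero _ ((Valuation.ne_zero_iff _).mpr hp0))

theorem s14_lp_isLocPow_mul {p : ℕ} (hp : 2 ≤ p) (v : HeightOneSpectrum (𝓞 F)) {x y : F}
    (hx : s14_lp_IsLocPow p v x) (hy : s14_lp_IsLocPow p v y) : s14_lp_IsLocPow p v (x * y) := by
  rw [s14_lp_isLocPow_iff' hp] at hx hy ⊢
  obtain ⟨z₁, hz₁, h₁⟩ := hx
  obtain ⟨z₂, hz₂, h₂⟩ := hy
  refine ⟨z₁ * z₂, mul_ne_zero hz₁ hz₂, ?_⟩
  have key := s14_lp_mul_aux (v.valuation F) hp (s14_lp_val_natCast_le v p) h₁ h₂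
  have e : x * y / (z₁ * z₂) ^ p - 1 =
      (x / z₁ ^ p - 1) + (y / z₂ ^ p - 1) + (x / z₁ ^ p - 1) * (y / z₂ ^ p - 1) := by
    field_simp
    ring
  rw [e]
  exact key

theorem s14_lp_isLocPow_inv {p : ℕ} (hp : 2 ≤ p) (v : HeightOneSpectrum (𝓞 F)) {x : F}
    (hx : s14_lp_IsLocPow p v x) : s14_lp_IsLocPow p v x⁻¹ := by
  obtain ⟨z', hz', hlt', hval⟩ := s14_lp_val_of_isLocPow hp hx
  have hx0 : x ≠ 0 := by
    rintro rfl
    rw [map_zero] at hval
    exact pow_ne_zero _ ((Valuation.ne_zero_iff _).mpr hz') hval.symm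
  rw [s14_lp_isLocPow_iff' hp] at hx ⊢
  obtain ⟨z, hz, h⟩ := hx
  refine ⟨z⁻¹, inv_ne_zero hz, ?_⟩
  have key := s14_lp_inv_aux (v.valuation F) hp (s14_lp_val_natCast_le v p) h
  have e : x⁻¹ / z⁻¹ ^ p - 1 = -(x / z ^ p - 1) / (1 + (x / z ^ p - 1)) := by
    have hzp : z ^ p ≠ 0 := pow_ne_zero _ hz
    rw [inv_pow, add_sub_cancel, div_div_eq_mul_div, neg_sub, sub_mul, one_mul,
      div_mul_cancel₀ _ hzp, sub_div, div_self hx0, inv_div_inv]
  rw [e]
  exact key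

/-- the group of local `p`-th powers at `v`. -/
def s14_lp_locPow {p : ℕ} (hp : p.Prime) (v : HeightOneSpectrum (𝓞 F)) : Subgroup Fˣ where
  carrier := {x | s14_lp_IsLocPow p v (x : F)}
  mul_mem' := fun {a b} ha hb => by
    simpa using s14_lp_isLocPow_mul hp.two_le v ha hb
  one_mem' := by simpa using s14_lp_isLocPow_one hp.two_le v
  inv_mem' := fun {a} ha => by
    simpa using s14_lp_isLocPow_inv hp.two_le v ha

theorem s14_lp_mem_locPow {p : ℕ} (hp : p.Prime) (v : HeightOneSpectrum (𝓞 F)) (x : Fˣ) :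
    x ∈ s14_lp_locPow hp v ↔ s14_lp_IsLocPow p v (x : F) := Iff.rfl

theorem s14_lp_pow_mem_locPow {p : ℕ} (hp : p.Prime) (v : HeightOneSpectrum (𝓞 F)) (x : Fˣ) :
    x ^ p ∈ s14_lp_locPow hp v := by
  rw [s14_lp_mem_locPow]
  simpa using s14_lp_isLocPow_pow hp.two_le v x.ne_zero

end Fermat.Agent.S14
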