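import Mathlib

/-!
# S14 (LP) — valuations at a prime `w` of `N` above a prime `v` of `F` (OWNER: helper6)

* `s14_lp_val_smul` : the `w`-adic valuation of `N` is invariant under the decomposition group.
* `s14_lp_val_up_*` : comparison of the `v`-adic valuation of `F` with the `w`-adic valuation of `N`.
-/

set_option autoImplicit false
set_option linter.unusedSectionVars false

namespace Fermat.Agent.S14

open NumberField IsDedekindDomain
open scoped Pointwise

section galois

variable {F N : Type*} [Field F] [Field N] [NumberField N] [Algebra F N]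

theorem s14_lp_smul_mem_pow (w : Ideal (𝓞 N)) {σ : Gal(N/F)} (hσ : σ • w = w) {r : 𝓞 N}
    {n : ℕ} (hr : r ∈ w ^ n) : σ • r ∈ w ^ n := by
  have h1 : σ • r ∈ σ • (w ^ n) := Ideal.smul_mem_pointwise_smul_iff.mpr hr
  have h2 : σ • (w ^ n) = (σ • w) ^ n := by
    rw [Ideal.pointwise_smul_def, Ideal.pointwise_smul_def, Ideal.map_pow]
  rwa [h2, hσ] at h1

theorem s14_lp_intVal_smul_le (w : HeightOneSpectrum (𝓞 N)) {σ : Gal(N/F)}
    (hσ : σ • w.asIdeal = w.asIdeal) (r : 𝓞 N) :
    w.intValuation (σ • r) ≤ w.intValuation r := by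
  rcases eq_or_ne r 0 with rfl | hr
  · simp
  rw [w.intValuation_eq_exp_neg_multiplicity hr, w.intValuation_le_pow_iff_mem]
  apply s14_lp_smul_mem_pow w.asIdeal hσ
  rw [← w.intValuation_le_pow_iff_mem, w.intValuation_eq_exp_neg_multiplicity hr]

theorem s14_lp_intVal_smul (w : HeightOneSpectrum (𝓞 N)) {σ : Gal(N/F)}
    (hσ : σ • w.asIdeal = w.asIdeal) (r : 𝓞 N) :
    w.intValuation (σ • r) = w.intValuation r := by
  apply le_antisymm (s14_lp_intVal_smul_le w hσ r)
  have hσ' : σ⁻¹ • w.asIdeal = w.asIdeal := by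
    conv_lhs => rw [← hσ]
    rw [inv_smul_smul]
  have := s14_lp_intVal_smul_le w hσ' (σ • r)
  rwa [inv_smul_smul] at this

/-- the `w`-adic valuation is invariant under the decomposition group of `w`. -/
theorem s14_lp_val_smul (w : HeightOneSpectrum (𝓞 N)) {σ : Gal(N/F)}
    (hσ : σ • w.asIdeal = w.asIdeal) (x : N) :
    w.valuation N (σ x) = w.valuation N x := by
  obtain ⟨r, s, hs, rfl⟩ := IsFractionRing.div_surjective (A := 𝓞 N) x
  have e1 : σ (algebraMap (𝓞 N) N r) = algebraMap (𝓞 N) N (σ • r) := rfl
  have e2 : σ (algebraMap (𝓞 N) N s) = algebraMap (𝓞 N) N (σ • s) := rfl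
  rw [map_div₀, e1, e2, map_div₀, map_div₀, HeightOneSpectrum.valuation_of_algebraMap,
    HeightOneSpectrum.valuation_of_algebraMap, HeightOneSpectrum.valuation_of_algebraMap,
    HeightOneSpectrum.valuation_of_algebraMap, s14_lp_intVal_smul w hσ, s14_lp_intVal_smul w hσ]

end galois

section up

variable {F N : Type*} [Field F] [NumberField F] [Field N] [NumberField N] [Algebra F N]
variable (v : HeightOneSpectrum (𝓞 F)) (w : HeightOneSpectrum (𝓞 N))
  [w.asIdeal.LiesOver v.asIdeal]

theorem s14_lp_val_up_lt {x y : F} (h : v.valuation F x < v.valuation F y) :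
    w.valuation N (algebraMap F N x) < w.valuation N (algebraMap F N y) := by
  rw [← HeightOneSpectrum.valuation_liesOver N v w, ← HeightOneSpectrum.valuation_liesOver N v w]
  exact pow_lt_pow_left₀ h zero_le
    (Ideal.IsDedekindDomain.ramificationIdx'_ne_zero_of_liesOver w.asIdeal v.ne_bot)

theorem s14_lp_val_up_le {x y : F} (h : v.valuation F x ≤ v.valuation F y) :
    w.valuation N (algebraMap F N x) ≤ w.valuation N (algebraMap F N y) := by
  rw [← HeightOneSpectrum.valuation_liesOver N v w, ← HeightOneSpectrum.valuation_liesOver N v w]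
  exact pow_le_pow_left₀ zero_le h _

theorem s14_lp_val_up_lt_one {x : F} (h : v.valuation F x < 1) :
    w.valuation N (algebraMap F N x) < 1 := by
  have := s14_lp_val_up_lt v w (x := x) (y := 1) (by rwa [map_one])
  rwa [map_one, map_one] at this

theorem s14_lp_val_up_le_one {x : F} (h : v.valuation F x ≤ 1) :
    w.valuation N (algebraMap F N x) ≤ 1 := by
  have := s14_lp_val_up_le v w (x := x) (y := 1) (by rwa [map_one])
  rwa [map_one, map_one] at this

theorem s14_lp_val_up_eq_one {x : F} (h : v.valuation F x = 1) :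
    w.valuation N (algebraMap F N x) = 1 := by
  rw [← HeightOneSpectrum.valuation_liesOver N v w, h, one_pow]

end up

end Fermat.Agent.S14
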