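import Fermat.Agent.S14.FIStmt2
import Fermat.Agent.S14.FIGalois
import Fermat.Agent.S14.LPDefs
import Fermat.Agent.S14.LPVal

/-!
# S14 (FI-RAM) — the local norm group at a tamely ramified prime is proper   (OWNER: helper2)

`N / F` Galois of prime degree `p`, `ζ_p ∈ F`, `t` a prime of `F` not dividing `p` which ramifies
in `N`.  Then `t` is totally ramified: the inertia group of the prime `Q` above `t` is the whole
Galois group, the residue fields of `t` and `Q` agree, hence `Nm x ≡ c ^ p mod t` for every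
`x ∈ 𝓞 N` (`c ∈ 𝓞 F` a representative of `x mod Q`).  Since the `p`-th power map of the residue
field at `t` is not onto (it kills `ζ mod t ≠ 1`), some unit `z` at `t` is not congruent to a
norm.
-/

set_option autoImplicit false
set_option linter.unusedSectionVars false

namespace Fermat.Agent.S14

open NumberField IsDedekindDomain
open scoped Pointwise

section

variable (F N : Type*) [Field F] [NumberField F] [Field N] [NumberField N] [Algebra F N]
  [IsGalois F N]

/-- in prime degree a nontrivial inertia group is the whole Galois group. -/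
theorem s14_fir_inertia_eq_top {p : ℕ} (hp : p.Prime) (hdeg : Module.finrank F N = p)
    {Q : Ideal (𝓞 N)} (hI : Q.inertia (N ≃ₐ[F] N) ≠ ⊥) : Q.inertia (N ≃ₐ[F] N) = ⊤ := by
  have hcard : Nat.card (N ≃ₐ[F] N) = p := by rw [IsGalois.card_aut_eq_finrank, hdeg]
  have : Fact (Nat.card (N ≃ₐ[F] N)).Prime := ⟨by rw [hcard]; exact hp⟩
  exact (Subgroup.eq_bot_or_eq_top_of_prime_card _).resolve_left hI

/-- if the inertia group at `Q` is everything then `Nm x ≡ x ^ p mod Q`. -/
theorem s14_fir_norm_sub_pow_mem {p : ℕ} (hdeg : Module.finrank F N = p)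
    {Q : Ideal (𝓞 N)} (htop : Q.inertia (N ≃ₐ[F] N) = ⊤) (x : 𝓞 N) :
    algebraMap (𝓞 F) (𝓞 N) (RingOfIntegers.norm F x) - x ^ p ∈ Q := by
  classical
  have h1 : algebraMap (𝓞 F) (𝓞 N) (RingOfIntegers.norm F x) = ∏ σ : N ≃ₐ[F] N, σ • x := by
    apply RingOfIntegers.ext
    rw [RingOfIntegers.coe_algebraMap_norm, Algebra.norm_eq_prod_automorphisms]
    rw [show ((∏ σ : N ≃ₐ[F] N, σ • x : 𝓞 N) : N) = ∏ σ : N ≃ₐ[F] N, ((σ • x : 𝓞 N) : N) from
      map_prod (algebraMap (𝓞 N) N) _ _]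
    rfl
  have h2 : ∀ σ : N ≃ₐ[F] N, Ideal.Quotient.mk Q (σ • x) = Ideal.Quotient.mk Q x := by
    intro σ
    rw [Ideal.Quotient.eq]
    have hσ : σ ∈ Q.inertia (N ≃ₐ[F] N) := by rw [htop]; trivial
    exact hσ x
  rw [← Ideal.Quotient.eq, h1, map_prod, map_pow, Finset.prod_congr rfl (fun σ _ => h2 σ),
    Finset.prod_const, Finset.card_univ, ← Nat.card_eq_fintype_card,
    IsGalois.card_aut_eq_finrank, hdeg]

/-- if the inertia group at `Q` is everything (in prime degree) then the residue degree is one,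
so that every `x ∈ 𝓞 N` is congruent modulo `Q` to an element of `𝓞 F`. -/
theorem s14_fir_exists_sub_mem {p : ℕ} (hp : p.Prime) (hdeg : Module.finrank F N = p)
    (t : HeightOneSpectrum (𝓞 F)) {Q : Ideal (𝓞 N)} (hQ : Q.IsPrime)
    (hQt : Q.under (𝓞 F) = t.asIdeal) (htop : Q.inertia (N ≃ₐ[F] N) = ⊤) (x : 𝓞 N) :
    ∃ c : 𝓞 F, x - algebraMap (𝓞 F) (𝓞 N) c ∈ Q := by
  have := hQ
  have : t.asIdeal.IsPrime := t.isPrime
  have hlo : Q.LiesOver t.asIdeal := ⟨hQt.symm⟩
  have hQ0 : Q ≠ ⊥ := Ideal.ne_bot_of_liesOver_of_ne_bot t.ne_bot Q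
  -- the residue degree is one
  have h1 := Ideal.ncard_primesOver_mul_card_inertia_mul_finrank (G := N ≃ₐ[F] N) t.asIdeal Q
  rw [htop, Subgroup.card_top, IsGalois.card_aut_eq_finrank, hdeg] at h1
  have hf : Q.inertiaDeg (𝓞 F) = 1 := by
    have h2 : p * ((t.asIdeal.primesOver (𝓞 N)).ncard * Q.inertiaDeg (𝓞 F)) = p * 1 := by
      rw [mul_one]
      calc p * ((t.asIdeal.primesOver (𝓞 N)).ncard * Q.inertiaDeg (𝓞 F))
          = (t.asIdeal.primesOver (𝓞 N)).ncard * p * Q.inertiaDeg (𝓞 F) := by ring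
        _ = p := h1
    have h3 := Nat.eq_of_mul_eq_mul_left hp.pos h2
    exact Nat.eq_one_of_mul_eq_one_left h3
  have hN : Ideal.absNorm Q = Ideal.absNorm t.asIdeal := by
    rw [← Ideal.absNorm_pow_inertiaDeg t.asIdeal Q, hf, pow_one]
  -- the map of residue rings is bijective
  have hle : t.asIdeal ≤ Ideal.comap (algebraMap (𝓞 F) (𝓞 N)) Q := by
    rw [← hQt]
  have hinj : Function.Injective (Ideal.quotientMap Q (algebraMap (𝓞 F) (𝓞 N)) hle) :=
    Ideal.quotientMap_injective' (by rw [← hQt])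
  have : Finite (𝓞 N ⧸ Q) := Ideal.finiteQuotientOfFreeOfNeBot Q hQ0
  have hcard : Nat.card (𝓞 N ⧸ Q) ≤ Nat.card (𝓞 F ⧸ t.asIdeal) := by
    rw [← Submodule.cardQuot_apply, ← Submodule.cardQuot_apply, ← Ideal.absNorm_apply,
      ← Ideal.absNorm_apply, hN]
  obtain ⟨c', hc'⟩ := (hinj.bijective_of_nat_card_le hcard).2 (Ideal.Quotient.mk Q x)
  obtain ⟨c, rfl⟩ := Ideal.Quotient.mk_surjective c'
  refine ⟨c, ?_⟩
  rw [Ideal.quotientMap_mk] at hc'
  exact Ideal.Quotient.eq.mp hc'.symm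

/-- the norm of `x ∈ 𝓞 N` is congruent modulo `t` to the `p`-th power of a representative of
`x mod Q`. -/
theorem s14_fir_norm_sub_mem {p : ℕ} (hdeg : Module.finrank F N = p)
    (t : HeightOneSpectrum (𝓞 F)) {Q : Ideal (𝓞 N)}
    (hQt : Q.under (𝓞 F) = t.asIdeal) (htop : Q.inertia (N ≃ₐ[F] N) = ⊤) (x : 𝓞 N) (c : 𝓞 F)
    (hc : x - algebraMap (𝓞 F) (𝓞 N) c ∈ Q) :
    RingOfIntegers.norm F x - c ^ p ∈ t.asIdeal := by
  have h1 := s14_fir_norm_sub_pow_mem F N hdeg htop x
  have h2 : x ^ p - (algebraMap (𝓞 F) (𝓞 N) c) ^ p ∈ Q := by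
    rw [← Ideal.Quotient.eq, map_pow, map_pow, Ideal.Quotient.eq.mpr hc]
  have h3 : algebraMap (𝓞 F) (𝓞 N) (RingOfIntegers.norm F x - c ^ p) ∈ Q := by
    have : algebraMap (𝓞 F) (𝓞 N) (RingOfIntegers.norm F x - c ^ p) =
        (algebraMap (𝓞 F) (𝓞 N) (RingOfIntegers.norm F x) - x ^ p) +
          (x ^ p - (algebraMap (𝓞 F) (𝓞 N) c) ^ p) := by
      rw [map_sub, map_pow]
      ring
    rw [this]
    exact Q.add_mem h1 h2
  rw [← hQt]
  exact h3

end

section nonpow

variable (F : Type*) [Field F] [NumberField F]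

/-- at a prime `t ∤ p` of a number field containing `ζ_p`, the `p`-th power map of the residue
field is not onto. -/
theorem s14_fir_exists_nonpow {p : ℕ} (hp : p.Prime) {ζ : F} (hζ : IsPrimitiveRoot ζ p)
    (t : HeightOneSpectrum (𝓞 F)) (hpt : (p : 𝓞 F) ∉ t.asIdeal) :
    ∃ z : 𝓞 F, ∀ c : 𝓞 F, z - c ^ p ∉ t.asIdeal := by
  have : NeZero p := ⟨hp.ne_zero⟩
  have hp1 : p - 1 ≠ 0 := by have := hp.two_le; omega
  -- `1 - ζ` is a unit at `t`
  have hv1 : t.valuation F (1 - ζ) = 1 := by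
    have h1 := s14_lp_val_prime (t.valuation F) hp hζ
    rw [s14_lp_val_natCast_eq_one hpt] at h1
    exact (pow_eq_one_iff_left hp1).mp h1.symm
  have hζt : 1 - hζ.toInteger ∉ t.asIdeal := by
    rw [← t.valuation_eq_one_iff_notMem (K := F), map_sub, map_one]
    exact hv1
  have : Finite (𝓞 F ⧸ t.asIdeal) := Ideal.finiteQuotientOfFreeOfNeBot _ t.ne_bot
  -- the `p`-th power map is not injective
  have hninj : ¬ Function.Injective (fun x : 𝓞 F ⧸ t.asIdeal => x ^ p) := by
    intro hinj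
    have h1 : (Ideal.Quotient.mk t.asIdeal hζ.toInteger) ^ p = (1 : 𝓞 F ⧸ t.asIdeal) ^ p := by
      rw [one_pow, ← map_pow]
      have : hζ.toInteger ^ p = 1 := hζ.toInteger_isPrimitiveRoot.pow_eq_one
      rw [this, map_one]
    have h2 := hinj h1
    apply hζt
    rw [← Ideal.Quotient.eq, map_one, h2]
  rw [Finite.injective_iff_surjective] at hninj
  rw [Function.Surjective] at hninj
  push Not at hninj
  obtain ⟨z', hz'⟩ := hninj
  obtain ⟨z, rfl⟩ := Ideal.Quotient.mk_surjective z'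
  refine ⟨z, fun c hc => hz' (Ideal.Quotient.mk t.asIdeal c) ?_⟩
  show (Ideal.Quotient.mk t.asIdeal c) ^ p = _
  rw [← map_pow]
  exact (Ideal.Quotient.eq.mpr hc).symm

end nonpow

/-- **(FI-RAM)** the local norm group at a tamely ramified prime is proper. -/
theorem s14_fir_main : s14_fi_stmt_RAM := by
  intro F N _ _ _ _ _ _ p hp hdeg hζ' t hpt hram
  obtain ⟨ζ, hζ⟩ := hζ'
  rw [s14_UnramAt] at hram
  push Not at hram
  obtain ⟨Q, hQ, hQt, hI⟩ := hram
  have htop := s14_fir_inertia_eq_top F N hp hdeg hI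
  obtain ⟨z, hz⟩ := s14_fir_exists_nonpow F hp hζ t hpt
  have hzt : z ∉ t.asIdeal := by
    have := hz 0
    rwa [zero_pow hp.ne_zero, sub_zero] at this
  refine ⟨z, hzt, ?_⟩
  intro b hb hlt
  have := hQ
  have hlo : Q.LiesOver t.asIdeal := ⟨hQt.symm⟩
  have hQ0 : Q ≠ ⊥ := Ideal.ne_bot_of_liesOver_of_ne_bot t.ne_bot Q
  set w : HeightOneSpectrum (𝓞 N) := ⟨Q, hQ, hQ0⟩ with hw
  have hlo' : w.asIdeal.LiesOver t.asIdeal := hlo
  have hν0 : Algebra.norm F b ≠ 0 := Algebra.norm_ne_zero_iff.mpr hb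
  -- valuations
  have hzν : t.valuation F (algebraMap (𝓞 F) F z / Algebra.norm F b) = 1 := by
    have := s14_lp_val_one_add (t.valuation F) hlt
    rwa [add_sub_cancel] at this
  have hvz : t.valuation F (algebraMap (𝓞 F) F z) = 1 :=
    (t.valuation_eq_one_iff_notMem).mpr hzt
  have hvν : t.valuation F (Algebra.norm F b) = 1 := by
    rw [map_div₀, hvz, one_div, inv_eq_one] at hzν
    exact hzν
  have hwν : w.valuation N (algebraMap F N (Algebra.norm F b)) = 1 :=
    s14_lp_val_up_eq_one t w hvν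
  have hfix : ∀ g : N ≃ₐ[F] N, g • w.asIdeal = w.asIdeal := by
    intro g
    have hg : g ∈ Q.inertia (N ≃ₐ[F] N) := by rw [htop]; trivial
    exact Ideal.inertia_le_stabilizer Q hg
  have hwb : w.valuation N b = 1 := by
    have h1 := s14_fi_val_norm F N w b
    rw [hwν, Finset.prod_congr rfl (fun g _ => s14_lp_val_smul w (hfix g) b),
      Finset.prod_const, Finset.card_univ] at h1
    have hc : Fintype.card (N ≃ₐ[F] N) ≠ 0 := Fintype.card_ne_zero
    exact (pow_eq_one_iff_left hc).mp h1.symm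
  obtain ⟨β, ⟨s', hs'⟩, hbs⟩ := w.exists_primeCompl_mul_eq_of_integer b hwb.le
  have hs'Q : s' ∉ Q := hs'
  obtain ⟨cs, hcs⟩ := s14_fir_exists_sub_mem F N hp hdeg t hQ hQt htop s'
  obtain ⟨cβ, hcβ⟩ := s14_fir_exists_sub_mem F N hp hdeg t hQ hQt htop β
  have hns := s14_fir_norm_sub_mem F N hdeg t hQt htop s' cs hcs
  have hnβ := s14_fir_norm_sub_mem F N hdeg t hQt htop β cβ hcβ
  have hcs_notin : cs ∉ t.asIdeal := by
    intro h
    apply hs'Q
    have h1 : algebraMap (𝓞 F) (𝓞 N) cs ∈ Q := by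
      rw [← hQt] at h
      exact h
    have := Q.add_mem hcs h1
    rwa [sub_add_cancel] at this
  -- norms
  have hnorm : Algebra.norm F b * (algebraMap (𝓞 F) F (RingOfIntegers.norm F s')) =
      algebraMap (𝓞 F) F (RingOfIntegers.norm F β) := by
    have e1 : algebraMap (𝓞 F) F (RingOfIntegers.norm F s') = Algebra.norm F (s' : N) :=
      RingOfIntegers.coe_norm F s'
    have e2 : algebraMap (𝓞 F) F (RingOfIntegers.norm F β) = Algebra.norm F (β : N) :=
      RingOfIntegers.coe_norm F β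
    rw [e1, e2, ← map_mul]
    exact congrArg _ hbs
  have hkey : z * RingOfIntegers.norm F s' - RingOfIntegers.norm F β ∈ t.asIdeal := by
    rw [← t.valuation_lt_one_iff_mem (K := F)]
    have e : algebraMap (𝓞 F) F (z * RingOfIntegers.norm F s' - RingOfIntegers.norm F β) =
        (algebraMap (𝓞 F) F z / Algebra.norm F b - 1) *
          algebraMap (𝓞 F) F (RingOfIntegers.norm F β) := by
      rw [map_sub, map_mul, ← hnorm]
      field_simp
    change t.valuation F (algebraMap (𝓞 F) F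
      (z * RingOfIntegers.norm F s' - RingOfIntegers.norm F β)) < 1
    rw [e, map_mul]
    exact lt_of_le_of_lt (mul_le_of_le_one_right zero_le (t.valuation_le_one _)) hlt
  have h3 : z * cs ^ p - cβ ^ p ∈ t.asIdeal := by
    have e : z * cs ^ p - cβ ^ p =
        (z * RingOfIntegers.norm F s' - RingOfIntegers.norm F β) -
          z * (RingOfIntegers.norm F s' - cs ^ p) + (RingOfIntegers.norm F β - cβ ^ p) := by
      ring
    rw [e]
    exact t.asIdeal.add_mem (t.asIdeal.sub_mem hkey (t.asIdeal.mul_mem_left z hns)) hnβ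
  -- an inverse of `cs` modulo `t`
  obtain ⟨e, i, hi, he⟩ := t.isMaximal.exists_inv hcs_notin
  apply hz (cβ * e)
  rw [← Ideal.Quotient.eq] at h3 ⊢
  have he' : Ideal.Quotient.mk t.asIdeal e * Ideal.Quotient.mk t.asIdeal cs = 1 := by
    rw [← map_mul, ← map_one (Ideal.Quotient.mk t.asIdeal), ← he, map_add,
      Ideal.Quotient.eq_zero_iff_mem.mpr hi, add_zero]
  rw [map_mul, map_pow] at h3
  calc Ideal.Quotient.mk t.asIdeal z
      = Ideal.Quotient.mk t.asIdeal z *
          (Ideal.Quotient.mk t.asIdeal e * Ideal.Quotient.mk t.asIdeal cs) ^ p := by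
        rw [he', one_pow, mul_one]
    _ = (Ideal.Quotient.mk t.asIdeal z * Ideal.Quotient.mk t.asIdeal cs ^ p) *
          Ideal.Quotient.mk t.asIdeal e ^ p := by ring
    _ = Ideal.Quotient.mk t.asIdeal (cβ ^ p) * Ideal.Quotient.mk t.asIdeal e ^ p := by rw [h3]
    _ = Ideal.Quotient.mk t.asIdeal ((cβ * e) ^ p) := by
        rw [map_pow, map_pow, map_mul, mul_pow]

end Fermat.Agent.S14
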