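import Fermat.Agent.S14.Herbrand

/-!
# (HQ) Herbrand quotient by hand — the lattice formula (ADDITIVE convention)

* `s14_hq_nsmul_fg` : for a finitely generated abelian group `X` and `n ≠ 0`,
  `[X : nX] = n ^ rank X * |X[n]|` and `X[n]` is finite.
* `s14_hq_lattice` : for a finitely generated abelian group `M` with an endomorphism `σ`,
  `σ ^ p = 1`, `p` prime, `rank (ker (σ - 1)) = a`, `rank M = a + (p - 1) b`:
  `h⁰ ≠ 0`, `h¹ ≠ 0` and `h⁰ * p ^ b = h¹ * p ^ a`.
-/

namespace Fermat.Agent.S14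

open AddSubgroup

section nsmul

theorem s14_hq_nsmul_free {F : Type*} [AddCommGroup F] [Module.Free ℤ F] [Module.Finite ℤ F]
    (n : ℕ) (hn : n ≠ 0) :
    (nsmulAddMonoidHom (α := F) n).range.index = n ^ Module.finrank ℤ F := by
  classical
  set φ : F →ₗ[ℤ] F := (n : ℤ) • LinearMap.id with hφ
  have hinj : Function.Injective φ := by
    intro x y hxy
    simp only [hφ, LinearMap.smul_apply, LinearMap.id_coe, id_eq] at hxy
    exact smul_right_injective F (Int.natCast_ne_zero.mpr hn) hxy
  let e : F ≃ₗ[ℤ] LinearMap.range φ := LinearEquiv.ofInjective φ hinj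
  have h1 := Submodule.natAbs_det_equiv (LinearMap.range φ) e
  have h2 : (LinearMap.range φ).subtype ∘ₗ AddMonoidHom.toIntLinearMap
      ((e : F ≃ₗ[ℤ] LinearMap.range φ) : F →+ LinearMap.range φ) = φ := by
    ext x
    rfl
  rw [h2, hφ, LinearMap.det_smul, LinearMap.det_id, mul_one, Int.natAbs_pow,
    Int.natAbs_natCast] at h1
  rw [h1]
  have h3 : (nsmulAddMonoidHom (α := F) n).range = (LinearMap.range φ).toAddSubgroup := by
    ext x
    constructor
    · rintro ⟨y, rfl⟩
      exact ⟨y, by simp [hφ]⟩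
    · rintro ⟨y, rfl⟩
      exact ⟨y, by simp [hφ]⟩
  rw [h3]
  rfl

theorem s14_hq_nsmul_fg {X : Type*} [AddCommGroup X] [Module.Finite ℤ X] (n : ℕ) (hn : n ≠ 0) :
    Nat.card (nsmulAddMonoidHom (α := X) n).ker ≠ 0 ∧
    (nsmulAddMonoidHom (α := X) n).range.index
      = n ^ Module.finrank ℤ X * Nat.card (nsmulAddMonoidHom (α := X) n).ker := by
  set T : Submodule ℤ X := Submodule.torsion ℤ X with hT
  have : Finite T := Module.finite_of_fg_torsion T (Submodule.torsion_isTorsion)
  have hses : s14_hq_SES (T.subtype.toAddMonoidHom) (T.mkQ.toAddMonoidHom)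
      (nsmulAddMonoidHom n) 0 (nsmulAddMonoidHom n) 0 (nsmulAddMonoidHom n) 0 :=
    { inj := T.subtype_injective
      surj := T.mkQ_surjective
      exact := by
        ext x
        simp only [AddMonoidHom.mem_range, AddMonoidHom.mem_ker, LinearMap.toAddMonoidHom_coe,
          Submodule.subtype_apply, Submodule.mkQ_apply, Submodule.Quotient.mk_eq_zero]
        constructor
        · rintro ⟨y, rfl⟩; exact y.2
        · intro hx; exact ⟨⟨x, hx⟩, rfl⟩
      dnA := fun _ => by simp
      ndA := fun _ => by simp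
      dnB := fun _ => by simp
      ndB := fun _ => by simp
      dnC := fun _ => by simp
      ndC := fun _ => by simp
      fD := fun a => by simp
      fN := fun a => by simp
      gD := fun b => by simp
      gN := fun b => by simp }
  have hhex := s14_hq_hexagon hses
  have hTeq := s14_hq_h_eq_of_finite (nsmulAddMonoidHom (α := T) n) 0 (fun _ => by simp)
    (fun _ => by simp)
  have hTne := s14_hq_h_ne_zero_of_finite (nsmulAddMonoidHom (α := T) n) 0
  have hQker : (nsmulAddMonoidHom (α := X ⧸ T) n).ker = ⊥ := by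
    rw [eq_bot_iff]
    intro x hx
    have hx0 : n • x = 0 := hx
    have : x = 0 := by
      have h2 : (n : ℤ) • x = 0 := by rw [natCast_zsmul]; exact hx0
      exact (smul_eq_zero_iff_right (Int.natCast_ne_zero.mpr hn)).mp h2
    exact this
  have hQ0 : s14_hq_h (nsmulAddMonoidHom (α := X ⧸ T) n) 0 = 1 := by
    rw [s14_hq_h_zero_right, hQker]
    simp
  have hQ1 : s14_hq_h 0 (nsmulAddMonoidHom (α := X ⧸ T) n) = n ^ Module.finrank ℤ X := by
    rw [s14_hq_h_zero_left, s14_hq_nsmul_free n hn,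
      finrank_quotient_eq_of_le_torsion (le_refl _)]
  rw [hQ0, hQ1, ← hTeq, s14_hq_h_zero_right, s14_hq_h_zero_left] at hhex
  have hXne : s14_hq_h (nsmulAddMonoidHom (α := X) n) 0 ≠ 0 :=
    s14_hq_finite_B hses hTne (by rw [hQ0]; exact one_ne_zero)
  rw [s14_hq_h_zero_right] at hXne
  refine ⟨hXne, ?_⟩
  have : s14_hq_h (nsmulAddMonoidHom (α := T) n) 0
      * ((nsmulAddMonoidHom (α := X) n).range.index)
      = s14_hq_h (nsmulAddMonoidHom (α := T) n) 0
        * (n ^ Module.finrank ℤ X * Nat.card (nsmulAddMonoidHom (α := X) n).ker) := by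
    rw [mul_one] at hhex
    linarith [hhex]
  exact Nat.eq_of_mul_eq_mul_left (Nat.pos_of_ne_zero hTne) this

end nsmul

section poly

open Polynomial Finset

theorem s14_hq_C_dvd_of_map_eq_zero (p : ℕ) (f : ℤ[X])
    (hf : f.map (Int.castRingHom (ZMod p)) = 0) : ∃ R : ℤ[X], f = C (p : ℤ) * R := by
  have : C (p : ℤ) ∣ f := by
    rw [Polynomial.C_dvd_iff_dvd_coeff]
    intro i
    have h1 : (f.map (Int.castRingHom (ZMod p))).coeff i = 0 := by rw [hf]; simp
    rw [Polynomial.coeff_map] at h1
    exact (ZMod.intCast_zmod_eq_zero_iff_dvd _ p).mp h1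
  exact this

/-- The polynomial identities behind the lattice formula: with `Φ = ∑_{i<p} (X+1)^i`,
`Φ = X^(p-1) + p R` and `R` is invertible modulo `Φ`. -/
theorem s14_hq_poly (p : ℕ) (hp : p.Prime) : ∃ R R' Q : ℤ[X],
    (∑ i ∈ range p, (X + 1) ^ i) = X ^ (p - 1) + C (p : ℤ) * R ∧
    R * R' = 1 + Q * ∑ i ∈ range p, (X + 1) ^ i := by
  have : Fact p.Prime := Fact.mk hp
  set Φ : ℤ[X] := ∑ i ∈ range p, (X + 1) ^ i with hΦ
  have hΦX : Φ * X = (X + 1) ^ p - 1 := by
    have := geom_sum_mul (X + 1 : ℤ[X]) p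
    rwa [add_sub_cancel_right] at this
  have hp1 : p - 1 + 1 = p := Nat.sub_add_cancel hp.one_le
  -- reduction mod p
  have hmod : (Φ - X ^ (p - 1)).map (Int.castRingHom (ZMod p)) = 0 := by
    have h1 : (Φ.map (Int.castRingHom (ZMod p))) * X = X ^ (p - 1) * X := by
      have := congrArg (Polynomial.map (Int.castRingHom (ZMod p))) hΦX
      rw [Polynomial.map_mul, Polynomial.map_X] at this
      rw [this, ← pow_succ, hp1]
      simp only [Polynomial.map_sub, Polynomial.map_pow, Polynomial.map_add, Polynomial.map_X,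
        Polynomial.map_one]
      rw [add_pow_char, one_pow, add_sub_cancel_right]
    have h2 := mul_right_cancel₀ (Polynomial.X_ne_zero) h1
    rw [Polynomial.map_sub, h2, Polynomial.map_pow, Polynomial.map_X, sub_self]
  obtain ⟨R, hR⟩ := s14_hq_C_dvd_of_map_eq_zero p _ hmod
  have hΦR : Φ = X ^ (p - 1) + C (p : ℤ) * R := by rw [← hR]; ring
  -- constant term of R
  have hR0 : R.coeff 0 = 1 := by
    have h1 := congrArg (Polynomial.eval 0) hΦR
    have hpos : p - 1 ≠ 0 := by have := hp.two_le; omega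
    simp only [hΦ, Polynomial.eval_finsetSum, Polynomial.eval_pow, Polynomial.eval_add,
      Polynomial.eval_X, Polynomial.eval_one, zero_add, one_pow, sum_const, card_range,
      Polynomial.eval_mul, Polynomial.eval_C, zero_pow hpos] at h1
    have h2 : (p : ℤ) * 1 = (p : ℤ) * R.eval 0 := by simpa using h1
    have h3 := mul_left_cancel₀ (Int.natCast_ne_zero.mpr hp.ne_zero) h2
    rw [Polynomial.coeff_zero_eq_eval_zero]
    exact h3.symm
  set S : ℤ[X] := R.divX with hS
  have hRS : R = 1 + X * S := by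
    have := Polynomial.divX_mul_X_add R
    rw [hR0] at this
    rw [← this, hS]
    simp only [map_one]
    ring
  set e : ℤ[X] := -(X * S) with he
  set G : ℤ[X] := ∑ k ∈ range (p - 1), e ^ k with hG
  have hgeom : (1 - e) * G = 1 - e ^ (p - 1) := mul_neg_geom_sum e (p - 1)
  have hepow : e ^ (p - 1) = (-1) ^ (p - 1) * X ^ (p - 1) * S ^ (p - 1) := by
    rw [he, neg_pow, mul_pow]; ring
  refine ⟨R, G - (-1) ^ (p - 1) * C (p : ℤ) * S ^ (p - 1), -((-1) ^ (p - 1) * S ^ (p - 1)),
    hΦR, ?_⟩
  rw [hΦR]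
  have hR' : R = 1 - e := by rw [hRS, he]; ring
  have : (1 - e) * (G - (-1) ^ (p - 1) * C (p : ℤ) * S ^ (p - 1))
      = 1 + -((-1) ^ (p - 1) * S ^ (p - 1)) * (X ^ (p - 1) + C (p : ℤ) * (1 - e)) := by
    linear_combination hgeom - hepow
  rw [← hR'] at this
  exact this

end poly

section power

variable {M : Type*} [AddCommGroup M]

theorem s14_hq_card_ne_zero_of_le {H K : AddSubgroup M} (hle : H ≤ K) (hK : Nat.card K ≠ 0) :
    Nat.card H ≠ 0 := by
  have hfin : Finite K := (Nat.card_ne_zero.mp hK).2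
  have : Finite H := Finite.of_injective (AddSubgroup.inclusion hle)
    (AddSubgroup.inclusion_injective hle)
  exact Nat.card_pos.ne'

/-- Index of a power: `[M : u^k M] |ker u|^k = [M : uM]^k |ker u^k|` as soon as the kernels
of the lower powers are finite. -/
theorem s14_hq_index_pow (u : AddMonoid.End M) (k : ℕ)
    (hfin : ∀ j < k, Nat.card (AddMonoidHom.ker (u ^ j : AddMonoid.End M)) ≠ 0) :
    (AddMonoidHom.range (u ^ k : AddMonoid.End M)).index * Nat.card (AddMonoidHom.ker u) ^ k
      = (AddMonoidHom.range u).index ^ k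
        * Nat.card (AddMonoidHom.ker (u ^ k : AddMonoid.End M)) := by
  induction k with
  | zero =>
    have h1 : AddMonoidHom.range (u ^ 0 : AddMonoid.End M) = ⊤ := by
      rw [pow_zero, eq_top_iff]
      intro x _
      exact ⟨x, rfl⟩
    have h2 : AddMonoidHom.ker (u ^ 0 : AddMonoid.End M) = ⊥ := by
      rw [pow_zero, eq_bot_iff]
      intro x hx
      exact hx
    rw [h1, h2]
    simp
  | succ k ih =>
    have ih' := ih (fun j hj => hfin j (Nat.lt_succ_of_lt hj))
    have hk := hfin k (Nat.lt_succ_self k)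
    have hcomp := s14_hq_index_comp (u ^ k : AddMonoid.End M) u
    have hmul : (u ^ (k + 1) : AddMonoid.End M) = (u ^ k : AddMonoid.End M).comp u := by
      rw [pow_succ]; rfl
    rw [hmul]
    have key : Nat.card (AddMonoidHom.ker (u ^ k : AddMonoid.End M))
        * ((AddMonoidHom.range ((u ^ k : AddMonoid.End M).comp u)).index
          * Nat.card (AddMonoidHom.ker u) ^ (k + 1))
        = Nat.card (AddMonoidHom.ker (u ^ k : AddMonoid.End M))
          * ((AddMonoidHom.range u).index ^ (k + 1)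
            * Nat.card (AddMonoidHom.ker ((u ^ k : AddMonoid.End M).comp u))) := by
      calc _ = ((AddMonoidHom.range ((u ^ k : AddMonoid.End M).comp u)).index
              * Nat.card (AddMonoidHom.ker (u ^ k : AddMonoid.End M))
              * Nat.card (AddMonoidHom.ker u)) * Nat.card (AddMonoidHom.ker u) ^ k := by ring
        _ = ((AddMonoidHom.range (u ^ k : AddMonoid.End M)).index
              * Nat.card (AddMonoidHom.ker u) ^ k) * (AddMonoidHom.range u).index
              * Nat.card (AddMonoidHom.ker ((u ^ k : AddMonoid.End M).comp u)) := by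
            rw [hcomp]; ring
        _ = _ := by rw [ih']; ring
    exact Nat.eq_of_mul_eq_mul_left (Nat.pos_of_ne_zero hk) key

/-- The cyclotomic case of the lattice formula: if `1 + τ + ⋯ + τ^(p-1) = 0` on a finitely
generated abelian group `Y` of rank `(p-1) b`, then `[Y : (τ-1)Y] = p^b |ker (τ-1)|`. -/
theorem s14_hq_cyclotomic_index {Y : Type*} [AddCommGroup Y] [Module.Finite ℤ Y] {p : ℕ}
    (hp : p.Prime) (τ : AddMonoid.End Y) (hN : ∑ i ∈ Finset.range p, τ ^ i = 0) (b : ℕ)
    (hb : Module.finrank ℤ Y = (p - 1) * b) :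
    Nat.card (AddMonoidHom.ker (τ - 1 : AddMonoid.End Y)) ≠ 0 ∧
    (AddMonoidHom.range (τ - 1 : AddMonoid.End Y)).index
      = p ^ b * Nat.card (AddMonoidHom.ker (τ - 1 : AddMonoid.End Y)) := by
  set d : AddMonoid.End Y := τ - 1 with hd
  obtain ⟨R, R', Q, h1, h2⟩ := s14_hq_poly p hp
  have hΦ : Polynomial.aeval d (∑ i ∈ Finset.range p, (Polynomial.X + 1 : Polynomial ℤ) ^ i)
      = 0 := by
    have : Polynomial.aeval d (∑ i ∈ Finset.range p, (Polynomial.X + 1 : Polynomial ℤ) ^ i)
        = ∑ i ∈ Finset.range p, (d + 1) ^ i := by simp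
    rw [this, hd, sub_add_cancel, hN]
  set r : AddMonoid.End Y := Polynomial.aeval d R with hr
  set r' : AddMonoid.End Y := Polynomial.aeval d R' with hr'
  have e2 : d ^ (p - 1) + (p : AddMonoid.End Y) * r = 0 := by
    have := congrArg (Polynomial.aeval d) h1
    rw [hΦ] at this
    rw [this]
    simp [hr]
  have e3 : r * r' = 1 := by
    have := congrArg (Polynomial.aeval d) h2
    rw [map_mul, map_add, map_mul, hΦ, mul_zero, add_zero, map_one] at this
    exact this
  have e4 : r' * r = 1 := by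
    have := congrArg (Polynomial.aeval d) (show R' * R = 1 + Q * _ by rw [mul_comm, h2])
    rw [map_mul, map_add, map_mul, hΦ, mul_zero, add_zero, map_one] at this
    exact this
  have hpos : p - 1 ≠ 0 := by have := hp.two_le; omega
  -- apply-level consequences
  have a2 : ∀ y, (d ^ (p - 1) : AddMonoid.End Y) y = -(p • r y) := by
    intro y
    have := congrArg (fun f : AddMonoid.End Y => f y) e2
    exact eq_neg_of_add_eq_zero_left this
  have a3 : ∀ y, r (r' y) = y := fun y => congrArg (fun f : AddMonoid.End Y => f y) e3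
  have a4 : ∀ y, r' (r y) = y := fun y => congrArg (fun f : AddMonoid.End Y => f y) e4
  have hrange : AddMonoidHom.range (d ^ (p - 1) : AddMonoid.End Y)
      = (nsmulAddMonoidHom (α := Y) p).range := by
    ext y
    constructor
    · rintro ⟨x, rfl⟩
      refine ⟨-(r x), ?_⟩
      have h5 : (nsmulAddMonoidHom (α := Y) p) (-(r x)) = -(p • r x) := by simp
      exact h5.trans (a2 x).symm
    · rintro ⟨x, rfl⟩
      refine ⟨-(r' x), ?_⟩
      have h5 : -(p • r (-(r' x))) = (nsmulAddMonoidHom (α := Y) p) x := by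
        rw [map_neg, a3]; simp
      exact (a2 _).trans h5
  have hker : AddMonoidHom.ker (d ^ (p - 1) : AddMonoid.End Y)
      = (nsmulAddMonoidHom (α := Y) p).ker := by
    ext y
    have h6 : y ∈ AddMonoidHom.ker (d ^ (p - 1) : AddMonoid.End Y) ↔ p • r y = 0 := by
      have : y ∈ AddMonoidHom.ker (d ^ (p - 1) : AddMonoid.End Y)
          ↔ (d ^ (p - 1) : AddMonoid.End Y) y = 0 := Iff.rfl
      rw [this, a2, neg_eq_zero]
    have h7 : y ∈ (nsmulAddMonoidHom (α := Y) p).ker ↔ p • y = 0 := Iff.rfl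
    rw [h6, h7]
    constructor
    · intro h
      have := congrArg r' h
      rwa [map_nsmul, a4, map_zero] at this
    · intro h
      rw [← map_nsmul, h, map_zero]
  obtain ⟨hfin, hidx⟩ := s14_hq_nsmul_fg (X := Y) p hp.ne_zero
  have hkle : ∀ j ≤ p - 1, Nat.card (AddMonoidHom.ker (d ^ j : AddMonoid.End Y)) ≠ 0 := by
    intro j hj
    refine s14_hq_card_ne_zero_of_le ?_ (hker ▸ hfin)
    intro y hy
    have hy0 : (d ^ j : AddMonoid.End Y) y = 0 := hy
    have : (d ^ (p - 1) : AddMonoid.End Y) = d ^ (p - 1 - j) * d ^ j := by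
      rw [← pow_add]; congr 1; omega
    change (d ^ (p - 1) : AddMonoid.End Y) y = 0
    rw [this]
    change (d ^ (p - 1 - j) : AddMonoid.End Y) ((d ^ j : AddMonoid.End Y) y) = 0
    rw [hy0, map_zero]
  have hkfin : ∀ j < p - 1, Nat.card (AddMonoidHom.ker (d ^ j : AddMonoid.End Y)) ≠ 0 :=
    fun j hj => hkle j hj.le
  have hd1 : Nat.card (AddMonoidHom.ker d) ≠ 0 := by
    have := hkle 1 (Nat.one_le_iff_ne_zero.mpr hpos)
    rwa [pow_one] at this
  have hpow := s14_hq_index_pow d (p - 1) hkfin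
  rw [hrange, hker, hidx, hb] at hpow
  refine ⟨hd1, ?_⟩
  have key : ((AddMonoidHom.range d).index) ^ (p - 1)
      = (p ^ b * Nat.card (AddMonoidHom.ker d)) ^ (p - 1) := by
    have : Nat.card (nsmulAddMonoidHom (α := Y) p).ker * ((AddMonoidHom.range d).index) ^ (p - 1)
        = Nat.card (nsmulAddMonoidHom (α := Y) p).ker
          * (p ^ b * Nat.card (AddMonoidHom.ker d)) ^ (p - 1) := by
      rw [mul_pow, ← pow_mul, mul_comm b (p - 1)]
      linarith [hpow]
    exact Nat.eq_of_mul_eq_mul_left (Nat.pos_of_ne_zero hfin) this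
  exact Nat.pow_left_injective hpos key

end power

section lattice

variable {M : Type*} [AddCommGroup M]

/-- Subgroups with the same elements as a submodule: transport of `ℤ`-linear structure. -/
noncomputable def s14_hq_equivOfEq (H : AddSubgroup M) (S : Submodule ℤ M)
    (h : ∀ x, x ∈ S ↔ x ∈ H) : S ≃ₗ[ℤ] H :=
  AddEquiv.toIntLinearEquiv
    { toFun := fun x => ⟨x.1, (h _).mp x.2⟩
      invFun := fun x => ⟨x.1, (h _).mpr x.2⟩
      left_inv := fun _ => rfl
      right_inv := fun _ => rfl
      map_add' := fun _ _ => rfl }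

theorem s14_hq_finite_addSubgroup [Module.Finite ℤ M] (H : AddSubgroup M) :
    Module.Finite ℤ H :=
  Module.Finite.equiv (s14_hq_equivOfEq H (AddSubgroup.toIntSubmodule H) (fun _ => Iff.rfl))

theorem s14_hq_rank_nullity [Module.Finite ℤ M] (D : M →+ M) :
    Module.finrank ℤ D.range + Module.finrank ℤ D.ker = Module.finrank ℤ M := by
  have h1 := (LinearMap.ker D.toIntLinearMap).finrank_quotient_add_finrank
  rw [LinearEquiv.finrank_eq D.toIntLinearMap.quotKerEquivRange] at h1
  have h2 := LinearEquiv.finrank_eq (s14_hq_equivOfEq D.range (LinearMap.range D.toIntLinearMap)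
      (fun _ => Iff.rfl))
  have h3 := LinearEquiv.finrank_eq (s14_hq_equivOfEq D.ker (LinearMap.ker D.toIntLinearMap)
      (fun _ => Iff.rfl))
  rw [← h1, h2, h3]

/-- **Lattice formula for the Herbrand quotient.** `M` a finitely generated abelian group,
`σ` an endomorphism with `σ ^ p = 1` (`p` prime), `D = σ - 1`, `N = 1 + σ + ⋯ + σ^(p-1)`.
If `rank (ker D) = a` and `rank M = a + (p - 1) b`, then `h⁰ = [ker D : im N]` and
`h¹ = [ker N : im D]` are finite and `h⁰ / h¹ = p ^ (a - b)`. -/
theorem s14_hq_lattice [Module.Finite ℤ M] {p : ℕ} (hp : p.Prime) (σ : AddMonoid.End M)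
    (hσ : σ ^ p = 1) (a b : ℕ)
    (ha : Module.finrank ℤ (AddMonoidHom.ker (σ - 1 : AddMonoid.End M)) = a)
    (hab : Module.finrank ℤ M = a + (p - 1) * b) :
    s14_hq_h (σ - 1 : AddMonoid.End M) (∑ i ∈ Finset.range p, σ ^ i) ≠ 0 ∧
    s14_hq_h (∑ i ∈ Finset.range p, σ ^ i) (σ - 1 : AddMonoid.End M) ≠ 0 ∧
    s14_hq_h (σ - 1 : AddMonoid.End M) (∑ i ∈ Finset.range p, σ ^ i) * p ^ b
      = s14_hq_h (∑ i ∈ Finset.range p, σ ^ i) (σ - 1 : AddMonoid.End M) * p ^ a := by
  set D : AddMonoid.End M := σ - 1 with hD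
  set N : AddMonoid.End M := ∑ i ∈ Finset.range p, σ ^ i with hN
  have hND : N * D = 0 := by
    rw [hN, hD, geom_sum_mul, hσ, sub_self]
  have hDN : D * N = 0 := by
    rw [hN, hD, mul_geom_sum, hσ, sub_self]
  have aND : ∀ x, N (D x) = 0 := fun x => congrArg (fun f : AddMonoid.End M => f x) hND
  have aDN : ∀ x, D (N x) = 0 := fun x => congrArg (fun f : AddMonoid.End M => f x) hDN
  have aD : ∀ x, D x = σ x - x := fun x => rfl
  -- the two auxiliary modules
  let X : AddSubgroup M := AddMonoidHom.ker D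
  let Y : AddSubgroup M := AddMonoidHom.range D
  have : Module.Finite ℤ X := s14_hq_finite_addSubgroup X
  have : Module.Finite ℤ Y := s14_hq_finite_addSubgroup Y
  have hσY : ∀ y : Y, σ (y : M) ∈ Y := by
    rintro ⟨_, x, rfl⟩
    refine ⟨σ x, ?_⟩
    change D (σ x) = σ (D x)
    rw [aD, aD, map_sub]
  let σY : AddMonoid.End Y := AddMonoidHom.codRestrict (AddMonoidHom.comp σ Y.subtype) Y hσY
  have hσYpow : ∀ (i : ℕ) (y : Y), (((σY ^ i : AddMonoid.End Y) y : Y) : M)
      = (σ ^ i : AddMonoid.End M) (y : M) := by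
    intro i
    induction i with
    | zero => intro y; rfl
    | succ i ih =>
      intro y
      rw [pow_succ, pow_succ]
      change (((σY ^ i : AddMonoid.End Y) (σY y) : Y) : M) = (σ ^ i : AddMonoid.End M) (σ (y : M))
      rw [ih]
      rfl
  have hNY : ∑ i ∈ Finset.range p, σY ^ i = 0 := by
    ext y
    have h1 : (((∑ i ∈ Finset.range p, σY ^ i : AddMonoid.End Y) y : Y) : M)
        = N (y : M) := by
      have h2 : (∑ i ∈ Finset.range p, σY ^ i : AddMonoid.End Y) y
          = ∑ i ∈ Finset.range p, (σY ^ i : AddMonoid.End Y) y :=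
        AddMonoidHom.finsetSum_apply _ _ _
      have h3 : N (y : M) = ∑ i ∈ Finset.range p, (σ ^ i : AddMonoid.End M) (y : M) :=
        AddMonoidHom.finsetSum_apply _ _ _
      rw [h2, h3, AddSubgroup.val_finsetSum]
      exact Finset.sum_congr rfl (fun i _ => hσYpow i y)
    rw [h1]
    obtain ⟨x, hx⟩ := y.2
    rw [← hx]
    exact aND x
  have hrk : Module.finrank ℤ Y = (p - 1) * b := by
    have h5 : Module.finrank ℤ Y + Module.finrank ℤ (AddMonoidHom.ker D) = Module.finrank ℤ M :=
      s14_hq_rank_nullity D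
    rw [ha, hab] at h5
    omega
  obtain ⟨hκ, hYidx⟩ := s14_hq_cyclotomic_index hp σY hNY b hrk
  obtain ⟨ht, hXidx⟩ := s14_hq_nsmul_fg (X := X) p hp.ne_zero
  rw [ha] at hXidx
  -- invariants are fixed by all powers of σ
  have hfix : ∀ (i : ℕ) (x : M), D x = 0 → (σ ^ i : AddMonoid.End M) x = x := by
    intro i x hx
    have hx' : σ x = x := by rw [aD] at hx; exact sub_eq_zero.mp hx
    induction i with
    | zero => rfl
    | succ i ih =>
      rw [pow_succ]
      change (σ ^ i : AddMonoid.End M) (σ x) = x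
      rw [hx', ih]
  have hNfix : ∀ x : M, D x = 0 → N x = p • x := by
    intro x hx
    have h3 : N x = ∑ i ∈ Finset.range p, (σ ^ i : AddMonoid.End M) x :=
      AddMonoidHom.finsetSum_apply _ _ _
    rw [h3, Finset.sum_congr rfl (fun i _ => hfix i x hx)]
    simp
  have hses : s14_hq_SES X.subtype (AddMonoidHom.rangeRestrict D)
      (0 : X →+ X) (nsmulAddMonoidHom p) D N (σY - 1 : AddMonoid.End Y) (0 : Y →+ Y) :=
    { inj := X.subtype_injective
      surj := AddMonoidHom.rangeRestrict_surjective D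
      exact := (AddSubgroup.range_subtype X).trans (AddMonoidHom.ker_rangeRestrict D).symm
      dnA := fun _ => rfl
      ndA := fun _ => by simp
      dnB := aDN
      ndB := aND
      dnC := fun _ => map_zero (σY - 1 : AddMonoid.End Y)
      ndC := fun _ => rfl
      fD := fun a => by
        have : D (a : M) = 0 := a.2
        exact this.symm
      fN := fun a => by
        have h8 : D (a : M) = 0 := a.2
        have h9 : X.subtype ((nsmulAddMonoidHom p) a) = p • (a : M) := by simp
        exact h9.trans (hNfix _ h8).symm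
      gD := fun b => by
        apply Subtype.ext
        rfl
      gN := fun b => by
        apply Subtype.ext
        exact aDN b }
  have hhex := s14_hq_hexagon hses
  have eA1 : s14_hq_h (nsmulAddMonoidHom p) (0 : X →+ X)
      = Nat.card (nsmulAddMonoidHom (α := X) p).ker := s14_hq_h_zero_right _
  have eA0 : s14_hq_h (0 : X →+ X) (nsmulAddMonoidHom p)
      = p ^ a * Nat.card (nsmulAddMonoidHom (α := X) p).ker :=
    (s14_hq_h_zero_left _).trans hXidx
  have eC0 : s14_hq_h (σY - 1 : AddMonoid.End Y) (0 : Y →+ Y)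
      = Nat.card (AddMonoidHom.ker (σY - 1 : AddMonoid.End Y)) := s14_hq_h_zero_right _
  have eC1 : s14_hq_h (0 : Y →+ Y) (σY - 1 : AddMonoid.End Y)
      = p ^ b * Nat.card (AddMonoidHom.ker (σY - 1 : AddMonoid.End Y)) :=
    (s14_hq_h_zero_left _).trans hYidx
  have h0 : s14_hq_h D N ≠ 0 := by
    refine s14_hq_finite_B hses ?_ ?_
    · rw [eA0]
      exact mul_ne_zero (pow_ne_zero _ hp.ne_zero) ht
    · rw [eC0]; exact hκ
  have h1 : s14_hq_h N D ≠ 0 := by
    refine s14_hq_finite_B hses.swap ?_ ?_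
    · rw [eA1]; exact ht
    · rw [eC1]
      exact mul_ne_zero (pow_ne_zero _ hp.ne_zero) hκ
  rw [eA1, eC1, eA0, eC0] at hhex
  have hpos : 0 < Nat.card (nsmulAddMonoidHom (α := X) p).ker
      * Nat.card (AddMonoidHom.ker (σY - 1 : AddMonoid.End Y)) :=
    Nat.pos_of_ne_zero (mul_ne_zero ht hκ)
  have key : s14_hq_h D N * p ^ b = s14_hq_h N D * p ^ a := by
    refine Nat.eq_of_mul_eq_mul_left hpos ?_
    calc _ = s14_hq_h D N * Nat.card (nsmulAddMonoidHom (α := X) p).ker
          * (p ^ b * Nat.card (AddMonoidHom.ker (σY - 1 : AddMonoid.End Y))) := by ring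
      _ = _ := by rw [hhex]; ring
  exact ⟨h0, h1, key⟩

end lattice

end Fermat.Agent.S14
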