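import Mathlib
import Fermat.Agent.S14.Defs
import Fermat.Agent.S14.LPDefs

/-!
# S14 (I2) — second inequality: vocabulary and sub-interfaces   (OWNER: helper4)

`B/F` unramified Galois of degree `p`, `ζ_p ∈ F`, `R` a finite set of primes of `F`.
All group theory takes place in `Fˣ`:

* `s14_i2_pow F p`       : the subgroup of `p`-th powers of `Fˣ`;
* `s14_i2_Lam F hp S`    : `Λ_S`, the elements that are local `p`-th powers at every `v ∈ S`;
* `(S : Set _).unit F`   : the `S`-units (Mathlib `Set.unit`);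
* `s14_i2_kum F B p`     : the elements of `Fˣ` that become `p`-th powers in `B`;
* `s14_i2_Generates F S` : `S` generates the class group of `F`;
* `s14_i2_Onto F hp S T` : the `S`-units surject onto `∏_{t ∈ T} k_tˣ / p`-th powers.

Sub-interfaces (Prop-valued, consumers take them as hypotheses):
`s14_i2_stmt_K1` (Kummer extension `F(y^(1/p))`), `s14_i2_stmt_K3` (cyclic Kummer lemma),
`s14_i2_stmt_S2` (choice of `S`), `s14_i2_stmt_SU` (`S`-unit theorem mod `p`),
`s14_i2_stmt_LP0/LPint/LP1/LP2/LP3` (local computations, helper6),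
`s14_i2_stmt_NLC` (valuation criterion for `s14_NormLike`),
`s14_i2_stmt_Sel` (T-selection), `s14_i2_stmt_Key` (key lemma).
-/

set_option autoImplicit false

namespace Fermat.Agent.S14

open NumberField IsDedekindDomain

section defs

variable (F : Type*) [Field F] [NumberField F]

/-- the subgroup of `p`-th powers of `Fˣ`. -/
def s14_i2_pow (p : ℕ) : Subgroup Fˣ := (powMonoidHom p : Fˣ →* Fˣ).range

/-- `Λ_S`: the elements of `Fˣ` that are local `p`-th powers at every `v ∈ S`. -/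
def s14_i2_Lam {p : ℕ} (hp : p.Prime) (S : Finset (HeightOneSpectrum (𝓞 F))) : Subgroup Fˣ :=
  ⨅ v ∈ S, s14_lp_locPow hp v

/-- the elements of `Fˣ` that become `p`-th powers in `B`. -/
def s14_i2_kum (B : Type*) [Field B] [Algebra F B] (p : ℕ) : Subgroup Fˣ where
  carrier := {u | ∃ γ : B, γ ^ p = algebraMap F B (u : F)}
  mul_mem' := by
    rintro a b ⟨γ, hγ⟩ ⟨δ, hδ⟩
    exact ⟨γ * δ, by rw [mul_pow, hγ, hδ, Units.val_mul, map_mul]⟩
  one_mem' := ⟨1, by simp⟩
  inv_mem' := by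
    rintro a ⟨γ, hγ⟩
    exact ⟨γ⁻¹, by rw [inv_pow, hγ, Units.val_inv_eq_inv_val, map_inv₀]⟩

/-- `S` generates the class group of `F`: every nonzero ideal becomes principal after
multiplication by an ideal all of whose prime factors lie in `S`. -/
def s14_i2_Generates (S : Finset (HeightOneSpectrum (𝓞 F))) : Prop :=
  ∀ a : Ideal (𝓞 F), a ≠ ⊥ → ∃ (s : Ideal (𝓞 F)) (z : 𝓞 F), z ≠ 0 ∧
    (∀ v : HeightOneSpectrum (𝓞 F), s ≤ v.asIdeal → v ∈ S) ∧ a * s = Ideal.span {z}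

/-- the `S`-units surject onto `∏_{t ∈ T} k_tˣ / (k_tˣ) ^ p`: every element of `Fˣ` that is a
unit at all `t ∈ T` becomes a local `p`-th power at all `t ∈ T` after multiplication by a
suitable `S`-unit. -/
def s14_i2_Onto {p : ℕ} (hp : p.Prime) (S T : Finset (HeightOneSpectrum (𝓞 F))) : Prop :=
  ∀ x : Fˣ, (∀ t ∈ T, t.valuation F (x : F) = 1) →
    ∃ u : Fˣ, u ∈ (S : Set (HeightOneSpectrum (𝓞 F))).unit F ∧
      ∀ t ∈ T, x * u ∈ s14_lp_locPow hp t

end defs

/-! ## Kummer theory (pure Mathlib) -/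

/-- **(K1)** the Kummer extension `F(y^(1/p))` as a number field. -/
def s14_i2_stmt_K1 : Prop :=
  ∀ (F : Type) [Field F] [NumberField F] (p : ℕ), p.Prime → (∃ ζ : F, IsPrimitiveRoot ζ p) →
    ∀ y : F, (∀ c : F, c ^ p ≠ y) →
    ∃ (N : Type) (_ : Field N) (_ : NumberField N) (_ : Algebra F N) (_ : IsGalois F N) (a : N),
      Module.finrank F N = p ∧ a ^ p = algebraMap F N y ∧ IntermediateField.adjoin F {a} = ⊤

/-- **(K3)** cyclic Kummer lemma, index form: for `B/F` Galois of degree `p` with `ζ_p ∈ F`,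
`Fˣ ∩ (Bˣ) ^ p = ⟨α⟩ (Fˣ) ^ p` has index at most `p` over `(Fˣ) ^ p`. -/
def s14_i2_stmt_K3 : Prop :=
  ∀ (F B : Type) [Field F] [NumberField F] [Field B] [NumberField B] [Algebra F B]
    [IsGalois F B] (p : ℕ), p.Prime → Module.finrank F B = p →
    (∃ ζ : F, IsPrimitiveRoot ζ p) →
    (s14_i2_pow F p).relIndex (s14_i2_kum F B p) ≠ 0 ∧
      (s14_i2_pow F p).relIndex (s14_i2_kum F B p) ≤ p

/-! ## Class group and units -/

/-- **(S2)** every finite set of primes can be enlarged to one generating the class group. -/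
def s14_i2_stmt_S2 : Prop :=
  ∀ (F : Type) [Field F] [NumberField F] (S0 : Finset (HeightOneSpectrum (𝓞 F))),
    ∃ S : Finset (HeightOneSpectrum (𝓞 F)), S0 ⊆ S ∧ s14_i2_Generates F S

/-- **(SU)** Dirichlet's `S`-unit theorem modulo `p`-th powers: if `ζ_p ∈ F`, `p` odd, then
`[E_S : E_S ^ p] = p ^ (|S| + r)`, `2 r = [F : ℚ]` (`F` is totally complex). -/
def s14_i2_stmt_SU : Prop :=
  ∀ (F : Type) [Field F] [NumberField F] (p : ℕ), p.Prime → p ≠ 2 →
    (∃ ζ : F, IsPrimitiveRoot ζ p) → ∀ S : Finset (HeightOneSpectrum (𝓞 F)),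
    ((s14_i2_pow F p).relIndex ((S : Set (HeightOneSpectrum (𝓞 F))).unit F)) ^ 2 =
      p ^ (2 * S.card + Module.finrank ℚ F)

/-! ## Local computations (helper6) in the vocabulary of `Defs.lean` -/

/-- **(LP0)** `k_vˣ / p` is cyclic of order at most `p` (`v ∤ p`). -/
def s14_i2_stmt_LP0 : Prop :=
  ∀ (F : Type) [Field F] [NumberField F] (p : ℕ) (hp : p.Prime)
    (v : HeightOneSpectrum (𝓞 F)), (p : 𝓞 F) ∉ v.asIdeal →
    ∀ x y : Fˣ, v.valuation F (x : F) = 1 → v.valuation F (y : F) = 1 →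
      x ∉ s14_lp_locPow hp v → ∃ k : ℕ, k < p ∧ y * x ^ k ∈ s14_lp_locPow hp v

/-- **(LPint)** at `v ∤ p`, an integer prime to `v` is a local `p`-th power iff it is a `p`-th
power residue modulo `v`. -/
def s14_i2_stmt_LPint : Prop :=
  ∀ (F : Type) [Field F] [NumberField F] (p : ℕ), p.Prime →
    ∀ v : HeightOneSpectrum (𝓞 F), (p : 𝓞 F) ∉ v.asIdeal →
    ∀ x : 𝓞 F, x ∉ v.asIdeal →
      (s14_lp_IsLocPow p v (x : F) ↔ ∃ y : 𝓞 F, x - y ^ p ∈ v.asIdeal)

/-- **(LP1)** tame case: `F(y^(1/p))` is unramified at `v ∤ p` if `y` is a unit at `v`. -/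
def s14_i2_stmt_LP1 : Prop :=
  ∀ (F N : Type) [Field F] [NumberField F] [Field N] [NumberField N] [Algebra F N]
    [IsGalois F N] (p : ℕ), p.Prime → (∃ ζ : F, IsPrimitiveRoot ζ p) →
    ∀ (y : F) (a : N), a ^ p = algebraMap F N y → IntermediateField.adjoin F {a} = ⊤ →
    ∀ v : HeightOneSpectrum (𝓞 F), (p : 𝓞 F) ∉ v.asIdeal → v.valuation F y = 1 →
      s14_UnramAt F N v.asIdeal

/-- **(LP2)** `v` splits completely in `F(y^(1/p))` if `y` is a local `p`-th power at `v`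
(any `v`, tame or wild). -/
def s14_i2_stmt_LP2 : Prop :=
  ∀ (F N : Type) [Field F] [NumberField F] [Field N] [NumberField N] [Algebra F N]
    [IsGalois F N] (p : ℕ), p.Prime → (∃ ζ : F, IsPrimitiveRoot ζ p) →
    ∀ (y : F) (a : N), y ≠ 0 → a ^ p = algebraMap F N y → IntermediateField.adjoin F {a} = ⊤ →
    ∀ v : HeightOneSpectrum (𝓞 F), s14_lp_IsLocPow p v y → s14_Splits F N v.asIdeal

/-- **(LP3)** the count `[Fˣ : Λ_S] ≤ p ^ (2 |S| + [F : ℚ])`. -/
def s14_i2_stmt_LP3 : Prop :=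
  ∀ (F : Type) [Field F] [NumberField F] (p : ℕ) (hp : p.Prime),
    (∃ ζ : F, IsPrimitiveRoot ζ p) →
    ∀ S : Finset (HeightOneSpectrum (𝓞 F)),
      (s14_i2_Lam F hp S).index ≠ 0 ∧
        (s14_i2_Lam F hp S).index ≤ p ^ (2 * S.card + Module.finrank ℚ F)

/-! ## The valuation criterion for `s14_NormLike` -/

/-- **(NLC)** valuation criterion: let `a ≠ 0` be prime to `R ∪ T` (`T` prime to `p`).  If
`x ∈ Fˣ` is a unit at `R ∪ T`, a local `p`-th power at every `t ∈ T`, and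
`ord_v x ≡ ord_v a mod p` at every prime `v ∉ R ∪ T` that does not split completely in `N`,
then `a` is norm-like. -/
def s14_i2_stmt_NLC : Prop :=
  ∀ (F N : Type) [Field F] [NumberField F] [Field N] [NumberField N] [Algebra F N]
    (p : ℕ) (hp : p.Prime) (R T : Finset (HeightOneSpectrum (𝓞 F))) (a : Ideal (𝓞 F)),
    a ≠ ⊥ → s14_CoprimeTo F R a → s14_CoprimeTo F T a →
    (∀ t ∈ T, (p : 𝓞 F) ∉ t.asIdeal) →
    ∀ x : Fˣ, (∀ v : HeightOneSpectrum (𝓞 F), v ∈ R ∨ v ∈ T → v.valuation F (x : F) = 1) →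
      (∀ t ∈ T, x ∈ s14_lp_locPow hp t) →
      (∀ v : HeightOneSpectrum (𝓞 F), v ∉ R → v ∉ T → ¬ s14_Splits F N v.asIdeal →
        ∃ m : ℤ, v.valuation F (x : F) = WithZero.exp
          (-(FractionalIdeal.count F v (a : FractionalIdeal (nonZeroDivisors (𝓞 F)) F)
              + (p : ℤ) * m))) →
      s14_NormLike F N p R T a

/-! ## The two arithmetic steps -/

/-- **(I2-a)** T-selection: for every finite `S` there is a set `T` of `|S| + r - 1` primes
(`2 r = [F : ℚ]`) outside `S`, prime to `p`, split completely in `B`, such that the `S`-units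
surject onto `∏_{t ∈ T} k_tˣ / p`. -/
def s14_i2_stmt_Sel : Prop :=
  ∀ (F B : Type) [Field F] [NumberField F] [Field B] [NumberField B] [Algebra F B]
    [IsGalois F B] (p : ℕ) (hp : p.Prime), p ≠ 2 → Module.finrank F B = p →
    (∃ ζ : F, IsPrimitiveRoot ζ p) → s14_Unram F B →
    ∀ S : Finset (HeightOneSpectrum (𝓞 F)),
    ∃ T : Finset (HeightOneSpectrum (𝓞 F)), Disjoint S T ∧
      (∀ t ∈ T, (p : 𝓞 F) ∉ t.asIdeal) ∧ (∀ t ∈ T, s14_Splits F B t.asIdeal) ∧
      s14_i2_Onto F hp S T ∧ 2 * T.card + 2 = 2 * S.card + Module.finrank ℚ F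

/-- **(I2-b)** key lemma: if `S` contains the primes above `p` and generates the class group and
the `S`-units surject onto `∏_{t ∈ T} k_tˣ / p`, then an `(S ∪ T)`-unit which is a local `p`-th
power at every `v ∈ S` is a `p`-th power. -/
def s14_i2_stmt_Key : Prop :=
  ∀ (F : Type) [Field F] [NumberField F] (p : ℕ) (hp : p.Prime), p ≠ 2 →
    (∃ ζ : F, IsPrimitiveRoot ζ p) →
    ∀ S T : Finset (HeightOneSpectrum (𝓞 F)),
      (∀ v : HeightOneSpectrum (𝓞 F), (p : 𝓞 F) ∈ v.asIdeal → v ∈ S) →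
      s14_i2_Generates F S → Disjoint S T → (∀ t ∈ T, (p : 𝓞 F) ∉ t.asIdeal) →
      s14_i2_Onto F hp S T →
      ∀ y : Fˣ, y ∈ ((S : Set (HeightOneSpectrum (𝓞 F))) ∪ (T : Set _)).unit F →
        y ∈ s14_i2_Lam F hp S → y ∈ s14_i2_pow F p

end Fermat.Agent.S14
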