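import Fermat.Agent.S14.SUnit
import Fermat.Agent.S14.HerbrandLattice
import Fermat.Agent.S14.I2Stmt

/-!
# S14 / SUnitModP (lead): SU1 for finite sets, and SU2 = `s14_i2_stmt_SU`

* `s14_su_set`  : SU1 for a finite `Set` of primes (shape requested by helper5 for SU3);
* `s14_su_modp` : `s14_i2_stmt_SU`, i.e. `[E_S : E_S ∩ F^{×p}]^2 = p^(2|S| + [F:ℚ])`.
-/

set_option autoImplicit false
set_option linter.unusedSectionVars false

namespace Fermat.Agent.S14

open NumberField IsDedekindDomain Module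

/-- SU1 for a finite set of primes. -/
theorem s14_su_set (F : Type*) [Field F] [NumberField F]
    (S : Set (HeightOneSpectrum (𝓞 F))) (hS : S.Finite) :
    Module.Finite ℤ (Additive ↥(S.unit F)) ∧
      finrank ℤ (Additive ↥(S.unit F)) = NumberField.Units.rank F + S.ncard := by
  obtain ⟨T, rfl⟩ : ∃ T : Finset (HeightOneSpectrum (𝓞 F)), (T : Set _) = S :=
    ⟨hS.toFinset, hS.coe_toFinset⟩
  rw [Set.ncard_coe_finset]
  exact ⟨s14_su_finite F T, s14_su_finrank F T⟩

variable (F : Type*) [Field F] [NumberField F]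

/-- a `p`-th root of an `S`-unit is an `S`-unit. -/
theorem s14_su_mem_of_pow_mem (S : Finset (HeightOneSpectrum (𝓞 F))) {p : ℕ} (hp : p ≠ 0)
    (y : Fˣ) (hy : y ^ p ∈ s14_su_E F S) : y ∈ s14_su_E F S := by
  rw [s14_su_mem_E] at hy ⊢
  intro v hv
  have h := hy v hv
  rw [Units.val_pow_eq_pow_val, map_pow] at h
  exact (pow_eq_one_iff_of_nonneg zero_le hp).1 h

/-- the `p`-th powers of `Fˣ` inside `E_S` are the `p`-th powers of `E_S`. -/
theorem s14_su_pow_subgroupOf (S : Finset (HeightOneSpectrum (𝓞 F))) {p : ℕ} (hp : p ≠ 0) :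
    (s14_i2_pow F p).subgroupOf (s14_su_E F S)
      = (powMonoidHom p : s14_su_E F S →* s14_su_E F S).range := by
  ext x
  rw [Subgroup.mem_subgroupOf, MonoidHom.mem_range]
  constructor
  · rintro ⟨y, hy⟩
    have hyE : y ∈ s14_su_E F S := by
      apply s14_su_mem_of_pow_mem F S hp
      have : y ^ p = (x : Fˣ) := hy
      rw [this]
      exact x.2
    exact ⟨⟨y, hyE⟩, Subtype.ext hy⟩
  · rintro ⟨y, rfl⟩
    exact ⟨(y : Fˣ), rfl⟩

theorem s14_su_range_nsmul (S : Finset (HeightOneSpectrum (𝓞 F))) (p : ℕ) :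
    (nsmulAddMonoidHom (α := Additive (s14_su_E F S)) p).range
      = Subgroup.toAddSubgroup (powMonoidHom p : s14_su_E F S →* s14_su_E F S).range := by
  ext x
  constructor
  · rintro ⟨y, rfl⟩
    exact ⟨Additive.toMul y, rfl⟩
  · rintro ⟨y, hy⟩
    exact ⟨Additive.ofMul y, congrArg Additive.ofMul hy⟩

theorem s14_su_relIndex_eq (S : Finset (HeightOneSpectrum (𝓞 F))) {p : ℕ} (hp : p ≠ 0) :
    (s14_i2_pow F p).relIndex (s14_su_E F S)
      = (nsmulAddMonoidHom (α := Additive (s14_su_E F S)) p).range.index := by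
  rw [s14_su_range_nsmul, Subgroup.index_toAddSubgroup, Subgroup.relIndex,
    s14_su_pow_subgroupOf F S hp]

/-- roots of unity are `S`-units. -/
theorem s14_su_rootsOfUnity_mem (S : Finset (HeightOneSpectrum (𝓞 F))) {p : ℕ} (hp : p ≠ 0)
    (x : Fˣ) (hx : x ^ p = 1) : x ∈ s14_su_E F S :=
  s14_su_mem_of_pow_mem F S hp x (by rw [hx]; exact one_mem _)

theorem s14_su_card_ker (S : Finset (HeightOneSpectrum (𝓞 F))) {p : ℕ} (hp : p ≠ 0)
    {ζ : F} (hζ : IsPrimitiveRoot ζ p) :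
    Nat.card (nsmulAddMonoidHom (α := Additive (s14_su_E F S)) p).ker = p := by
  have : NeZero p := ⟨hp⟩
  refine Eq.trans ?_ hζ.card_rootsOfUnity
  refine Nat.card_congr (Equiv.ofBijective
    (fun x => (⟨((Additive.toMul x.1 : s14_su_E F S) : Fˣ), ?_⟩ : rootsOfUnity p F)) ⟨?_, ?_⟩)
  · rw [mem_rootsOfUnity]
    have hx : p • x.1 = 0 := x.2
    have h2 : (Additive.toMul x.1 : s14_su_E F S) ^ p = 1 := congrArg Additive.toMul hx
    exact congrArg Subtype.val h2
  · intro x y h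
    have h1 : ((Additive.toMul x.1 : s14_su_E F S) : Fˣ) = ((Additive.toMul y.1 : s14_su_E F S) : Fˣ) :=
      congrArg (fun z : rootsOfUnity p F => (z : Fˣ)) h
    exact Subtype.ext (Additive.toMul.injective (Subtype.ext h1))
  · intro y
    have hy : (y : Fˣ) ^ p = 1 := (mem_rootsOfUnity _ _).1 y.2
    refine ⟨⟨Additive.ofMul ⟨(y : Fˣ), s14_su_rootsOfUnity_mem F S hp _ hy⟩, ?_⟩, ?_⟩
    · change p • Additive.ofMul (⟨(y : Fˣ), _⟩ : s14_su_E F S) = 0
      apply Additive.toMul.injective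
      apply Subtype.ext
      exact hy
    · exact Subtype.ext rfl

theorem s14_su_two_mul_rank {p : ℕ} (hp3 : 2 < p) {ζ : F} (hζ : IsPrimitiveRoot ζ p) :
    2 * (NumberField.Units.rank F + 1) = finrank ℚ F := by
  have h0 := NumberField.InfinitePlace.IsPrimitiveRoot.nrRealPlaces_eq_zero_of_two_lt hp3 hζ
  have h1 := NumberField.InfinitePlace.card_eq_nrRealPlaces_add_nrComplexPlaces (K := F)
  have h2 := NumberField.InfinitePlace.card_add_two_mul_card_eq_rank (K := F)
  have h3 : 0 < Fintype.card (InfinitePlace F) := Fintype.card_pos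
  rw [NumberField.Units.rank]
  omega

/-- **(SU2)** `= s14_i2_stmt_SU`. -/
theorem s14_su_modp : s14_i2_stmt_SU := by
  intro F _ _ p hp hp2 hζ S
  obtain ⟨ζ, hζ⟩ := hζ
  have hfin := s14_su_finite F S
  obtain ⟨-, hidx⟩ := s14_hq_nsmul_fg (X := Additive (s14_su_E F S)) p hp.ne_zero
  rw [s14_su_finrank, s14_su_card_ker F S hp.ne_zero hζ] at hidx
  have hp3 : 2 < p := by
    have := hp.two_le
    omega
  have hr := s14_su_two_mul_rank F hp3 hζ
  change ((s14_i2_pow F p).relIndex (s14_su_E F S)) ^ 2 = _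
  rw [s14_su_relIndex_eq F S hp.ne_zero, hidx, ← hr, ← pow_succ, ← pow_mul]
  congr 1
  ring

end Fermat.Agent.S14
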