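import Fermat.Agent.S14.SUnitMain
import Fermat.Agent.S14.SUnitModP

/-!
# (SU3) — final export for (FI): `s14_su3_stmt : s14_stmt_SU3`, no black box left.
-/

set_option autoImplicit false

namespace Fermat.Agent.S14

/-- **(SU3)**: the Herbrand quotient of the `S`-units, shape of `FIStmt.lean`. -/
theorem s14_su3_stmt : s14_stmt_SU3 :=
  s14_su3_main (fun F _ _ S hS => s14_su_set F S hS)

end Fermat.Agent.S14
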