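import Fermat.Agent.S14.FirstIneq
import Fermat.Agent.S14.SU3
import Fermat.Agent.S14.FIRam
import Fermat.Agent.S14.FIH1

/-!
# S14 (FI) — the first inequality, final export (OWNER: helper7)

`s14_fi_main : s14_stmt_FI`, with no black box left:
`s14_fi_main_of` (helper7) applied to `s14_su3_stmt` (helper5, Herbrand quotient of `S`-units),
`s14_fir_main` (helper2, tamely ramified local norm group) and `s14_fih_main` (helper1, `H¹`).
-/

set_option autoImplicit false

namespace Fermat.Agent.S14

/-- **(FI)** the first inequality. -/
theorem s14_fi_main : s14_stmt_FI :=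
  s14_fi_main_of s14_su3_stmt s14_fir_main s14_fih_main

end Fermat.Agent.S14
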