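import Mathlib

/-!
# S14 (I2) — valuations versus `FractionalIdeal.count`   (OWNER: helper4)

Small bridge lemmas between `v.valuation F x` and the multiplicity
`FractionalIdeal.count F v a` of the prime `v` in an ideal `a` of `𝓞 F`.
-/

set_option autoImplicit false

namespace Fermat.Agent.S14

open NumberField IsDedekindDomain

variable {F : Type*} [Field F] [NumberField F]

/-- the `v`-adic valuation of a nonzero integer `z` is `exp (- count_v (z))`. -/
theorem s14_i2c_val_int (v : HeightOneSpectrum (𝓞 F)) {z : 𝓞 F} (hz : z ≠ 0) :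
    v.valuation F (algebraMap (𝓞 F) F z) = WithZero.exp
      (-(FractionalIdeal.count F v
          ((Ideal.span {z} : Ideal (𝓞 F)) : FractionalIdeal (nonZeroDivisors (𝓞 F)) F))) := by
  classical
  have hs : (Ideal.span {z} : Ideal (𝓞 F)) ≠ 0 := by
    simpa [Ideal.span_singleton_eq_bot] using hz
  rw [HeightOneSpectrum.valuation_of_algebraMap, v.intValuation_if_neg hz,
    FractionalIdeal.count_coe F v hs]

/-- multiplicativity of `count` on nonzero integral ideals. -/
theorem s14_i2c_count_mul (v : HeightOneSpectrum (𝓞 F)) {a b : Ideal (𝓞 F)} (ha : a ≠ ⊥)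
    (hb : b ≠ ⊥) :
    FractionalIdeal.count F v ((a * b : Ideal (𝓞 F)) : FractionalIdeal (nonZeroDivisors (𝓞 F)) F)
      = FractionalIdeal.count F v (a : FractionalIdeal (nonZeroDivisors (𝓞 F)) F)
        + FractionalIdeal.count F v (b : FractionalIdeal (nonZeroDivisors (𝓞 F)) F) := by
  rw [FractionalIdeal.coeIdeal_mul]
  exact FractionalIdeal.count_mul F v (by simpa using ha) (by simpa using hb)

/-- `count` of a power of a nonzero integral ideal. -/
theorem s14_i2c_count_pow (v : HeightOneSpectrum (𝓞 F)) (a : Ideal (𝓞 F)) (k : ℕ) :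
    FractionalIdeal.count F v ((a ^ k : Ideal (𝓞 F)) : FractionalIdeal (nonZeroDivisors (𝓞 F)) F)
      = k * FractionalIdeal.count F v (a : FractionalIdeal (nonZeroDivisors (𝓞 F)) F) := by
  rw [FractionalIdeal.coeIdeal_pow]
  exact FractionalIdeal.count_pow F v k _

/-- a prime that does not contain the nonzero ideal `a` has multiplicity `0` in `a`. -/
theorem s14_i2c_count_eq_zero (v : HeightOneSpectrum (𝓞 F)) {a : Ideal (𝓞 F)} (ha : a ≠ ⊥)
    (h : ¬ a ≤ v.asIdeal) :
    FractionalIdeal.count F v (a : FractionalIdeal (nonZeroDivisors (𝓞 F)) F) = 0 := by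
  classical
  have ha0 : a ≠ 0 := ha
  rw [FractionalIdeal.count_coe F v ha0]
  by_contra hne
  have hne' : (Associates.mk v.asIdeal).count (Associates.mk a).factors ≠ 0 := by
    intro h0
    exact hne (by rw [h0]; rfl)
  have hdvd := (Associates.count_ne_zero_iff_dvd ha0 v.irreducible).mp hne'
  exact h (Ideal.dvd_iff_le.mp hdvd)

/-- a prime containing the nonzero ideal `a` has positive multiplicity in `a`. -/
theorem s14_i2c_count_pos (v : HeightOneSpectrum (𝓞 F)) {a : Ideal (𝓞 F)} (ha : a ≠ ⊥)
    (h : a ≤ v.asIdeal) :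
    0 < FractionalIdeal.count F v (a : FractionalIdeal (nonZeroDivisors (𝓞 F)) F) := by
  classical
  have ha0 : a ≠ 0 := ha
  rw [FractionalIdeal.count_coe F v ha0]
  have hne : (Associates.mk v.asIdeal).count (Associates.mk a).factors ≠ 0 :=
    (Associates.count_ne_zero_iff_dvd ha0 v.irreducible).mpr (Ideal.dvd_iff_le.mpr h)
  exact_mod_cast Nat.pos_of_ne_zero hne

/-- the valuation of a nonzero integer generating `a * s`, at a prime not containing `s`. -/
theorem s14_i2c_val_of_mul_eq (v : HeightOneSpectrum (𝓞 F)) {a s : Ideal (𝓞 F)} {z : 𝓞 F}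
    (hz : z ≠ 0) (h : a * s = Ideal.span {z}) (hs : ¬ s ≤ v.asIdeal) :
    v.valuation F (algebraMap (𝓞 F) F z) = WithZero.exp
      (-(FractionalIdeal.count F v (a : FractionalIdeal (nonZeroDivisors (𝓞 F)) F))) := by
  have hne : a * s ≠ ⊥ := by
    rw [h]; simpa [Ideal.span_singleton_eq_bot] using hz
  have ha : a ≠ ⊥ := fun h0 => hne (by rw [h0]; simp)
  have hs0 : s ≠ ⊥ := fun h0 => hne (by rw [h0]; simp)
  rw [s14_i2c_val_int v hz, ← h, s14_i2c_count_mul v ha hs0, s14_i2c_count_eq_zero v hs0 hs,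
    add_zero]

end Fermat.Agent.S14
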