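import Mathlib
import Fermat.Agent.S14.LPDefs
import Fermat.Agent.S14.I2Stmt
import Fermat.Agent.S14.I2Count

/-!
# S14 (I2 / LP3) — the count `[Fˣ : Λ_S] ≤ p ^ (2 |S| + [F : ℚ])` from the local bounds
(OWNER: helper4; the local bound is helper6's)

* `s14_i2_stmt_LP3val` : the local bound `[Fˣ : Λ_v] ≤ p ^ 2 * N(v) ^ e` whenever
  `v (p) = exp (-e)`;
* `s14_i2_stmt_LP3loc` : the same with `e = count_v (p)`;
* `s14_i2l_of_val : LP3val → LP3loc`, `s14_i2l_main : LP3loc → s14_i2_stmt_LP3`.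
-/

set_option autoImplicit false

namespace Fermat.Agent.S14

open NumberField IsDedekindDomain

/-- **(LP3, local, valuation form)** `[Fˣ : Λ_v] ≤ p ^ 2 * N(v) ^ e` if `ord_v p = e`. -/
def s14_i2_stmt_LP3val : Prop :=
  ∀ (F : Type) [Field F] [NumberField F] (p : ℕ) (hp : p.Prime),
    (∃ ζ : F, IsPrimitiveRoot ζ p) → ∀ (v : HeightOneSpectrum (𝓞 F)) (e : ℕ),
      v.valuation F (p : F) = WithZero.exp (-(e : ℤ)) →
      (s14_lp_locPow hp v).index ≠ 0 ∧
        (s14_lp_locPow hp v).index ≤ p ^ 2 * (Ideal.absNorm v.asIdeal) ^ e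

/-- **(LP3, local, count form)** `[Fˣ : Λ_v] ≤ p ^ 2 * N(v) ^ (count_v (p))`. -/
def s14_i2_stmt_LP3loc : Prop :=
  ∀ (F : Type) [Field F] [NumberField F] (p : ℕ) (hp : p.Prime),
    (∃ ζ : F, IsPrimitiveRoot ζ p) → ∀ v : HeightOneSpectrum (𝓞 F),
      (s14_lp_locPow hp v).index ≠ 0 ∧
        (s14_lp_locPow hp v).index ≤ p ^ 2 * (Ideal.absNorm v.asIdeal) ^
          (FractionalIdeal.count F v ((Ideal.span {(p : 𝓞 F)} : Ideal (𝓞 F)) :
            FractionalIdeal (nonZeroDivisors (𝓞 F)) F)).toNat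

section

variable {F : Type*} [Field F] [NumberField F]

theorem s14_i2l_span_ne_bot {p : ℕ} (hp : p ≠ 0) :
    (Ideal.span {(p : 𝓞 F)} : Ideal (𝓞 F)) ≠ ⊥ := by
  have hp0 : (p : 𝓞 F) ≠ 0 := by exact_mod_cast hp
  simpa [Ideal.span_singleton_eq_bot] using hp0

/-- `v (p) = exp (- count_v (p))` with the exponent as a natural number. -/
theorem s14_i2l_val_p (v : HeightOneSpectrum (𝓞 F)) {p : ℕ} (hp : p ≠ 0) :
    v.valuation F (p : F) = WithZero.exp
      (-(((FractionalIdeal.count F v ((Ideal.span {(p : 𝓞 F)} : Ideal (𝓞 F)) :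
        FractionalIdeal (nonZeroDivisors (𝓞 F)) F)).toNat : ℕ) : ℤ)) := by
  have hp0 : (p : 𝓞 F) ≠ 0 := by exact_mod_cast hp
  have h := s14_i2c_val_int v hp0
  have hnn := FractionalIdeal.count_coe_nonneg F v (Ideal.span {(p : 𝓞 F)} : Ideal (𝓞 F))
  rw [Int.toNat_of_nonneg hnn, ← h]
  simp

/-- the prime power `v ^ (count_v (p))` divides `(p)`. -/
theorem s14_i2l_pow_dvd (v : HeightOneSpectrum (𝓞 F)) {p : ℕ} (hp : p ≠ 0) :
    v.asIdeal ^ (FractionalIdeal.count F v ((Ideal.span {(p : 𝓞 F)} : Ideal (𝓞 F)) :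
        FractionalIdeal (nonZeroDivisors (𝓞 F)) F)).toNat ∣ Ideal.span {(p : 𝓞 F)} := by
  rw [← v.intValuation_le_pow_iff_dvd]
  have h := s14_i2l_val_p (F := F) v hp
  have h2 : v.valuation F (p : F) = v.intValuation (p : 𝓞 F) := by
    rw [← HeightOneSpectrum.valuation_of_algebraMap (K := F)]
    simp
  rw [← h2, h]

end

theorem s14_i2l_of_val (h : s14_i2_stmt_LP3val) : s14_i2_stmt_LP3loc := by
  intro F _ _ p hp hζ v
  exact h F p hp hζ v _ (s14_i2l_val_p v hp.ne_zero)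

/-- **(LP3)** from the local bounds. -/
theorem s14_i2l_main (h : s14_i2_stmt_LP3loc) : s14_i2_stmt_LP3 := by
  intro F _ _ p hp hζ S
  classical
  set e : HeightOneSpectrum (𝓞 F) → ℕ := fun v =>
    (FractionalIdeal.count F v ((Ideal.span {(p : 𝓞 F)} : Ideal (𝓞 F)) :
      FractionalIdeal (nonZeroDivisors (𝓞 F)) F)).toNat with he
  -- step 1: the index is bounded by the product of the local bounds
  have step1 : ∀ T : Finset (HeightOneSpectrum (𝓞 F)),
      (s14_i2_Lam F hp T).index ≠ 0 ∧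
        (s14_i2_Lam F hp T).index ≤ ∏ v ∈ T, (p ^ 2 * (Ideal.absNorm v.asIdeal) ^ e v) := by
    intro T
    induction T using Finset.induction_on with
    | empty => simp [s14_i2_Lam]
    | insert t T ht ih =>
      obtain ⟨ih0, ih1⟩ := ih
      obtain ⟨h0, h1⟩ := h F p hp hζ t
      have heq : s14_i2_Lam F hp (insert t T) = s14_lp_locPow hp t ⊓ s14_i2_Lam F hp T := by
        simp only [s14_i2_Lam]
        rw [Finset.iInf_insert]
      rw [heq, Finset.prod_insert ht]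
      refine ⟨Subgroup.index_inf_ne_zero h0 ih0, ?_⟩
      exact (Subgroup.index_inf_le).trans (Nat.mul_le_mul h1 ih1)
  obtain ⟨s0, s1⟩ := step1 S
  refine ⟨s0, s1.trans ?_⟩
  -- step 2: the product formula
  rw [Finset.prod_mul_distrib, Finset.prod_const, ← pow_mul, pow_add]
  refine Nat.mul_le_mul le_rfl ?_
  have hdvd : (∏ v ∈ S, v.asIdeal ^ e v) ∣ Ideal.span {(p : 𝓞 F)} := by
    apply Finset.prod_dvd_of_coprime
    · intro v _ w _ hvw
      have hne : v.asIdeal ≠ w.asIdeal := fun h => hvw (HeightOneSpectrum.ext h)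
      have := v.isMaximal
      have := w.isMaximal
      exact (Ideal.isCoprime_of_isMaximal hne).pow
    · intro v _
      exact s14_i2l_pow_dvd v hp.ne_zero
  have hnorm := map_dvd (Ideal.absNorm (S := 𝓞 F)) hdvd
  rw [map_prod, Ideal.absNorm_span_natCast, NumberField.RingOfIntegers.rank] at hnorm
  simp only [map_pow] at hnorm
  exact Nat.le_of_dvd (pow_pos hp.pos _) hnorm

end Fermat.Agent.S14
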