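import Mathlib

set_option autoImplicit false
set_option linter.style.haveILetI false
set_option linter.unusedSectionVars false
set_option linter.unusedVariables false

/-!
# S14 (I2-S): consequences of the finiteness of the class group

* `s14_i2s_S1`: every prime `v` has a "pseudo-uniformizer" `π` (a generator of `v ^ h`), an
  integer whose only prime divisor is `v`;
* `s14_i2s_S2`: every finite set of primes can be enlarged to a finite set `S` generating the
  class group: every nonzero ideal becomes principal after multiplication by an ideal supported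
  in `S`;
* `s14_i2s_S3`: `S`-units can be cleared of denominators by integers supported in `S`.
-/

namespace Fermat.Agent.S14

open scoped NumberField Pointwise
open IsDedekindDomain

noncomputable section

variable (F : Type*) [Field F] [NumberField F]

/-- a nonzero ideal as an element of the monoid of nonzero ideals -/
theorem s14_i2s_mem_nonZeroDivisors (I : Ideal (𝓞 F)) (hI : I ≠ ⊥) :
    I ∈ nonZeroDivisors (Ideal (𝓞 F)) :=
  mem_nonZeroDivisors_iff_ne_zero.mpr hI

/-- **(S1)** every prime `v` contains a nonzero integer whose only prime divisor is `v`. -/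
theorem s14_i2s_S1 (v : HeightOneSpectrum (𝓞 F)) :
    ∃ π : 𝓞 F, π ≠ 0 ∧ π ∈ v.asIdeal ∧
      ∀ v' : HeightOneSpectrum (𝓞 F), π ∈ v'.asIdeal → v' = v := by
  classical
  have hv0 : v.asIdeal ∈ nonZeroDivisors (Ideal (𝓞 F)) :=
    s14_i2s_mem_nonZeroDivisors F v.asIdeal v.ne_bot
  set c : ClassGroup (𝓞 F) := ClassGroup.mk0 ⟨v.asIdeal, hv0⟩ with hc
  set h : ℕ := orderOf c with hh
  have hpos : 0 < h := orderOf_pos c
  have hpow : c ^ h = 1 := pow_orderOf_eq_one c
  have hvh0 : v.asIdeal ^ h ∈ nonZeroDivisors (Ideal (𝓞 F)) :=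
    s14_i2s_mem_nonZeroDivisors F _ (pow_ne_zero h v.ne_bot)
  have h1 : ClassGroup.mk0 ⟨v.asIdeal ^ h, hvh0⟩ = 1 := by
    rw [← hpow, hc, ← map_pow]
    rfl
  rw [ClassGroup.mk0_eq_one_iff] at h1
  obtain ⟨π, hπ⟩ := h1.principal
  have hπ' : v.asIdeal ^ h = Ideal.span {π} := hπ
  have hπmem : π ∈ v.asIdeal ^ h := by
    rw [hπ']; exact Ideal.mem_span_singleton_self π
  refine ⟨π, ?_, ?_, ?_⟩
  · rintro rfl
    have : v.asIdeal ^ h = ⊥ := by rw [hπ']; simp
    exact pow_ne_zero h v.ne_bot this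
  · exact Ideal.pow_le_self hpos.ne' hπmem
  · intro v' hv'
    have hle : v.asIdeal ^ h ≤ v'.asIdeal := by
      rw [hπ', Ideal.span_singleton_le_iff_mem]
      exact hv'
    have hle' : v.asIdeal ≤ v'.asIdeal := v'.isPrime.le_of_pow_le hle
    have hmax : v.asIdeal.IsMaximal := v.isMaximal
    have := hmax.eq_of_le v'.isPrime.ne_top hle'
    exact (HeightOneSpectrum.ext this).symm

/-- the finite set of primes dividing a nonzero ideal -/
def s14_i2s_support (I : Ideal (𝓞 F)) : Finset (HeightOneSpectrum (𝓞 F)) :=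
  open Classical in
  if hI : I ≠ 0 then (Ideal.finite_factors hI).toFinset else ∅

theorem s14_i2s_mem_support (I : Ideal (𝓞 F)) (hI : I ≠ ⊥) (v : HeightOneSpectrum (𝓞 F)) :
    v ∈ s14_i2s_support F I ↔ I ≤ v.asIdeal := by
  have hI' : I ≠ 0 := hI
  rw [s14_i2s_support, dif_pos hI', Set.Finite.mem_toFinset, Set.mem_ofPred_eq,
    Ideal.dvd_iff_le]

/-- **(S2)** every finite set of primes can be enlarged to a finite set `S` of primes generating
the class group: every nonzero ideal becomes principal after multiplication by a nonzero ideal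
supported in `S`. -/
theorem s14_i2s_S2 (S0 : Finset (HeightOneSpectrum (𝓞 F))) :
    ∃ S : Finset (HeightOneSpectrum (𝓞 F)), S0 ⊆ S ∧
      ∀ a : Ideal (𝓞 F), a ≠ ⊥ → ∃ (s : Ideal (𝓞 F)) (z : 𝓞 F), z ≠ 0 ∧ s ≠ ⊥ ∧
        (∀ v : HeightOneSpectrum (𝓞 F), s ≤ v.asIdeal → v ∈ S) ∧ a * s = Ideal.span {z} := by
  classical
  -- representatives of the ideal classes
  have hrep : ∀ c : ClassGroup (𝓞 F), ∃ I : Ideal (𝓞 F), ∃ hI : I ∈ nonZeroDivisors (Ideal (𝓞 F)),
      ClassGroup.mk0 ⟨I, hI⟩ = c := by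
    intro c
    obtain ⟨⟨I, hI⟩, h⟩ := ClassGroup.mk0_surjective c
    exact ⟨I, hI, h⟩
  choose rep hrep0 hrepc using hrep
  refine ⟨S0 ∪ Finset.univ.biUnion (fun c : ClassGroup (𝓞 F) => s14_i2s_support F (rep c)),
    Finset.subset_union_left, ?_⟩
  intro a ha
  have ha0 : a ∈ nonZeroDivisors (Ideal (𝓞 F)) := s14_i2s_mem_nonZeroDivisors F a ha
  set c : ClassGroup (𝓞 F) := ClassGroup.mk0 ⟨a, ha0⟩ with hc
  set s : Ideal (𝓞 F) := rep c⁻¹ with hs
  have hs0 : s ≠ ⊥ := mem_nonZeroDivisors_iff_ne_zero.mp (hrep0 c⁻¹)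
  have has0 : a * s ∈ nonZeroDivisors (Ideal (𝓞 F)) :=
    s14_i2s_mem_nonZeroDivisors F _ (mul_ne_zero ha hs0)
  have h1 : ClassGroup.mk0 ⟨a * s, has0⟩ = 1 := by
    have : (⟨a * s, has0⟩ : nonZeroDivisors (Ideal (𝓞 F))) = ⟨a, ha0⟩ * ⟨s, hrep0 c⁻¹⟩ := rfl
    rw [this, map_mul, hrepc, ← hc, mul_inv_cancel]
  rw [ClassGroup.mk0_eq_one_iff] at h1
  obtain ⟨z, hz⟩ := h1.principal
  have hz' : a * s = Ideal.span {z} := hz
  refine ⟨s, z, ?_, hs0, ?_, hz'⟩
  · rintro rfl
    have : a * s = ⊥ := by rw [hz']; simp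
    exact mul_ne_zero ha hs0 this
  · intro v hv
    apply Finset.mem_union_right
    rw [Finset.mem_biUnion]
    exact ⟨c⁻¹, Finset.mem_univ _, (s14_i2s_mem_support F s hs0 v).mpr hv⟩

/-- archimedean property of the value group -/
theorem s14_i2s_exists_pow_le (x y : WithZero (Multiplicative ℤ))
    (hx : x ≤ WithZero.exp (-1 : ℤ)) (hy : y ≠ 0) : ∃ N : ℕ, x ^ N ≤ y := by
  refine ⟨(WithZero.log y).natAbs, ?_⟩
  calc x ^ (WithZero.log y).natAbs ≤ (WithZero.exp (-1 : ℤ)) ^ (WithZero.log y).natAbs :=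
        pow_le_pow_left₀ zero_le hx _
    _ = WithZero.exp (((WithZero.log y).natAbs : ℕ) • (-1 : ℤ)) := (WithZero.exp_nsmul _ _).symm
    _ ≤ WithZero.exp (WithZero.log y) := by
        rw [WithZero.exp_le_exp, nsmul_eq_mul]
        omega
    _ = y := WithZero.exp_log hy

/-- the valuation of an element of `v` is at most `exp (-1)` -/
theorem s14_i2s_valuation_le_of_mem (v : HeightOneSpectrum (𝓞 F)) (x : 𝓞 F)
    (hx : x ∈ v.asIdeal) : v.valuation F (algebraMap (𝓞 F) F x) ≤ WithZero.exp (-1 : ℤ) := by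
  rw [HeightOneSpectrum.valuation_of_algebraMap]
  have := (v.intValuation_le_pow_iff_mem x 1).mpr (by simpa using hx)
  simpa using this

/-- core of **(S3)**: an `S`-unit times a suitable nonzero integer supported in `S` is an
integer supported in `S`. -/
theorem s14_i2s_S3_core (S : Finset (HeightOneSpectrum (𝓞 F))) (u : Fˣ)
    (hu : u ∈ (S : Set (HeightOneSpectrum (𝓞 F))).unit F) :
    ∃ d : 𝓞 F, d ≠ 0 ∧ (∀ v : HeightOneSpectrum (𝓞 F), d ∈ v.asIdeal → v ∈ S) ∧
      ∃ w : 𝓞 F, (w : F) = u * (d : F) ∧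
        (∀ v : HeightOneSpectrum (𝓞 F), w ∈ v.asIdeal → v ∈ S) := by
  classical
  have huv : ∀ v : HeightOneSpectrum (𝓞 F), v ∉ S → v.valuation F (u : F) = 1 := by
    intro v hv
    exact Set.unit_valuation_eq_one (S : Set (HeightOneSpectrum (𝓞 F))) F ⟨u, hu⟩
      (by simpa using hv)
  obtain ⟨a, b, hb, hab⟩ := IsFractionRing.div_surjective (A := 𝓞 F) (u : F)
  have hb0 : b ≠ 0 := nonZeroDivisors.ne_zero hb
  have hbF : algebraMap (𝓞 F) F b ≠ 0 := by
    intro h
    exact hb0 ((FaithfulSMul.algebraMap_injective (𝓞 F) F) (by rw [h, map_zero]))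
  have hub : (u : F) * algebraMap (𝓞 F) F b = algebraMap (𝓞 F) F a := by
    rw [← hab, div_mul_cancel₀ _ hbF]
  choose π hπ0 hπmem hπuniq using s14_i2s_S1 F
  have hN : ∀ v : HeightOneSpectrum (𝓞 F), ∃ N : ℕ,
      (v.valuation F (algebraMap (𝓞 F) F (π v))) ^ N ≤ v.valuation F (algebraMap (𝓞 F) F b) := by
    intro v
    apply s14_i2s_exists_pow_le
    · exact s14_i2s_valuation_le_of_mem F v (π v) (hπmem v)
    · exact (Valuation.ne_zero_iff _).mpr hbF
  choose N hN using hN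
  set d : 𝓞 F := ∏ v ∈ S, π v ^ N v with hd
  have hd0 : d ≠ 0 := by
    rw [hd]
    apply Finset.prod_ne_zero_iff.mpr
    intro v _
    exact pow_ne_zero _ (hπ0 v)
  have hdsupp : ∀ v : HeightOneSpectrum (𝓞 F), d ∈ v.asIdeal → v ∈ S := by
    intro v hv
    rw [hd] at hv
    obtain ⟨v', hv'S, hv'⟩ := (Ideal.IsPrime.prod_mem_iff (hp := v.isPrime)).mp hv
    have h1 : π v' ∈ v.asIdeal := v.isPrime.mem_of_pow_mem _ hv'
    rw [hπuniq v' v h1]
    exact hv'S
  have hdval : ∀ v ∈ S, v.valuation F (algebraMap (𝓞 F) F d) ≤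
      v.valuation F (algebraMap (𝓞 F) F b) := by
    intro v hv
    have h1 : d = π v ^ N v * ∏ v' ∈ S.erase v, π v' ^ N v' := by
      rw [hd, Finset.mul_prod_erase S (fun v' => π v' ^ N v') hv]
    rw [h1, map_mul, map_mul, map_pow, map_pow]
    calc (v.valuation F) (algebraMap (𝓞 F) F (π v)) ^ N v *
          (v.valuation F) (algebraMap (𝓞 F) F (∏ v' ∈ S.erase v, π v' ^ N v'))
        ≤ (v.valuation F) (algebraMap (𝓞 F) F (π v)) ^ N v * 1 :=
          mul_le_mul_right (v.valuation_le_one _) _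
      _ = (v.valuation F) (algebraMap (𝓞 F) F (π v)) ^ N v := mul_one _
      _ ≤ _ := hN v
  have hint : ∀ v : HeightOneSpectrum (𝓞 F),
      v.valuation F ((u : F) * algebraMap (𝓞 F) F d) ≤ 1 := by
    intro v
    by_cases hv : v ∈ S
    · calc v.valuation F ((u : F) * algebraMap (𝓞 F) F d)
          = v.valuation F (u : F) * v.valuation F (algebraMap (𝓞 F) F d) := map_mul _ _ _
        _ ≤ v.valuation F (u : F) * v.valuation F (algebraMap (𝓞 F) F b) :=
          mul_le_mul_right (hdval v hv) _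
        _ = v.valuation F (algebraMap (𝓞 F) F a) := by rw [← map_mul, hub]
        _ ≤ 1 := v.valuation_le_one a
    · rw [map_mul, huv v hv, one_mul]
      exact v.valuation_le_one d
  obtain ⟨w, hw⟩ := HeightOneSpectrum.mem_integers_of_valuation_le_one F _ hint
  refine ⟨d, hd0, hdsupp, w, hw, ?_⟩
  intro v hv
  by_contra hvS
  have h1 : v.valuation F (algebraMap (𝓞 F) F w) < 1 :=
    (v.valuation_lt_one_iff_mem w).mpr hv
  have h2 : v.valuation F (algebraMap (𝓞 F) F d) = 1 :=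
    (HeightOneSpectrum.valuation_eq_one_iff_notMem (v := v) (K := F)).mpr
      (fun h => hvS (hdsupp v h))
  have hw' : algebraMap (𝓞 F) F w = (u : F) * algebraMap (𝓞 F) F d := hw
  rw [hw', map_mul, huv v hvS, h2, one_mul] at h1
  exact lt_irrefl _ h1

/-- **(S3)** integrality: for an `S`-unit `u` and `n ≠ 0` there is a nonzero integer `d`
supported in `S` such that `u * d ^ n` is an integer supported in `S`. -/
theorem s14_i2s_S3 (n : ℕ) (hn : n ≠ 0) (S : Finset (HeightOneSpectrum (𝓞 F))) (u : Fˣ)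
    (hu : u ∈ (S : Set (HeightOneSpectrum (𝓞 F))).unit F) :
    ∃ d : 𝓞 F, d ≠ 0 ∧ (∀ v : HeightOneSpectrum (𝓞 F), d ∈ v.asIdeal → v ∈ S) ∧
      ∃ w : 𝓞 F, (w : F) = u * (d : F) ^ n ∧
        (∀ v : HeightOneSpectrum (𝓞 F), w ∈ v.asIdeal → v ∈ S) := by
  obtain ⟨d, hd0, hdsupp, w, hw, hwsupp⟩ := s14_i2s_S3_core F S u hu
  refine ⟨d, hd0, hdsupp, w * d ^ (n - 1), ?_, ?_⟩
  · obtain ⟨m, rfl⟩ : ∃ m, n = m + 1 := Nat.exists_eq_succ_of_ne_zero hn
    simp only [NumberField.RingOfIntegers.coe_eq_algebraMap] at hw ⊢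
    rw [Nat.add_sub_cancel, map_mul, map_pow, hw, pow_succ]
    ring
  · intro v hv
    rcases v.isPrime.mem_or_mem hv with h | h
    · exact hwsupp v h
    · exact hdsupp v (v.isPrime.mem_of_pow_mem _ h)

end
end Fermat.Agent.S14
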