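import Mathlib
import Fermat.Agent.S14.Defs
import Fermat.Agent.S14.LPDefs
import Fermat.Agent.S14.I2Stmt

/-!
# S14 (I2-a) — T-selection: the arithmetic step as an interface   (OWNER: helper4)

`s14_i2_stmt_NewPrime`: for `u ∈ Fˣ` which is not a `p`-th power in `B` and any finite set `X`
of primes of `F` there is a prime `t ∉ X` of `F`, prime to `p`, split completely in `B`, at which
`u` is a unit but not a local `p`-th power.

Proof route: `M := B(u^(1/p))` (K1 over `B`), (Z) for `M/B` with `T0 := {p} ∪ {rational primes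
below X and below the support of u}` gives a prime `Q` of `B` of absolute degree one, not split
in `M`; `t := Q ∩ 𝓞 F` splits in `B` (`f(Q/t) = 1`, `B/F` unramified and Galois); if `u` were a
local `p`-th power at `t`, it would be one at `Q` (`s14_lp_isLocPow_up`) and `Q` would split in
`M` (`s14_lp_splits`).
-/

set_option autoImplicit false

namespace Fermat.Agent.S14

open NumberField IsDedekindDomain

/-- **(I2-a, arithmetic step)** a new auxiliary prime. -/
def s14_i2_stmt_NewPrime : Prop :=
  ∀ (F B : Type) [Field F] [NumberField F] [Field B] [NumberField B] [Algebra F B]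
    [IsGalois F B] (p : ℕ) (hp : p.Prime), Module.finrank F B = p →
    (∃ ζ : F, IsPrimitiveRoot ζ p) → s14_Unram F B →
    ∀ u : Fˣ, u ∉ s14_i2_kum F B p → ∀ X : Finset (HeightOneSpectrum (𝓞 F)),
    ∃ t : HeightOneSpectrum (𝓞 F), t ∉ X ∧ (p : 𝓞 F) ∉ t.asIdeal ∧
      s14_Splits F B t.asIdeal ∧ t.valuation F (u : F) = 1 ∧ u ∉ s14_lp_locPow hp t

end Fermat.Agent.S14
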