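import Mathlib
import Fermat.Agent.S14.LPDefs
import Fermat.Agent.S14.LPVal

/-!
# S14 (LP) — LP1 (tame) and LP2 (wild): splitting of primes in `F(y^(1/p))` (OWNER: helper6)

`F ∋ ζ` (primitive `p`-th root of unity), `N = F(a)` with `a ^ p = y ∈ Fˣ`, `w` a prime of `N`
above the prime `v` of `F`.

* `s14_lp_inertia_eq_bot` (LP1): `v ∤ p`, `ord_v y = 0` ⇒ the inertia group of `w` is trivial.
* `s14_lp_stabilizer_eq_bot` (LP1 split + LP2): `y` a local `p`-th power at `v` (tame or wild)
  ⇒ the decomposition group of `w` is trivial.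

Both follow from: `σ a = ζ ^ j a`, and `w (σ a' - a') < w (1 - ζ)` forces `p ∣ j`
(`a' = a / z`).  In the split case the inequality comes from the factorisation
`a' ^ p - 1 = ∏ (a' - ζ ^ i)` and the pigeonhole principle.
-/

set_option autoImplicit false
set_option linter.unusedSectionVars false

namespace Fermat.Agent.S14

open NumberField IsDedekindDomain
open scoped Pointwise

variable {F N : Type*} [Field F] [NumberField F] [Field N] [NumberField N] [Algebra F N]

/-- an automorphism fixing a generator is trivial. -/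
theorem s14_lp_eq_one_of_fix {a : N} (ha : IsIntegral F a) (hgen : IntermediateField.adjoin F {a} = ⊤)
    {σ : Gal(N/F)} (h : σ a = a) : σ = 1 := by
  have h1 : Algebra.adjoin F {a} = ⊤ := by
    have := IntermediateField.adjoin_simple_toSubalgebra_of_isAlgebraic ha.isAlgebraic
    rw [hgen] at this
    simpa using this.symm
  apply AlgEquiv.coe_toAlgHom_injective
  apply AlgHom.ext_of_adjoin_eq_top h1
  intro x hx
  rw [Set.mem_singleton_iff] at hx
  subst hx
  simpa using h

theorem s14_lp_isIntegral_of_pow {p : ℕ} (hp : p ≠ 0) {y : F} {a : N}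
    (ha : a ^ p = algebraMap F N y) : IsIntegral F a := by
  refine ⟨Polynomial.X ^ p - Polynomial.C y, Polynomial.monic_X_pow_sub_C y hp, ?_⟩
  simp [ha]

/-- Kummer theory: `σ a = ζ ^ j * a`. -/
theorem s14_lp_kummer_smul {p : ℕ} (hp : p.Prime) {ζ : F} (hζ : IsPrimitiveRoot ζ p) {y : F}
    (hy : y ≠ 0) {a : N} (ha : a ^ p = algebraMap F N y) (σ : Gal(N/F)) :
    ∃ j : ℕ, j < p ∧ σ a = algebraMap F N ζ ^ j * a := by
  have ha0 : a ≠ 0 := by
    rintro rfl
    rw [zero_pow hp.ne_zero] at ha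
    exact hy ((map_eq_zero _).mp ha.symm)
  have hζ' : IsPrimitiveRoot (algebraMap F N ζ) p :=
    hζ.map_of_injective (algebraMap F N).injective
  have h1 : (σ a / a) ^ p = 1 := by
    rw [div_pow, ← map_pow, ha, AlgEquiv.commutes, div_self]
    rw [← ha]
    exact pow_ne_zero _ ha0
  have : NeZero p := ⟨hp.ne_zero⟩
  obtain ⟨j, hj, hj'⟩ := hζ'.eq_pow_of_pow_eq_one h1
  refine ⟨j, hj, ?_⟩
  rw [hj', div_mul_cancel₀ _ ha0]

/-- the key step: if `σ b = η ^ j * b` with `j < p` and `w (σ b - b) < w (1 - η) * w b`, then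
`j = 0`. -/
theorem s14_lp_kummer_key {p : ℕ} (hp : p.Prime) {η : N} (hη : IsPrimitiveRoot η p)
    (w : HeightOneSpectrum (𝓞 N)) {b : N} {σb : N} {j : ℕ} (hj : j < p)
    (hσ : σb = η ^ j * b)
    (hlt : w.valuation N (σb - b) < w.valuation N (1 - η) * w.valuation N b) : j = 0 := by
  by_contra hj0
  have hndvd : ¬ p ∣ j := fun h => hj0 (Nat.eq_zero_of_dvd_of_lt h hj)
  have e : σb - b = -((1 - η ^ j) * b) := by rw [hσ]; ring
  rw [e, Valuation.map_neg, map_mul, s14_lp_val_one_sub_pow _ hp hη hndvd] at hlt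
  exact lt_irrefl _ hlt

/-- elements of the inertia group move `w`-integral elements by elements of `w`. -/
theorem s14_lp_val_inertia (w : HeightOneSpectrum (𝓞 N)) {σ : Gal(N/F)}
    (hσ : σ ∈ w.asIdeal.inertia Gal(N/F)) {x : N} (hx : w.valuation N x ≤ 1) :
    w.valuation N (σ x - x) < 1 := by
  have hstab : σ • w.asIdeal = w.asIdeal := Ideal.inertia_le_stabilizer w.asIdeal hσ
  obtain ⟨n, d, hnd⟩ := w.exists_primeCompl_mul_eq_of_integer x hx
  have hd : w.valuation N (algebraMap (𝓞 N) N d) = 1 :=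
    (w.valuation_eq_one_iff_notMem).mpr d.2
  have hd0 : algebraMap (𝓞 N) N (d : 𝓞 N) ≠ 0 := by
    intro h
    rw [h, map_zero] at hd
    exact zero_ne_one hd
  have hx' : x = algebraMap (𝓞 N) N n / algebraMap (𝓞 N) N d := by
    rw [← hnd, mul_div_cancel_right₀ _ hd0]
  have e1 : σ (algebraMap (𝓞 N) N n) = algebraMap (𝓞 N) N (σ • n) := rfl
  have e2 : σ (algebraMap (𝓞 N) N (d : 𝓞 N)) = algebraMap (𝓞 N) N (σ • (d : 𝓞 N)) := rfl
  have hσd : w.valuation N (algebraMap (𝓞 N) N (σ • (d : 𝓞 N))) = 1 := by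
    rw [← e2, s14_lp_val_smul w hstab, hd]
  have hσd0 : algebraMap (𝓞 N) N (σ • (d : 𝓞 N)) ≠ 0 := by
    intro h
    rw [h, map_zero] at hσd
    exact zero_ne_one hσd
  have hn : w.valuation N (algebraMap (𝓞 N) N (σ • n - n)) < 1 :=
    (w.valuation_lt_one_iff_mem _).mpr (hσ n)
  have hdd : w.valuation N (algebraMap (𝓞 N) N (σ • (d : 𝓞 N) - d)) < 1 :=
    (w.valuation_lt_one_iff_mem _).mpr (hσ d)
  have key : σ x - x = (algebraMap (𝓞 N) N (σ • n - n) * algebraMap (𝓞 N) N d -
      algebraMap (𝓞 N) N n * algebraMap (𝓞 N) N (σ • (d : 𝓞 N) - d)) /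
      (algebraMap (𝓞 N) N (σ • (d : 𝓞 N)) * algebraMap (𝓞 N) N d) := by
    rw [hx', map_div₀, e1, e2, map_sub, map_sub]
    field_simp
    ring
  rw [key, map_div₀, map_mul, hσd, hd, mul_one, div_one]
  refine lt_of_le_of_lt (Valuation.map_sub _ _ _) (max_lt ?_ ?_)
  · rw [map_mul, hd, mul_one]
    exact hn
  · rw [map_mul]
    exact lt_of_le_of_lt (mul_le_of_le_one_left zero_le (w.valuation_le_one n)) hdd

/-- a prime of `N` above a height one prime of `F`, as a height one prime. -/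
def s14_lp_above (v : HeightOneSpectrum (𝓞 F)) (w : Ideal (𝓞 N)) [w.IsPrime]
    [w.LiesOver v.asIdeal] : HeightOneSpectrum (𝓞 N) :=
  ⟨w, inferInstance, Ideal.ne_bot_of_liesOver_of_ne_bot v.ne_bot w⟩

instance s14_lp_above_liesOver (v : HeightOneSpectrum (𝓞 F)) (w : Ideal (𝓞 N)) [w.IsPrime]
    [w.LiesOver v.asIdeal] : (s14_lp_above v w).asIdeal.LiesOver v.asIdeal :=
  inferInstanceAs (w.LiesOver v.asIdeal)

theorem s14_lp_val_pow_eq_one {K : Type*} [Field K]
    (val : Valuation K (WithZero (Multiplicative ℤ))) {p : ℕ} (hp : p ≠ 0) {a : K}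
    (h : val (a ^ p) = 1) : val a = 1 := by
  rw [map_pow] at h
  exact (pow_eq_one_iff_left hp).mp h

/-- **LP1** (tame, unramified): `N = F(a)`, `a ^ p = y`, `v ∤ p`, `ord_v y = 0`; then every
prime `w` of `N` above `v` has trivial inertia group. -/
theorem s14_lp_inertia_eq_bot {p : ℕ} (hp : p.Prime) {ζ : F} (hζ : IsPrimitiveRoot ζ p)
    {y : F} {a : N} (ha : a ^ p = algebraMap F N y) (hgen : IntermediateField.adjoin F {a} = ⊤)
    {v : HeightOneSpectrum (𝓞 F)} (hpv : (p : 𝓞 F) ∉ v.asIdeal) (hy : v.valuation F y = 1)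
    (w : Ideal (𝓞 N)) [w.IsPrime] [w.LiesOver v.asIdeal] :
    w.inertia Gal(N/F) = ⊥ := by
  rw [Subgroup.eq_bot_iff_forall]
  intro σ hσ
  set W := s14_lp_above v w with hW
  have hy0 : y ≠ 0 := by
    rintro rfl
    rw [map_zero] at hy
    exact zero_ne_one hy
  have hζ' : IsPrimitiveRoot (algebraMap F N ζ) p :=
    hζ.map_of_injective (algebraMap F N).injective
  obtain ⟨j, hj, hσa⟩ := s14_lp_kummer_smul hp hζ hy0 ha σ
  have hva : W.valuation N a = 1 := by
    apply s14_lp_val_pow_eq_one _ hp.ne_zero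
    rw [ha]
    exact s14_lp_val_up_eq_one v W hy
  have hvl : W.valuation N (1 - algebraMap F N ζ) = 1 := by
    have h1 : v.valuation F (1 - ζ) = 1 := by
      have h2 := s14_lp_val_prime (v.valuation F) hp hζ
      rw [s14_lp_val_natCast_eq_one hpv] at h2
      have hp1 : p - 1 ≠ 0 := by have := hp.two_le; omega
      exact (pow_eq_one_iff_left hp1).mp h2.symm
    have := s14_lp_val_up_eq_one v W h1
    rwa [map_sub, map_one] at this
  have hlt : W.valuation N (σ a - a) <
      W.valuation N (1 - algebraMap F N ζ) * W.valuation N a := by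
    rw [hvl, hva, mul_one]
    exact s14_lp_val_inertia W hσ hva.le
  have hj0 := s14_lp_kummer_key hp hζ' W hj hσa hlt
  rw [hj0, pow_zero, one_mul] at hσa
  exact s14_lp_eq_one_of_fix (s14_lp_isIntegral_of_pow hp.ne_zero ha) hgen hσa

/-- **LP1 (split) + LP2** (tame or wild): `N = F(a)`, `a ^ p = y`, and `y` is a local `p`-th
power at `v`; then every prime `w` of `N` above `v` has trivial decomposition group, i.e. `v`
splits completely in `N`. -/
theorem s14_lp_stabilizer_eq_bot {p : ℕ} (hp : p.Prime) {ζ : F} (hζ : IsPrimitiveRoot ζ p)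
    {y : F} {a : N} (ha : a ^ p = algebraMap F N y) (hgen : IntermediateField.adjoin F {a} = ⊤)
    {v : HeightOneSpectrum (𝓞 F)} (hy : s14_lp_IsLocPow p v y)
    (w : Ideal (𝓞 N)) [w.IsPrime] [w.LiesOver v.asIdeal] :
    MulAction.stabilizer Gal(N/F) w = ⊥ := by
  rw [Subgroup.eq_bot_iff_forall]
  intro σ hσ
  have hstab : σ • w = w := hσ
  set W := s14_lp_above v w with hW
  obtain ⟨z, hz, hlt⟩ := (s14_lp_isLocPow_iff hp hζ v y).mp hy
  have hy0 : y ≠ 0 := by
    obtain ⟨z', hz', -, hval⟩ := s14_lp_val_of_isLocPow hp.two_le hy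
    rintro rfl
    rw [map_zero] at hval
    exact pow_ne_zero _ ((Valuation.ne_zero_iff _).mpr hz') hval.symm
  have hζ' : IsPrimitiveRoot (algebraMap F N ζ) p :=
    hζ.map_of_injective (algebraMap F N).injective
  obtain ⟨j, hj, hσa⟩ := s14_lp_kummer_smul hp hζ hy0 ha σ
  -- the normalised generator
  set η := algebraMap F N ζ with hη
  set z' := algebraMap F N z with hz'
  have hz'0 : z' ≠ 0 := (map_ne_zero _).mpr hz
  set b := a / z' with hb
  have hbp : b ^ p = algebraMap F N (y / z ^ p) := by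
    rw [hb, div_pow, ha, map_div₀, map_pow]
  have hσb : σ b = η ^ j * b := by
    rw [hb, map_div₀, hσa, AlgEquiv.commutes, mul_div_assoc]
  -- `w (b ^ p - 1) < w (1 - η) ^ p`
  have h1 : W.valuation N (b ^ p - 1) < W.valuation N (1 - η) ^ p := by
    have := s14_lp_val_up_lt v W (x := y / z ^ p - 1) (y := (1 - ζ) ^ p)
      (by rwa [map_pow])
    have e1 : algebraMap F N (y / z ^ p - 1) = b ^ p - 1 := by rw [map_sub, map_one, hbp]
    have e2 : algebraMap F N ((1 - ζ) ^ p) = (1 - η) ^ p := by rw [map_pow, map_sub, map_one]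
    rw [e1, e2] at this
    rwa [map_pow] at this
  have hle1 : W.valuation N (1 - η) ≤ 1 := s14_lp_val_one_sub_le _ hp hζ'
  have hvb : W.valuation N b = 1 := by
    apply s14_lp_val_pow_eq_one _ hp.ne_zero
    have h2 : W.valuation N (b ^ p - 1) < 1 := lt_of_lt_of_le h1 (pow_le_one₀ zero_le hle1)
    have := s14_lp_val_one_add _ h2
    rwa [add_sub_cancel] at this
  -- factorisation and pigeonhole
  have hfac : b ^ p - 1 = ∏ i ∈ Finset.range p, (b - η ^ i) := by
    have := congrArg (Polynomial.eval b)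
      (X_pow_sub_C_eq_prod hζ' hp.pos (one_pow p : (1 : N) ^ p = 1))
    simpa [Polynomial.eval_prod] using this
  obtain ⟨i, -, hi⟩ : ∃ i ∈ Finset.range p,
      W.valuation N (b - η ^ i) < W.valuation N (1 - η) := by
    apply Finset.exists_lt_of_prod_lt'
    rw [← map_prod, ← hfac, Finset.prod_const, Finset.card_range]
    exact h1
  have hi' : W.valuation N (σ b - η ^ i) < W.valuation N (1 - η) := by
    have e : σ b - η ^ i = σ (b - η ^ i) := by
      rw [map_sub, map_pow, hη, AlgEquiv.commutes]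
    rw [e, s14_lp_val_smul W hstab]
    exact hi
  have hlt2 : W.valuation N (σ b - b) < W.valuation N (1 - η) * W.valuation N b := by
    rw [hvb, mul_one]
    have e : σ b - b = (σ b - η ^ i) - (b - η ^ i) := by ring
    rw [e]
    exact lt_of_le_of_lt (Valuation.map_sub _ _ _) (max_lt hi' hi)
  have hj0 := s14_lp_kummer_key hp hζ' W hj hσb hlt2
  rw [hj0, pow_zero, one_mul] at hσa
  exact s14_lp_eq_one_of_fix (s14_lp_isIntegral_of_pow hp.ne_zero ha) hgen hσa

end Fermat.Agent.S14
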