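import Mathlib
import Fermat.Agent.S14.Defs
import Fermat.Agent.S14.LPKummer

/-!
# S14 (LP) — LP1 / LP2 in the vocabulary of `Defs.lean` (OWNER: helper6)

* `s14_lp_unramAt` (LP1): `N = F(a)`, `a ^ p = y`, `v ∤ p`, `ord_v y = 0` ⇒ `v` unramified in `N`.
* `s14_lp_splits` (LP1 split + LP2): `y` a local `p`-th power at `v` ⇒ `v` splits completely
  in `N = F(y^(1/p))`.
* `s14_lp_isLocPow_up` : a local `p`-th power at `v` is a local `p`-th power at every `w ∣ v`.
-/

set_option autoImplicit false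
set_option linter.unusedSectionVars false

namespace Fermat.Agent.S14

open NumberField IsDedekindDomain
open scoped Pointwise

variable {F N : Type*} [Field F] [NumberField F] [Field N] [NumberField N] [Algebra F N]

/-- **LP1**: `v ∤ p`, `ord_v y = 0` ⇒ `v` is unramified in `F(y^(1/p))`. -/
theorem s14_lp_unramAt {p : ℕ} (hp : p.Prime) {ζ : F} (hζ : IsPrimitiveRoot ζ p)
    {y : F} {a : N} (ha : a ^ p = algebraMap F N y) (hgen : IntermediateField.adjoin F {a} = ⊤)
    {v : HeightOneSpectrum (𝓞 F)} (hpv : (p : 𝓞 F) ∉ v.asIdeal) (hy : v.valuation F y = 1) :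
    s14_UnramAt F N v.asIdeal := by
  intro Q hQ hQv
  have := hQ
  have : Q.LiesOver v.asIdeal := ⟨hQv.symm⟩
  exact s14_lp_inertia_eq_bot hp hζ ha hgen hpv hy Q

/-- **LP1 (split) + LP2**: `y` a local `p`-th power at `v` (tame or wild) ⇒ `v` splits
completely in `F(y^(1/p))`. -/
theorem s14_lp_splits {p : ℕ} (hp : p.Prime) {ζ : F} (hζ : IsPrimitiveRoot ζ p)
    {y : F} {a : N} (ha : a ^ p = algebraMap F N y) (hgen : IntermediateField.adjoin F {a} = ⊤)
    {v : HeightOneSpectrum (𝓞 F)} (hy : s14_lp_IsLocPow p v y) :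
    s14_Splits F N v.asIdeal := by
  intro Q hQ hQv
  have := hQ
  have : Q.LiesOver v.asIdeal := ⟨hQv.symm⟩
  exact s14_lp_stabilizer_eq_bot hp hζ ha hgen hy Q

/-- a local `p`-th power at `v` is a local `p`-th power at every prime `w` of `N` above `v`. -/
theorem s14_lp_isLocPow_up {p : ℕ} (v : HeightOneSpectrum (𝓞 F))
    (w : HeightOneSpectrum (𝓞 N)) [w.asIdeal.LiesOver v.asIdeal] {x : F}
    (h : s14_lp_IsLocPow p v x) : s14_lp_IsLocPow p w (algebraMap F N x) := by
  obtain ⟨z, hz, hlt⟩ := h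
  refine ⟨algebraMap F N z, (map_ne_zero _).mpr hz, ?_⟩
  have := s14_lp_val_up_lt v w (x := (x - z ^ p) ^ (p - 1)) (y := ((p : F) * z ^ (p - 1)) ^ p)
    (by rwa [map_pow, map_pow])
  simpa only [map_pow, map_sub, map_mul, map_natCast] using this

end Fermat.Agent.S14
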