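import Mathlib
import Fermat.Agent.S14.Defs
import Fermat.Agent.S14.LPDefs
import Fermat.Agent.S14.LPSplit
import Fermat.Agent.S14.Bridge
import Fermat.Agent.S14.I2Stmt
import Fermat.Agent.S14.I2SelStmt
import Fermat.Agent.S14.I2Kummer
import Fermat.Agent.S14.I2Class
import Fermat.Agent.S14.ArtinFunct

set_option autoImplicit false
set_option linter.style.haveILetI false
set_option linter.unusedSectionVars false
set_option linter.unusedVariables false

/-!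
# S14 (I2-a, arithmetic step): a new auxiliary prime

`s14_i2a_newPrime : s14_stmt_Z → s14_i2_stmt_NewPrime`.
-/

namespace Fermat.Agent.S14

open NumberField IsDedekindDomain
open scoped Pointwise

noncomputable section

section support

variable (F : Type*) [Field F] [NumberField F]

/-- a finite set of primes outside of which a given nonzero element is a unit -/
theorem s14_i2np_exists_support (u : F) (hu : u ≠ 0) :
    ∃ Su : Finset (HeightOneSpectrum (𝓞 F)),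
      ∀ v : HeightOneSpectrum (𝓞 F), v ∉ Su → v.valuation F u = 1 := by
  classical
  obtain ⟨a, b, hb, hab⟩ := IsFractionRing.div_surjective (A := 𝓞 F) u
  have hb0 : b ≠ 0 := nonZeroDivisors.ne_zero hb
  have ha0 : a ≠ 0 := by
    rintro rfl
    apply hu
    rw [← hab, map_zero, zero_div]
  have hsa : Ideal.span {a} ≠ (⊥ : Ideal (𝓞 F)) := by
    rw [Ne, Ideal.span_singleton_eq_bot]; exact ha0
  have hsb : Ideal.span {b} ≠ (⊥ : Ideal (𝓞 F)) := by
    rw [Ne, Ideal.span_singleton_eq_bot]; exact hb0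
  refine ⟨s14_i2s_support F (Ideal.span {a}) ∪ s14_i2s_support F (Ideal.span {b}), ?_⟩
  intro v hv
  rw [Finset.mem_union, not_or, s14_i2s_mem_support F _ hsa, s14_i2s_mem_support F _ hsb,
    Ideal.span_singleton_le_iff_mem, Ideal.span_singleton_le_iff_mem] at hv
  rw [← hab, map_div₀,
    (HeightOneSpectrum.valuation_eq_one_iff_notMem (v := v) (K := F)).mpr hv.1,
    (HeightOneSpectrum.valuation_eq_one_iff_notMem (v := v) (K := F)).mpr hv.2, div_one]

/-- a finite set of rational primes containing all those below a given finite set of primes -/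
theorem s14_i2np_exists_below (X : Finset (HeightOneSpectrum (𝓞 F))) :
    ∃ T0 : Finset ℕ, ∀ ℓ : ℕ, ℓ.Prime →
      ∀ v ∈ X, (ℓ : 𝓞 F) ∈ v.asIdeal → ℓ ∈ T0 := by
  classical
  refine ⟨X.biUnion (fun v => (Ideal.absNorm v.asIdeal).primeFactors), ?_⟩
  intro ℓ hℓ v hv hmem
  rw [Finset.mem_biUnion]
  refine ⟨v, hv, ?_⟩
  have hN0 : Ideal.absNorm v.asIdeal ≠ 0 := by
    rw [Ne, Ideal.absNorm_eq_zero_iff]
    exact v.ne_bot
  rw [Nat.mem_primeFactors]
  refine ⟨hℓ, ?_, hN0⟩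
  by_contra hndvd
  have hcop : Nat.Coprime ℓ (Ideal.absNorm v.asIdeal) :=
    (Nat.Prime.coprime_iff_not_dvd hℓ).mpr hndvd
  have hNmem : ((Ideal.absNorm v.asIdeal : ℕ) : 𝓞 F) ∈ v.asIdeal := Ideal.absNorm_mem _
  have h1 : ((Nat.gcd ℓ (Ideal.absNorm v.asIdeal) : ℕ) : 𝓞 F) ∈ v.asIdeal := by
    have hb := Nat.gcd_eq_gcd_ab ℓ (Ideal.absNorm v.asIdeal)
    have hcast : ((Nat.gcd ℓ (Ideal.absNorm v.asIdeal) : ℕ) : 𝓞 F) =
        (ℓ : 𝓞 F) * ((Nat.gcdA ℓ (Ideal.absNorm v.asIdeal) : ℤ) : 𝓞 F) +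
        ((Ideal.absNorm v.asIdeal : ℕ) : 𝓞 F) *
          ((Nat.gcdB ℓ (Ideal.absNorm v.asIdeal) : ℤ) : 𝓞 F) := by
      have := congrArg (fun z : ℤ => (z : 𝓞 F)) hb
      simpa using this
    rw [hcast]
    exact v.asIdeal.add_mem (v.asIdeal.mul_mem_right _ hmem) (v.asIdeal.mul_mem_right _ hNmem)
  rw [hcop.gcd_eq_one, Nat.cast_one] at h1
  exact v.isPrime.ne_top ((Ideal.eq_top_iff_one _).mpr h1)

/-- two distinct rational primes cannot lie in the same prime ideal -/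
theorem s14_i2np_prime_unique (v : HeightOneSpectrum (𝓞 F)) (ℓ ℓ' : ℕ) (hℓ : ℓ.Prime)
    (hℓ' : ℓ'.Prime) (h : (ℓ : 𝓞 F) ∈ v.asIdeal) (h' : (ℓ' : 𝓞 F) ∈ v.asIdeal) : ℓ = ℓ' := by
  by_contra hne
  have hcop : Nat.Coprime ℓ ℓ' := (Nat.coprime_primes hℓ hℓ').mpr hne
  have h1 : ((Nat.gcd ℓ ℓ' : ℕ) : 𝓞 F) ∈ v.asIdeal := by
    have hb := Nat.gcd_eq_gcd_ab ℓ ℓ'
    have hcast : ((Nat.gcd ℓ ℓ' : ℕ) : 𝓞 F) =
        (ℓ : 𝓞 F) * ((Nat.gcdA ℓ ℓ' : ℤ) : 𝓞 F) + (ℓ' : 𝓞 F) * ((Nat.gcdB ℓ ℓ' : ℤ) : 𝓞 F) := by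
      have := congrArg (fun z : ℤ => (z : 𝓞 F)) hb
      simpa using this
    rw [hcast]
    exact v.asIdeal.add_mem (v.asIdeal.mul_mem_right _ h) (v.asIdeal.mul_mem_right _ h')
  rw [hcop.gcd_eq_one, Nat.cast_one] at h1
  exact v.isPrime.ne_top ((Ideal.eq_top_iff_one _).mpr h1)

end support

section degree

variable (F B : Type*) [Field F] [NumberField F] [Field B] [NumberField B] [Algebra F B]

/-- a prime of absolute degree one has relative degree one -/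
theorem s14_i2np_inertiaDeg_eq_one (Q : Ideal (𝓞 B)) [Q.IsPrime] (hQ : Q ≠ ⊥)
    (hprime : (Ideal.absNorm Q).Prime) : Q.inertiaDeg (𝓞 F) = 1 := by
  have h := s14_ar_card_quot_pow F B Q hQ
  have h2 : Nat.card (𝓞 B ⧸ Q) = Ideal.absNorm Q := by
    rw [Ideal.absNorm_apply, Submodule.cardQuot_apply]
  rw [h2] at h
  rw [← h] at hprime
  exact ((Nat.Prime.pow_eq_iff hprime).mp rfl).2

end degree

/-- **(I2-a, arithmetic step)** -/
theorem s14_i2a_newPrime (hZ : s14_stmt_Z) : s14_i2_stmt_NewPrime := by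
  intro F B _ _ _ _ _ _ p hp hdeg hζ hunr u hu X
  classical
  obtain ⟨ζ, hζ⟩ := hζ
  have hζB : IsPrimitiveRoot (algebraMap F B ζ) p :=
    hζ.map_of_injective (algebraMap F B).injective
  -- the Kummer extension `M = B(u^(1/p))`
  have hnot : ∀ b : B, b ^ p ≠ algebraMap F B (u : F) := by
    intro b hb
    exact hu ⟨b, hb⟩
  obtain ⟨M, _, _, _, _, a, hdegM, ha, hgen⟩ :=
    s14_i2k_exists_kummer B p hp (algebraMap F B ζ) hζB (algebraMap F B (u : F)) hnot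
  -- the set of bad rational primes
  obtain ⟨Su, hSu⟩ := s14_i2np_exists_support F (u : F) u.ne_zero
  obtain ⟨T1, hT1⟩ := s14_i2np_exists_below F (X ∪ Su)
  -- the zeta argument
  obtain ⟨Q, ℓ, hℓ, hℓT, hQℓ, hQunr, hQns⟩ := hZ B M p hp hdegM (insert p T1)
  have hℓp : ℓ ≠ p := by
    rintro rfl
    exact hℓT (Finset.mem_insert_self _ _)
  have hℓT1 : ℓ ∉ T1 := fun h => hℓT (Finset.mem_insert_of_mem h)
  -- the prime `t` below `Q`
  haveI hQprime : Q.asIdeal.IsPrime := Q.isPrime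
  have htne : Q.asIdeal.under (𝓞 F) ≠ ⊥ := Ideal.under_ne_bot (𝓞 F) Q.ne_bot
  set t : HeightOneSpectrum (𝓞 F) := ⟨Q.asIdeal.under (𝓞 F), inferInstance, htne⟩ with ht
  have hℓQ : ((ℓ : ℕ) : 𝓞 B) ∈ Q.asIdeal := by
    rw [← hQℓ]; exact Ideal.absNorm_mem _
  have hℓt : ((ℓ : ℕ) : 𝓞 F) ∈ t.asIdeal := by
    show ((ℓ : ℕ) : 𝓞 F) ∈ Q.asIdeal.under (𝓞 F)
    rw [Ideal.under_def, Ideal.mem_comap, map_natCast]
    exact hℓQ
  have htXS : t ∉ X ∪ Su := fun h => hℓT1 (hT1 ℓ hℓ t h hℓt)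
  have htX : t ∉ X := fun h => htXS (Finset.mem_union_left _ h)
  have htSu : t ∉ Su := fun h => htXS (Finset.mem_union_right _ h)
  refine ⟨t, htX, ?_, ?_, hSu t htSu, ?_⟩
  · -- `p ∉ t`
    intro hpt
    exact hℓp (s14_i2np_prime_unique F t ℓ p hℓ hp hℓt hpt)
  · -- `t` splits in `B`
    have hstab : MulAction.stabilizer (B ≃ₐ[F] B) Q.asIdeal = ⊥ := by
      rw [s14_br_stabilizer_eq_bot_iff]
      refine ⟨(s14_br_inertia_eq_bot_iff F B Q.asIdeal).mp (hunr Q.asIdeal hQprime Q.ne_bot), ?_⟩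
      exact s14_i2np_inertiaDeg_eq_one F B Q.asIdeal Q.ne_bot (by rw [hQℓ]; exact hℓ)
    exact s14_br_splits_of_one F B Q.asIdeal hstab
  · -- `u` is not a local `p`-th power at `t`
    intro hloc
    rw [s14_lp_mem_locPow] at hloc
    haveI : Q.asIdeal.LiesOver t.asIdeal := ⟨rfl⟩
    have hup : s14_lp_IsLocPow p Q (algebraMap F B (u : F)) := s14_lp_isLocPow_up t Q hloc
    exact hQns (s14_lp_splits hp hζB ha hgen hup)

end
end Fermat.Agent.S14
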