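import Fermat.Agent.S14.I2
import Fermat.Agent.S14.I2LP3
import Fermat.Agent.S14.I2NewPrime
import Fermat.Agent.S14.Zeta

/-!
# S14 (I2) — the second inequality: wiring, part 2   (OWNER: helper4)

`s14_i2_of_val`: `s14_stmt_I2` from (FI) and the local count (LP3, valuation form);
`s14_i2_of_loc`: the same from the count form.
-/

set_option autoImplicit false

namespace Fermat.Agent.S14

theorem s14_i2_of_loc (hFI : s14_stmt_FI) (h : s14_i2_stmt_LP3loc) : s14_stmt_I2 :=
  s14_i2_of hFI (s14_i2a_newPrime s14_z_stmt) (s14_i2l_main h)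

theorem s14_i2_of_val (hFI : s14_stmt_FI) (h : s14_i2_stmt_LP3val) : s14_stmt_I2 :=
  s14_i2_of_loc hFI (s14_i2l_of_val h)

theorem s14_i2_of_LP3 (hFI : s14_stmt_FI) (h : s14_i2_stmt_LP3) : s14_stmt_I2 :=
  s14_i2_of hFI (s14_i2a_newPrime s14_z_stmt) h

end Fermat.Agent.S14
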