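import Mathlib

/-!
# S14 (LP3) — the `p`-torsion of `(𝓞 F / v ^ M)ˣ`, `M = p * ord_v (1 - ζ) + 1` (OWNER: helper6)

* `s14_lp_cnt_pigeon` : if `x ^ p ≡ 1 mod v ^ (p e + 1)`, `e = ord_v (1 - ζ)`, then
  `x ≡ ζ ^ i mod v ^ (e + 1)` for some `i < p` (pigeonhole on `x ^ p - 1 = ∏ (x - ζ ^ i)`).
* `s14_lp_cnt_card_J` : the image of `v ^ (e + 1)` in `𝓞 F / v ^ M` has `N(v) ^ (M - e - 1)`
  elements.
* `s14_lp_cnt_torsion` : `𝓞 F / v ^ M` has at most `p * N(v) ^ ((p - 1) e)` elements `x` with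
  `x ^ p = 1`.
-/

set_option autoImplicit false
set_option linter.unusedSectionVars false

namespace Fermat.Agent.S14

open NumberField IsDedekindDomain

variable {F : Type*} [Field F] [NumberField F]

/-- discreteness of `ℤᵐ⁰`. -/
theorem s14_lp_cnt_le_of_lt {a : WithZero (Multiplicative ℤ)} {n : ℕ}
    (h : a < WithZero.exp (-(n : ℤ))) : a ≤ WithZero.exp (-((n + 1 : ℕ) : ℤ)) := by
  have e : WithZero.exp (-(n : ℤ)) = WithZero.exp (-((n + 1 : ℕ) : ℤ)) * WithZero.exp 1 := by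
    rw [← WithZero.exp_add]
    congr 1
    push_cast
    ring
  rw [e] at h
  exact (WithZero.lt_mul_exp_iff_le WithZero.exp_ne_zero).mp h

/-- pigeonhole: a `p`-th root of unity modulo `v ^ (p e + 1)` is congruent to a power of `ζ`
modulo `v ^ (e + 1)`. -/
theorem s14_lp_cnt_pigeon (v : HeightOneSpectrum (𝓞 F)) {p : ℕ} (hp : p.Prime) {ζ : 𝓞 F}
    (hζ : IsPrimitiveRoot ζ p) {e : ℕ}
    (he : v.intValuation (1 - ζ) = WithZero.exp (-(e : ℤ))) {x : 𝓞 F}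
    (hx : x ^ p - 1 ∈ v.asIdeal ^ (p * e + 1)) :
    ∃ i : Fin p, x - ζ ^ (i : ℕ) ∈ v.asIdeal ^ (e + 1) := by
  have h1 : v.intValuation (x ^ p - 1) ≤ WithZero.exp (-((p * e + 1 : ℕ) : ℤ)) :=
    (v.intValuation_le_pow_iff_mem _ _).mpr hx
  have h2 : v.intValuation (x ^ p - 1) < v.intValuation (1 - ζ) ^ p := by
    refine lt_of_le_of_lt h1 ?_
    rw [he, ← WithZero.exp_nsmul, WithZero.exp_lt_exp, nsmul_eq_mul]
    push_cast
    linarith
  have hfac : x ^ p - 1 = ∏ i ∈ Finset.range p, (x - ζ ^ i) := by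
    have := congrArg (Polynomial.eval x)
      (X_pow_sub_C_eq_prod hζ hp.pos (one_pow p : (1 : 𝓞 F) ^ p = 1))
    simpa [Polynomial.eval_prod] using this
  obtain ⟨i, hi, hlt⟩ : ∃ i ∈ Finset.range p,
      v.intValuation (x - ζ ^ i) < v.intValuation (1 - ζ) := by
    apply Finset.exists_lt_of_prod_lt'
    rw [← map_prod, ← hfac, Finset.prod_const, Finset.card_range]
    exact h2
  refine ⟨⟨i, Finset.mem_range.mp hi⟩, ?_⟩
  rw [he] at hlt
  exact (v.intValuation_le_pow_iff_mem _ _).mp (s14_lp_cnt_le_of_lt hlt)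

theorem s14_lp_cnt_pow_ne_bot (v : HeightOneSpectrum (𝓞 F)) (M : ℕ) : v.asIdeal ^ M ≠ ⊥ :=
  pow_ne_zero M v.ne_bot

instance s14_lp_cnt_finite (v : HeightOneSpectrum (𝓞 F)) (M : ℕ) :
    Finite (𝓞 F ⧸ v.asIdeal ^ M) :=
  Ideal.finiteQuotientOfFreeOfNeBot _ (s14_lp_cnt_pow_ne_bot v M)

theorem s14_lp_cnt_card_quot (v : HeightOneSpectrum (𝓞 F)) (M : ℕ) :
    Nat.card (𝓞 F ⧸ v.asIdeal ^ M) = Ideal.absNorm v.asIdeal ^ M := by
  rw [← map_pow, Ideal.absNorm_apply, Submodule.cardQuot_apply]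

theorem s14_lp_cnt_absNorm_pos (v : HeightOneSpectrum (𝓞 F)) : 0 < Ideal.absNorm v.asIdeal :=
  Nat.pos_of_ne_zero (by
    rw [Ne, Ideal.absNorm_eq_zero_iff]
    exact v.ne_bot)

/-- the image of `v ^ k` in `𝓞 F / v ^ M` (`k ≤ M`) has `N(v) ^ (M - k)` elements. -/
theorem s14_lp_cnt_card_J (v : HeightOneSpectrum (𝓞 F)) {k M : ℕ} (hkM : k ≤ M) :
    Nat.card ↥(Ideal.map (Ideal.Quotient.mk (v.asIdeal ^ M)) (v.asIdeal ^ k)) =
      Ideal.absNorm v.asIdeal ^ (M - k) := by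
  have hle : v.asIdeal ^ M ≤ v.asIdeal ^ k := Ideal.pow_le_pow_right hkM
  set J := Ideal.map (Ideal.Quotient.mk (v.asIdeal ^ M)) (v.asIdeal ^ k) with hJ
  have h1 : Nat.card (𝓞 F ⧸ v.asIdeal ^ M) =
      Nat.card ↥J * Nat.card ((𝓞 F ⧸ v.asIdeal ^ M) ⧸ J) :=
    Submodule.card_eq_card_quotient_mul_card J
  have h2 : Nat.card ((𝓞 F ⧸ v.asIdeal ^ M) ⧸ J) = Nat.card (𝓞 F ⧸ v.asIdeal ^ k) :=
    Nat.card_congr (DoubleQuot.quotQuotEquivQuotOfLE hle).toEquiv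
  rw [h2, s14_lp_cnt_card_quot, s14_lp_cnt_card_quot] at h1
  have hpos := s14_lp_cnt_absNorm_pos v
  have h3 : Ideal.absNorm v.asIdeal ^ M =
      Ideal.absNorm v.asIdeal ^ (M - k) * Ideal.absNorm v.asIdeal ^ k := by
    rw [← pow_add, Nat.sub_add_cancel hkM]
  rw [h3] at h1
  exact (Nat.eq_of_mul_eq_mul_right (pow_pos hpos k) h1).symm

/-- `𝓞 F / v ^ (p e + 1)` has at most `p * N(v) ^ ((p - 1) e)` elements `x` with `x ^ p = 1`. -/
theorem s14_lp_cnt_torsion (v : HeightOneSpectrum (𝓞 F)) {p : ℕ} (hp : p.Prime) {ζ : 𝓞 F}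
    (hζ : IsPrimitiveRoot ζ p) {e : ℕ}
    (he : v.intValuation (1 - ζ) = WithZero.exp (-(e : ℤ))) :
    Nat.card {x : 𝓞 F ⧸ v.asIdeal ^ (p * e + 1) // x ^ p = 1} ≤
      p * Ideal.absNorm v.asIdeal ^ ((p - 1) * e) := by
  set M := p * e + 1 with hM
  set J := Ideal.map (Ideal.Quotient.mk (v.asIdeal ^ M)) (v.asIdeal ^ (e + 1)) with hJ
  have hkM : e + 1 ≤ M := by
    have := hp.one_le
    rw [hM]
    nlinarith
  have hcard : Nat.card ↥J = Ideal.absNorm v.asIdeal ^ ((p - 1) * e) := by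
    rw [hJ, s14_lp_cnt_card_J v hkM]
    congr 1
    have := hp.one_le
    obtain ⟨q, rfl⟩ : ∃ q, p = q + 1 := ⟨p - 1, by omega⟩
    rw [hM, Nat.add_sub_cancel]
    ring_nf
    omega
  have key : ∀ x : {x : 𝓞 F ⧸ v.asIdeal ^ M // x ^ p = 1}, ∃ it : Fin p × ↥J,
      x.1 = Ideal.Quotient.mk (v.asIdeal ^ M) ζ ^ (it.1 : ℕ) + (it.2 : 𝓞 F ⧸ v.asIdeal ^ M) := by
    rintro ⟨xb, hxb⟩
    obtain ⟨x, rfl⟩ := Ideal.Quotient.mk_surjective xb
    have hx : x ^ p - 1 ∈ v.asIdeal ^ (p * e + 1) := by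
      rw [← Ideal.Quotient.eq_zero_iff_mem, map_sub, map_pow, map_one, hxb, sub_self]
    obtain ⟨i, hi⟩ := s14_lp_cnt_pigeon v hp hζ he hx
    refine ⟨(i, ⟨Ideal.Quotient.mk (v.asIdeal ^ M) (x - ζ ^ (i : ℕ)),
      Ideal.mem_map_of_mem _ hi⟩), ?_⟩
    simp only [map_sub, map_pow]
    ring
  choose g hg using key
  have hinj : Function.Injective g := by
    intro a b hab
    apply Subtype.ext
    rw [hg a, hg b, hab]
  have := Nat.card_le_card_of_injective g hinj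
  rw [Nat.card_prod, Nat.card_fin, hcard] at this
  exact this

end Fermat.Agent.S14
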