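import Mathlib
import Fermat.Agent.S14.LPDefs
import Fermat.Agent.S14.LPCountRing

/-!
# S14 (LP3) — the local count `[Fˣ : Λ_v] ≤ p ^ 2 * N(v) ^ ((p - 1) e)` (OWNER: helper6)

`Λ_v = s14_lp_locPow hp v`, `e = ord_v (1 - ζ)`, `M = p e + 1`, `A = (𝓞 F / v ^ M)ˣ`.
The classes of the `v`-units of `𝓞 F` in `Fˣ / Λ_v` form the image of a homomorphism
`ψ : A → Fˣ / Λ_v` that kills `p`-th powers, so they are at most `|A / A ^ p| = |A[p]|` in
number; and `Fˣ / Λ_v` is covered by the translates of this image by `π ^ k`, `k < p`.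
-/

set_option autoImplicit false
set_option linter.unusedSectionVars false

namespace Fermat.Agent.S14

open NumberField IsDedekindDomain

section group

/-- the image of a homomorphism killing `p`-th powers has at most `|A[p]|` elements. -/
theorem s14_lp_cnt_card_range_le {A G : Type*} [CommGroup A] [Finite A] [Group G]
    (ψ : A →* G) {p : ℕ} (hψ : ∀ a : A, ψ (a ^ p) = 1) :
    Nat.card ψ.range ≤ Nat.card {a : A // a ^ p = 1} := by
  set φ : A →* A := powMonoidHom p with hφ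
  have h1 : φ.range ≤ ψ.ker := by
    rintro _ ⟨a, rfl⟩
    exact hψ a
  have h2 : Nat.card ψ.range = ψ.ker.index := (Subgroup.index_ker ψ).symm
  have h3 : ψ.ker.index ∣ φ.range.index := Subgroup.index_dvd_of_le h1
  have h4 : φ.range.index = Nat.card φ.ker := by
    have e1 := Subgroup.index_mul_card φ.range
    have e2 := Subgroup.card_mul_index φ.ker
    rw [Subgroup.index_ker] at e2
    have hpos : 0 < Nat.card φ.range := Nat.card_pos
    exact Nat.eq_of_mul_eq_mul_right hpos (e1.trans e2.symm)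
  have h5 : Nat.card φ.ker ≤ Nat.card {a : A // a ^ p = 1} := by
    apply Nat.card_le_card_of_injective
      (fun a : φ.ker => (⟨a.1, a.2⟩ : {a : A // a ^ p = 1}))
    intro a b h
    apply Subtype.ext
    exact congrArg Subtype.val h
  have hne : φ.range.index ≠ 0 := Subgroup.index_ne_zero_of_finite
  rw [h2]
  exact (Nat.le_of_dvd (Nat.pos_of_ne_zero hne) h3).trans (h4 ▸ h5)

theorem s14_lp_cnt_card_units_le {Q : Type*} [CommRing Q] [Finite Q] (p : ℕ) :
    Nat.card {a : Qˣ // a ^ p = 1} ≤ Nat.card {x : Q // x ^ p = 1} := by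
  apply Nat.card_le_card_of_injective
    (fun a : {a : Qˣ // a ^ p = 1} =>
      (⟨(a.1 : Q), by rw [← Units.val_pow_eq_pow_val, a.2, Units.val_one]⟩ :
        {x : Q // x ^ p = 1}))
  intro a b h
  apply Subtype.ext
  apply Units.ext
  exact congrArg Subtype.val h

end group

section local_count

variable {F : Type*} [Field F] [NumberField F] (v : HeightOneSpectrum (𝓞 F))
  {p : ℕ} (hp : p.Prime)
include hp

/-- closeness to `1` modulo `v ^ (p e + 1)` implies "local `p`-th power". -/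
theorem s14_lp_cnt_isLocPow_of_close {ζ : F} (hζ : IsPrimitiveRoot ζ p) {e : ℕ}
    (he : v.valuation F (1 - ζ) = WithZero.exp (-(e : ℤ))) {x : F}
    (hx : v.valuation F (x - 1) ≤ WithZero.exp (-((p * e + 1 : ℕ) : ℤ))) :
    s14_lp_IsLocPow p v x := by
  rw [s14_lp_isLocPow_iff hp hζ]
  refine ⟨1, one_ne_zero, ?_⟩
  rw [one_pow, div_one, he, ← WithZero.exp_nsmul]
  refine lt_of_le_of_lt hx ?_
  rw [WithZero.exp_lt_exp, nsmul_eq_mul]
  push_cast
  linarith

open Classical in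
/-- the class in `Fˣ / Λ_v` of a nonzero integer (junk value `1` at `0`). -/
noncomputable def s14_lp_cnt_cls (a : 𝓞 F) : Fˣ ⧸ s14_lp_locPow hp v :=
  if h : algebraMap (𝓞 F) F a = 0 then 1 else QuotientGroup.mk (Units.mk0 _ h)

theorem s14_lp_cnt_cls_of_ne {a : 𝓞 F} (h : algebraMap (𝓞 F) F a ≠ 0) :
    s14_lp_cnt_cls v hp a = QuotientGroup.mk (Units.mk0 _ h) := by
  rw [s14_lp_cnt_cls, dif_neg h]

omit hp in
theorem s14_lp_cnt_ne_zero_of_notMem {a : 𝓞 F} (ha : a ∉ v.asIdeal) :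
    algebraMap (𝓞 F) F a ≠ 0 := by
  intro h
  have h0 : a = 0 := by
    apply FaithfulSMul.algebraMap_injective (𝓞 F) F
    rw [h, map_zero]
  exact ha (h0 ▸ v.asIdeal.zero_mem)

theorem s14_lp_cnt_cls_mul {a b : 𝓞 F} (ha : a ∉ v.asIdeal) (hb : b ∉ v.asIdeal) :
    s14_lp_cnt_cls v hp (a * b) = s14_lp_cnt_cls v hp a * s14_lp_cnt_cls v hp b := by
  have ha0 := s14_lp_cnt_ne_zero_of_notMem v ha
  have hb0 := s14_lp_cnt_ne_zero_of_notMem v hb
  have hab0 : algebraMap (𝓞 F) F (a * b) ≠ 0 := by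
    rw [map_mul]; exact mul_ne_zero ha0 hb0
  rw [s14_lp_cnt_cls_of_ne v hp ha0, s14_lp_cnt_cls_of_ne v hp hb0,
    s14_lp_cnt_cls_of_ne v hp hab0, ← QuotientGroup.mk_mul]
  congr 1
  apply Units.ext
  simp

theorem s14_lp_cnt_cls_congr {ζ : F} (hζ : IsPrimitiveRoot ζ p) {e : ℕ}
    (he : v.valuation F (1 - ζ) = WithZero.exp (-(e : ℤ))) {a b : 𝓞 F}
    (ha : a ∉ v.asIdeal) (hb : b ∉ v.asIdeal) (hab : a - b ∈ v.asIdeal ^ (p * e + 1)) :
    s14_lp_cnt_cls v hp a = s14_lp_cnt_cls v hp b := by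
  have ha0 := s14_lp_cnt_ne_zero_of_notMem v ha
  have hb0 := s14_lp_cnt_ne_zero_of_notMem v hb
  rw [s14_lp_cnt_cls_of_ne v hp ha0, s14_lp_cnt_cls_of_ne v hp hb0, QuotientGroup.eq,
    s14_lp_mem_locPow]
  apply s14_lp_cnt_isLocPow_of_close v hp hζ he
  have hva : v.valuation F (algebraMap (𝓞 F) F a) = 1 :=
    (v.valuation_eq_one_iff_notMem).mpr ha
  have e1 : (((Units.mk0 _ ha0)⁻¹ * Units.mk0 _ hb0 : Fˣ) : F) - 1 =
      -(algebraMap (𝓞 F) F (a - b)) / algebraMap (𝓞 F) F a := by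
    simp only [Units.val_mul, Units.val_inv_eq_inv_val, Units.val_mk0, map_sub]
    field_simp
    ring
  rw [e1, map_div₀, Valuation.map_neg, hva, div_one, v.valuation_of_algebraMap]
  exact (v.intValuation_le_pow_iff_mem _ _).mpr hab

omit hp in
theorem s14_lp_cnt_pow_ne_top {M : ℕ} (hM : M ≠ 0) : v.asIdeal ^ M ≠ ⊤ := by
  intro h
  have h1 : v.asIdeal ^ M ≤ v.asIdeal := Ideal.pow_le_self hM
  rw [h] at h1
  exact v.isPrime.ne_top (top_le_iff.mp h1)

omit hp in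
/-- a unit of `𝓞 F / v ^ M` lifts to an element outside `v`. -/
theorem s14_lp_cnt_out_notMem {M : ℕ} (hM : M ≠ 0) (u : (𝓞 F ⧸ v.asIdeal ^ M)ˣ) :
    Quotient.out (u : 𝓞 F ⧸ v.asIdeal ^ M) ∉ v.asIdeal := by
  intro h
  have : Nontrivial (𝓞 F ⧸ v.asIdeal ^ M) :=
    Ideal.Quotient.nontrivial_iff.mpr (s14_lp_cnt_pow_ne_top v hM)
  have h1 : Quotient.out (u : 𝓞 F ⧸ v.asIdeal ^ M) ^ M ∈ v.asIdeal ^ M :=
    Ideal.pow_mem_pow h M
  rw [← Ideal.Quotient.eq_zero_iff_mem, map_pow, Ideal.Quotient.mk_out] at h1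
  have h2 : IsUnit ((u : 𝓞 F ⧸ v.asIdeal ^ M) ^ M) := (u ^ M).isUnit
  rw [h1] at h2
  exact not_isUnit_zero h2

/-- every element of `Fˣ / Λ_v` is killed by `p`. -/
theorem s14_lp_cnt_pow_eq_one (y : Fˣ ⧸ s14_lp_locPow hp v) : y ^ p = 1 := by
  obtain ⟨x, rfl⟩ := QuotientGroup.mk_surjective y
  rw [← QuotientGroup.mk_pow, QuotientGroup.eq_one_iff]
  exact s14_lp_pow_mem_locPow hp v x

/-- the homomorphism `ψ : (𝓞 F / v ^ M)ˣ → Fˣ / Λ_v`, `M = p e + 1`. -/
noncomputable def s14_lp_cnt_psi {ζ : F} (hζ : IsPrimitiveRoot ζ p) {e : ℕ}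
    (he : v.valuation F (1 - ζ) = WithZero.exp (-(e : ℤ))) :
    (𝓞 F ⧸ v.asIdeal ^ (p * e + 1))ˣ →* Fˣ ⧸ s14_lp_locPow hp v :=
  MonoidHom.mk' (fun u => s14_lp_cnt_cls v hp (Quotient.out (u : 𝓞 F ⧸ v.asIdeal ^ (p * e + 1))))
    (by
      intro a b
      have hM : p * e + 1 ≠ 0 := Nat.succ_ne_zero _
      have ha := s14_lp_cnt_out_notMem v hM a
      have hb := s14_lp_cnt_out_notMem v hM b
      have hab := s14_lp_cnt_out_notMem v hM (a * b)
      rw [← s14_lp_cnt_cls_mul v hp ha hb]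
      apply s14_lp_cnt_cls_congr v hp hζ he hab
      · intro h
        rcases v.isPrime.mem_or_mem h with h | h
        · exact ha h
        · exact hb h
      · rw [← Ideal.Quotient.eq, map_mul, Ideal.Quotient.mk_out, Ideal.Quotient.mk_out,
          Ideal.Quotient.mk_out, Units.val_mul])

theorem s14_lp_cnt_psi_apply {ζ : F} (hζ : IsPrimitiveRoot ζ p) {e : ℕ}
    (he : v.valuation F (1 - ζ) = WithZero.exp (-(e : ℤ)))
    (u : (𝓞 F ⧸ v.asIdeal ^ (p * e + 1))ˣ) :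
    s14_lp_cnt_psi v hp hζ he u =
      s14_lp_cnt_cls v hp (Quotient.out (u : 𝓞 F ⧸ v.asIdeal ^ (p * e + 1))) := rfl

/-- the classes of `v`-units lie in the image of `ψ`. -/
theorem s14_lp_cnt_mem_range {ζ : F} (hζ : IsPrimitiveRoot ζ p) {e : ℕ}
    (he : v.valuation F (1 - ζ) = WithZero.exp (-(e : ℤ))) {x : Fˣ}
    (hx : v.valuation F (x : F) = 1) :
    (QuotientGroup.mk x : Fˣ ⧸ s14_lp_locPow hp v) ∈ (s14_lp_cnt_psi v hp hζ he).range := by
  have hM : p * e + 1 ≠ 0 := Nat.succ_ne_zero _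
  -- approximate `x` by an integer `c`
  obtain ⟨c, hc⟩ := v.exists_valuation_sub_lt_of_integer hx.le
    (Units.mk0 (WithZero.exp (-((p * e + 1 : ℕ) : ℤ))) WithZero.exp_ne_zero)
  rw [Units.val_mk0] at hc
  have hlt1 : v.valuation F (algebraMap (𝓞 F) F c - x) < 1 :=
    lt_of_lt_of_le hc (by
      rw [← WithZero.exp_zero, WithZero.exp_le_exp, Left.neg_nonpos_iff]
      positivity)
  have hvc : v.valuation F (algebraMap (𝓞 F) F c) = 1 := by
    have h2 : v.valuation F (algebraMap (𝓞 F) F c - x) < v.valuation F (x : F) := by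
      rw [hx]; exact hlt1
    have := Valuation.map_add_eq_of_lt_left (v.valuation F) h2
    rwa [add_sub_cancel, hx] at this
  have hcv : c ∉ v.asIdeal := (v.valuation_eq_one_iff_notMem).mp hvc
  have hc0 := s14_lp_cnt_ne_zero_of_notMem v hcv
  -- `c` is a unit modulo `v ^ M`
  obtain ⟨d, hd⟩ := v.exists_intValuation_mul_sub_lt (a := c) (b := 1)
    (by rw [map_one, ← v.valuation_of_algebraMap (K := F), hvc])
    (Multiplicative.ofAdd (-((p * e : ℕ) : ℤ)))
  have hd' : (1 : 𝓞 F) - d * c ∈ v.asIdeal ^ (p * e + 1) := by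
    rw [← v.intValuation_le_pow_iff_mem]
    exact s14_lp_cnt_le_of_lt hd
  have hunit : Ideal.Quotient.mk (v.asIdeal ^ (p * e + 1)) c *
      Ideal.Quotient.mk (v.asIdeal ^ (p * e + 1)) d = 1 := by
    rw [← map_mul, ← map_one (Ideal.Quotient.mk (v.asIdeal ^ (p * e + 1))), eq_comm,
      Ideal.Quotient.eq, mul_comm c d]
    exact hd'
  set u : (𝓞 F ⧸ v.asIdeal ^ (p * e + 1))ˣ := Units.mkOfMulEqOne _ _ hunit with hu
  refine ⟨u, ?_⟩
  rw [s14_lp_cnt_psi_apply]
  have hout := s14_lp_cnt_out_notMem v hM u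
  have h1 : s14_lp_cnt_cls v hp (Quotient.out (u : 𝓞 F ⧸ v.asIdeal ^ (p * e + 1))) =
      s14_lp_cnt_cls v hp c := by
    apply s14_lp_cnt_cls_congr v hp hζ he hout hcv
    rw [← Ideal.Quotient.eq, Ideal.Quotient.mk_out]
    rfl
  rw [h1, s14_lp_cnt_cls_of_ne v hp hc0, QuotientGroup.eq, s14_lp_mem_locPow]
  apply s14_lp_cnt_isLocPow_of_close v hp hζ he
  have e1 : (((Units.mk0 _ hc0)⁻¹ * x : Fˣ) : F) - 1 =
      -(algebraMap (𝓞 F) F c - x) / algebraMap (𝓞 F) F c := by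
    simp only [Units.val_mul, Units.val_inv_eq_inv_val, Units.val_mk0]
    field_simp
    ring
  rw [e1, map_div₀, Valuation.map_neg, hvc, div_one]
  exact hc.le

/-- every class is the product of a power `π ^ k`, `k < p`, and the class of a `v`-unit. -/
theorem s14_lp_cnt_decomp {π : Fˣ} (hπ : v.valuation F (π : F) = WithZero.exp (-1 : ℤ))
    (x : Fˣ) :
    ∃ k : Fin p, ∃ x' : Fˣ, v.valuation F (x' : F) = 1 ∧
      (QuotientGroup.mk x : Fˣ ⧸ s14_lp_locPow hp v) =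
        QuotientGroup.mk π ^ (k : ℕ) * QuotientGroup.mk x' := by
  have hx0 : v.valuation F (x : F) ≠ 0 := (Valuation.ne_zero_iff _).mpr x.ne_zero
  set l : ℤ := WithZero.log (v.valuation F (x : F)) with hl
  have hxl : v.valuation F (x : F) = WithZero.exp l := (WithZero.exp_log hx0).symm
  set m : ℤ := -l with hm
  have hp0 : (p : ℤ) ≠ 0 := by exact_mod_cast hp.ne_zero
  have hppos : (0 : ℤ) < p := by exact_mod_cast hp.pos
  have hk0 : 0 ≤ m % p := Int.emod_nonneg m hp0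
  have hk1 : m % p < p := Int.emod_lt_of_pos m hppos
  set k : ℕ := (m % p).toNat with hk
  have hkp : k < p := by
    have : (k : ℤ) = m % p := Int.toNat_of_nonneg hk0
    omega
  have hkm : (k : ℤ) + p * (m / p) = m := by
    rw [hk, Int.toNat_of_nonneg hk0]
    exact Int.emod_add_mul_ediv m p
  set x' : Fˣ := x * π ^ (-m) with hx'
  refine ⟨⟨k, hkp⟩, x', ?_, ?_⟩
  · rw [hx', Units.val_mul, map_mul, hxl, Units.val_zpow_eq_zpow_val, map_zpow₀, hπ,
      ← WithZero.exp_zsmul, ← WithZero.exp_add, hm]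
    simp
  · have e1 : x = π ^ (k : ℕ) * x' * (π ^ (m / p)) ^ p := by
      rw [hx', ← zpow_natCast (π ^ (m / p)) p, ← zpow_mul, ← zpow_natCast π k]
      have : π ^ (k : ℤ) * (x * π ^ (-m)) * π ^ (m / p * (p : ℤ)) =
          x * (π ^ (k : ℤ) * π ^ (m / p * (p : ℤ)) * π ^ (-m)) := by
        rw [mul_comm (π ^ (k : ℤ)) (x * π ^ (-m))]
        simp only [mul_assoc]
        congr 1
        rw [mul_comm (π ^ (-m)), mul_assoc]
      rw [this, ← zpow_add, ← zpow_add]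
      have h0 : (k : ℤ) + m / p * p + -m = 0 := by
        rw [mul_comm (m / p) (p : ℤ), hkm]; ring
      rw [h0, zpow_zero, mul_one]
    conv_lhs => rw [e1]
    rw [QuotientGroup.mk_mul, QuotientGroup.mk_mul, QuotientGroup.mk_pow, QuotientGroup.mk_pow,
      s14_lp_cnt_pow_eq_one v hp]
    exact mul_one (_ : Fˣ ⧸ s14_lp_locPow hp v)

/-- **the local count**: `[Fˣ : Λ_v] ≤ p * (p * N(v) ^ ((p - 1) e))`, `e = ord_v (1 - ζ)`. -/
theorem s14_lp_cnt_local {ζ : F} (hζ : IsPrimitiveRoot ζ p) {e : ℕ}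
    (he : v.valuation F (1 - ζ) = WithZero.exp (-(e : ℤ))) :
    (s14_lp_locPow hp v).index ≠ 0 ∧
      (s14_lp_locPow hp v).index ≤ p * (p * Ideal.absNorm v.asIdeal ^ ((p - 1) * e)) := by
  obtain ⟨π₀, hπ₀⟩ := v.valuation_exists_uniformizer F
  have hπ₀0 : π₀ ≠ 0 := by
    rintro rfl
    rw [map_zero] at hπ₀
    exact WithZero.exp_ne_zero hπ₀.symm
  set π : Fˣ := Units.mk0 π₀ hπ₀0 with hπ
  have hπv : v.valuation F (π : F) = WithZero.exp (-1 : ℤ) := hπ₀
  set ψ := s14_lp_cnt_psi v hp hζ he with hψ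
  have hfinQ : Finite (𝓞 F ⧸ v.asIdeal ^ (p * e + 1)) := s14_lp_cnt_finite v _
  have hfinR : Finite ψ.range :=
    Finite.of_surjective ψ.rangeRestrict ψ.rangeRestrict_surjective
  let f : Fin p × ψ.range → Fˣ ⧸ s14_lp_locPow hp v :=
    fun kz => QuotientGroup.mk π ^ (kz.1 : ℕ) * (kz.2 : Fˣ ⧸ s14_lp_locPow hp v)
  have hf : Function.Surjective f := by
    intro y
    obtain ⟨x, rfl⟩ := QuotientGroup.mk_surjective y
    obtain ⟨k, x', hx', hxx'⟩ := s14_lp_cnt_decomp v hp hπv x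
    exact ⟨(k, ⟨_, s14_lp_cnt_mem_range v hp hζ he hx'⟩), hxx'.symm⟩
  have hfin : Finite (Fˣ ⧸ s14_lp_locPow hp v) := Finite.of_surjective f hf
  refine ⟨Subgroup.index_ne_zero_of_finite, ?_⟩
  rw [Subgroup.index_eq_card]
  have h1 := Nat.card_le_card_of_surjective f hf
  rw [Nat.card_prod, Nat.card_fin] at h1
  refine h1.trans (Nat.mul_le_mul_left p ?_)
  have h2 := s14_lp_cnt_card_range_le ψ (p := p) (fun a => by
    rw [map_pow]; exact s14_lp_cnt_pow_eq_one v hp _)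
  have h3 := s14_lp_cnt_card_units_le (Q := 𝓞 F ⧸ v.asIdeal ^ (p * e + 1)) p
  have : NeZero p := ⟨hp.ne_zero⟩
  have he' : v.intValuation (1 - hζ.toInteger) = WithZero.exp (-(e : ℤ)) := by
    rw [← v.valuation_of_algebraMap (K := F)]
    have e0 : algebraMap (𝓞 F) F (1 - hζ.toInteger) = 1 - ζ := by
      rw [map_sub, map_one]; rfl
    show v.valuation F (algebraMap (𝓞 F) F (1 - hζ.toInteger)) = _
    rw [e0]
    exact he
  have h4 := s14_lp_cnt_torsion v hp hζ.toInteger_isPrimitiveRoot he'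
  exact h2.trans (h3.trans h4)

end local_count

end Fermat.Agent.S14
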