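import Mathlib
import Fermat.Agent.S14.LPCountLocal

/-!
# S14 (LP3) — the count `[Fˣ : Λ_S] ≤ p ^ (2 |S| + [F : ℚ])` (OWNER: helper6)

`Λ_S = ⨅ v ∈ S, s14_lp_locPow hp v`.  By `s14_lp_cnt_local`, `[Fˣ : Λ_v] ≤ p ^ 2 N(v) ^ n_v`
with `n_v = ord_v p`, and `∏_{v ∈ S} v ^ n_v` divides `(p)`, whose norm is `p ^ [F : ℚ]`.
-/

set_option autoImplicit false
set_option linter.unusedSectionVars false

namespace Fermat.Agent.S14

open NumberField IsDedekindDomain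

variable {F : Type*} [Field F] [NumberField F]

/-- `ord_v (1 - ζ)` exists as a natural number. -/
theorem s14_lp_cnt_exists_e {p : ℕ} (hp : p.Prime) {ζ : F} (hζ : IsPrimitiveRoot ζ p)
    (v : HeightOneSpectrum (𝓞 F)) :
    ∃ e : ℕ, v.valuation F (1 - ζ) = WithZero.exp (-(e : ℤ)) := by
  have : NeZero p := ⟨hp.ne_zero⟩
  have hne : (1 : 𝓞 F) - hζ.toInteger ≠ 0 := by
    intro h
    have h1 : hζ.toInteger = 1 := (sub_eq_zero.mp h).symm
    exact hζ.toInteger_isPrimitiveRoot.ne_one hp.one_lt h1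
  refine ⟨multiplicity v.asIdeal (Ideal.span {1 - hζ.toInteger}), ?_⟩
  rw [← v.intValuation_eq_exp_neg_multiplicity hne, ← v.valuation_of_algebraMap (K := F)]
  congr 1

/-- `p ∈ v ^ ((p - 1) e)`, `e = ord_v (1 - ζ)`. -/
theorem s14_lp_cnt_prime_mem {p : ℕ} (hp : p.Prime) {ζ : F} (hζ : IsPrimitiveRoot ζ p)
    (v : HeightOneSpectrum (𝓞 F)) {e : ℕ}
    (he : v.valuation F (1 - ζ) = WithZero.exp (-(e : ℤ))) :
    (p : 𝓞 F) ∈ v.asIdeal ^ ((p - 1) * e) := by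
  rw [← v.intValuation_le_pow_iff_mem, ← v.valuation_of_algebraMap (K := F)]
  have h1 : algebraMap (𝓞 F) F (p : 𝓞 F) = (p : F) := by simp
  show v.valuation F (algebraMap (𝓞 F) F (p : 𝓞 F)) ≤ _
  rw [h1, s14_lp_val_prime (v.valuation F) hp hζ, he, ← WithZero.exp_nsmul]
  apply le_of_eq
  congr 1
  rw [nsmul_eq_mul]
  push_cast
  ring

/-- the product of the norms `N(v) ^ ((p - 1) e_v)` over a finite set of primes is at most
`p ^ [F : ℚ]`. -/
theorem s14_lp_cnt_prod_le {p : ℕ} (hp : p.Prime) {ζ : F} (hζ : IsPrimitiveRoot ζ p)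
    (S : Finset (HeightOneSpectrum (𝓞 F))) (e : HeightOneSpectrum (𝓞 F) → ℕ)
    (he : ∀ v, v.valuation F (1 - ζ) = WithZero.exp (-(e v : ℤ))) :
    ∏ v ∈ S, Ideal.absNorm v.asIdeal ^ ((p - 1) * e v) ≤ p ^ Module.finrank ℚ F := by
  have h1 : Ideal.span {(p : 𝓞 F)} ≤ ∏ v ∈ S, v.asIdeal ^ ((p - 1) * e v) := by
    rw [← IsDedekindDomain.inf_pow_eq_prod_of_prime S (fun v => v.asIdeal)
      (fun v => (p - 1) * e v) (fun v _ => v.prime)
      (fun v _ w _ hvw h => hvw (HeightOneSpectrum.ext h))]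
    apply Finset.le_inf
    intro v _
    rw [Ideal.span_singleton_le_iff_mem]
    exact s14_lp_cnt_prime_mem hp hζ v (he v)
  have h2 := Ideal.absNorm_dvd_absNorm_of_le h1
  rw [map_prod] at h2
  simp only [map_pow] at h2
  have h3 : Ideal.absNorm (Ideal.span {(p : 𝓞 F)}) = p ^ Module.finrank ℚ F := by
    rw [Ideal.absNorm_span_singleton]
    have : (p : 𝓞 F) = algebraMap ℤ (𝓞 F) (p : ℤ) := by simp
    rw [this, Algebra.norm_algebraMap, RingOfIntegers.rank, Int.natAbs_pow, Int.natAbs_natCast]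
  rw [h3] at h2
  exact Nat.le_of_dvd (pow_pos hp.pos _) h2

/-- **(LP3)** the count: `[Fˣ : Λ_S] ≤ p ^ (2 |S| + [F : ℚ])`. -/
theorem s14_lp_index_le {p : ℕ} (hp : p.Prime) {ζ : F} (hζ : IsPrimitiveRoot ζ p)
    (S : Finset (HeightOneSpectrum (𝓞 F))) :
    (⨅ v ∈ S, s14_lp_locPow hp v).index ≠ 0 ∧
      (⨅ v ∈ S, s14_lp_locPow hp v).index ≤ p ^ (2 * S.card + Module.finrank ℚ F) := by
  choose e he using s14_lp_cnt_exists_e hp hζ
  have hloc := fun v => s14_lp_cnt_local v hp hζ (he v)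
  have hinf : (⨅ v ∈ S, s14_lp_locPow hp v) = ⨅ v : S, s14_lp_locPow hp v.1 := by
    rw [iInf_subtype']
  rw [hinf]
  refine ⟨Subgroup.index_iInf_ne_zero (fun v => (hloc v.1).1), ?_⟩
  refine (Subgroup.index_iInf_le _).trans ?_
  calc ∏ v : S, (s14_lp_locPow hp v.1).index
      ≤ ∏ v : S, (p * (p * Ideal.absNorm v.1.asIdeal ^ ((p - 1) * e v.1))) :=
        Finset.prod_le_prod' (fun v _ => (hloc v.1).2)
    _ = ∏ v ∈ S, (p * (p * Ideal.absNorm v.asIdeal ^ ((p - 1) * e v))) :=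
        Finset.prod_coe_sort S (fun v => p * (p * Ideal.absNorm v.asIdeal ^ ((p - 1) * e v)))
    _ = p ^ (2 * S.card) * ∏ v ∈ S, Ideal.absNorm v.asIdeal ^ ((p - 1) * e v) := by
        simp only [← mul_assoc, Finset.prod_mul_distrib, Finset.prod_const]
        ring
    _ ≤ p ^ (2 * S.card) * p ^ Module.finrank ℚ F :=
        Nat.mul_le_mul_left _ (s14_lp_cnt_prod_le hp hζ S e he)
    _ = p ^ (2 * S.card + Module.finrank ℚ F) := (pow_add _ _ _).symm

end Fermat.Agent.S14
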