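import Mathlib
import Fermat.Agent.S14.Defs
import Fermat.Agent.S14.LPDefs

/-!
# S14 (LP) — interface statements of the local computations (OWNER: helper6)

Exact statements of the exports of (LP) that are consumed by (I2) / (FI); each is proved in
the file named in its doc-string (as `theorem s14_lp_stmt_X : s14_stmt_X`).
Already proved and landed: `s14_lp_unramAt` (LP1), `s14_lp_splits` (LP1 split + LP2),
`s14_lp_isLocPow_up` in `LPSplit.lean`.
-/

set_option autoImplicit false

namespace Fermat.Agent.S14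

open NumberField IsDedekindDomain

/-- **(LPint)** bridge to the integral form used in `s14_NormLike`: at `v ∤ p`, an integer
`x ∉ v` is a local `p`-th power iff it is a `p`-th power residue modulo `v`. -/
def s14_stmt_LPint : Prop :=
  ∀ (F : Type) [Field F] [NumberField F] (p : ℕ), p.Prime →
    ∀ v : HeightOneSpectrum (𝓞 F), (p : 𝓞 F) ∉ v.asIdeal →
    ∀ x : 𝓞 F, x ∉ v.asIdeal →
      (s14_lp_IsLocPow p v (x : F) ↔ ∃ y : 𝓞 F, x - y ^ p ∈ v.asIdeal)

/-- **(LP0)** cyclicity of `k_vˣ / p`: at `v ∤ p`, if the `v`-unit `x` is not a local `p`-th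
power then every `v`-unit `y` is congruent to a power of `x` modulo local `p`-th powers. -/
def s14_stmt_LP0 : Prop :=
  ∀ (F : Type) [Field F] [NumberField F] (p : ℕ) (hp : p.Prime)
    (v : HeightOneSpectrum (𝓞 F)), (p : 𝓞 F) ∉ v.asIdeal →
    ∀ x y : Fˣ, v.valuation F (x : F) = 1 → v.valuation F (y : F) = 1 →
      x ∉ s14_lp_locPow hp v → ∃ k : ℕ, k < p ∧ y * x ^ k ∈ s14_lp_locPow hp v

/-- **(LP1 converse)**: if `a ^ p = y` in `N`, `v ∤ p`, `ord_v y = 0` and some prime `w` of `N`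
above `v` has residue degree one (`𝓞 F → 𝓞 N / w` onto), then `y` is a local `p`-th power
at `v`. -/
def s14_stmt_LPconv : Prop :=
  ∀ (F N : Type) [Field F] [NumberField F] [Field N] [NumberField N] [Algebra F N] (p : ℕ),
    p.Prime → ∀ (y : F) (a : N), a ^ p = algebraMap F N y →
    ∀ v : HeightOneSpectrum (𝓞 F), (p : 𝓞 F) ∉ v.asIdeal → v.valuation F y = 1 →
    ∀ w : Ideal (𝓞 N), w.IsPrime → w.under (𝓞 F) = v.asIdeal →
      (∀ r : 𝓞 N, ∃ c : 𝓞 F, r - algebraMap (𝓞 F) (𝓞 N) c ∈ w) → s14_lp_IsLocPow p v y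

/-- **(LP1 converse, split form)**: if `N / F` is Galois, `a ^ p = y` in `N`, `v ∤ p`,
`ord_v y = 0` and `v` splits completely in `N`, then `y` is a local `p`-th power at `v`. -/
def s14_stmt_LPconv_splits : Prop :=
  ∀ (F N : Type) [Field F] [NumberField F] [Field N] [NumberField N] [Algebra F N]
    [IsGalois F N] (p : ℕ),
    p.Prime → ∀ (y : F) (a : N), a ^ p = algebraMap F N y →
    ∀ v : HeightOneSpectrum (𝓞 F), (p : 𝓞 F) ∉ v.asIdeal → v.valuation F y = 1 →
      s14_Splits F N v.asIdeal → s14_lp_IsLocPow p v y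

/-- **(LP3)** count: the group of elements of `Fˣ` that are local `p`-th powers at every
`v ∈ S` has finite index at most `p ^ (2 |S| + [F : ℚ])` in `Fˣ`. -/
def s14_stmt_LP3 : Prop :=
  ∀ (F : Type) [Field F] [NumberField F] (p : ℕ) (hp : p.Prime) (ζ : F),
    IsPrimitiveRoot ζ p → ∀ S : Finset (HeightOneSpectrum (𝓞 F)),
      (⨅ v ∈ S, s14_lp_locPow hp v).index ≠ 0 ∧
        (⨅ v ∈ S, s14_lp_locPow hp v).index ≤ p ^ (2 * S.card + Module.finrank ℚ F)

end Fermat.Agent.S14
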