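import Mathlib
import Fermat.Agent.S14.I2Stmt
import Fermat.Agent.S14.LPStmt
import Fermat.Agent.S14.LPCount

/-!
# S14 (LP) — export LP3 (the count) in interface shapes (OWNER: helper6)

* `s14_lp_stmt_LP3 : s14_i2_stmt_LP3` (shape of `I2Stmt.lean`);
* `s14_lp_stmt_LP3' : s14_stmt_LP3` (shape of `LPStmt.lean`).
-/

set_option autoImplicit false

namespace Fermat.Agent.S14

open NumberField IsDedekindDomain

theorem s14_lp_stmt_LP3 : s14_i2_stmt_LP3 := by
  intro F _ _ p hp hζ S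
  obtain ⟨ζ, hζ⟩ := hζ
  exact s14_lp_index_le hp hζ S

theorem s14_lp_stmt_LP3' : s14_stmt_LP3 := by
  intro F _ _ p hp ζ hζ S
  exact s14_lp_index_le hp hζ S

end Fermat.Agent.S14
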