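import Mathlib
import Fermat.Agent.S14.ArtinCore

set_option autoImplicit false
set_option linter.style.haveILetI false
set_option linter.unusedSectionVars false

namespace Fermat.Agent.S14

open scoped NumberField Pointwise

noncomputable section

variable (F₀ F N : Type*) [Field F₀] [Field F] [NumberField F] [Field N] [NumberField N]
  [Algebra F N] [IsGalois F N] [Algebra F₀ F] [Algebra F₀ N] [IsScalarTower F₀ F N]
  [Normal F₀ F]

/-- Conjugation of an element of `Gal(N/F)` by an element of `Gal(N/F₀)`, for `F/F₀` normal. -/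
def s14_ar_conj (δ : N ≃ₐ[F₀] N) (σ : N ≃ₐ[F] N) : N ≃ₐ[F] N :=
  AlgEquiv.ofRingEquiv (f := (δ.symm.toRingEquiv.trans σ.toRingEquiv).trans δ.toRingEquiv) (by
    intro x
    show δ (σ (δ.symm (algebraMap F N x))) = algebraMap F N x
    have h1 : δ.symm (algebraMap F N x) = algebraMap F N ((δ.symm.restrictNormal F) x) :=
      (AlgEquiv.restrictNormal_commutes δ.symm F x).symm
    rw [h1, σ.commutes, ← h1]
    simp)

@[simp] theorem s14_ar_conj_apply (δ : N ≃ₐ[F₀] N) (σ : N ≃ₐ[F] N) (x : N) :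
    s14_ar_conj F₀ F N δ σ x = δ (σ (δ.symm x)) := rfl

theorem s14_ar_conj_apply' (δ : N ≃ₐ[F₀] N) (σ : N ≃ₐ[F] N) (x : N) :
    s14_ar_conj F₀ F N δ σ (δ x) = δ (σ x) := by
  simp

theorem s14_ar_conj_restrictScalars (δ : N ≃ₐ[F₀] N) (σ : N ≃ₐ[F] N) :
    (s14_ar_conj F₀ F N δ σ).restrictScalars F₀ = δ * σ.restrictScalars F₀ * δ⁻¹ := by
  apply AlgEquiv.ext
  intro x
  rfl

theorem s14_ar_conj_smul (δ : N ≃ₐ[F₀] N) (σ : N ≃ₐ[F] N) (y : 𝓞 N) :
    (s14_ar_conj F₀ F N δ σ) • y = δ • (σ • (δ⁻¹ • y)) := by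
  apply Subtype.ext
  rfl

/-- compatibility of the actions on the rings of integers -/
theorem s14_ar_algebraMap_smul (δ : N ≃ₐ[F₀] N) (a : 𝓞 F) :
    algebraMap (𝓞 F) (𝓞 N) ((δ.restrictNormal F) • a) = δ • (algebraMap (𝓞 F) (𝓞 N) a) := by
  apply Subtype.ext
  exact AlgEquiv.restrictNormal_commutes δ F (a : F)

/-- the prime below a conjugate prime -/
theorem s14_ar_under_smul (δ : N ≃ₐ[F₀] N) (Q : Ideal (𝓞 N)) :
    (δ • Q).under (𝓞 F) = (δ.restrictNormal F) • (Q.under (𝓞 F)) := by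
  ext a
  rw [Ideal.under_def, Ideal.mem_comap, Ideal.mem_pointwise_smul_iff_inv_smul_mem,
    Ideal.mem_pointwise_smul_iff_inv_smul_mem, Ideal.under_def, Ideal.mem_comap]
  have h := s14_ar_algebraMap_smul F₀ F N δ ((δ.restrictNormal F)⁻¹ • a)
  rw [smul_inv_smul] at h
  rw [h, inv_smul_smul]

/-- conjugate ideals have the same residue cardinality -/
theorem s14_ar_card_quot_smul {G : Type*} [Group G] [MulSemiringAction G (𝓞 F)]
    (g : G) (q : Ideal (𝓞 F)) :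
    Nat.card (𝓞 F ⧸ (g • q)) = Nat.card (𝓞 F ⧸ q) := by
  have e : (𝓞 F ⧸ q) ≃+* (𝓞 F ⧸ (g • q)) :=
    Ideal.quotientEquiv q (g • q) (MulSemiringAction.toRingEquiv G (𝓞 F) g) rfl
  exact (Nat.card_congr e.toEquiv).symm

/-- The conjugate of a Frobenius element is a Frobenius element at the conjugate prime. -/
theorem s14_ar_conj_isArithFrobAt (δ : N ≃ₐ[F₀] N) (σ : N ≃ₐ[F] N) (Q : Ideal (𝓞 N))
    (hσ : IsArithFrobAt (𝓞 F) σ Q) :
    IsArithFrobAt (𝓞 F) (s14_ar_conj F₀ F N δ σ) (δ • Q) := by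
  intro y
  simp only [MulSemiringAction.toAlgHom_apply]
  rw [s14_ar_under_smul, s14_ar_card_quot_smul, s14_ar_conj_smul,
    Ideal.mem_pointwise_smul_iff_inv_smul_mem, smul_sub, inv_smul_smul, smul_pow']
  exact hσ (δ⁻¹ • y)

/-- Conjugate primes (by the big Galois group) are simultaneously inertia-free. -/
theorem s14_ar_unr_smul' (δ : N ≃ₐ[F₀] N) (Q : Ideal (𝓞 N)) (hunr : s14_ar_Unr F N Q) :
    s14_ar_Unr F N (δ • Q) := by
  intro σ hσ
  have h1 : s14_ar_conj F₀ F N δ⁻¹ σ = 1 := by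
    apply hunr
    intro x
    have h2 := hσ (δ • x)
    rw [Ideal.mem_pointwise_smul_iff_inv_smul_mem, smul_sub, inv_smul_smul] at h2
    rw [s14_ar_conj_smul, inv_inv]
    exact h2
  apply AlgEquiv.ext
  intro x
  have h3 := congrArg (fun τ : N ≃ₐ[F] N => τ (δ⁻¹ x)) h1
  simp only [s14_ar_conj_apply, AlgEquiv.one_apply] at h3
  have h4 : (δ⁻¹ : N ≃ₐ[F₀] N).symm (δ⁻¹ x) = x := by
    show δ (δ.symm x) = x
    simp
  rw [h4] at h3
  have h5 := congrArg δ h3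
  have h6 : δ (δ⁻¹ (σ x)) = σ x := by
    show δ (δ.symm (σ x)) = σ x
    simp
  have h7 : δ (δ⁻¹ x) = x := by
    show δ (δ.symm x) = x
    simp
  rw [h6, h7] at h5
  exact h5

/-- **Equivariance of the Frobenius element** under automorphisms of a bigger Galois group:
`frob (δ q) = δ frob(q) δ⁻¹`. -/
theorem s14_ar_frob_conj (hab : ∀ σ τ : N ≃ₐ[F] N, σ * τ = τ * σ) (δ : N ≃ₐ[F₀] N)
    (q : Ideal (𝓞 F)) (Q : Ideal (𝓞 N)) [Q.IsPrime] (hQ : Q ≠ ⊥)
    (hQq : Q.under (𝓞 F) = q) (hunr : s14_ar_Unr F N Q) :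
    s14_ar_frob F N ((δ.restrictNormal F) • q) = s14_ar_conj F₀ F N δ (s14_ar_frob F N q) := by
  have hσ := s14_ar_frob_isArithFrobAt F N hab q Q hQ hQq
  have h1 := s14_ar_conj_isArithFrobAt F₀ F N δ _ Q hσ
  have hQ' : δ • Q ≠ ⊥ := by
    intro h
    apply hQ
    have := congrArg (fun I => δ⁻¹ • I) h
    simpa using this
  have hunder : (δ • Q).under (𝓞 F) = (δ.restrictNormal F) • q := by
    rw [s14_ar_under_smul, hQq]
  exact (s14_ar_eq_frob F N hab _ (δ • Q) hQ' hunder (s14_ar_unr_smul' F₀ F N δ Q hunr) _ h1).symm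

/-- Elementwise form of the equivariance. -/
theorem s14_ar_frob_conj_apply (hab : ∀ σ τ : N ≃ₐ[F] N, σ * τ = τ * σ) (δ : N ≃ₐ[F₀] N)
    (q : Ideal (𝓞 F)) (Q : Ideal (𝓞 N)) [Q.IsPrime] (hQ : Q ≠ ⊥)
    (hQq : Q.under (𝓞 F) = q) (hunr : s14_ar_Unr F N Q) (x : N) :
    s14_ar_frob F N ((δ.restrictNormal F) • q) (δ x) = δ (s14_ar_frob F N q x) := by
  rw [s14_ar_frob_conj F₀ F N hab δ q Q hQ hQq hunr, s14_ar_conj_apply']

/-- Group-theoretic form of the equivariance, in `Gal(N/F₀)`. -/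
theorem s14_ar_frob_conj_restrictScalars (hab : ∀ σ τ : N ≃ₐ[F] N, σ * τ = τ * σ)
    (δ : N ≃ₐ[F₀] N) (q : Ideal (𝓞 F)) (Q : Ideal (𝓞 N)) [Q.IsPrime] (hQ : Q ≠ ⊥)
    (hQq : Q.under (𝓞 F) = q) (hunr : s14_ar_Unr F N Q) :
    (s14_ar_frob F N ((δ.restrictNormal F) • q)).restrictScalars F₀ =
      δ * (s14_ar_frob F N q).restrictScalars F₀ * δ⁻¹ := by
  rw [s14_ar_frob_conj F₀ F N hab δ q Q hQ hQq hunr, s14_ar_conj_restrictScalars]

end
end Fermat.Agent.S14
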