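import Fermat.Agent.S14.EndNL

/-!
# S14 / EndAux: auxiliary facts for END

* `s14_end_sum_exponentSet` : `p ∤ ∑_{0 < c, 2c < p} c` for an odd prime `p`.
* `s14_end_exists_prime_mem` : every prime of `𝓞 K` contains a rational prime.
* `s14_end_exists_tau` : the automorphisms `τ c = σ_c⁻¹` of the `p`-th cyclotomic field.
* `s14_end_pow_of_ne_one` : in a group of prime order every element is a power of a given
  nontrivial one.
-/

set_option autoImplicit false
set_option linter.unusedSectionVars false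

namespace Fermat.Agent.S14

open NumberField IsDedekindDomain
open scoped Pointwise

theorem s14_end_exponentSet_eq (p : ℕ) (hp : p.Prime) (hp2 : p ≠ 2) :
    Stickelberger.exponentSet p = Finset.Icc 1 ((p - 1) / 2) := by
  have hodd : p % 2 = 1 := (hp.eq_two_or_odd).resolve_left hp2
  ext c
  simp only [Stickelberger.mem_exponentSet, Finset.mem_Icc]
  omega

theorem s14_end_sum_Icc_mul_two (m : ℕ) :
    (∑ c ∈ Finset.Icc 1 m, c) * 2 = (m + 1) * m := by
  induction m with
  | zero => simp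
  | succ m ih =>
    rw [Finset.sum_Icc_succ_top (by omega), add_mul, ih]
    ring

theorem s14_end_sum_exponentSet_mul_two (p : ℕ) (hp : p.Prime) (hp2 : p ≠ 2) :
    (∑ c ∈ Stickelberger.exponentSet p, c) * 2 = ((p - 1) / 2 + 1) * ((p - 1) / 2) := by
  rw [s14_end_exponentSet_eq p hp hp2, s14_end_sum_Icc_mul_two]

theorem s14_end_sum_exponentSet (p : ℕ) (hp : p.Prime) (hp2 : p ≠ 2) :
    ¬ p ∣ ∑ c ∈ Stickelberger.exponentSet p, c := by
  intro hdvd
  have hodd : p % 2 = 1 := (hp.eq_two_or_odd).resolve_left hp2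
  have h2 : p ∣ ((p - 1) / 2 + 1) * ((p - 1) / 2) := by
    rw [← s14_end_sum_exponentSet_mul_two p hp hp2]
    exact Dvd.dvd.mul_right hdvd 2
  have hp3 : 3 ≤ p := by
    have := hp.two_le
    omega
  rcases (Nat.Prime.dvd_mul hp).1 h2 with h | h
  · exact absurd (Nat.le_of_dvd (by omega) h) (by omega)
  · exact absurd (Nat.le_of_dvd (by omega) h) (by omega)

variable {K : Type*} [Field K] [NumberField K]

theorem s14_end_exists_prime_mem (v : HeightOneSpectrum (𝓞 K)) :
    ∃ ℓ : ℕ, ℓ.Prime ∧ (ℓ : 𝓞 K) ∈ v.asIdeal := by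
  have key : ∀ n : ℕ, n ≠ 1 → n ≠ 0 → (n : 𝓞 K) ∈ v.asIdeal →
      ∃ ℓ : ℕ, ℓ.Prime ∧ (ℓ : 𝓞 K) ∈ v.asIdeal := by
    intro n
    induction n using Nat.strong_induction_on with
    | _ n ih =>
      intro hn1 hn0 hmem
      obtain ⟨ℓ, hℓ, m, rfl⟩ : ∃ ℓ : ℕ, ℓ.Prime ∧ ∃ m, n = ℓ * m :=
        ⟨n.minFac, Nat.minFac_prime hn1, Nat.minFac_dvd n⟩
      rw [Nat.cast_mul] at hmem
      rcases v.isPrime.mem_or_mem hmem with h | h
      · exact ⟨ℓ, hℓ, h⟩
      · have hm0 : m ≠ 0 := by rintro rfl; simp at hn0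
        have hm1 : m ≠ 1 := by
          rintro rfl
          rw [Nat.cast_one] at h
          exact v.isPrime.ne_top ((Ideal.eq_top_iff_one _).2 h)
        have hlt : m < ℓ * m := by
          have := hℓ.two_le
          nlinarith [Nat.pos_of_ne_zero hm0]
        exact ih m hlt hm1 hm0 h
  refine key (Ideal.absNorm v.asIdeal) ?_ ?_ (Ideal.absNorm_mem _)
  · rw [Ne, Ideal.absNorm_eq_one_iff]; exact v.isPrime.ne_top
  · rw [Ne, Ideal.absNorm_eq_zero_iff]; exact v.ne_bot

/-- in a group of prime order `p`, every element is a power (with exponent `< p`) of a given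
nontrivial element. -/
theorem s14_end_pow_of_ne_one {G : Type*} [Group G] {p : ℕ} [Fact p.Prime]
    (hcard : Nat.card G = p) {g : G} (hg : g ≠ 1) (σ : G) :
    ∃ d : ℕ, d < p ∧ σ = g ^ d := by
  have : Finite G := Nat.finite_of_card_ne_zero (by rw [hcard]; exact (Fact.out : p.Prime).ne_zero)
  have hord : orderOf g = p := by
    have h1 : orderOf g ∣ p := hcard ▸ orderOf_dvd_natCard g
    rcases (Nat.dvd_prime (Fact.out : p.Prime)).1 h1 with h | h
    · exact absurd (orderOf_eq_one_iff.1 h) hg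
    · exact h
  have hmem : σ ∈ Subgroup.zpowers g := by
    rw [zpowers_eq_top_of_prime_card hcard hg]; trivial
  rw [← mem_powers_iff_mem_zpowers] at hmem
  obtain ⟨d, rfl⟩ := hmem
  refine ⟨d % p, Nat.mod_lt _ (Fact.out : p.Prime).pos, ?_⟩
  rw [← hord, pow_mod_orderOf]

theorem s14_end_pow_eq_one_iff {G : Type*} [Group G] {p : ℕ} [Fact p.Prime]
    (hcard : Nat.card G = p) {g : G} (hg : g ≠ 1) (d : ℕ) :
    g ^ d = 1 ↔ p ∣ d := by
  have hord : orderOf g = p := by
    have h1 : orderOf g ∣ p := hcard ▸ orderOf_dvd_natCard g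
    rcases (Nat.dvd_prime (Fact.out : p.Prime)).1 h1 with h | h
    · exact absurd (orderOf_eq_one_iff.1 h) hg
    · exact h
  rw [← hord, orderOf_dvd_iff_pow_eq_one]

/-- the automorphisms `τ c = σ_c⁻¹` of the `p`-th cyclotomic field, `0 < c < p`. -/
theorem s14_end_exists_tau (p : ℕ) [Fact p.Prime] (hcyc : IsCyclotomicExtension {p} ℚ K) :
    ∃ τ : ℕ → (K ≃ₐ[ℚ] K), ∀ c : ℕ, 0 < c → c < p → ∀ ζ : K, ζ ^ p = 1 → τ c (ζ ^ c) = ζ := by
  classical
  have hp : p.Prime := Fact.out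
  have : NeZero p := ⟨hp.ne_zero⟩
  have hirr : Irreducible (Polynomial.cyclotomic p ℚ) :=
    Polynomial.cyclotomic.irreducible_rat hp.pos
  have hζ₀ : IsPrimitiveRoot (IsCyclotomicExtension.zeta p ℚ K) p :=
    IsCyclotomicExtension.zeta_spec p ℚ K
  have hprim : ∀ c : ℕ, 0 < c → c < p →
      IsPrimitiveRoot ((IsCyclotomicExtension.zeta p ℚ K) ^ c) p := by
    intro c hc0 hcp
    refine hζ₀.pow_of_coprime c ?_
    exact Nat.Coprime.symm ((Nat.Prime.coprime_iff_not_dvd hp).2 (Nat.not_dvd_of_pos_of_lt hc0 hcp))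
  refine ⟨fun c => if h : 0 < c ∧ c < p then
    (IsCyclotomicExtension.fromZetaAut (hprim c h.1 h.2) hirr).symm else 1, ?_⟩
  intro c hc0 hcp ζ hζ
  simp only [hc0, hcp, and_self, dif_pos]
  obtain ⟨j, -, rfl⟩ := hζ₀.eq_pow_of_pow_eq_one hζ
  rw [← pow_mul, mul_comm, pow_mul, map_pow]
  congr 1
  rw [AlgEquiv.symm_apply_eq, IsCyclotomicExtension.fromZetaAut_spec]

end Fermat.Agent.S14
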