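import Fermat.Agent.S14.Defs

/-!
# S14 / EndNL: calculus of norm-like ideals with empty modulus

`s14_end_NL K L p a` is `s14_NormLike K L p ∅ ∅ a` with the empty conditions removed.
We prove the subgroup-like closure properties used by END.
-/

set_option autoImplicit false
set_option linter.unusedSectionVars false

namespace Fermat.Agent.S14

open NumberField IsDedekindDomain
open scoped Pointwise

variable (K L : Type*) [Field K] [NumberField K] [Field L] [NumberField L] [Algebra K L]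

/-- norm-like with empty modulus, simplified form. -/
def s14_end_NL (p : ℕ) (a : Ideal (𝓞 K)) : Prop :=
  ∃ (b c : Ideal (𝓞 K)) (x : 𝓞 K), b ≠ ⊥ ∧ x ≠ 0 ∧ a * b ^ p = Ideal.span {x} * c ∧
    ∀ v : HeightOneSpectrum (𝓞 K), c ≤ v.asIdeal → s14_Splits K L v.asIdeal

theorem s14_end_NL_iff (p : ℕ) (a : Ideal (𝓞 K)) :
    s14_NormLike K L p ∅ ∅ a ↔ s14_end_NL K L p a := by
  constructor
  · rintro ⟨b, c, x, hb, hx, h, -, -, hc⟩
    exact ⟨b, c, x, hb, hx, h, fun v hv => (hc v hv).2.2⟩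
  · rintro ⟨b, c, x, hb, hx, h, hc⟩
    refine ⟨b, c, x, hb, hx, h, ?_, ?_, ?_⟩
    · intro v hv
      simp at hv
    · intro t ht
      simp at ht
    · intro v hv
      exact ⟨by simp, by simp, hc v hv⟩

variable {K L}

theorem s14_end_NL_mul {p : ℕ} {a a' : Ideal (𝓞 K)} (h : s14_end_NL K L p a)
    (h' : s14_end_NL K L p a') : s14_end_NL K L p (a * a') := by
  obtain ⟨b, c, x, hb, hx, h, hc⟩ := h
  obtain ⟨b', c', x', hb', hx', h', hc'⟩ := h'
  refine ⟨b * b', c * c', x * x', mul_ne_zero hb hb', mul_ne_zero hx hx', ?_, ?_⟩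
  · rw [mul_pow, ← Ideal.span_singleton_mul_span_singleton]
    calc a * a' * (b ^ p * b' ^ p) = (a * b ^ p) * (a' * b' ^ p) := by ring
      _ = (Ideal.span {x} * c) * (Ideal.span {x'} * c') := by rw [h, h']
      _ = _ := by ring
  · intro v hv
    rcases (v.isPrime.mul_le).1 hv with h1 | h1
    · exact hc v h1
    · exact hc' v h1

theorem s14_end_NL_one {p : ℕ} : s14_end_NL K L p (⊤ : Ideal (𝓞 K)) := by
  refine ⟨⊤, ⊤, 1, by simp, one_ne_zero, by simp, ?_⟩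
  intro v hv
  exact absurd (top_le_iff.1 hv) v.isPrime.ne_top

theorem s14_end_NL_pow {p : ℕ} {a : Ideal (𝓞 K)} (h : s14_end_NL K L p a) (n : ℕ) :
    s14_end_NL K L p (a ^ n) := by
  induction n with
  | zero => simpa using (s14_end_NL_one (K := K) (L := L) (p := p))
  | succ n ih => rw [pow_succ]; exact s14_end_NL_mul ih h

theorem s14_end_NL_principal {p : ℕ} {x : 𝓞 K} (hx : x ≠ 0) :
    s14_end_NL K L p (Ideal.span {x}) := by
  refine ⟨⊤, ⊤, x, by simp, hx, by rw [← Ideal.one_eq_top, one_pow, mul_one], ?_⟩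
  intro v hv
  exact absurd (top_le_iff.1 hv) v.isPrime.ne_top

theorem s14_end_NL_split {p : ℕ} (v : HeightOneSpectrum (𝓞 K))
    (hv : s14_Splits K L v.asIdeal) : s14_end_NL K L p v.asIdeal := by
  refine ⟨⊤, v.asIdeal, 1, by simp, one_ne_zero,
    by rw [← Ideal.one_eq_top, one_pow, mul_one, Ideal.span_singleton_one, Ideal.top_mul], ?_⟩
  intro w hw
  have : v = w := by
    have hmax : v.asIdeal.IsMaximal := v.isMaximal
    exact HeightOneSpectrum.ext (hmax.eq_of_le w.isPrime.ne_top hw)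
  rw [← this]; exact hv

/-- every nonzero ideal has an "inverse up to a principal ideal". -/
theorem s14_end_exists_mul_eq_span {a : Ideal (𝓞 K)} (ha : a ≠ ⊥) :
    ∃ (b : Ideal (𝓞 K)) (x : 𝓞 K), b ≠ ⊥ ∧ x ≠ 0 ∧ a * b = Ideal.span {x} := by
  obtain ⟨x, hxa, hx0⟩ := Submodule.exists_mem_ne_zero_of_ne_bot ha
  have hle : Ideal.span {x} ≤ a := (Ideal.span_singleton_le_iff_mem a).2 hxa
  obtain ⟨b, hb⟩ := Ideal.dvd_iff_le.2 hle
  refine ⟨b, x, ?_, hx0, hb.symm⟩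
  rintro rfl
  rw [Ideal.mul_bot, Ideal.span_singleton_eq_bot] at hb
  exact hx0 hb

theorem s14_end_NL_pow_p {p : ℕ} {a : Ideal (𝓞 K)} (ha : a ≠ ⊥) :
    s14_end_NL K L p (a ^ p) := by
  obtain ⟨b, x, hb, hx, h⟩ := s14_end_exists_mul_eq_span ha
  refine ⟨b, ⊤, x ^ p, hb, pow_ne_zero _ hx, ?_, ?_⟩
  · rw [← mul_pow, h, Ideal.span_singleton_pow]; simp
  · intro v hv
    exact absurd (top_le_iff.1 hv) v.isPrime.ne_top

/-- cancellation: if `a * a'` and `a'` are norm-like then so is `a`. -/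
theorem s14_end_NL_cancel {p : ℕ} (hp : 0 < p) {a a' : Ideal (𝓞 K)} (ha' : a' ≠ ⊥)
    (h : s14_end_NL K L p (a * a')) (h' : s14_end_NL K L p a') : s14_end_NL K L p a := by
  obtain ⟨b₁, c₁, x₁, hb₁, hx₁, h₁, hc₁⟩ := h
  obtain ⟨b₂, c₂, x₂, hb₂, hx₂, h₂, hc₂⟩ := h'
  obtain ⟨b₂', y₂, hb₂', hy₂, hby⟩ := s14_end_exists_mul_eq_span hb₂
  have hc₂0 : c₂ ≠ ⊥ := by
    rintro rfl
    rw [Ideal.mul_bot] at h₂
    exact (mul_ne_zero ha' (pow_ne_zero p hb₂)) h₂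
  have hsx₂ : Ideal.span {x₂} ≠ (⊥ : Ideal (𝓞 K)) := by
    rwa [Ne, Ideal.span_singleton_eq_bot]
  obtain ⟨m, rfl⟩ : ∃ m, p = m + 1 := ⟨p - 1, by omega⟩
  refine ⟨b₁ * c₂ * b₂' * Ideal.span {x₂}, c₁ * c₂ ^ m, x₁ * y₂ ^ (m + 1) * x₂ ^ m,
    mul_ne_zero (mul_ne_zero (mul_ne_zero hb₁ hc₂0) hb₂') hsx₂,
    mul_ne_zero (mul_ne_zero hx₁ (pow_ne_zero _ hy₂)) (pow_ne_zero _ hx₂), ?_, ?_⟩
  · have hcancel : a' * b₂ ^ (m + 1) ≠ 0 := mul_ne_zero ha' (pow_ne_zero _ hb₂)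
    apply mul_right_cancel₀ hcancel
    have e1 : a * (b₁ * c₂ * b₂' * Ideal.span {x₂}) ^ (m + 1) * (a' * b₂ ^ (m + 1))
        = (a * a' * b₁ ^ (m + 1)) * c₂ ^ (m + 1) * (b₂ * b₂') ^ (m + 1)
          * Ideal.span {x₂} ^ (m + 1) := by ring
    have e2 : Ideal.span {x₁ * y₂ ^ (m + 1) * x₂ ^ m} * (c₁ * c₂ ^ m) * (a' * b₂ ^ (m + 1))
        = Ideal.span {x₁} * Ideal.span {y₂} ^ (m + 1) * Ideal.span {x₂} ^ m * (c₁ * c₂ ^ m)
          * (Ideal.span {x₂} * c₂) := by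
      rw [h₂, ← Ideal.span_singleton_mul_span_singleton,
        ← Ideal.span_singleton_mul_span_singleton, Ideal.span_singleton_pow,
        Ideal.span_singleton_pow]
    rw [e1, e2, h₁, hby]
    ring
  · intro v hv
    rcases (v.isPrime.mul_le).1 hv with h1 | h1
    · exact hc₁ v h1
    · exact hc₂ v (v.isPrime.le_of_pow_le h1)

end Fermat.Agent.S14
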