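import Mathlib

/-!
# S14 / WeakApprox: weak approximation in a Dedekind domain (CRT form)

`R` Dedekind domain, `K` its fraction field, `v : HeightOneSpectrum R`,
`v.valuation K x = exp (- ord_v x)`.

* `s14_wa_int`   : CRT for elements of `R` (restatement of Mathlib).
* `s14_wa_exists_valuation` : prescribe `ord_v x = n v` on a finite set of primes.
* `s14_wa_exists_close` : given `z v ≠ 0` and `M`, find `w ≠ 0` with
  `ord_v (w / z v - 1) ≥ M` for all `v` in a finite set.
-/

set_option autoImplicit false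

open IsDedekindDomain IsDedekindDomain.HeightOneSpectrum WithZero

namespace Fermat.Agent.S14

variable {R : Type*} [CommRing R] [IsDedekindDomain R]
variable (K : Type*) [Field K] [Algebra R K] [IsFractionRing R K]

/-- CRT: simultaneous congruences modulo powers of distinct primes. -/
theorem s14_wa_int (S : Finset (HeightOneSpectrum R)) (e : HeightOneSpectrum R → ℕ)
    (x : HeightOneSpectrum R → R) :
    ∃ y : R, ∀ v ∈ S, y - x v ∈ v.asIdeal ^ e v := by
  classical
  obtain ⟨y, hy⟩ := IsDedekindDomain.exists_forall_sub_mem_ideal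
    (s := S) (fun v : HeightOneSpectrum R => v.asIdeal) e
    (fun v _ => v.prime)
    (fun v _ w _ hvw h => hvw (HeightOneSpectrum.ext h))
    (fun v => x v.1)
  exact ⟨y, fun v hv => hy v hv⟩

/-- If `y ≡ x mod v^(n+1)` and `ord_v x = n` then `ord_v y = n` (integral version). -/
theorem s14_wa_intValuation_eq_of_sub_mem (v : HeightOneSpectrum R) {x y : R} {n : ℕ}
    (hx : v.intValuation x = exp (-(n : ℤ))) (hxy : y - x ∈ v.asIdeal ^ (n + 1)) :
    v.intValuation y = exp (-(n : ℤ)) := by
  have h1 : v.intValuation (y - x) ≤ exp (-((n + 1 : ℕ) : ℤ)) :=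
    (v.intValuation_le_pow_iff_mem _ _).2 hxy
  have h2 : v.intValuation (y - x) < v.intValuation x := by
    rw [hx]
    refine lt_of_le_of_lt h1 ?_
    rw [exp_lt_exp]
    push_cast
    omega
  have h3 : v.intValuation y = v.intValuation (y - x + x) := by ring_nf
  rw [h3, Valuation.map_add_eq_of_lt_right _ h2, hx]

/-- For every `n : ℕ` there is `a ∈ R` with prescribed valuations `exp (-(n v))` on `S`. -/
theorem s14_wa_exists_intValuation (S : Finset (HeightOneSpectrum R))
    (n : HeightOneSpectrum R → ℕ) :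
    ∃ a : R, a ≠ 0 ∧ ∀ v ∈ S, v.intValuation a = exp (-(n v : ℤ)) := by
  classical
  rcases S.eq_empty_or_nonempty with rfl | hS
  · exact ⟨1, one_ne_zero, by simp⟩
  choose π hπ using fun v : HeightOneSpectrum R => v.intValuation_exists_uniformizer
  obtain ⟨a, ha⟩ := s14_wa_int S (fun v => n v + 1) (fun v => π v ^ n v)
  have hval : ∀ v ∈ S, v.intValuation a = exp (-(n v : ℤ)) := by
    intro v hv
    refine s14_wa_intValuation_eq_of_sub_mem v ?_ (ha v hv)
    rw [map_pow, hπ v, ← exp_nsmul]
    simp
  refine ⟨a, ?_, hval⟩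
  rintro rfl
  obtain ⟨v, hv⟩ := hS
  have := hval v hv
  rw [map_zero] at this
  exact WithZero.exp_ne_zero this.symm

/-- Weak approximation for valuations: prescribe `ord_v x = n v` for `v` in a finite set. -/
theorem s14_wa_exists_valuation (S : Finset (HeightOneSpectrum R))
    (n : HeightOneSpectrum R → ℤ) :
    ∃ x : K, x ≠ 0 ∧ ∀ v ∈ S, v.valuation K x = exp (-(n v)) := by
  classical
  obtain ⟨a, ha0, ha⟩ := s14_wa_exists_intValuation S (fun v => (n v).toNat)
  obtain ⟨b, hb0, hb⟩ := s14_wa_exists_intValuation S (fun v => (-(n v)).toNat)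
  have ha0' : algebraMap R K a ≠ 0 := by
    simpa using (IsFractionRing.injective R K).ne ha0
  have hb0' : algebraMap R K b ≠ 0 := by
    simpa using (IsFractionRing.injective R K).ne hb0
  refine ⟨algebraMap R K a / algebraMap R K b, div_ne_zero ha0' hb0', fun v hv => ?_⟩
  rw [map_div₀, valuation_of_algebraMap, valuation_of_algebraMap, ha v hv, hb v hv,
    ← exp_sub]
  congr 1
  omega

/-- Weak approximation, multiplicative closeness: given nonzero `z v` and a precision `M`, there
is a nonzero `w` with `ord_v (w / z v - 1) ≥ M` for all `v ∈ S`. -/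
theorem s14_wa_exists_close (S : Finset (HeightOneSpectrum R))
    (z : HeightOneSpectrum R → K) (hz : ∀ v ∈ S, z v ≠ 0) (M : ℕ) :
    ∃ w : K, w ≠ 0 ∧ ∀ v ∈ S, v.valuation K (w / z v - 1) ≤ exp (-(M : ℤ)) := by
  classical
  -- common denominator
  have hden : ∃ d : R, d ≠ 0 ∧ ∀ v ∈ S, ∃ c : R, algebraMap R K c = algebraMap R K d * z v := by
    induction S using Finset.induction_on with
    | empty => exact ⟨1, one_ne_zero, by simp⟩
    | insert u T hu ih =>
      obtain ⟨d, hd0, hd⟩ := ih (fun v hv => hz v (Finset.mem_insert_of_mem hv))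
      obtain ⟨⟨c, s⟩, hcs⟩ := IsLocalization.surj (nonZeroDivisors R) (z u)
      refine ⟨d * s, mul_ne_zero hd0 (nonZeroDivisors.coe_ne_zero s), fun v hv => ?_⟩
      rcases Finset.mem_insert.1 hv with rfl | hvT
      · refine ⟨d * c, ?_⟩
        simp only at hcs
        rw [map_mul, map_mul, ← hcs]; ring
      · obtain ⟨c', hc'⟩ := hd v hvT
        refine ⟨c' * s, ?_⟩
        rw [map_mul, map_mul, hc']; ring
  obtain ⟨d, hd0, hd⟩ := hden
  have hd0' : algebraMap R K d ≠ 0 := by
    simpa using (IsFractionRing.injective R K).ne hd0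
  choose! c hc using hd
  -- c v = d * z v ∈ R, nonzero for v ∈ S
  have hc0 : ∀ v ∈ S, c v ≠ 0 := by
    intro v hv h0
    have := hc v hv
    rw [h0, map_zero] at this
    exact (mul_ne_zero hd0' (hz v hv)) this.symm
  -- N v := ord_v (c v)
  have hN : ∀ v ∈ S, ∃ N : ℕ, v.intValuation (c v) = exp (-(N : ℤ)) := by
    intro v hv
    refine ⟨((Associates.mk v.asIdeal).count (Associates.mk (Ideal.span {c v})).factors), ?_⟩
    rw [v.intValuation_if_neg (hc0 v hv)]
  choose! N hNv using hN
  rcases S.eq_empty_or_nonempty with rfl | hS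
  · exact ⟨1, one_ne_zero, by simp⟩
  obtain ⟨y, hy⟩ := s14_wa_int S (fun v => M + N v + 1) c
  have hyval : ∀ v ∈ S, v.intValuation y = exp (-(N v : ℤ)) := by
    intro v hv
    refine s14_wa_intValuation_eq_of_sub_mem v (hNv v hv) ?_
    exact Ideal.pow_le_pow_right (by omega) (hy v hv)
  have hy0 : y ≠ 0 := by
    rintro rfl
    obtain ⟨v, hv⟩ := hS
    have := hyval v hv
    rw [map_zero] at this
    exact WithZero.exp_ne_zero this.symm
  have hy0' : algebraMap R K y ≠ 0 := by
    simpa using (IsFractionRing.injective R K).ne hy0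
  refine ⟨algebraMap R K y / algebraMap R K d, div_ne_zero hy0' hd0', fun v hv => ?_⟩
  have hzv := hz v hv
  have hcv : algebraMap R K (c v) ≠ 0 := by
    rw [hc v hv]; exact mul_ne_zero hd0' hzv
  have key : algebraMap R K y / algebraMap R K d / z v - 1
      = algebraMap R K (y - c v) / algebraMap R K (c v) := by
    rw [hc v hv, map_sub, hc v hv]
    field_simp
  rw [key, map_div₀, valuation_of_algebraMap, valuation_of_algebraMap, hNv v hv]
  have h1 : v.intValuation (y - c v) ≤ exp (-((M + N v + 1 : ℕ) : ℤ)) :=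
    (v.intValuation_le_pow_iff_mem _ _).2 (hy v hv)
  rw [div_le_iff₀ (by simp), ← exp_add]
  refine h1.trans ?_
  rw [exp_le_exp]
  push_cast
  omega

end Fermat.Agent.S14
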