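import Mathlib
import Fermat.Agent.S14.Defs
import Fermat.Agent.S14.FIStmt
import Fermat.Agent.S14.FIStmt2
import Fermat.Agent.S14.FIIdeal
import Fermat.Agent.S14.FIGalois
import Fermat.Agent.S14.WeakApprox

/-!
# S14 (FI) — local norm-type groups at the non-split primes (OWNER: helper7)

For a prime `v` of `F` we define a subgroup `s14_fi_NmG F N p v ≤ Fˣ`:
* `v` unramified: the elements whose `v`-adic valuation is a `p`-th power;
* `v` ramified: (principal units at `v`) · (norms from `Nˣ`).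
For `v` not split completely in `N/F` (Galois of prime degree `p`) it contains all norms, all
principal units at `v`, and it is a proper subgroup.
-/

set_option autoImplicit false
set_option linter.unusedSectionVars false

open IsDedekindDomain IsDedekindDomain.HeightOneSpectrum WithZero NumberField
open scoped Pointwise

namespace Fermat.Agent.S14

section groups

variable (F : Type*) [Field F] [NumberField F]

/-- principal units at `v`. -/
def s14_fi_U1 (v : HeightOneSpectrum (𝓞 F)) : Subgroup Fˣ where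
  carrier := {x | v.valuation F ((x : F) - 1) < 1}
  one_mem' := by simp
  mul_mem' := by
    intro a b ha hb
    simp only [Set.mem_setOf_eq] at ha hb ⊢
    have : ((a * b : Fˣ) : F) - 1 = ((a : F) - 1) * ((b : F) - 1) + (((a : F) - 1) + ((b : F) - 1)) := by
      push_cast; ring
    rw [this]
    refine Valuation.map_add_lt _ ?_ (Valuation.map_add_lt _ ha hb)
    rw [map_mul]
    exact mul_lt_one_of_nonneg_of_lt_one_left zero_le' ha hb.le
  inv_mem' := by
    intro a ha
    simp only [Set.mem_setOf_eq] at ha ⊢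
    have h1 : v.valuation F (a : F) = 1 := by
      have : (a : F) = 1 + ((a : F) - 1) := by ring
      rw [this]
      exact Valuation.map_one_add_of_lt _ ha
    have : ((a⁻¹ : Fˣ) : F) - 1 = -(((a : F) - 1) * ((a⁻¹ : Fˣ) : F)) := by
      have ha0 : (a : F) ≠ 0 := a.ne_zero
      push_cast
      field_simp
      ring
    rw [this, Valuation.map_neg, map_mul]
    have h2 : v.valuation F ((a⁻¹ : Fˣ) : F) = 1 := by
      push_cast
      rw [map_inv₀, h1, inv_one]
    rw [h2, mul_one]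
    exact ha

theorem s14_fi_mem_U1 (v : HeightOneSpectrum (𝓞 F)) (x : Fˣ) :
    x ∈ s14_fi_U1 F v ↔ v.valuation F ((x : F) - 1) < 1 := Iff.rfl

theorem s14_fi_val_of_mem_U1 (v : HeightOneSpectrum (𝓞 F)) (x : Fˣ) (hx : x ∈ s14_fi_U1 F v) :
    v.valuation F (x : F) = 1 := by
  have : (x : F) = 1 + ((x : F) - 1) := by ring
  rw [this]
  exact Valuation.map_one_add_of_lt _ hx

/-- elements whose valuation at `v` is a `p`-th power. -/
def s14_fi_Vp (p : ℕ) (v : HeightOneSpectrum (𝓞 F)) : Subgroup Fˣ where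
  carrier := {x | ∃ γ : ℤᵐ⁰, v.valuation F (x : F) = γ ^ p}
  one_mem' := ⟨1, by simp⟩
  mul_mem' := by
    rintro a b ⟨γ, hγ⟩ ⟨δ, hδ⟩
    exact ⟨γ * δ, by push_cast; rw [map_mul, hγ, hδ, mul_pow]⟩
  inv_mem' := by
    rintro a ⟨γ, hγ⟩
    exact ⟨γ⁻¹, by push_cast; rw [map_inv₀, hγ, inv_pow]⟩

theorem s14_fi_mem_Vp (p : ℕ) (v : HeightOneSpectrum (𝓞 F)) (x : Fˣ) :
    x ∈ s14_fi_Vp F p v ↔ ∃ γ : ℤᵐ⁰, v.valuation F (x : F) = γ ^ p := Iff.rfl

end groups

variable (F N : Type*) [Field F] [NumberField F] [Field N] [NumberField N] [Algebra F N]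

/-- the group of norms from `Nˣ`. -/
noncomputable def s14_fi_normRange : Subgroup Fˣ := (Units.map (Algebra.norm F : N →* F)).range

theorem s14_fi_mem_normRange (x : Fˣ) :
    x ∈ s14_fi_normRange F N ↔ ∃ b : Nˣ, Algebra.norm F (b : N) = (x : F) := by
  unfold s14_fi_normRange
  rw [MonoidHom.mem_range]
  constructor
  · rintro ⟨b, hb⟩
    exact ⟨b, by rw [← hb]; rfl⟩
  · rintro ⟨b, hb⟩
    exact ⟨b, Units.ext (by rw [← hb]; rfl)⟩

open Classical in
/-- the local norm-type group at `v`. -/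
noncomputable def s14_fi_NmG (p : ℕ) (v : HeightOneSpectrum (𝓞 F)) : Subgroup Fˣ :=
  if s14_UnramAt F N v.asIdeal then s14_fi_Vp F p v else s14_fi_U1 F v ⊔ s14_fi_normRange F N

theorem s14_fi_NmG_unram (p : ℕ) (v : HeightOneSpectrum (𝓞 F))
    (h : s14_UnramAt F N v.asIdeal) : s14_fi_NmG F N p v = s14_fi_Vp F p v := by
  unfold s14_fi_NmG; rw [if_pos h]

theorem s14_fi_NmG_ram (p : ℕ) (v : HeightOneSpectrum (𝓞 F))
    (h : ¬ s14_UnramAt F N v.asIdeal) :
    s14_fi_NmG F N p v = s14_fi_U1 F v ⊔ s14_fi_normRange F N := by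
  unfold s14_fi_NmG; rw [if_neg h]

/-- principal units lie in the local group. -/
theorem s14_fi_U1_le_NmG (p : ℕ) (v : HeightOneSpectrum (𝓞 F)) :
    s14_fi_U1 F v ≤ s14_fi_NmG F N p v := by
  by_cases h : s14_UnramAt F N v.asIdeal
  · rw [s14_fi_NmG_unram F N p v h]
    intro x hx
    exact ⟨1, by rw [s14_fi_val_of_mem_U1 F v x hx, one_pow]⟩
  · rw [s14_fi_NmG_ram F N p v h]
    exact le_sup_left

variable [IsGalois F N]

/-- norms lie in the local group at a non-split prime. -/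
theorem s14_fi_normRange_le_NmG {p : ℕ} (hp : p.Prime) (hdeg : Module.finrank F N = p)
    (v : HeightOneSpectrum (𝓞 F)) (hns : ¬ s14_Splits F N v.asIdeal) :
    s14_fi_normRange F N ≤ s14_fi_NmG F N p v := by
  by_cases h : s14_UnramAt F N v.asIdeal
  · rw [s14_fi_NmG_unram F N p v h]
    intro x hx
    obtain ⟨b, hb⟩ := (s14_fi_mem_normRange F N x).1 hx
    obtain ⟨w, hw⟩ := s14_fi_exists_above F N v
    exact ⟨w.valuation N (b : N), by
      rw [← hb]; exact s14_fi_val_norm_inert F N hp hdeg v h hns w hw (b : N)⟩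
  · rw [s14_fi_NmG_ram F N p v h]
    exact le_sup_right

/-- `p`-th powers lie in the local group at a non-split prime. -/
theorem s14_fi_pow_mem_NmG {p : ℕ} (hp : p.Prime) (hdeg : Module.finrank F N = p)
    (v : HeightOneSpectrum (𝓞 F)) (hns : ¬ s14_Splits F N v.asIdeal) (x : Fˣ) :
    x ^ p ∈ s14_fi_NmG F N p v := by
  apply s14_fi_normRange_le_NmG F N hp hdeg v hns
  rw [s14_fi_mem_normRange]
  refine ⟨Units.map (algebraMap F N : F →* N) x, ?_⟩
  have : ((Units.map (algebraMap F N : F →* N) x : Nˣ) : N) = algebraMap F N (x : F) := rfl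
  rw [this, Algebra.norm_algebraMap, hdeg]
  push_cast
  rfl

/-- an integer prime to `t` that is a `p`-th power residue modulo `t` lies in the local group at
the non-split prime `t`. -/
theorem s14_fi_admissible_mem_NmG {p : ℕ} (hp : p.Prime) (hdeg : Module.finrank F N = p)
    (t : HeightOneSpectrum (𝓞 F)) (hns : ¬ s14_Splits F N t.asIdeal)
    (x : Fˣ) (x₀ y : 𝓞 F) (hx : (x : F) = algebraMap (𝓞 F) F x₀) (hxt : x₀ ∉ t.asIdeal)
    (hy : x₀ - y ^ p ∈ t.asIdeal) : x ∈ s14_fi_NmG F N p t := by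
  have hyt : y ∉ t.asIdeal := by
    intro h
    apply hxt
    have : x₀ = (x₀ - y ^ p) + y ^ p := by ring
    rw [this]
    exact t.asIdeal.add_mem hy (t.asIdeal.pow_mem_of_mem h p hp.pos)
  have hy0 : (algebraMap (𝓞 F) F y) ≠ 0 := by
    intro h
    apply hyt
    have : y = 0 := by
      exact (FaithfulSMul.algebraMap_injective (𝓞 F) F) (by rw [h, map_zero])
    rw [this]; exact t.asIdeal.zero_mem
  set yu : Fˣ := Units.mk0 _ hy0 with hyu
  have h1 : x = (x / yu ^ p) * yu ^ p := by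
    rw [div_mul_cancel]
  rw [h1]
  refine mul_mem ?_ (s14_fi_pow_mem_NmG F N hp hdeg t hns yu)
  apply s14_fi_U1_le_NmG F N p t
  rw [s14_fi_mem_U1]
  have hvy : t.valuation F (algebraMap (𝓞 F) F y) = 1 := by
    rw [valuation_of_algebraMap]
    exact s14_fi_intVal_eq_one t hyt
  have : ((x / yu ^ p : Fˣ) : F) - 1 =
      algebraMap (𝓞 F) F (x₀ - y ^ p) / (algebraMap (𝓞 F) F y) ^ p := by
    push_cast
    rw [hx, hyu]
    simp only [Units.val_mk0]
    field_simp
  rw [this, map_div₀, map_pow, hvy, one_pow, div_one, valuation_of_algebraMap]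
  exact (intValuation_lt_one_iff_mem t _).2 hy

/-- `exp (-1)` is not a `p`-th power in `ℤᵐ⁰` for `p ≥ 2`. -/
theorem s14_fi_exp_neg_one_ne_pow {p : ℕ} (hp : 2 ≤ p) (γ : ℤᵐ⁰) : exp (-1 : ℤ) ≠ γ ^ p := by
  intro h
  have hγ : γ ≠ 0 := by
    rintro rfl
    rw [zero_pow (by omega)] at h
    exact exp_ne_zero h
  have h2 := congrArg log h
  rw [log_exp, log_pow] at h2
  have h3 : (-1 : ℤ) = (p : ℤ) * log γ := by rw [h2]; simp
  have h4 : (p : ℤ) ∣ 1 := ⟨-log γ, by linarith⟩
  have h5 := Int.eq_one_of_dvd_one (by positivity) h4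
  omega

/-- `p`-th roots are unique in `ℤᵐ⁰`. -/
theorem s14_fi_pow_inj {p : ℕ} (hp : p ≠ 0) {γ δ : ℤᵐ⁰} (h : γ ^ p = δ ^ p) : γ = δ := by
  by_cases hγ : γ = 0
  · subst hγ
    rw [zero_pow hp] at h
    exact (pow_eq_zero_iff hp).1 h.symm |>.symm
  by_cases hδ : δ = 0
  · subst hδ
    rw [zero_pow hp] at h
    exact (pow_eq_zero_iff hp).1 h
  have h2 := congrArg log h
  rw [log_pow, log_pow] at h2
  have h3 : log γ = log δ := by
    have : (p : ℤ) * log γ = (p : ℤ) * log δ := by simpa using h2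
    exact mul_left_cancel₀ (by exact_mod_cast hp) this
  rw [← exp_log hγ, ← exp_log hδ, h3]

end Fermat.Agent.S14

namespace Fermat.Agent.S14

section tests

variable (F N : Type) [Field F] [NumberField F] [Field N] [NumberField N] [Algebra F N]
  [IsGalois F N]

/-- the local group is a proper subgroup. -/
theorem s14_fi_NmG_ne_top (hRAM : s14_fi_stmt_RAM) {p : ℕ} (hp : p.Prime)
    (hdeg : Module.finrank F N = p) (hζ : ∃ ζ : F, IsPrimitiveRoot ζ p)
    (v : HeightOneSpectrum (𝓞 F))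
    (hpv : ¬ s14_UnramAt F N v.asIdeal → (p : 𝓞 F) ∉ v.asIdeal) :
    ∃ z : Fˣ, z ∉ s14_fi_NmG F N p v := by
  by_cases h : s14_UnramAt F N v.asIdeal
  · rw [s14_fi_NmG_unram F N p v h]
    obtain ⟨π, hπ⟩ := v.valuation_exists_uniformizer F
    have hπ0 : π ≠ 0 := by
      rintro rfl
      rw [map_zero] at hπ
      exact exp_ne_zero hπ.symm
    refine ⟨Units.mk0 π hπ0, ?_⟩
    rintro ⟨γ, hγ⟩
    rw [Units.val_mk0, hπ] at hγ
    exact s14_fi_exp_neg_one_ne_pow hp.two_le γ hγ
  · rw [s14_fi_NmG_ram F N p v h]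
    obtain ⟨z, hzv, hz⟩ := hRAM F N p hp hdeg hζ v (hpv h) h
    have hz0 : algebraMap (𝓞 F) F z ≠ 0 := by
      intro h0
      apply hzv
      have : z = 0 := (FaithfulSMul.algebraMap_injective (𝓞 F) F) (by rw [h0, map_zero])
      rw [this]; exact v.asIdeal.zero_mem
    refine ⟨Units.mk0 _ hz0, ?_⟩
    intro hmem
    obtain ⟨r, hr, n, hn, hrn⟩ := Subgroup.mem_sup.1 hmem
    obtain ⟨b, hb⟩ := (s14_fi_mem_normRange F N n).1 hn
    apply hz (b : N) b.ne_zero
    have : algebraMap (𝓞 F) F z / Algebra.norm F (b : N) = (r : F) := by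
      rw [hb]
      have h1 : algebraMap (𝓞 F) F z = (r : F) * (n : F) := by
        have := congrArg (fun u : Fˣ => (u : F)) hrn
        simp only [Units.val_mul, Units.val_mk0] at this
        exact this.symm
      rw [h1, mul_div_assoc, div_self n.ne_zero, mul_one]
    rw [this]
    exact hr

/-- test elements: for a finite set `V` of primes, elements `y v` outside the local group at `v`
but inside the local groups at the other primes of `V`. -/
theorem s14_fi_exists_tests (hRAM : s14_fi_stmt_RAM) {p : ℕ} (hp : p.Prime)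
    (hdeg : Module.finrank F N = p) (hζ : ∃ ζ : F, IsPrimitiveRoot ζ p)
    (V : Finset (HeightOneSpectrum (𝓞 F)))
    (hpv : ∀ v ∈ V, ¬ s14_UnramAt F N v.asIdeal → (p : 𝓞 F) ∉ v.asIdeal) :
    ∃ y : HeightOneSpectrum (𝓞 F) → Fˣ, ∀ v ∈ V, y v ∉ s14_fi_NmG F N p v ∧
      ∀ v' ∈ V, v' ≠ v → y v ∈ s14_fi_NmG F N p v' := by
  classical
  have key : ∀ v ∈ V, ∃ y : Fˣ, y ∉ s14_fi_NmG F N p v ∧
      ∀ v' ∈ V, v' ≠ v → y ∈ s14_fi_NmG F N p v' := by
    intro v hv
    obtain ⟨z, hz⟩ := s14_fi_NmG_ne_top F N hRAM hp hdeg hζ v (hpv v hv)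
    obtain ⟨w, hw0, hw⟩ := s14_wa_exists_close F V
      (fun v' => if v' = v then (z : F) else 1)
      (by intro v' _; by_cases h : v' = v <;> simp [h]) 1
    have hlt : exp (-((1 : ℕ) : ℤ)) < (1 : ℤᵐ⁰) := by
      rw [← exp_zero, exp_lt_exp]; norm_num
    refine ⟨Units.mk0 w hw0, ?_, ?_⟩
    · intro hmem
      apply hz
      have h1 := hw v hv
      rw [if_pos rfl] at h1
      have h2 : (Units.mk0 w hw0) / z ∈ s14_fi_NmG F N p v := by
        apply s14_fi_U1_le_NmG F N p v
        rw [s14_fi_mem_U1]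
        have : (((Units.mk0 w hw0) / z : Fˣ) : F) = w / (z : F) := by
          push_cast; rfl
        rw [this]
        exact lt_of_le_of_lt h1 hlt
      have h3 : z = (Units.mk0 w hw0) * ((Units.mk0 w hw0) / z)⁻¹ := by
        rw [inv_div, mul_div_cancel]
      rw [h3]
      exact mul_mem hmem (inv_mem h2)
    · intro v' hv' hne
      have h1 := hw v' hv'
      rw [if_neg hne, div_one] at h1
      apply s14_fi_U1_le_NmG F N p v'
      rw [s14_fi_mem_U1]
      exact lt_of_le_of_lt h1 hlt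
  choose! y hy using key
  exact ⟨y, hy⟩

end tests

end Fermat.Agent.S14
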