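import Mathlib
import Fermat.Agent.S14.Defs
import Fermat.Agent.S14.FIStmt
import Fermat.Agent.S14.FIIdeal
import Fermat.Agent.S14.FIGalois
import Fermat.Agent.S14.FINorm
import Fermat.Agent.S14.FILocal

/-!
# S14 (FI) — the key step (A2) (OWNER: helper7)

If EVERY nonzero ideal coprime to `T` is norm-like, and `S ⊇ T` is a finite set of primes such
that the primes of `N` above `S` generate the class group of `N`, then every `x₀ ∈ Fˣ` is
congruent, modulo the local norm-type groups at all non-split primes of `S`, to an `S`-unit.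
-/

set_option autoImplicit false
set_option linter.unusedSectionVars false

open IsDedekindDomain IsDedekindDomain.HeightOneSpectrum WithZero NumberField
open scoped Pointwise

namespace Fermat.Agent.S14

/-- `a b^p = (x) c` with `a`, `c` prime to `v`: the valuation of `x` is a `p`-th power. -/
theorem s14_fi_intVal_pow_of_eq {R : Type*} [CommRing R] [IsDedekindDomain R]
    (v : HeightOneSpectrum R) {x : R} (hx : x ≠ 0) {a b c : Ideal R} (p : ℕ)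
    (h : a * b ^ p = Ideal.span {x} * c) (ha : ¬ a ≤ v.asIdeal) (hc : ¬ c ≤ v.asIdeal)
    (hc0 : c ≠ ⊥) (hb0 : b ≠ ⊥) :
    v.intValuation x = (exp (-(multiplicity v.asIdeal b : ℤ))) ^ p := by
  have hx0 : Ideal.span {x} ≠ ⊥ := by simpa using hx
  have h0 : Ideal.span {x} * c ≠ ⊥ := mul_ne_zero hx0 hc0
  have hab0 : a * b ^ p ≠ ⊥ := by rw [h]; exact h0
  have hfin1 : FiniteMultiplicity v.asIdeal (a * b ^ p) :=
    FiniteMultiplicity.of_prime_left v.prime hab0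
  have hfin2 : FiniteMultiplicity v.asIdeal (Ideal.span {x} * c) :=
    FiniteMultiplicity.of_prime_left v.prime h0
  have hfinb : FiniteMultiplicity v.asIdeal b := FiniteMultiplicity.of_prime_left v.prime hb0
  have hma : multiplicity v.asIdeal a = 0 :=
    multiplicity_eq_zero.2 (fun hd => ha (Ideal.le_of_dvd hd))
  have hmc : multiplicity v.asIdeal c = 0 :=
    multiplicity_eq_zero.2 (fun hd => hc (Ideal.le_of_dvd hd))
  have h1 : multiplicity v.asIdeal (a * b ^ p) = p * multiplicity v.asIdeal b := by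
    rw [multiplicity_mul v.prime hfin1, hma, zero_add, hfinb.multiplicity_pow v.prime]
  have h2 : multiplicity v.asIdeal (Ideal.span {x} * c) = multiplicity v.asIdeal (Ideal.span {x}) := by
    rw [multiplicity_mul v.prime hfin2, hmc, add_zero]
  rw [v.intValuation_eq_exp_neg_multiplicity hx, ← h2, ← h, h1, ← exp_nsmul]
  congr 1
  push_cast
  simp

theorem s14_fi_mem_unit {R : Type*} [CommRing R] [IsDedekindDomain R] (K : Type*) [Field K]
    [Algebra R K] [IsFractionRing R K] (S : Set (HeightOneSpectrum R)) (x : Kˣ) :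
    x ∈ S.unit K ↔ ∀ v : HeightOneSpectrum R, v ∉ S → v.valuation K (x : K) = 1 := Iff.rfl

section key

variable (F N : Type*) [Field F] [NumberField F] [Field N] [NumberField N] [Algebra F N]
  [IsGalois F N]

/-- hypothesis of the proof by contradiction: every nonzero ideal coprime to `T` is norm-like. -/
def s14_fi_AllNormLike (p : ℕ) (T : Finset (HeightOneSpectrum (𝓞 F))) : Prop :=
  ∀ a : Ideal (𝓞 F), a ≠ ⊥ → s14_CoprimeTo F T a → s14_NormLike F N p ∅ T a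

/-- the primes of `N` above `S` generate the class group of `N`. -/
def s14_fi_GenN (S : Finset (HeightOneSpectrum (𝓞 F))) : Prop :=
  ∀ I : Ideal (𝓞 N), I ≠ ⊥ → ∃ (z : 𝓞 N) (J : Ideal (𝓞 N)), z ≠ 0 ∧ J ≠ ⊥ ∧
    Ideal.span {z} = I * J ∧ ∀ w : HeightOneSpectrum (𝓞 N), J ≤ w.asIdeal →
      w ∈ s14_fi_above F N S

theorem s14_fi_coe_ne_zero {K : Type*} [Field K] [NumberField K] {z : 𝓞 K} (hz : z ≠ 0) :
    algebraMap (𝓞 K) K z ≠ 0 := by
  intro h0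
  exact hz ((FaithfulSMul.algebraMap_injective (𝓞 K) K) (by rw [h0, map_zero]))

/-- (A2), integral case. -/
theorem s14_fi_A2_int {p : ℕ} (hp : p.Prime) (hdeg : Module.finrank F N = p)
    (T S : Finset (HeightOneSpectrum (𝓞 F))) (hTS : T ⊆ S)
    (hT : ∀ v : HeightOneSpectrum (𝓞 F), v ∉ T → s14_UnramAt F N v.asIdeal)
    (H : s14_fi_AllNormLike F N p T) (hgen : s14_fi_GenN F N S)
    (x₁ : 𝓞 F) (hx₁ : x₁ ≠ 0) (xu : Fˣ) (hxu : (xu : F) = algebraMap (𝓞 F) F x₁) :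
    ∃ u : Fˣ, u ∈ (S : Set (HeightOneSpectrum (𝓞 F))).unit F ∧
      ∀ v ∈ S, ¬ s14_Splits F N v.asIdeal → u / xu ∈ s14_fi_NmG F N p v := by
  classical
  have hx₁0 : Ideal.span {x₁} ≠ ⊥ := by simpa using hx₁
  obtain ⟨𝔞, 𝔰, hsplit, h𝔞, h𝔰⟩ :=
    s14_fi_exists_split_ideal (S : Set (HeightOneSpectrum (𝓞 F))) (Ideal.span {x₁}) hx₁0
  rw [hsplit] at hx₁0
  have h𝔞0 : 𝔞 ≠ ⊥ := left_ne_zero_of_mul hx₁0
  have h𝔰0 : 𝔰 ≠ ⊥ := right_ne_zero_of_mul hx₁0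
  have hcop : s14_CoprimeTo F T 𝔞 := fun t ht => h𝔞 t (hTS ht)
  obtain ⟨b, c, x, hb0, hx0, heq, hbx, hres, hc⟩ := H 𝔞 h𝔞0 hcop
  have hbp0 : b ^ p ≠ ⊥ := pow_ne_zero p hb0
  have hab0 : 𝔞 * b ^ p ≠ ⊥ := mul_ne_zero h𝔞0 hbp0
  have hc0 : c ≠ ⊥ := by
    rw [heq] at hab0
    exact right_ne_zero_of_mul hab0
  obtain ⟨A, hA0, hA⟩ := s14_fi_exists_relNorm_eq F N c hc0 (fun v hv => (hc v hv).2.2)
  obtain ⟨z₁, 𝔖₁, hz₁0, h𝔖₁0, hz₁, h𝔖₁⟩ := hgen A hA0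
  have hmap0 : b.map (algebraMap (𝓞 F) (𝓞 N)) ≠ ⊥ := by
    intro h
    exact hb0 ((Ideal.map_eq_bot_iff_of_injective
      (FaithfulSMul.algebraMap_injective (𝓞 F) (𝓞 N))).1 h)
  obtain ⟨z₂, 𝔖₂, hz₂0, h𝔖₂0, hz₂, h𝔖₂⟩ := hgen _ hmap0
  have hn₁ : Ideal.span {Algebra.intNorm (𝓞 F) (𝓞 N) z₁} = c * Ideal.relNorm (𝓞 F) 𝔖₁ := by
    rw [← Ideal.relNorm_singleton, hz₁, map_mul, hA]
  have hn₂ : Ideal.span {Algebra.intNorm (𝓞 F) (𝓞 N) z₂} =
      b ^ p * Ideal.relNorm (𝓞 F) 𝔖₂ := by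
    rw [← Ideal.relNorm_singleton, hz₂, map_mul, Ideal.relNorm_algebraMap,
      ← IsFractionRing.finrank_eq (𝓞 F) F (𝓞 N) N, hdeg]
  have hid : Ideal.span {x₁ * Algebra.intNorm (𝓞 F) (𝓞 N) z₂} * Ideal.relNorm (𝓞 F) 𝔖₁ =
      Ideal.span {x * Algebra.intNorm (𝓞 F) (𝓞 N) z₁} * (𝔰 * Ideal.relNorm (𝓞 F) 𝔖₂) := by
    rw [← Ideal.span_singleton_mul_span_singleton, ← Ideal.span_singleton_mul_span_singleton,
      hsplit, hn₁, hn₂]
    calc 𝔞 * 𝔰 * (b ^ p * Ideal.relNorm (𝓞 F) 𝔖₂) * Ideal.relNorm (𝓞 F) 𝔖₁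
        = (𝔞 * b ^ p) * (𝔰 * Ideal.relNorm (𝓞 F) 𝔖₂ * Ideal.relNorm (𝓞 F) 𝔖₁) := by ring
      _ = (Ideal.span {x} * c) * (𝔰 * Ideal.relNorm (𝓞 F) 𝔖₂ * Ideal.relNorm (𝓞 F) 𝔖₁) := by
          rw [heq]
      _ = Ideal.span {x} * (c * Ideal.relNorm (𝓞 F) 𝔖₁) * (𝔰 * Ideal.relNorm (𝓞 F) 𝔖₂) := by
          ring
  -- the units
  set zu₁ : Nˣ := Units.mk0 (algebraMap (𝓞 N) N z₁) (s14_fi_coe_ne_zero hz₁0) with hzu₁
  set zu₂ : Nˣ := Units.mk0 (algebraMap (𝓞 N) N z₂) (s14_fi_coe_ne_zero hz₂0) with hzu₂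
  set m₁ : Fˣ := Units.map (Algebra.norm F : N →* F) zu₁ with hm₁
  set m₂ : Fˣ := Units.map (Algebra.norm F : N →* F) zu₂ with hm₂
  set x' : Fˣ := Units.mk0 (algebraMap (𝓞 F) F x) (s14_fi_coe_ne_zero hx0) with hx'
  have hm₁v : (m₁ : F) = algebraMap (𝓞 F) F (Algebra.intNorm (𝓞 F) (𝓞 N) z₁) := by
    rw [Algebra.algebraMap_intNorm (A := 𝓞 F) (K := F) (L := N) (B := 𝓞 N)]
    rfl
  have hm₂v : (m₂ : F) = algebraMap (𝓞 F) F (Algebra.intNorm (𝓞 F) (𝓞 N) z₂) := by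
    rw [Algebra.algebraMap_intNorm (A := 𝓞 F) (K := F) (L := N) (B := 𝓞 N)]
    rfl
  have hm₁mem : m₁ ∈ s14_fi_normRange F N := (s14_fi_mem_normRange F N m₁).2 ⟨zu₁, rfl⟩
  have hm₂mem : m₂ ∈ s14_fi_normRange F N := (s14_fi_mem_normRange F N m₂).2 ⟨zu₂, rfl⟩
  refine ⟨xu * (m₂ * (x' * m₁)⁻¹), ?_, ?_⟩
  · rw [s14_fi_mem_unit]
    intro v hv
    have hv' : v ∉ S := fun h => hv (by exact_mod_cast h)
    have hI : ¬ Ideal.relNorm (𝓞 F) 𝔖₁ ≤ v.asIdeal := fun h =>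
      hv (s14_fi_relNorm_supported F N (S : Set (HeightOneSpectrum (𝓞 F))) 𝔖₁ h𝔖₁ v h)
    have hJ : ¬ 𝔰 * Ideal.relNorm (𝓞 F) 𝔖₂ ≤ v.asIdeal := by
      intro h
      rcases (v.isPrime.mul_le).1 h with h' | h'
      · exact hv (h𝔰 v h')
      · exact hv (s14_fi_relNorm_supported F N (S : Set (HeightOneSpectrum (𝓞 F))) 𝔖₂ h𝔖₂ v h')
    have hval := s14_fi_val_eq_of_span_mul v hid hI hJ
    have h1 : v.valuation F ((xu : F) * (m₂ : F)) = v.valuation F ((x' : F) * (m₁ : F)) := by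
      rw [hxu, hm₂v, hm₁v, hx', Units.val_mk0, ← map_mul, ← map_mul, valuation_of_algebraMap,
        valuation_of_algebraMap]
      exact hval
    have h2 : v.valuation F ((x' : F) * (m₁ : F)) ≠ 0 := by
      rw [ne_eq, Valuation.zero_iff]
      exact mul_ne_zero x'.ne_zero m₁.ne_zero
    have h3 : ((xu * (m₂ * (x' * m₁)⁻¹) : Fˣ) : F) =
        ((xu : F) * (m₂ : F)) / ((x' : F) * (m₁ : F)) := by
      push_cast
      field_simp
    rw [h3, map_div₀, h1, div_self h2]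
  · intro v hvS hns
    have h1 : xu * (m₂ * (x' * m₁)⁻¹) / xu = m₂ * (x' * m₁)⁻¹ := by
      rw [mul_comm, mul_div_assoc, div_self', mul_one]
    rw [h1]
    have hnr := s14_fi_normRange_le_NmG F N hp hdeg v hns
    refine mul_mem (hnr hm₂mem) (inv_mem (mul_mem ?_ (hnr hm₁mem)))
    by_cases hvT : v ∈ T
    · obtain ⟨y, hy⟩ := hres v hvT
      exact s14_fi_admissible_mem_NmG F N hp hdeg v hns x' x y (by rw [hx', Units.val_mk0])
        (hbx v (Or.inr hvT)).2 hy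
    · rw [s14_fi_NmG_unram F N p v (hT v hvT), s14_fi_mem_Vp]
      refine ⟨exp (-(multiplicity v.asIdeal b : ℤ)), ?_⟩
      rw [hx', Units.val_mk0, valuation_of_algebraMap]
      exact s14_fi_intVal_pow_of_eq v hx0 p heq (h𝔞 v (by exact_mod_cast hvS))
        (fun h => hns (hc v h).2.2) hc0 hb0

/-- (A2): every `x₀ ∈ Fˣ` is congruent to an `S`-unit modulo the local groups at the non-split
primes of `S`. -/
theorem s14_fi_A2 {p : ℕ} (hp : p.Prime) (hdeg : Module.finrank F N = p)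
    (T S : Finset (HeightOneSpectrum (𝓞 F))) (hTS : T ⊆ S)
    (hT : ∀ v : HeightOneSpectrum (𝓞 F), v ∉ T → s14_UnramAt F N v.asIdeal)
    (H : s14_fi_AllNormLike F N p T) (hgen : s14_fi_GenN F N S) (x₀ : Fˣ) :
    ∃ u : Fˣ, u ∈ (S : Set (HeightOneSpectrum (𝓞 F))).unit F ∧
      ∀ v ∈ S, ¬ s14_Splits F N v.asIdeal → u / x₀ ∈ s14_fi_NmG F N p v := by
  obtain ⟨n, d, hd, hnd⟩ := IsFractionRing.div_surjective (A := 𝓞 F) (x₀ : F)
  have hd0 : d ≠ 0 := nonZeroDivisors.ne_zero hd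
  have hn0 : n ≠ 0 := by
    rintro rfl
    rw [map_zero, zero_div] at hnd
    exact x₀.ne_zero hnd.symm
  set du : Fˣ := Units.mk0 (algebraMap (𝓞 F) F d) (s14_fi_coe_ne_zero hd0) with hdu
  have hp1 : p = (p - 1) + 1 := by have := hp.pos; omega
  have hxu : ((x₀ * du ^ p : Fˣ) : F) = algebraMap (𝓞 F) F (n * d ^ (p - 1)) := by
    rw [map_mul, map_pow, Units.val_mul, Units.val_pow_eq_pow_val, ← hnd, hdu, Units.val_mk0]
    have h0 := s14_fi_coe_ne_zero hd0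
    have h1 : (algebraMap (𝓞 F) F d) ^ p = (algebraMap (𝓞 F) F d) ^ (p - 1) * algebraMap (𝓞 F) F d := by
      rw [← pow_succ, ← hp1]
    rw [h1]
    field_simp
  obtain ⟨u, hu, huv⟩ := s14_fi_A2_int F N hp hdeg T S hTS hT H hgen (n * d ^ (p - 1))
    (mul_ne_zero hn0 (pow_ne_zero _ hd0)) (x₀ * du ^ p) hxu
  refine ⟨u, hu, fun v hvS hns => ?_⟩
  have h1 : u / x₀ = u / (x₀ * du ^ p) * du ^ p := by
    rw [div_mul_eq_mul_div, mul_div_mul_right_eq_div]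
  rw [h1]
  exact mul_mem (huv v hvS hns) (s14_fi_pow_mem_NmG F N hp hdeg v hns du)

end key

end Fermat.Agent.S14
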