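import Mathlib
import Fermat.Agent.S14.Defs
import Fermat.Agent.S14.FIStmt
import Fermat.Agent.S14.FIStmt2
import Fermat.Agent.S14.FIIdeal
import Fermat.Agent.S14.FIGalois
import Fermat.Agent.S14.FINorm
import Fermat.Agent.S14.FILocal
import Fermat.Agent.S14.FIKey

/-!
# S14 (FI) — the first inequality (OWNER: helper7)

`s14_fi_main_of : s14_stmt_SU3 → s14_fi_stmt_RAM → s14_fi_stmt_H1 → s14_stmt_FI`.

Proof by contradiction.  If every nonzero ideal coprime to `T` is norm-like, choose a finite set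
`S ⊇ T` of primes of `F` such that `S` generates the class group of `F` and the primes above `S`
generate the class group of `N`.  Then `H¹(G, E_{N,S}) = 1` (FI-H1), and by (A2) the `S`-units
of `F` surject onto `∏_{v ∈ S non-split} Fˣ / Nm_v`, a group with at least `p ^ n` elements, all
of them pairwise inequivalent modulo norms of `S`-units; but the Herbrand quotient (SU3) bounds
the number of such classes by `p ^ (n - 1)`.
-/

set_option autoImplicit false
set_option linter.unusedSectionVars false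

open IsDedekindDomain IsDedekindDomain.HeightOneSpectrum WithZero NumberField
open scoped Pointwise

namespace Fermat.Agent.S14

/-- pure group theory: independent test elements give `p ^ n` distinct classes. -/
theorem s14_fi_count_core {G : Type*} [CommGroup G] {ι : Type*} [Fintype ι] [DecidableEq ι]
    (Nm : ι → Subgroup G) (y : ι → G) {p : ℕ} (hp : p.Prime) (h1 : ∀ i, y i ∉ Nm i)
    (h2 : ∀ i j, j ≠ i → y i ∈ Nm j) (h3 : ∀ i, y i ^ p ∈ Nm i) (k k' : ι → Fin p) (i : ι)
    (hk : k i ≠ k' i) :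
    (∏ j, y j ^ (k j : ℕ)) / (∏ j, y j ^ (k' j : ℕ)) ∉ Nm i := by
  intro hmem
  set φ : G →* G ⧸ Nm i := QuotientGroup.mk' (Nm i) with hφ
  have hφ1 : ∀ g : G, φ g = 1 ↔ g ∈ Nm i := fun g => QuotientGroup.eq_one_iff g
  have hprod : ∀ κ : ι → Fin p, φ (∏ j, y j ^ (κ j : ℕ)) = φ (y i) ^ (κ i : ℕ) := by
    intro κ
    rw [map_prod]
    rw [Finset.prod_eq_single i]
    · rw [map_pow]
    · intro j _ hji
      rw [map_pow, (hφ1 (y j)).2 (h2 j i hji.symm), one_pow]
    · intro h; exact absurd (Finset.mem_univ i) h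
  have hne : φ (y i) ≠ 1 := fun h => h1 i ((hφ1 _).1 h)
  have hpow : φ (y i) ^ p = 1 := by rw [← map_pow]; exact (hφ1 _).2 (h3 i)
  have hord : orderOf (φ (y i)) = p := by
    have := Fact.mk hp
    exact orderOf_eq_prime hpow hne
  have heq : φ (y i) ^ (k i : ℕ) = φ (y i) ^ (k' i : ℕ) := by
    have := (hφ1 _).2 hmem
    rw [map_div, hprod, hprod, div_eq_one] at this
    exact this
  have hmod := (pow_inj_mod (x := φ (y i))).1 heq
  rw [hord, Nat.mod_eq_of_lt (k i).2, Nat.mod_eq_of_lt (k' i).2] at hmod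
  exact hk (Fin.ext hmod)

/-- **(FI)** the first inequality, from (SU3), (FI-RAM) and (FI-H1). -/
theorem s14_fi_main_of (hSU3 : s14_stmt_SU3) (hRAM : s14_fi_stmt_RAM) (hH1 : s14_fi_stmt_H1) :
    s14_stmt_FI := by
  classical
  intro F N _ _ _ _ _ _ p hp hp2 hdeg hζ T hTp hT
  by_contra hcon
  have H : s14_fi_AllNormLike F N p T := by
    intro a ha hcop
    by_contra hn
    exact hcon ⟨a, ha, hcop, hn⟩
  -- the set `S`
  obtain ⟨G₁, hG₁⟩ := s14_fi_exists_generating (R := 𝓞 F)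
  obtain ⟨G₂, hG₂⟩ := s14_fi_exists_generating (R := 𝓞 N)
  set S : Finset (HeightOneSpectrum (𝓞 F)) :=
    T ∪ G₁ ∪ G₂.image (fun w => w.under (𝓞 F)) with hS
  have hTS : T ⊆ S := by
    intro v hv
    rw [hS]
    exact Finset.mem_union_left _ (Finset.mem_union_left _ hv)
  have hgenF : ∀ I : Ideal (𝓞 F), I ≠ ⊥ → ∃ (z : 𝓞 F) (J : Ideal (𝓞 F)), z ≠ 0 ∧ J ≠ ⊥ ∧
      Ideal.span {z} = I * J ∧ ∀ v : HeightOneSpectrum (𝓞 F), J ≤ v.asIdeal → v ∈ S := by
    intro I hI
    obtain ⟨z, J, hz, hJ, h, hsup⟩ := hG₁ I hI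
    exact ⟨z, J, hz, hJ, h, fun v hv =>
      Finset.mem_union_left _ (Finset.mem_union_right _ (hsup v hv))⟩
  have hgenN : s14_fi_GenN F N S := by
    intro I hI
    obtain ⟨z, J, hz, hJ, h, hsup⟩ := hG₂ I hI
    refine ⟨z, J, hz, hJ, h, fun w hw => ?_⟩
    show w.under (𝓞 F) ∈ S
    exact Finset.mem_union_right _ (Finset.mem_image_of_mem _ (hsup w hw))
  have hunr : ∀ v : HeightOneSpectrum (𝓞 F), v ∉ S → s14_UnramAt F N v.asIdeal :=
    fun v hv => hT v (fun h => hv (hTS h))
  -- a generator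
  have hcard : Nat.card (N ≃ₐ[F] N) = p := by
    rw [IsGalois.card_aut_eq_finrank, hdeg]
  obtain ⟨σ, hσ⟩ : ∃ σ : N ≃ₐ[F] N, σ ≠ 1 := by
    by_contra hno
    have hall : ∀ σ : N ≃ₐ[F] N, σ = 1 := fun σ => by
      by_contra h; exact hno ⟨σ, h⟩
    have : Subsingleton (N ≃ₐ[F] N) := ⟨fun a b => by rw [hall a, hall b]⟩
    have : Nat.card (N ≃ₐ[F] N) = 1 := Nat.card_unique
    rw [hcard] at this
    exact hp.one_lt.ne' this
  have hH1' := hH1 F N p hp hdeg S hunr hgenF σ hσ
  have hmain := hSU3 F N p hp hp2 hdeg S σ hσ hH1'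
  -- the non-split primes of `S`
  set V : Finset (HeightOneSpectrum (𝓞 F)) :=
    S.filter (fun v => ¬ s14_Splits F N v.asIdeal) with hV
  have hVS : ∀ v ∈ V, v ∈ S := fun v hv => (Finset.mem_filter.1 hv).1
  have hVns : ∀ v ∈ V, ¬ s14_Splits F N v.asIdeal := fun v hv => (Finset.mem_filter.1 hv).2
  have hpv : ∀ v ∈ V, ¬ s14_UnramAt F N v.asIdeal → (p : 𝓞 F) ∉ v.asIdeal := by
    intro v _ hram
    have hvT : v ∈ T := by
      by_contra h
      exact hram (hT v h)
    exact hTp v hvT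
  obtain ⟨y, hy⟩ := s14_fi_exists_tests F N hRAM hp hdeg hζ V hpv
  -- the `S`-units
  have hA2 := s14_fi_A2 F N hp hdeg T S hTS hT H hgenN
  choose u hu huv using hA2
  set x : (↥V → Fin p) → Fˣ := fun k => ∏ j : ↥V, y j.1 ^ (k j : ℕ) with hx
  have hineq : ∀ k k' : ↥V → Fin p, k ≠ k' →
      ¬ ∃ w : Nˣ, w ∈ (s14_fi_above F N S).unit N ∧
        Algebra.norm F (w : N) = ((u (x k) / u (x k') : Fˣ) : F) := by
    intro k k' hkk' hex
    obtain ⟨w, -, hw⟩ := hex
    obtain ⟨i, hi⟩ := Function.ne_iff.1 hkk'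
    have hi_ns := hVns i.1 i.2
    have hnorm : u (x k) / u (x k') ∈ s14_fi_NmG F N p i.1 :=
      s14_fi_normRange_le_NmG F N hp hdeg i.1 hi_ns
        ((s14_fi_mem_normRange F N _).2 ⟨w, hw⟩)
    have h1 := huv (x k) i.1 (hVS i.1 i.2) hi_ns
    have h2 := huv (x k') i.1 (hVS i.1 i.2) hi_ns
    have h3 : x k / x k' ∈ s14_fi_NmG F N p i.1 := by
      have : x k / x k' = (u (x k) / u (x k')) * (u (x k') / x k') * (u (x k) / x k)⁻¹ := by
        rw [div_mul_div_cancel, ← div_eq_mul_inv, div_div_div_cancel_left]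
      rw [this]
      exact mul_mem (mul_mem hnorm h2) (inv_mem h1)
    refine s14_fi_count_core (fun j : ↥V => s14_fi_NmG F N p j.1) (fun j : ↥V => y j.1) hp
      (fun j => (hy j.1 j.2).1)
      (fun j j' hne => (hy j.1 j.2).2 j'.1 j'.2 (fun h => hne (Subtype.ext h)))
      (fun j => s14_fi_pow_mem_NmG F N hp hdeg j.1 (hVns j.1 j.2) (y j.1)) k k' i hi h3
  have hinj : Function.Injective (fun k : ↥V → Fin p => u (x k)) := by
    intro k k' hkk'
    by_contra hne
    apply hineq k k' hne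
    refine ⟨1, one_mem _, ?_⟩
    have : u (x k) / u (x k') = 1 := by
      have h : u (x k) = u (x k') := hkk'
      rw [h, div_self']
    rw [this]
    simp
  set A : Finset Fˣ := Finset.univ.image (fun k : ↥V → Fin p => u (x k)) with hA
  have hAcard : A.card = p ^ V.card := by
    rw [hA, Finset.card_image_of_injective _ hinj, Finset.card_univ, Fintype.card_fun,
      Fintype.card_fin, Fintype.card_coe]
  have hbound := hmain A
    (by
      intro a ha
      obtain ⟨k, -, rfl⟩ := Finset.mem_image.1 ha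
      exact hu (x k))
    (by
      intro a ha b hb hab
      obtain ⟨k, -, rfl⟩ := Finset.mem_image.1 ha
      obtain ⟨k', -, rfl⟩ := Finset.mem_image.1 hb
      exact hineq k k' (fun h => hab (by rw [h])))
  have hbound' : A.card * p ≤ p ^ V.card := by
    convert hbound using 3
  rw [hAcard] at hbound'
  have hpos : 0 < p ^ V.card := pow_pos hp.pos _
  have h2 : p ^ V.card * 2 ≤ p ^ V.card * p := Nat.mul_le_mul_left _ hp.two_le
  omega

end Fermat.Agent.S14
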