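import Mathlib

/-!
# (HQ) Herbrand quotient by hand — generic index algebra (ADDITIVE convention)

For an abelian group `M` with two endomorphisms `D N : M →+ M` such that `D ∘ N = 0 = N ∘ D`
we put `s14_hq_h D N = [ker D : im N]` (a natural number, `0` when the index is infinite).
For a cyclic group `⟨σ⟩` of order `p` acting on `M`, with `D = σ - 1` and `N = 1 + σ + ⋯ + σ^(p-1)`,
`s14_hq_h D N = |Ĥ⁰|` and `s14_hq_h N D = |H¹|`.

Main results of this file:
* `s14_hq_hexagon` : for a short exact sequence `0 → A → B → C → 0` compatible with the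
  operators, `h⁰(B) h¹(A) h¹(C) = h¹(B) h⁰(A) h⁰(C)` (unconditionally, in `ℕ`).
* `s14_hq_finite_B`, `s14_hq_finite_A`, `s14_hq_finite_C` : two out of three finiteness.
* `s14_hq_h_eq_of_finite` : `h⁰ = h¹ ≠ 0` for a finite module.
-/

namespace Fermat.Agent.S14

open AddSubgroup

/-- `s14_hq_h D N = [ker D : im N]`, `0` if infinite. -/
noncomputable def s14_hq_h {M : Type*} [AddCommGroup M] (D N : M →+ M) : ℕ :=
  N.range.relIndex D.ker

variable {A B C : Type*} [AddCommGroup A] [AddCommGroup B] [AddCommGroup C]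

/-- A short exact sequence `0 → A → B → C → 0` of abelian groups, each with a pair of
endomorphisms `(D, N)` with `D N = 0 = N D`, compatible with the maps. -/
structure s14_hq_SES (f : A →+ B) (g : B →+ C) (DA NA : A →+ A) (DB NB : B →+ B)
    (DC NC : C →+ C) : Prop where
  inj : Function.Injective f
  surj : Function.Surjective g
  exact : f.range = g.ker
  dnA : ∀ a, DA (NA a) = 0
  ndA : ∀ a, NA (DA a) = 0
  dnB : ∀ b, DB (NB b) = 0
  ndB : ∀ b, NB (DB b) = 0
  dnC : ∀ c, DC (NC c) = 0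
  ndC : ∀ c, NC (DC c) = 0
  fD : ∀ a, f (DA a) = DB (f a)
  fN : ∀ a, f (NA a) = NB (f a)
  gD : ∀ b, g (DB b) = DC (g b)
  gN : ∀ b, g (NB b) = NC (g b)

variable {f : A →+ B} {g : B →+ C} {DA NA : A →+ A} {DB NB : B →+ B} {DC NC : C →+ C}

theorem s14_hq_SES.swap (h : s14_hq_SES f g DA NA DB NB DC NC) :
    s14_hq_SES f g NA DA NB DB NC DC :=
  ⟨h.inj, h.surj, h.exact, h.ndA, h.dnA, h.ndB, h.dnB, h.ndC, h.dnC, h.fN, h.fD, h.gN, h.gD⟩

theorem s14_hq_SES.gf (h : s14_hq_SES f g DA NA DB NB DC NC) (a : A) : g (f a) = 0 := by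
  have : f a ∈ g.ker := by rw [← h.exact]; exact ⟨a, rfl⟩
  exact this

theorem s14_hq_SES.exists_of_g_eq_zero (h : s14_hq_SES f g DA NA DB NB DC NC) {b : B}
    (hb : g b = 0) : ∃ a, f a = b := by
  have : b ∈ f.range := by rw [h.exact]; exact hb
  exact this

/-- `x₁ = [ker D_A : f⁻¹ (im N_B)]` -/
noncomputable def s14_hq_alpha (f : A →+ B) (DA : A →+ A) (NB : B →+ B) : ℕ :=
  (NB.range.comap f).relIndex DA.ker

/-- `x₂ = [f⁻¹ (im N_B) : im N_A]` -/
noncomputable def s14_hq_beta (f : A →+ B) (NA : A →+ A) (NB : B →+ B) : ℕ :=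
  NA.range.relIndex (NB.range.comap f)

/-- `x₃ = [g (ker D_B) : im N_C]` -/
noncomputable def s14_hq_gamma (g : B →+ C) (DB : B →+ B) (NC : C →+ C) : ℕ :=
  NC.range.relIndex (DB.ker.map g)

/-- `x₄ = [ker D_C : g (ker D_B)]` -/
noncomputable def s14_hq_delta (g : B →+ C) (DB : B →+ B) (DC : C →+ C) : ℕ :=
  (DB.ker.map g).relIndex DC.ker

theorem s14_hq_h_A (h : s14_hq_SES f g DA NA DB NB DC NC) :
    s14_hq_h DA NA = s14_hq_beta f NA NB * s14_hq_alpha f DA NB := by
  unfold s14_hq_h s14_hq_beta s14_hq_alpha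
  refine (relIndex_mul_relIndex _ _ _ ?_ ?_).symm
  · rintro _ ⟨a, rfl⟩
    exact ⟨f a, (h.fN a).symm⟩
  · rintro a ⟨b, hb⟩
    apply h.inj
    change f (DA a) = f 0
    rw [h.fD, map_zero, ← hb, h.dnB]

theorem s14_hq_h_B (h : s14_hq_SES f g DA NA DB NB DC NC) :
    s14_hq_h DB NB = s14_hq_alpha f DA NB * s14_hq_gamma g DB NC := by
  unfold s14_hq_h s14_hq_gamma s14_hq_alpha
  have h1 : NB.range.relIndex (DA.ker.map f ⊔ NB.range) = (NB.range.comap f).relIndex DA.ker := by
    rw [relIndex_sup_right, relIndex_comap]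
  have h2 : (DA.ker.map f ⊔ NB.range).relIndex DB.ker = NC.range.relIndex (DB.ker.map g) := by
    rw [← relIndex_comap, ← inf_relIndex_right, ← inf_relIndex_right (NC.range.comap g)]
    congr 1
    apply le_antisymm
    · refine le_inf (le_trans inf_le_left (sup_le ?_ ?_)) inf_le_right
      · rintro _ ⟨a, -, rfl⟩
        change g (f a) ∈ NC.range
        rw [h.gf]; exact zero_mem _
      · rintro _ ⟨b, rfl⟩
        exact ⟨g b, (h.gN b).symm⟩
    · rintro b ⟨⟨c, hc⟩, hb⟩
      refine ⟨?_, hb⟩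
      obtain ⟨b', rfl⟩ := h.surj c
      have hb0 : DB b = 0 := hb
      have hg : g (b - NB b') = 0 := by
        rw [map_sub, h.gN, ← hc]; exact sub_self _
      obtain ⟨a, ha⟩ := h.exists_of_g_eq_zero hg
      have haD : DA a = 0 := by
        apply h.inj
        rw [h.fD, ha, map_zero, map_sub, hb0, h.dnB, sub_zero]
      have : b = f a + NB b' := by rw [ha]; abel
      rw [this]
      exact add_mem (mem_sup_left ⟨a, haD, rfl⟩) (mem_sup_right ⟨b', rfl⟩)
  rw [← h1, ← h2]
  refine (relIndex_mul_relIndex _ _ _ le_sup_right (sup_le ?_ ?_)).symm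
  · rintro _ ⟨a, ha, rfl⟩
    have ha0 : DA a = 0 := ha
    change DB (f a) = 0
    rw [← h.fD, ha0, map_zero]
  · rintro _ ⟨b, rfl⟩
    exact h.dnB b

theorem s14_hq_h_C (h : s14_hq_SES f g DA NA DB NB DC NC) :
    s14_hq_h DC NC = s14_hq_gamma g DB NC * s14_hq_delta g DB DC := by
  unfold s14_hq_h s14_hq_gamma s14_hq_delta
  refine (relIndex_mul_relIndex _ _ _ ?_ ?_).symm
  · rintro _ ⟨c, rfl⟩
    obtain ⟨b, rfl⟩ := h.surj c
    exact ⟨NB b, h.dnB b, h.gN b⟩
  · rintro _ ⟨b, hb, rfl⟩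
    have hb0 : DB b = 0 := hb
    change DC (g b) = 0
    rw [← h.gD, hb0, map_zero]

theorem s14_hq_delta_eq_beta (h : s14_hq_SES f g DA NA DB NB DC NC) :
    s14_hq_delta g DB DC = s14_hq_beta f DA DB := by
  unfold s14_hq_delta s14_hq_beta
  have hT1 : DC.ker = (DC.ker.comap g).map g := (map_comap_eq_self_of_surjective h.surj _).symm
  have hkT : DB.ker ≤ DC.ker.comap g := by
    intro b hb
    have hb0 : DB b = 0 := hb
    change DC (g b) = 0
    rw [← h.gD, hb0, map_zero]
  have hgT : g.ker ≤ DC.ker.comap g := by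
    intro b hb
    have hb0 : g b = 0 := hb
    change DC (g b) = 0
    rw [hb0, map_zero]
  have e1 : (DB.ker.map g).relIndex DC.ker = (DB.ker ⊔ g.ker).relIndex (DC.ker.comap g) := by
    conv_lhs => rw [hT1]
    rw [relIndex_map_map, sup_eq_left.mpr hgT]
  have hA1 : DA.range.map f = f.range.map DB := by
    ext b
    constructor
    · rintro ⟨_, ⟨a, rfl⟩, rfl⟩
      exact ⟨f a, ⟨a, rfl⟩, (h.fD a).symm⟩
    · rintro ⟨_, ⟨a, rfl⟩, rfl⟩
      exact ⟨DA a, ⟨a, rfl⟩, h.fD a⟩
  have hA2 : (DB.range.comap f).map f = (DC.ker.comap g).map DB := by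
    ext b
    constructor
    · rintro ⟨a, ⟨b', hb'⟩, rfl⟩
      refine ⟨b', ?_, hb'⟩
      change DC (g b') = 0
      rw [← h.gD, hb', h.gf]
    · rintro ⟨b', hb', rfl⟩
      have hb0 : DC (g b') = 0 := hb'
      have : g (DB b') = 0 := by rw [h.gD, hb0]
      obtain ⟨a, ha⟩ := h.exists_of_g_eq_zero this
      exact ⟨a, ⟨b', ha.symm⟩, ha⟩
  have e2 : DA.range.relIndex (DB.range.comap f)
      = (f.range ⊔ DB.ker).relIndex (DC.ker.comap g) := by
    rw [← relIndex_map_map_of_injective _ _ h.inj, hA1, hA2, relIndex_map_map,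
      sup_eq_left.mpr hkT]
  rw [e1, e2, h.exact, sup_comm]

/-- **Hexagon / multiplicativity of the Herbrand quotient**, unconditional form in `ℕ`:
`h⁰(B) h¹(A) h¹(C) = h¹(B) h⁰(A) h⁰(C)`. -/
theorem s14_hq_hexagon (h : s14_hq_SES f g DA NA DB NB DC NC) :
    s14_hq_h DB NB * s14_hq_h NA DA * s14_hq_h NC DC
      = s14_hq_h NB DB * s14_hq_h DA NA * s14_hq_h DC NC := by
  rw [s14_hq_h_A h, s14_hq_h_B h, s14_hq_h_C h, s14_hq_h_A h.swap, s14_hq_h_B h.swap,
    s14_hq_h_C h.swap, s14_hq_delta_eq_beta h, s14_hq_delta_eq_beta h.swap]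
  ring

/-! ### Two out of three finiteness -/

theorem s14_hq_finite_B (h : s14_hq_SES f g DA NA DB NB DC NC)
    (hA : s14_hq_h DA NA ≠ 0) (hC : s14_hq_h DC NC ≠ 0) : s14_hq_h DB NB ≠ 0 := by
  rw [s14_hq_h_A h] at hA
  rw [s14_hq_h_C h] at hC
  rw [s14_hq_h_B h]
  exact mul_ne_zero (right_ne_zero_of_mul hA) (left_ne_zero_of_mul hC)

theorem s14_hq_finite_C (h : s14_hq_SES f g DA NA DB NB DC NC)
    (hB : s14_hq_h DB NB ≠ 0) (hA : s14_hq_h NA DA ≠ 0) : s14_hq_h DC NC ≠ 0 := by
  rw [s14_hq_h_B h] at hB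
  rw [s14_hq_h_A h.swap] at hA
  rw [s14_hq_h_C h, s14_hq_delta_eq_beta h]
  exact mul_ne_zero (right_ne_zero_of_mul hB) (left_ne_zero_of_mul hA)

theorem s14_hq_finite_A (h : s14_hq_SES f g DA NA DB NB DC NC)
    (hB : s14_hq_h DB NB ≠ 0) (hC : s14_hq_h NC DC ≠ 0) : s14_hq_h DA NA ≠ 0 := by
  rw [s14_hq_h_B h] at hB
  rw [s14_hq_h_C h.swap, s14_hq_delta_eq_beta h.swap] at hC
  rw [s14_hq_h_A h]
  exact mul_ne_zero (right_ne_zero_of_mul hC) (left_ne_zero_of_mul hB)

/-! ### Finite modules -/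

section finite

variable {M : Type*} [AddCommGroup M]

theorem s14_hq_card_range_mul_h (D N : M →+ M) (hDN : ∀ x, D (N x) = 0) :
    Nat.card N.range * s14_hq_h D N = Nat.card D.ker := by
  unfold s14_hq_h
  rw [← relIndex_bot_left, ← relIndex_bot_left]
  refine relIndex_mul_relIndex _ _ _ bot_le ?_
  rintro _ ⟨x, rfl⟩
  exact hDN x

theorem s14_hq_h_ne_zero_of_finite [Finite M] (D N : M →+ M) : s14_hq_h D N ≠ 0 := by
  unfold s14_hq_h relIndex
  exact index_ne_zero_of_finite

/-- The Herbrand quotient of a finite module is `1`: `h⁰ = h¹`. -/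
theorem s14_hq_h_eq_of_finite [Finite M] (D N : M →+ M) (hDN : ∀ x, D (N x) = 0)
    (hND : ∀ x, N (D x) = 0) : s14_hq_h D N = s14_hq_h N D := by
  have h1 := s14_hq_card_range_mul_h D N hDN
  have h2 := s14_hq_card_range_mul_h N D hND
  have h3 : Nat.card D.ker * Nat.card D.range = Nat.card M := by
    rw [← index_ker]; exact card_mul_index _
  have h4 : Nat.card N.ker * Nat.card N.range = Nat.card M := by
    rw [← index_ker]; exact card_mul_index _
  have hD : Nat.card D.range ≠ 0 := Nat.card_pos.ne'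
  have hN : Nat.card N.range ≠ 0 := Nat.card_pos.ne'
  have : (Nat.card N.range * Nat.card D.range) * s14_hq_h D N
      = (Nat.card N.range * Nat.card D.range) * s14_hq_h N D := by
    calc (Nat.card N.range * Nat.card D.range) * s14_hq_h D N
        = (Nat.card N.range * s14_hq_h D N) * Nat.card D.range := by ring
      _ = Nat.card M := by rw [h1, h3]
      _ = (Nat.card D.range * s14_hq_h N D) * Nat.card N.range := by rw [h2, h4]
      _ = _ := by ring
  exact Nat.eq_of_mul_eq_mul_left (Nat.pos_of_ne_zero (mul_ne_zero hN hD)) this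

end finite

/-! ### A single endomorphism: `h(u, 0) = |ker u|`, `h(0, u) = [M : u M]` -/

section single

variable {M : Type*} [AddCommGroup M]

theorem s14_hq_h_zero_right (u : M →+ M) : s14_hq_h u 0 = Nat.card u.ker := by
  unfold s14_hq_h
  rw [AddMonoidHom.range_zero, relIndex_bot_left]

theorem s14_hq_h_zero_left (u : M →+ M) : s14_hq_h 0 u = u.range.index := by
  unfold s14_hq_h
  rw [AddMonoidHom.ker_zero, relIndex_top_right]

/-- Index of a composition: `[M : uvM] |ker u| |ker v| = [M : uM] [M : vM] |ker uv|`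
(unconditionally in `ℕ`). -/
theorem s14_hq_index_comp (u v : M →+ M) :
    (u.comp v).range.index * Nat.card u.ker * Nat.card v.ker
      = u.range.index * v.range.index * Nat.card (u.comp v).ker := by
  have e1 : (u.comp v).range.index = (v.range ⊔ u.ker).index * u.range.index := by
    have hle : (u.comp v).range ≤ u.range := by
      rintro _ ⟨x, rfl⟩; exact ⟨v x, rfl⟩
    rw [← relIndex_mul_index hle]
    congr 1
    have : (u.comp v).range = v.range.map u := by
      rw [AddMonoidHom.range_eq_map, AddMonoidHom.range_eq_map, map_map]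
    rw [this, AddMonoidHom.range_eq_map u, relIndex_map_map, top_sup_eq, relIndex_top_right]
  have e2 : v.range.index = v.range.relIndex u.ker * (v.range ⊔ u.ker).index := by
    rw [← relIndex_sup_left (K := v.range) (H := u.ker)]
    exact (relIndex_mul_index le_sup_left).symm
  have e3 : Nat.card u.ker = Nat.card ↥(v.range ⊓ u.ker) * v.range.relIndex u.ker := by
    rw [← relIndex_bot_left, ← relIndex_bot_left, ← inf_relIndex_right v.range u.ker]
    exact (relIndex_mul_relIndex _ _ _ bot_le inf_le_right).symm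
  have e4 : Nat.card (u.comp v).ker = Nat.card v.ker * Nat.card ↥(v.range ⊓ u.ker) := by
    have hle : v.ker ≤ (u.comp v).ker := by
      intro x hx
      have hx0 : v x = 0 := hx
      change u (v x) = 0
      rw [hx0, map_zero]
    have hmap : (u.comp v).ker.map v = v.range ⊓ u.ker := by
      ext y
      constructor
      · rintro ⟨x, hx, rfl⟩
        exact ⟨⟨x, rfl⟩, hx⟩
      · rintro ⟨⟨x, rfl⟩, hx⟩
        exact ⟨x, hx, rfl⟩
    rw [← hmap, ← relIndex_ker, ← relIndex_bot_left, ← relIndex_bot_left]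
    exact (relIndex_mul_relIndex _ _ _ bot_le hle).symm
  rw [e1, e2, e3, e4]
  ring

end single

end Fermat.Agent.S14
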