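import Mathlib
import Fermat.Agent.S14.I2Stmt
import Fermat.Agent.S14.I2Class

set_option autoImplicit false

/-!
# S14 (I2-S): the interface statement `s14_i2_stmt_S2`, proved.
-/

namespace Fermat.Agent.S14

open NumberField IsDedekindDomain

/-- **(S2)** in the shape of `I2Stmt.lean`. -/
theorem s14_i2s_stmt_S2 : s14_i2_stmt_S2 := by
  intro F _ _ S0
  obtain ⟨S, hS0, hS⟩ := s14_i2s_S2 F S0
  refine ⟨S, hS0, ?_⟩
  intro a ha
  obtain ⟨s, z, hz, -, hsupp, h⟩ := hS a ha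
  exact ⟨s, z, hz, hsupp, h⟩

/-- `s14_i2_Generates` with the extra information `s ≠ ⊥`. -/
theorem s14_i2s_generates_ne_bot (F : Type*) [Field F] [NumberField F]
    (S : Finset (HeightOneSpectrum (𝓞 F))) (hS : s14_i2_Generates F S)
    (a : Ideal (𝓞 F)) (ha : a ≠ ⊥) :
    ∃ (s : Ideal (𝓞 F)) (z : 𝓞 F), z ≠ 0 ∧ s ≠ ⊥ ∧
      (∀ v : HeightOneSpectrum (𝓞 F), s ≤ v.asIdeal → v ∈ S) ∧ a * s = Ideal.span {z} := by
  obtain ⟨s, z, hz, hsupp, h⟩ := hS a ha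
  refine ⟨s, z, hz, ?_, hsupp, h⟩
  rintro rfl
  rw [Ideal.mul_bot] at h
  apply hz
  have : z ∈ (⊥ : Ideal (𝓞 F)) := by rw [h]; exact Ideal.mem_span_singleton_self z
  simpa using this

end Fermat.Agent.S14
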