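import Fermat.Agent.S14.I2Stmt
import Fermat.Agent.S14.I2Count
import Fermat.Agent.S14.Bridge

/-!
# S14 (I2-b) — the key lemma   (OWNER: helper2)

If `S` contains the primes above `p` and generates the class group, and the `S`-units surject
onto `∏_{t ∈ T} k_tˣ / p`, then an `(S ∪ T)`-unit which is a local `p`-th power at every `v ∈ S`
is a `p`-th power.

Proof: otherwise `N := F(y^(1/p))` is a Galois extension of degree `p` (K1), split completely at
every `v ∈ S` (LP2) and unramified outside `S ∪ T` (LP1); the first inequality (FI) gives an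
ideal `a` prime to `T` which is not norm-like for `(∅, T)`, whereas the valuation criterion (NLC)
shows that every ideal prime to `T` is norm-like.
-/

set_option autoImplicit false

namespace Fermat.Agent.S14

open NumberField IsDedekindDomain
open scoped Pointwise

/-- **(I2-b)** the key lemma. -/
theorem s14_i2b_main (hFI : s14_stmt_FI) (hK1 : s14_i2_stmt_K1) (hLP1 : s14_i2_stmt_LP1)
    (hLP2 : s14_i2_stmt_LP2) (hNLC : s14_i2_stmt_NLC) : s14_i2_stmt_Key := by
  intro F _ _ p hp hp2 hζ S T hSp hgen hdisj hTp honto y hyunit hyLam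
  by_contra hypow
  -- `y` is not a `p`-th power in `F`
  have hy : ∀ c : F, c ^ p ≠ (y : F) := by
    intro c hc
    apply hypow
    have hc0 : c ≠ 0 := by
      intro h0
      rw [h0, zero_pow hp.ne_zero] at hc
      exact y.ne_zero hc.symm
    refine ⟨Units.mk0 c hc0, ?_⟩
    ext
    simpa using hc
  obtain ⟨N, _, _, _, _, a, hdeg, ha, hadj⟩ := hK1 F p hp hζ (y : F) hy
  -- the primes in `S` split completely in `N`
  have hsplitS : ∀ v ∈ S, s14_Splits F N v.asIdeal := by
    intro v hv
    refine hLP2 F N p hp hζ (y : F) a y.ne_zero ha hadj v ?_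
    have h1 : y ∈ s14_lp_locPow hp v := by
      have h2 := hyLam
      rw [s14_i2_Lam, Subgroup.mem_iInf] at h2
      have h3 := h2 v
      rw [Subgroup.mem_iInf] at h3
      exact h3 hv
    exact (s14_lp_mem_locPow hp v y).mp h1
  -- `N / F` is unramified outside `T`
  have hunr : ∀ v : HeightOneSpectrum (𝓞 F), v ∉ T → s14_UnramAt F N v.asIdeal := by
    intro v hvT
    by_cases hvS : v ∈ S
    · exact s14_br_unramAt_of_splits F N _ (hsplitS v hvS)
    · refine hLP1 F N p hp hζ (y : F) a ha hadj v (fun hpv => hvS (hSp v hpv)) ?_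
      refine hyunit v ?_
      intro hmem
      rcases hmem with h | h
      · exact hvS h
      · exact hvT h
  obtain ⟨𝔞, h𝔞0, h𝔞T, h𝔞nl⟩ := hFI F N p hp hp2 hdeg hζ T hTp hunr
  apply h𝔞nl
  obtain ⟨s, z, hz0, hsS, hsz⟩ := hgen 𝔞 h𝔞0
  have hzF : algebraMap (𝓞 F) F z ≠ 0 := by
    intro h
    exact hz0 (by simpa using h)
  have hsT : ∀ t ∈ T, ¬ s ≤ t.asIdeal := fun t ht hst =>
    (Finset.disjoint_left.mp hdisj (hsS t hst)) ht
  have hzT : ∀ t ∈ T, t.valuation F ((Units.mk0 _ hzF : Fˣ) : F) = 1 := by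
    intro t ht
    have hzt : z ∉ t.asIdeal := by
      intro hmem
      have hle : 𝔞 * s ≤ t.asIdeal := by
        rw [hsz]
        exact (Ideal.span_singleton_le_iff_mem _).mpr hmem
      rcases (t.isPrime.mul_le).mp hle with h | h
      · exact h𝔞T t ht h
      · exact hsT t ht h
    rw [Units.val_mk0]
    exact (t.valuation_eq_one_iff_notMem).mpr hzt
  obtain ⟨u, huS, hu⟩ := honto (Units.mk0 _ hzF) hzT
  refine hNLC F N p hp ∅ T 𝔞 h𝔞0 (fun t ht => absurd ht (Finset.notMem_empty t)) h𝔞T hTp
    (Units.mk0 _ hzF * u) ?_ hu ?_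
  · intro v hv
    rcases hv with hv | hv
    · exact absurd hv (Finset.notMem_empty v)
    · rw [Units.val_mul, map_mul, hzT v hv, one_mul]
      exact huS v (fun hvS => Finset.disjoint_left.mp hdisj hvS hv)
  · intro v _ hvT hns
    have hvS : v ∉ S := fun hvS => hns (hsplitS v hvS)
    refine ⟨0, ?_⟩
    rw [mul_zero, add_zero, Units.val_mul, map_mul, huS v hvS, mul_one, Units.val_mk0]
    exact s14_i2c_val_of_mul_eq v hz0 hsz (fun h => hvS (hsS v h))

end Fermat.Agent.S14
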