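import Mathlib
import Fermat.Agent.S14.I2Stmt
import Fermat.Agent.S14.I2Kummer

set_option autoImplicit false

/-!
# S14 (I2-K): the Kummer statements in the interface form of `I2Stmt.lean`

* `s14_i2k_K1 : s14_i2_stmt_K1`
* `s14_i2k_K3 : s14_i2_stmt_K3` (index form: `[kum : pow] ≤ p`).
-/

namespace Fermat.Agent.S14

open NumberField IntermediateField

/-- **(K1)** in interface form. -/
theorem s14_i2k_K1 : s14_i2_stmt_K1 := by
  intro F _ _ p hp hζ y hy
  obtain ⟨ζ, hζ⟩ := hζ
  exact s14_i2k_exists_kummer F p hp ζ hζ y hy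

/-- the `p`-th powers are contained in the Kummer group. -/
theorem s14_i2k_pow_le_kum (F B : Type*) [Field F] [NumberField F] [Field B] [Algebra F B]
    (p : ℕ) : s14_i2_pow F p ≤ s14_i2_kum F B p := by
  rintro u ⟨c, rfl⟩
  refine ⟨algebraMap F B (c : F), ?_⟩
  simp [powMonoidHom_apply, Units.val_pow_eq_pow_val, map_pow]

/-- **(K3)** in interface (index) form. -/
theorem s14_i2k_K3 : s14_i2_stmt_K3 := by
  intro F B _ _ _ _ _ _ p hp hdeg hζ
  classical
  obtain ⟨ζ, hζ⟩ := hζ
  obtain ⟨α, β, hα, hβ, hβtop⟩ := s14_i2k_exists_generator (F := F) (B := B) p hp hdeg ζ hζ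
  have hαk : Units.mk0 α hα ∈ s14_i2_kum F B p := ⟨β, by simpa using hβ⟩
  let f : Fin p → (s14_i2_kum F B p) ⧸ (s14_i2_pow F p).subgroupOf (s14_i2_kum F B p) :=
    fun k => QuotientGroup.mk (⟨Units.mk0 α hα, hαk⟩ ^ (k : ℕ))
  have hf : Function.Surjective f := by
    intro q
    induction q using QuotientGroup.induction_on with
    | H u =>
      obtain ⟨u, γ, hγ⟩ := u
      obtain ⟨k, c, hk, hu⟩ := s14_i2k_kummer_lemma (F := F) (B := B) p hp hdeg ζ hζ α β hα hβ
        hβtop (u : F) γ hγ
      have hc : c ≠ 0 := by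
        rintro rfl
        rw [zero_pow hp.ne_zero, mul_zero] at hu
        exact u.ne_zero hu
      refine ⟨⟨k, hk⟩, ?_⟩
      show QuotientGroup.mk _ = QuotientGroup.mk _
      rw [QuotientGroup.eq]
      rw [Subgroup.mem_subgroupOf]
      refine ⟨Units.mk0 c hc, ?_⟩
      apply Units.ext
      simp only [powMonoidHom_apply, Units.val_pow_eq_pow_val, Units.val_mk0,
        Subgroup.coe_mul, Subgroup.coe_inv, Subgroup.coe_pow, Subgroup.coe_mk, Units.val_mul,
        Units.val_inv_eq_inv_val]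
      rw [hu]
      field_simp
  haveI : Finite ((s14_i2_kum F B p) ⧸ (s14_i2_pow F p).subgroupOf (s14_i2_kum F B p)) :=
    Finite.of_surjective f hf
  have hcard := Nat.card_le_card_of_surjective f hf
  rw [Nat.card_fin] at hcard
  constructor
  · rw [Subgroup.relIndex, Subgroup.index_eq_card]
    exact Nat.card_pos.ne'
  · rw [Subgroup.relIndex, Subgroup.index_eq_card]
    exact hcard

end Fermat.Agent.S14
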