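import Mathlib
import Fermat.Agent.S14.Defs
import Fermat.Agent.S14.LPDefs
import Fermat.Agent.S14.I2Stmt
import Fermat.Agent.S14.WeakApprox
import Fermat.Agent.S14.FIIdeal
import Fermat.Agent.S14.I2Class

/-!
# S14 (I2) — the valuation criterion (NLC) for `s14_NormLike`  (OWNER: helper8)

`s14_i2n_main (hint : s14_i2_stmt_LPint) : s14_i2_stmt_NLC`.
-/

set_option autoImplicit false
set_option linter.unusedSectionVars false
set_option linter.unusedVariables false
set_option linter.style.haveILetI false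

namespace Fermat.Agent.S14

open NumberField IsDedekindDomain WithZero

section

variable (F : Type*) [Field F] [NumberField F]

/-- `FractionalIdeal.count` of an integral ideal is the multiplicity. -/
theorem s14_i2n_count_eq (v : HeightOneSpectrum (𝓞 F)) (a : Ideal (𝓞 F)) (ha : a ≠ ⊥) :
    FractionalIdeal.count F v (a : FractionalIdeal (nonZeroDivisors (𝓞 F)) F)
      = (multiplicity v.asIdeal a : ℤ) := by
  classical
  rw [FractionalIdeal.count_coe F v ha,
    Ideal.count_associates_factors_eq ha v.isPrime v.ne_bot,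
    HeightOneSpectrum.count_normalizedFactors_eq_multiplicity ha]

/-- membership in an ideal, tested by valuations. -/
theorem s14_i2n_mem_of_val (a : Ideal (𝓞 F)) (ha : a ≠ ⊥) (y : 𝓞 F)
    (h : ∀ v : HeightOneSpectrum (𝓞 F),
      v.intValuation y ≤ exp (-(multiplicity v.asIdeal a : ℤ))) : y ∈ a := by
  have h1 := Ideal.iInf_maxPowDividing_eq (I := a) ha
  rw [← h1, Ideal.mem_iInf]
  intro v
  rw [HeightOneSpectrum.maxPowDividing_eq_pow_multiplicity ha, ← v.intValuation_le_pow_iff_mem]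
  exact h v

/-- elements of an ideal have small valuation. -/
theorem s14_i2n_val_of_mem (a : Ideal (𝓞 F)) (ha : a ≠ ⊥) (y : 𝓞 F) (hy : y ∈ a)
    (v : HeightOneSpectrum (𝓞 F)) :
    v.intValuation y ≤ exp (-(multiplicity v.asIdeal a : ℤ)) := by
  rw [v.intValuation_le_pow_iff_mem]
  exact Ideal.le_of_dvd (pow_multiplicity_dvd v.asIdeal a) hy

theorem s14_i2n_multiplicity_eq_zero (a : Ideal (𝓞 F)) (v : HeightOneSpectrum (𝓞 F))
    (h : ¬ a ≤ v.asIdeal) : multiplicity v.asIdeal a = 0 :=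
  multiplicity_eq_zero.2 (fun hd => h (Ideal.le_of_dvd hd))

/-- **Step 1**: the auxiliary integer `d`. -/
theorem s14_i2n_exists_d (p : ℕ) (hp : 2 ≤ p) (S₀ : Finset (HeightOneSpectrum (𝓞 F)))
    (a : Ideal (𝓞 F)) (ha : a ≠ ⊥) (hcop : ∀ v ∈ S₀, ¬ a ≤ v.asIdeal) (x : Fˣ)
    (hx : ∀ v ∈ S₀, v.valuation F (x : F) = 1) :
    ∃ d : 𝓞 F, d ≠ 0 ∧ (∀ v ∈ S₀, d ∉ v.asIdeal) ∧
      ∃ x' : 𝓞 F, algebraMap (𝓞 F) F x' = (x : F) * (algebraMap (𝓞 F) F d) ^ p ∧ x' ∈ a := by
  classical
  -- a nonzero element `e` of `a` with `e * x` integral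
  obtain ⟨a₀, ha₀, ha₀0⟩ := Submodule.exists_mem_ne_zero_of_ne_bot ha
  obtain ⟨⟨n₀, m₀⟩, hnm⟩ := IsLocalization.surj (nonZeroDivisors (𝓞 F)) (x : F)
  have hm₀ : (m₀ : 𝓞 F) ≠ 0 := nonZeroDivisors.coe_ne_zero m₀
  set e : 𝓞 F := a₀ * m₀ with he
  have he0 : e ≠ 0 := mul_ne_zero ha₀0 hm₀
  have hea : e ∈ a := a.mul_mem_right _ ha₀
  have hex : (x : F) * algebraMap (𝓞 F) F e = algebraMap (𝓞 F) F (a₀ * n₀) := by
    simp only [he, map_mul]
    rw [← hnm]
    ring
  have hspan : Ideal.span {e} ≠ ⊥ := by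
    rw [Ne, Ideal.span_singleton_eq_bot]; exact he0
  obtain ⟨d, hd0, hd⟩ := s14_wa_exists_intValuation (R := 𝓞 F)
    (s14_i2s_support F (Ideal.span {e}) ∪ S₀)
    (fun v => if v ∈ S₀ then 0 else multiplicity v.asIdeal (Ideal.span {e}))
  have hdS : ∀ v ∈ S₀, v.intValuation d = 1 := by
    intro v hv
    have := hd v (Finset.mem_union_right _ hv)
    simpa [hv] using this
  have hdle : ∀ v : HeightOneSpectrum (𝓞 F), v ∉ S₀ → v.intValuation d ≤ v.intValuation e := by
    intro v hv
    by_cases hvs : v ∈ s14_i2s_support F (Ideal.span {e})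
    · have := hd v (Finset.mem_union_left _ hvs)
      rw [this, if_neg hv, v.intValuation_eq_exp_neg_multiplicity he0]
    · rw [s14_i2s_mem_support F _ hspan, Ideal.span_singleton_le_iff_mem] at hvs
      have h1 : v.intValuation e = 1 := s14_fi_intVal_eq_one v hvs
      rw [h1]
      exact v.intValuation_le_one d
  -- the valuation estimate
  have hval : ∀ v : HeightOneSpectrum (𝓞 F),
      v.valuation F ((x : F) * (algebraMap (𝓞 F) F d) ^ p)
        ≤ exp (-(multiplicity v.asIdeal a : ℤ)) := by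
    intro v
    by_cases hv : v ∈ S₀
    · rw [map_mul, map_pow, hx v hv, HeightOneSpectrum.valuation_of_algebraMap, hdS v hv,
        one_pow, one_mul, s14_i2n_multiplicity_eq_zero F a v (hcop v hv)]
      simp
    · have h1 : v.valuation F (x : F) * v.intValuation e ≤ 1 := by
        have : v.valuation F (algebraMap (𝓞 F) F (a₀ * n₀)) ≤ 1 := v.valuation_le_one _
        rw [← hex, map_mul, HeightOneSpectrum.valuation_of_algebraMap] at this
        exact this
      have h2 : v.intValuation e ≤ exp (-(multiplicity v.asIdeal a : ℤ)) :=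
        s14_i2n_val_of_mem F a ha e hea v
      have h3 : v.intValuation e ≤ 1 := v.intValuation_le_one e
      obtain ⟨k, hk⟩ : ∃ k, p = k + 2 := ⟨p - 2, by omega⟩
      rw [map_mul, map_pow, HeightOneSpectrum.valuation_of_algebraMap]
      calc v.valuation F (x : F) * v.intValuation d ^ p
          ≤ v.valuation F (x : F) * v.intValuation e ^ p :=
            mul_le_mul_right (pow_le_pow_left₀ zero_le (hdle v hv) p) _
        _ = (v.valuation F (x : F) * v.intValuation e) * v.intValuation e ^ (k + 1) := by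
            rw [hk, pow_succ' _ (k + 1), mul_assoc]
        _ ≤ 1 * v.intValuation e ^ (k + 1) := mul_le_mul_left h1 _
        _ = v.intValuation e ^ k * v.intValuation e := by rw [one_mul, pow_succ]
        _ ≤ 1 * v.intValuation e :=
            mul_le_mul_left (pow_le_one₀ zero_le h3) _
        _ = v.intValuation e := one_mul _
        _ ≤ exp (-(multiplicity v.asIdeal a : ℤ)) := h2
  have hint : ∀ v : HeightOneSpectrum (𝓞 F),
      v.valuation F ((x : F) * (algebraMap (𝓞 F) F d) ^ p) ≤ 1 := by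
    intro v
    refine le_trans (hval v) ?_
    rw [← exp_zero, exp_le_exp]
    simp
  obtain ⟨x', hx'⟩ := HeightOneSpectrum.mem_integers_of_valuation_le_one F _ hint
  refine ⟨d, hd0, fun v hv hmem => ?_, x', hx', ?_⟩
  · have := (v.intValuation_lt_one_iff_mem d).2 hmem
    rw [hdS v hv] at this
    exact lt_irrefl _ this
  · apply s14_i2n_mem_of_val F a ha
    intro v
    have h1 : v.intValuation x' = v.valuation F (algebraMap (𝓞 F) F x') :=
      (HeightOneSpectrum.valuation_of_algebraMap (K := F) v x').symm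
    rw [h1, hx']
    exact hval v

end

/-- **(NLC)** the valuation criterion for `s14_NormLike`. -/
theorem s14_i2n_main (hint : s14_i2_stmt_LPint) : s14_i2_stmt_NLC := by
  intro F N _ _ _ _ _ p hp R T a ha hR hT hTp x hxu hxloc hxord
  classical
  have hp2 : 2 ≤ p := hp.two_le
  -- Step 1: the auxiliary integer `d` and `x' = x * d ^ p ∈ a`
  obtain ⟨d, hd0, hdS, x', hx', hx'a⟩ := s14_i2n_exists_d F p hp2 (R ∪ T) a ha
    (fun v hv => by
      rcases Finset.mem_union.1 hv with h | h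
      · exact hR v h
      · exact hT v h)
    x (fun v hv => hxu v (Finset.mem_union.1 hv))
  have hdF : algebraMap (𝓞 F) F d ≠ 0 := by
    intro h
    apply hd0
    exact (FaithfulSMul.algebraMap_injective (𝓞 F) F) (by rw [h, map_zero])
  have hx'0 : x' ≠ 0 := by
    intro h
    rw [h, map_zero] at hx'
    exact (mul_ne_zero x.ne_zero (pow_ne_zero _ hdF)) hx'.symm
  have hx'S : ∀ v : HeightOneSpectrum (𝓞 F), v ∈ R ∨ v ∈ T → x' ∉ v.asIdeal := by
    intro v hv hmem
    have h1 := (v.intValuation_lt_one_iff_mem x').2 hmem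
    have h2 : v.intValuation x' = 1 := by
      have h3 : v.intValuation x' = v.valuation F (algebraMap (𝓞 F) F x') :=
        (HeightOneSpectrum.valuation_of_algebraMap (K := F) v x').symm
      rw [h3, hx', map_mul, map_pow, hxu v hv, HeightOneSpectrum.valuation_of_algebraMap,
        s14_fi_intVal_eq_one v (hdS v (Finset.mem_union.2 hv)), one_pow, one_mul]
    rw [h2] at h1
    exact lt_irrefl _ h1
  -- Step 2: `(x') = a * q`
  obtain ⟨q, hq⟩ : a ∣ Ideal.span {x'} :=
    Ideal.dvd_iff_le.2 ((Ideal.span_singleton_le_iff_mem _).2 hx'a)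
  have hspan0 : Ideal.span {x'} ≠ ⊥ := by
    rw [Ne, Ideal.span_singleton_eq_bot]; exact hx'0
  have hq0 : q ≠ ⊥ := by
    rintro rfl
    rw [Ideal.mul_bot] at hq
    exact hspan0 hq
  -- Step 3: split `q`
  obtain ⟨q₁, q₂, hq12, hq₁, hq₂⟩ := s14_fi_exists_split_ideal
    {v : HeightOneSpectrum (𝓞 F) | v ∉ R ∧ v ∉ T ∧ s14_Splits F N v.asIdeal} q hq0
  have hq₁0 : q₁ ≠ ⊥ := by
    rintro rfl
    rw [Ideal.bot_mul] at hq12
    exact hq0 hq12
  have hq₂0 : q₂ ≠ ⊥ := by
    rintro rfl
    rw [Ideal.mul_bot] at hq12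
    exact hq0 hq12
  have hle₁ : Ideal.span {x'} ≤ q₁ := by
    rw [hq, hq12]
    exact le_trans Ideal.mul_le_right Ideal.mul_le_left
  -- Step 4: `q₁` is a `p`-th power
  have hroot : ∀ v : HeightOneSpectrum (𝓞 F), q₁ ≤ v.asIdeal →
      p ∣ multiplicity v.asIdeal q₁ := by
    intro v hv
    have hvSg : ¬ (v ∉ R ∧ v ∉ T ∧ s14_Splits F N v.asIdeal) := fun h => hq₁ v h hv
    by_cases hRT : v ∈ R ∨ v ∈ T
    · exfalso
      apply hx'S v hRT
      exact (Ideal.span_singleton_le_iff_mem _).1 (le_trans hle₁ hv)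
    · push Not at hRT
      have hns : ¬ s14_Splits F N v.asIdeal := fun h => hvSg ⟨hRT.1, hRT.2, h⟩
      obtain ⟨m, hm⟩ := hxord v hRT.1 hRT.2 hns
      have hq₂v : ¬ q₂ ≤ v.asIdeal := fun h => hvSg (hq₂ v h)
      have h1 : v.intValuation x' = exp (-(multiplicity v.asIdeal (a * q₁) : ℤ)) :=
        s14_fi_intVal_eq_exp_multiplicity v hx'0 (by rw [hq, hq12, mul_assoc]) hq₂v
      have hfin : FiniteMultiplicity v.asIdeal (a * q₁) :=
        FiniteMultiplicity.of_prime_left v.prime (mul_ne_zero ha hq₁0)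
      rw [multiplicity_mul v.prime hfin] at h1
      have h2 : v.intValuation x' = exp (-((multiplicity v.asIdeal a : ℤ) + (p : ℤ) * m))
          * (exp (-(multiplicity v.asIdeal (Ideal.span {d}) : ℤ))) ^ p := by
        have h3 : v.intValuation x' = v.valuation F (algebraMap (𝓞 F) F x') :=
          (HeightOneSpectrum.valuation_of_algebraMap (K := F) v x').symm
        rw [h3, hx', map_mul, map_pow, hm, s14_i2n_count_eq F v a ha,
          HeightOneSpectrum.valuation_of_algebraMap, v.intValuation_eq_exp_neg_multiplicity hd0]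
      rw [h1, ← exp_nsmul, ← exp_add, exp_inj] at h2
      have h3 : (multiplicity v.asIdeal q₁ : ℤ)
          = (p : ℤ) * (m + multiplicity v.asIdeal (Ideal.span {d})) := by
        push_cast at h2
        simp only [nsmul_eq_mul] at h2
        linarith
      exact Int.natCast_dvd_natCast.1 ⟨_, h3⟩
  obtain ⟨b₁, hb₁0, hb₁⟩ := s14_fi_exists_root p hp.ne_zero q₁ hq₁0 hroot
  -- Step 5: assemble
  refine ⟨b₁ * q₂, q₂ ^ (p - 1), x', mul_ne_zero hb₁0 hq₂0, hx'0, ?_, ?_, ?_, ?_⟩
  · rw [mul_pow, hb₁, hq, hq12]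
    obtain ⟨k, hk⟩ : ∃ k, p = k + 1 := ⟨p - 1, by omega⟩
    rw [hk, Nat.add_sub_cancel, pow_succ]
    ring
  · intro v hv
    refine ⟨?_, hx'S v hv⟩
    intro hb
    rcases (v.isPrime.mul_le).1 hb with h | h
    · apply hx'S v hv
      have h4 : q₁ ≤ v.asIdeal := by
        rw [← hb₁]
        exact le_trans (Ideal.pow_le_self hp.ne_zero) h
      exact (Ideal.span_singleton_le_iff_mem _).1 (le_trans hle₁ h4)
    · have := hq₂ v h
      rcases hv with hv | hv
      · exact this.1 hv
      · exact this.2.1 hv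
  · intro t ht
    have hx't : x' ∉ t.asIdeal := hx'S t (Or.inr ht)
    rw [← hint F p hp t (hTp t ht) x' hx't]
    have h1 : s14_lp_IsLocPow p t (x : F) := (s14_lp_mem_locPow hp t x).1 (hxloc t ht)
    have h2 : s14_lp_IsLocPow p t ((algebraMap (𝓞 F) F d) ^ p) := s14_lp_isLocPow_pow hp2 t hdF
    have h3 := s14_lp_isLocPow_mul hp2 t h1 h2
    rw [← hx'] at h3
    exact h3
  · intro v hv
    exact hq₂ v (v.isPrime.le_of_pow_le hv)

end Fermat.Agent.S14
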