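import Mathlib
import Fermat.Agent.S14.Defs
import Fermat.Agent.S14.LPDefs
import Fermat.Agent.S14.I2Stmt
import Fermat.Agent.S14.I2SelStmt

/-!
# S14 (I2-a) — T-selection: the induction   (OWNER: helper4)

`s14_i2a_main : NewPrime → LP0 → SU → K3 → s14_i2_stmt_Sel`.
-/

set_option autoImplicit false

namespace Fermat.Agent.S14

open NumberField IsDedekindDomain

/-- **(Sel-1a)** a group `E` of units at `t ∤ p`: the local `p`-th powers at `t` have relative
index at most `p` in `E`. -/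
theorem s14_i2a_relIndex_locPow_le (hLP0 : s14_i2_stmt_LP0) (F : Type) [Field F]
    [NumberField F] (p : ℕ) (hp : p.Prime) (t : HeightOneSpectrum (𝓞 F))
    (hpt : (p : 𝓞 F) ∉ t.asIdeal) (E : Subgroup Fˣ)
    (hE : ∀ x ∈ E, t.valuation F (x : F) = 1) :
    (s14_lp_locPow hp t).relIndex E ≠ 0 ∧ (s14_lp_locPow hp t).relIndex E ≤ p := by
  classical
  by_cases h : E ≤ s14_lp_locPow hp t
  · rw [Subgroup.relIndex_eq_one.mpr h]
    exact ⟨one_ne_zero, hp.one_lt.le⟩
  · obtain ⟨x₀, hx₀E, hx₀⟩ := SetLike.not_le_iff_exists.mp h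
    set H := (s14_lp_locPow hp t).subgroupOf E with hH
    let f : Fin p → E ⧸ H := fun k => QuotientGroup.mk ((⟨x₀, hx₀E⟩ : E)⁻¹ ^ (k : ℕ))
    have hf : Function.Surjective f := by
      intro q
      obtain ⟨y, rfl⟩ := QuotientGroup.mk_surjective q
      obtain ⟨k, hk, hmem⟩ := hLP0 F p hp t hpt x₀ y (hE x₀ hx₀E) (hE y y.2) hx₀
      refine ⟨⟨k, hk⟩, ?_⟩
      rw [QuotientGroup.eq]
      rw [hH, Subgroup.mem_subgroupOf]
      simp only [inv_pow, inv_inv, Subgroup.coe_mul, Subgroup.coe_pow]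
      rw [mul_comm]
      exact hmem
    have hfin : Finite (E ⧸ H) := Finite.of_surjective f hf
    have hcard : Nat.card (E ⧸ H) ≤ p := by
      have := Nat.card_le_card_of_surjective f hf
      simpa using this
    rw [Subgroup.relIndex, Subgroup.index_eq_card]
    exact ⟨Nat.card_pos.ne', hcard⟩

/-- **(Sel-1b)** the `S`-units that are local `p`-th powers at all `t ∈ T` have relative index
at most `p ^ |T|`. -/
theorem s14_i2a_relIndex_Lam_le (hLP0 : s14_i2_stmt_LP0) (F : Type) [Field F]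
    [NumberField F] (p : ℕ) (hp : p.Prime) (S T : Finset (HeightOneSpectrum (𝓞 F)))
    (hT : ∀ t ∈ T, t ∉ S ∧ (p : 𝓞 F) ∉ t.asIdeal) :
    (s14_i2_Lam F hp T).relIndex ((S : Set (HeightOneSpectrum (𝓞 F))).unit F) ≠ 0 ∧
      (s14_i2_Lam F hp T).relIndex ((S : Set (HeightOneSpectrum (𝓞 F))).unit F)
        ≤ p ^ T.card := by
  classical
  induction T using Finset.induction_on with
  | empty =>
    simp [s14_i2_Lam]
  | insert t T ht ih =>
    have hT' : ∀ t ∈ T, t ∉ S ∧ (p : 𝓞 F) ∉ t.asIdeal :=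
      fun s hs => hT s (Finset.mem_insert_of_mem hs)
    obtain ⟨ih0, ih1⟩ := ih hT'
    obtain ⟨htS, htp⟩ := hT t (Finset.mem_insert_self t T)
    have hE : ∀ x ∈ (S : Set (HeightOneSpectrum (𝓞 F))).unit F,
        t.valuation F (x : F) = 1 := by
      intro x hx
      exact Set.unit_valuation_eq_one _ F ⟨x, hx⟩ (v := t) (by simpa using htS)
    obtain ⟨h0, h1⟩ := s14_i2a_relIndex_locPow_le hLP0 F p hp t htp _ hE
    have heq : s14_i2_Lam F hp (insert t T) = s14_lp_locPow hp t ⊓ s14_i2_Lam F hp T := by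
      simp only [s14_i2_Lam]
      rw [Finset.iInf_insert]
    rw [heq]
    refine ⟨Subgroup.relIndex_inf_ne_zero h0 ih0, ?_⟩
    calc (s14_lp_locPow hp t ⊓ s14_i2_Lam F hp T).relIndex _
        ≤ (s14_lp_locPow hp t).relIndex _ * (s14_i2_Lam F hp T).relIndex _ :=
          Subgroup.relIndex_inf_le
      _ ≤ p * p ^ T.card := Nat.mul_le_mul h1 ih1
      _ = p ^ (insert t T).card := by
          rw [Finset.card_insert_of_notMem ht, pow_succ, mul_comm]


/-- **(Sel-2)** as long as `|T| < |S| + r - 1` there is an `S`-unit, local `p`-th power at all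
`t ∈ T`, which is not a `p`-th power in `B`. -/
theorem s14_i2a_exists_u0 (hLP0 : s14_i2_stmt_LP0) (hSU : s14_i2_stmt_SU)
    (hK3 : s14_i2_stmt_K3)
    (F B : Type) [Field F] [NumberField F] [Field B] [NumberField B] [Algebra F B]
    [IsGalois F B] (p : ℕ) (hp : p.Prime) (hp2 : p ≠ 2) (hdeg : Module.finrank F B = p)
    (hζ : ∃ ζ : F, IsPrimitiveRoot ζ p) (S T : Finset (HeightOneSpectrum (𝓞 F)))
    (hT : ∀ t ∈ T, t ∉ S ∧ (p : 𝓞 F) ∉ t.asIdeal)
    (hlt : 2 * T.card + 2 < 2 * S.card + Module.finrank ℚ F) :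
    ∃ u0 : Fˣ, u0 ∈ (S : Set (HeightOneSpectrum (𝓞 F))).unit F ∧ u0 ∈ s14_i2_Lam F hp T ∧
      u0 ∉ s14_i2_kum F B p := by
  classical
  by_contra hcon
  push Not at hcon
  set E := (S : Set (HeightOneSpectrum (𝓞 F))).unit F with hE
  set P := s14_i2_pow F p with hP
  set Kum := s14_i2_kum F B p with hKum
  set L := s14_i2_Lam F hp T with hL
  have hLE : L ⊓ E ≤ Kum := fun u hu => hcon u hu.2 hu.1
  obtain ⟨hL0, hL1⟩ := s14_i2a_relIndex_Lam_le hLP0 F p hp S T hT
  obtain ⟨hK0, hK1⟩ := hK3 F B p hp hdeg hζ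
  have hsu := hSU F p hp hp2 hζ S
  rw [← hE, ← hP] at hsu
  rw [← hE, ← hL] at hL0 hL1
  rw [← hP, ← hKum] at hK0 hK1
  -- `Kum.relIndex E ≤ p ^ |T|`
  have h1 : Kum.relIndex E ≤ p ^ T.card := by
    have h := Subgroup.relIndex_le_of_le_left (L := E) hLE
      (by rw [Subgroup.inf_relIndex_right]; exact hL0)
    rw [Subgroup.inf_relIndex_right] at h
    exact h.trans hL1
  have h1' : Kum.relIndex E ≠ 0 := by
    intro h0
    have := Subgroup.relIndex_eq_zero_of_le_left (L := E) hLE h0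
    rw [Subgroup.inf_relIndex_right] at this
    exact hL0 this
  -- `P.relIndex (Kum ⊓ E) ≤ p`
  have h2 : P.relIndex (Kum ⊓ E) ≤ p :=
    (Subgroup.relIndex_le_of_le_right (inf_le_left : Kum ⊓ E ≤ Kum) hK0).trans hK1
  -- chain
  have h3 : (P ⊓ E).relIndex (Kum ⊓ E) * (Kum ⊓ E).relIndex E = (P ⊓ E).relIndex E := by
    apply Subgroup.relIndex_mul_relIndex
    · refine inf_le_inf_right _ ?_
      rintro x ⟨y, rfl⟩
      exact ⟨algebraMap F B (y : F), by simp [map_pow]⟩
    · exact inf_le_right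
  have h4 : (P ⊓ E).relIndex (Kum ⊓ E) = P.relIndex (Kum ⊓ E) := by
    rw [← Subgroup.inf_relIndex_right (H := P ⊓ E), ← Subgroup.inf_relIndex_right (H := P)]
    congr 1
    rw [inf_assoc]
    congr 1
    rw [inf_comm Kum E, ← inf_assoc, inf_idem]
  rw [h4, Subgroup.inf_relIndex_right, Subgroup.inf_relIndex_right] at h3
  -- arithmetic
  have h5 : P.relIndex E ≤ p * p ^ T.card := by
    rw [← h3]
    exact Nat.mul_le_mul h2 h1
  have h6 : (P.relIndex E) ^ 2 ≤ (p ^ (T.card + 1)) ^ 2 := by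
    apply Nat.pow_le_pow_left
    rw [pow_succ, mul_comm]
    exact h5
  rw [hsu, ← pow_mul] at h6
  have h7 := (Nat.pow_le_pow_iff_right hp.one_lt).mp h6
  omega

/-- **(Sel-4)** extension of the surjectivity to one more prime. -/
theorem s14_i2a_onto_insert (hLP0 : s14_i2_stmt_LP0) (F : Type) [Field F] [NumberField F]
    (p : ℕ) (hp : p.Prime) (S T : Finset (HeightOneSpectrum (𝓞 F)))
    [DecidableEq (HeightOneSpectrum (𝓞 F))]
    (honto : s14_i2_Onto F hp S T) (t' : HeightOneSpectrum (𝓞 F)) (ht'S : t' ∉ S)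
    (hpt' : (p : 𝓞 F) ∉ t'.asIdeal) (u0 : Fˣ)
    (hu0E : u0 ∈ (S : Set (HeightOneSpectrum (𝓞 F))).unit F)
    (hu0L : u0 ∈ s14_i2_Lam F hp T) (hu0 : u0 ∉ s14_lp_locPow hp t') :
    s14_i2_Onto F hp S (insert t' T) := by
  intro x hx
  obtain ⟨u, huE, hu⟩ := honto x (fun t ht => hx t (Finset.mem_insert_of_mem ht))
  have hval : ∀ y ∈ (S : Set (HeightOneSpectrum (𝓞 F))).unit F,
      t'.valuation F (y : F) = 1 := by
    intro y hy
    exact Set.unit_valuation_eq_one _ F ⟨y, hy⟩ (v := t') (by simpa using ht'S)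
  have hxu : t'.valuation F ((x * u : Fˣ) : F) = 1 := by
    rw [Units.val_mul, map_mul, hx t' (Finset.mem_insert_self t' T), hval u huE, one_mul]
  obtain ⟨k, -, hk⟩ := hLP0 F p hp t' hpt' u0 (x * u) (hval u0 hu0E) hxu hu0
  refine ⟨u * u0 ^ k, Subgroup.mul_mem _ huE (Subgroup.pow_mem _ hu0E k), ?_⟩
  intro t ht
  rw [← mul_assoc]
  rcases Finset.mem_insert.mp ht with rfl | htT
  · exact hk
  · refine Subgroup.mul_mem _ (hu t htT) (Subgroup.pow_mem _ ?_ k)
    have := hu0L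
    simp only [s14_i2_Lam, Subgroup.mem_iInf] at this
    exact this t htT

/-- **(I2-a)** the T-selection, from the arithmetic step and the index bounds. -/
theorem s14_i2a_main (hNP : s14_i2_stmt_NewPrime) (hLP0 : s14_i2_stmt_LP0)
    (hSU : s14_i2_stmt_SU) (hK3 : s14_i2_stmt_K3) : s14_i2_stmt_Sel := by
  intro F B _ _ _ _ _ _ p hp hp2 hdeg hζ hur S
  classical
  -- the induction
  have key : ∀ j : ℕ, 2 * j + 2 ≤ 2 * S.card + Module.finrank ℚ F →
      ∃ T : Finset (HeightOneSpectrum (𝓞 F)), T.card = j ∧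
        (∀ t ∈ T, t ∉ S ∧ (p : 𝓞 F) ∉ t.asIdeal) ∧ (∀ t ∈ T, s14_Splits F B t.asIdeal) ∧
        s14_i2_Onto F hp S T := by
    intro j
    induction j with
    | zero =>
      intro _
      refine ⟨∅, rfl, by simp, by simp, ?_⟩
      intro x _
      exact ⟨1, Subgroup.one_mem _, by simp⟩
    | succ j ih =>
      intro hj
      obtain ⟨T, hcard, hT, hsplit, honto⟩ := ih (by omega)
      obtain ⟨u0, hu0E, hu0L, hu0K⟩ := s14_i2a_exists_u0 hLP0 hSU hK3 F B p hp hp2 hdeg hζ S T hT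
        (by rw [hcard]; omega)
      obtain ⟨t', ht'X, hpt', ht'split, -, hu0t'⟩ := hNP F B p hp hdeg hζ hur u0 hu0K (S ∪ T)
      have ht'S : t' ∉ S := fun h => ht'X (Finset.mem_union_left _ h)
      have ht'T : t' ∉ T := fun h => ht'X (Finset.mem_union_right _ h)
      refine ⟨insert t' T, by rw [Finset.card_insert_of_notMem ht'T, hcard], ?_, ?_,
        s14_i2a_onto_insert hLP0 F p hp S T honto t' ht'S hpt' u0 hu0E hu0L hu0t'⟩
      · intro t ht
        rcases Finset.mem_insert.mp ht with rfl | h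
        · exact ⟨ht'S, hpt'⟩
        · exact hT t h
      · intro t ht
        rcases Finset.mem_insert.mp ht with rfl | h
        · exact ht'split
        · exact hsplit t h
  -- the exponent `2 |S| + [F : ℚ]` is even and positive
  have hsu := hSU F p hp hp2 hζ S
  obtain ⟨s, hs⟩ : ∃ s : ℕ, 2 * s = 2 * S.card + Module.finrank ℚ F := by
    have hdvd : (s14_i2_pow F p).relIndex ((S : Set (HeightOneSpectrum (𝓞 F))).unit F) ∣
        p ^ (2 * S.card + Module.finrank ℚ F) := by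
      rw [← hsu]
      exact dvd_pow_self _ (by norm_num)
    obtain ⟨m, -, hm⟩ := (Nat.dvd_prime_pow hp).mp hdvd
    rw [hm, ← pow_mul] at hsu
    exact ⟨m, by rw [mul_comm]; exact Nat.pow_right_injective hp.two_le hsu⟩
  have hpos : 0 < Module.finrank ℚ F := Module.finrank_pos
  obtain ⟨T, hcard, hT, hsplit, honto⟩ := key (s - 1) (by omega)
  refine ⟨T, ?_, fun t ht => (hT t ht).2, hsplit, honto, by rw [hcard]; omega⟩
  rw [Finset.disjoint_left]
  intro v hvS hvT
  exact (hT v hvT).1 hvS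

end Fermat.Agent.S14
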