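import Mathlib
import Fermat.Agent.S14.LPKummer

/-!
# S14 (LP) — residue computations at a tame prime (OWNER: helper6)

* `s14_lp_isLocPow_int_iff` (LPint): at `v ∤ p`, an integer `x ∉ v` is a local `p`-th power iff
  it is a `p`-th power residue modulo `v`.
* `s14_lp_isLocPow_of_surj` (LP1 converse): if `a ^ p = y` in `N` and some prime `w` of `N`
  above `v` has residue degree one, then `y` is a local `p`-th power at `v` (`v ∤ p`).
-/

set_option autoImplicit false
set_option linter.unusedSectionVars false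

namespace Fermat.Agent.S14

open NumberField IsDedekindDomain

section general

variable {K : Type*} [Field K] (val : Valuation K (WithZero (Multiplicative ℤ)))

theorem s14_lp_val_pow_sub_pow_le {x y : K} (hx : val x ≤ 1) (hy : val y ≤ 1) (n : ℕ) :
    val (x ^ n - y ^ n) ≤ val (x - y) := by
  rw [← geom_sum₂_mul, map_mul]
  apply mul_le_of_le_one_left zero_le
  apply Valuation.map_sum_le
  intro i _
  rw [map_mul, map_pow, map_pow]
  exact mul_le_one' (pow_le_one₀ zero_le hx) (pow_le_one₀ zero_le hy)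

end general

variable {F : Type*} [Field F] [NumberField F]

/-- every `v`-integral element of `F` is congruent modulo `v` to an element of `𝓞 F`. -/
theorem s14_lp_exists_int_close (v : HeightOneSpectrum (𝓞 F)) {x : F}
    (hx : v.valuation F x ≤ 1) :
    ∃ r : 𝓞 F, v.valuation F (x - algebraMap (𝓞 F) F r) < 1 := by
  obtain ⟨r, hr⟩ := v.exists_valuation_sub_lt_of_integer hx 1
  refine ⟨r, ?_⟩
  rw [Valuation.map_sub_swap]
  simpa using hr

/-- tame local `p`-th powers, additive form: `v (x - z ^ p) < 1` with `v z = 1`. -/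
theorem s14_lp_isLocPow_of_sub_lt {p : ℕ} (hp : 2 ≤ p) {v : HeightOneSpectrum (𝓞 F)}
    (hpv : (p : 𝓞 F) ∉ v.asIdeal) {x z : F} (hz : v.valuation F z = 1)
    (h : v.valuation F (x - z ^ p) < 1) : s14_lp_IsLocPow p v x := by
  rw [s14_lp_isLocPow_iff_of_notMem hp hpv]
  have hz0 : z ≠ 0 := by
    rintro rfl
    rw [map_zero] at hz
    exact zero_ne_one hz
  refine ⟨z, hz0, ?_⟩
  have e : x / z ^ p - 1 = (x - z ^ p) / z ^ p := by
    field_simp
  rw [e, map_div₀, map_pow, hz, one_pow, div_one]
  exact h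

/-- **(LPint)**: at `v ∤ p`, an integer `x ∉ v` is a local `p`-th power iff it is a `p`-th
power residue modulo `v`. -/
theorem s14_lp_isLocPow_int_iff {p : ℕ} (hp : 2 ≤ p) {v : HeightOneSpectrum (𝓞 F)}
    (hpv : (p : 𝓞 F) ∉ v.asIdeal) {x : 𝓞 F} (hx : x ∉ v.asIdeal) :
    s14_lp_IsLocPow p v (x : F) ↔ ∃ y : 𝓞 F, x - y ^ p ∈ v.asIdeal := by
  have hp0 : p ≠ 0 := by omega
  have hvx : v.valuation F (x : F) = 1 := (v.valuation_eq_one_iff_notMem).mpr hx
  constructor
  · intro h
    obtain ⟨z, hz, hlt⟩ := (s14_lp_isLocPow_iff_of_notMem hp hpv _).mp h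
    obtain ⟨z', hz', -, hval⟩ := s14_lp_val_of_isLocPow hp h
    have hvz' : v.valuation F z' = 1 := by
      rw [hvx] at hval
      exact (pow_eq_one_iff_left hp0).mp hval.symm
    -- `v z = 1` as well
    have hvz : v.valuation F z = 1 := by
      have h1 : v.valuation F ((x : F) / z ^ p) = 1 := by
        have := s14_lp_val_one_add (v.valuation F) hlt
        rwa [add_sub_cancel] at this
      rw [map_div₀, hvx, map_pow, one_div, inv_eq_one] at h1
      exact (pow_eq_one_iff_left hp0).mp h1
    obtain ⟨y, hy⟩ := s14_lp_exists_int_close v hvz.le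
    refine ⟨y, ?_⟩
    rw [← v.valuation_lt_one_iff_mem (K := F)]
    have hvy : v.valuation F (algebraMap (𝓞 F) F y) ≤ 1 := v.valuation_le_one y
    have e : algebraMap (𝓞 F) F (x - y ^ p) =
        ((x : F) / z ^ p - 1) * z ^ p + (z ^ p - (algebraMap (𝓞 F) F y) ^ p) := by
      rw [map_sub, map_pow]
      field_simp
      ring
    show v.valuation F (algebraMap (𝓞 F) F (x - y ^ p)) < 1
    rw [e]
    refine lt_of_le_of_lt (Valuation.map_add _ _ _) (max_lt ?_ ?_)
    · rw [map_mul, map_pow, hvz, one_pow, mul_one]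
      exact hlt
    · exact lt_of_le_of_lt (s14_lp_val_pow_sub_pow_le _ hvz.le hvy p) hy
  · rintro ⟨y, hy⟩
    have hyv : y ∉ v.asIdeal := by
      intro hy'
      apply hx
      have : x = (x - y ^ p) + y ^ p := by ring
      rw [this]
      exact v.asIdeal.add_mem hy (v.asIdeal.pow_mem_of_mem hy' p (by omega))
    have hvy : v.valuation F (algebraMap (𝓞 F) F y) = 1 :=
      (v.valuation_eq_one_iff_notMem).mpr hyv
    apply s14_lp_isLocPow_of_sub_lt hp hpv hvy
    have : (x : F) - (algebraMap (𝓞 F) F y) ^ p = algebraMap (𝓞 F) F (x - y ^ p) := by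
      rw [map_sub, map_pow]
    rw [this]
    exact (v.valuation_lt_one_iff_mem _).mpr hy

section conv

variable {N : Type*} [Field N] [NumberField N] [Algebra F N]

/-- comparison downwards: an element of `F` of `w`-valuation `< 1` has `v`-valuation `< 1`. -/
theorem s14_lp_val_down_lt_one (v : HeightOneSpectrum (𝓞 F)) (w : HeightOneSpectrum (𝓞 N))
    [w.asIdeal.LiesOver v.asIdeal] {x : F} (h : w.valuation N (algebraMap F N x) < 1) :
    v.valuation F x < 1 := by
  by_contra hcon
  have h1 : v.valuation F (1 : F) ≤ v.valuation F x := by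
    rw [map_one]; exact not_lt.mp hcon
  have := s14_lp_val_up_le v w h1
  rw [map_one, map_one] at this
  exact absurd h (not_lt.mpr this)

/-- **(LP1 converse)**: if `a ^ p = y` in `N`, `v ∤ p`, `ord_v y = 0` and the prime `w` of `N`
above `v` has residue degree one (`𝓞 F → 𝓞 N / w` is onto), then `y` is a local `p`-th power
at `v`. -/
theorem s14_lp_isLocPow_of_surj {p : ℕ} (hp : 2 ≤ p) {y : F} {a : N}
    (ha : a ^ p = algebraMap F N y) {v : HeightOneSpectrum (𝓞 F)}
    (hpv : (p : 𝓞 F) ∉ v.asIdeal) (hy : v.valuation F y = 1)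
    (w : Ideal (𝓞 N)) [w.IsPrime] [w.LiesOver v.asIdeal]
    (hsurj : ∀ r : 𝓞 N, ∃ c : 𝓞 F, r - algebraMap (𝓞 F) (𝓞 N) c ∈ w) :
    s14_lp_IsLocPow p v y := by
  have hp0 : p ≠ 0 := by omega
  set W := s14_lp_above v w with hW
  have hva : W.valuation N a = 1 := by
    apply s14_lp_val_pow_eq_one _ hp0
    rw [ha]
    exact s14_lp_val_up_eq_one v W hy
  obtain ⟨r, hr⟩ := s14_lp_exists_int_close W hva.le
  obtain ⟨c, hc⟩ := hsurj r
  have hc' : W.valuation N (algebraMap (𝓞 N) N (r - algebraMap (𝓞 F) (𝓞 N) c)) < 1 :=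
    (W.valuation_lt_one_iff_mem _).mpr hc
  have ecast : algebraMap (𝓞 N) N (algebraMap (𝓞 F) (𝓞 N) c) =
      algebraMap F N (algebraMap (𝓞 F) F c) := by
    rw [← IsScalarTower.algebraMap_apply, ← IsScalarTower.algebraMap_apply]
  have hac : W.valuation N (a - algebraMap F N (algebraMap (𝓞 F) F c)) < 1 := by
    have e : a - algebraMap F N (algebraMap (𝓞 F) F c) =
        (a - algebraMap (𝓞 N) N r) +
          algebraMap (𝓞 N) N (r - algebraMap (𝓞 F) (𝓞 N) c) := by
      rw [map_sub, ecast]; ring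
    rw [e]
    exact lt_of_le_of_lt (Valuation.map_add _ _ _) (max_lt hr hc')
  have hvc : W.valuation N (algebraMap F N (algebraMap (𝓞 F) F c)) = 1 := by
    have h2 : W.valuation N (-(a - algebraMap F N (algebraMap (𝓞 F) F c))) <
        W.valuation N a := by
      rw [Valuation.map_neg, hva]; exact hac
    have := Valuation.map_add_eq_of_lt_left (W.valuation N) h2
    rw [hva] at this
    rw [← this]
    congr 1
    ring
  have hvc' : v.valuation F (algebraMap (𝓞 F) F c) = 1 := by
    apply le_antisymm (v.valuation_le_one c)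
    by_contra hcon
    have := s14_lp_val_up_lt_one v W (not_le.mp hcon)
    rw [hvc] at this
    exact lt_irrefl _ this
  apply s14_lp_isLocPow_of_sub_lt hp hpv hvc'
  apply s14_lp_val_down_lt_one v W
  rw [map_sub, map_pow, ← ha]
  exact lt_of_le_of_lt (s14_lp_val_pow_sub_pow_le _ hva.le hvc.le p) hac

end conv

end Fermat.Agent.S14
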