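import Mathlib
import Fermat.Agent.S14.LPRes

/-!
# S14 (LP) — LP0: cyclicity of `k_vˣ / p` (OWNER: helper6)

* `s14_lp_cyclic` (LP0): at `v ∤ p`, if the `v`-unit `x` is not a local `p`-th power then every
  `v`-unit `y` is congruent to a power of `x` modulo local `p`-th powers.
-/

set_option autoImplicit false
set_option linter.unusedSectionVars false

namespace Fermat.Agent.S14

open NumberField IsDedekindDomain

/-- in a finite cyclic group, modulo `p`-th powers every element is a power of any given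
non-`p`-th power. -/
theorem s14_lp_cyclic_group {G : Type*} [CommGroup G] [Finite G] [IsCyclic G] {p : ℕ}
    (hp : p.Prime) {x : G} (hx : ∀ c : G, c ^ p ≠ x) (y : G) :
    ∃ k : ℕ, k < p ∧ ∃ c : G, c ^ p = y * x ^ k := by
  obtain ⟨g, hg⟩ := IsCyclic.exists_monoid_generator (α := G)
  obtain ⟨a, rfl⟩ := hg x
  obtain ⟨b, rfl⟩ := hg y
  have hpa : ¬ p ∣ a := by
    rintro ⟨a', rfl⟩
    exact hx (g ^ a') (by show (g ^ a') ^ p = g ^ (p * a'); rw [← pow_mul, mul_comm])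
  have : Fact p.Prime := ⟨hp⟩
  have ha0 : (a : ZMod p) ≠ 0 := by
    rwa [Ne, ZMod.natCast_eq_zero_iff]
  set k : ℕ := ((-(b : ZMod p)) * (a : ZMod p)⁻¹).val with hk
  refine ⟨k, ZMod.val_lt _, ?_⟩
  have hdvd : p ∣ b + a * k := by
    rw [← ZMod.natCast_eq_zero_iff]
    push_cast
    rw [hk, ZMod.natCast_zmod_val]
    field_simp
    ring
  obtain ⟨m, hm⟩ := hdvd
  refine ⟨g ^ m, ?_⟩
  show (g ^ m) ^ p = g ^ b * (g ^ a) ^ k
  rw [← pow_mul, ← pow_mul, ← pow_add, mul_comm m p, hm]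

/-- the same in the multiplicative group of a finite field, in terms of elements. -/
theorem s14_lp_cyclic_field {k : Type*} [Field k] [Finite k] {p : ℕ}
    (hp : p.Prime) {x y : k} (hx0 : x ≠ 0) (hy0 : y ≠ 0) (hx : ∀ c : k, c ^ p ≠ x) :
    ∃ j : ℕ, j < p ∧ ∃ c : k, c ^ p = y * x ^ j := by
  have hx' : ∀ c : kˣ, c ^ p ≠ Units.mk0 x hx0 := by
    intro c hc
    apply hx (c : k)
    have := congrArg (fun u : kˣ => (u : k)) hc
    simpa using this
  obtain ⟨j, hj, c, hc⟩ := s14_lp_cyclic_group hp hx' (Units.mk0 y hy0)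
  refine ⟨j, hj, (c : k), ?_⟩
  have := congrArg (fun u : kˣ => (u : k)) hc
  simpa using this

variable {F : Type*} [Field F] [NumberField F]

theorem s14_lp_isLocPow_npow {p : ℕ} (hp : 2 ≤ p) (v : HeightOneSpectrum (𝓞 F)) {x : F}
    (hx : s14_lp_IsLocPow p v x) (n : ℕ) : s14_lp_IsLocPow p v (x ^ n) := by
  induction n with
  | zero => simpa using s14_lp_isLocPow_one hp v
  | succ n ih => rw [pow_succ]; exact s14_lp_isLocPow_mul hp v ih hx

/-- two `v`-units that are congruent modulo `v` differ by a local `p`-th power (`v ∤ p`). -/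
theorem s14_lp_isLocPow_div_of_close {p : ℕ} (hp : 2 ≤ p) {v : HeightOneSpectrum (𝓞 F)}
    (hpv : (p : 𝓞 F) ∉ v.asIdeal) {x x₀ : F} (hx₀ : v.valuation F x₀ = 1)
    (h : v.valuation F (x - x₀) < 1) : s14_lp_IsLocPow p v (x / x₀) := by
  have hx₀0 : x₀ ≠ 0 := by
    rintro rfl
    rw [map_zero] at hx₀
    exact zero_ne_one hx₀
  apply s14_lp_isLocPow_of_sub_lt hp hpv (z := 1) (map_one _)
  have e : x / x₀ - 1 ^ p = (x - x₀) / x₀ := by
    rw [one_pow]; field_simp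
  rw [e, map_div₀, hx₀, div_one]
  exact h

theorem s14_lp_val_eq_one_of_close (v : HeightOneSpectrum (𝓞 F)) {x x₀ : F}
    (hx : v.valuation F x = 1) (h : v.valuation F (x - x₀) < 1) : v.valuation F x₀ = 1 := by
  have h2 : v.valuation F (-(x - x₀)) < v.valuation F x := by
    rw [Valuation.map_neg, hx]; exact h
  have := Valuation.map_add_eq_of_lt_left (v.valuation F) h2
  rw [hx] at this
  rw [← this]
  congr 1
  ring

/-- **(LP0)** cyclicity of `k_vˣ / p`. -/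
theorem s14_lp_cyclic {p : ℕ} (hp : p.Prime) {v : HeightOneSpectrum (𝓞 F)}
    (hpv : (p : 𝓞 F) ∉ v.asIdeal) {x y : F} (hx : v.valuation F x = 1)
    (hy : v.valuation F y = 1) (hxn : ¬ s14_lp_IsLocPow p v x) :
    ∃ k : ℕ, k < p ∧ s14_lp_IsLocPow p v (y * x ^ k) := by
  have hp2 := hp.two_le
  obtain ⟨x₀, hx₀⟩ := s14_lp_exists_int_close v hx.le
  obtain ⟨y₀, hy₀⟩ := s14_lp_exists_int_close v hy.le
  have hvx₀ := s14_lp_val_eq_one_of_close v hx hx₀
  have hvy₀ := s14_lp_val_eq_one_of_close v hy hy₀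
  have hx₀v : x₀ ∉ v.asIdeal := (v.valuation_eq_one_iff_notMem).mp hvx₀
  have hy₀v : y₀ ∉ v.asIdeal := (v.valuation_eq_one_iff_notMem).mp hvy₀
  have hx₀0 : algebraMap (𝓞 F) F x₀ ≠ 0 := by
    intro h; rw [h, map_zero] at hvx₀; exact zero_ne_one hvx₀
  have hy₀0 : algebraMap (𝓞 F) F y₀ ≠ 0 := by
    intro h; rw [h, map_zero] at hvy₀; exact zero_ne_one hvy₀
  have hdx := s14_lp_isLocPow_div_of_close hp2 hpv hvx₀ hx₀
  have hdy := s14_lp_isLocPow_div_of_close hp2 hpv hvy₀ hy₀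
  -- `x₀` is not a local `p`-th power
  have hx₀n : ¬ s14_lp_IsLocPow p v (algebraMap (𝓞 F) F x₀) := by
    intro h
    apply hxn
    have := s14_lp_isLocPow_mul hp2 v h hdx
    rwa [mul_div_cancel₀ _ hx₀0] at this
  have hres : ¬ ∃ c : 𝓞 F, x₀ - c ^ p ∈ v.asIdeal := fun h =>
    hx₀n ((s14_lp_isLocPow_int_iff hp2 hpv hx₀v).mpr h)
  -- pass to the residue field
  have : v.asIdeal.IsMaximal := v.isMaximal
  let _ : Field (𝓞 F ⧸ v.asIdeal) := Ideal.Quotient.field _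
  have : Finite (𝓞 F ⧸ v.asIdeal) := Ideal.finiteQuotientOfFreeOfNeBot _ v.ne_bot
  have hxb0 : Ideal.Quotient.mk v.asIdeal x₀ ≠ 0 := by
    rwa [Ne, Ideal.Quotient.eq_zero_iff_mem]
  have hyb0 : Ideal.Quotient.mk v.asIdeal y₀ ≠ 0 := by
    rwa [Ne, Ideal.Quotient.eq_zero_iff_mem]
  have hxb : ∀ c : 𝓞 F ⧸ v.asIdeal, c ^ p ≠ Ideal.Quotient.mk v.asIdeal x₀ := by
    intro c hc
    obtain ⟨c, rfl⟩ := Ideal.Quotient.mk_surjective c
    apply hres
    refine ⟨c, ?_⟩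
    rw [← Ideal.Quotient.eq, hc.symm, map_pow]
  obtain ⟨k, hk, c, hc⟩ := s14_lp_cyclic_field hp hxb0 hyb0 hxb
  obtain ⟨c, rfl⟩ := Ideal.Quotient.mk_surjective c
  refine ⟨k, hk, ?_⟩
  have hmem : y₀ * x₀ ^ k - c ^ p ∈ v.asIdeal := by
    rw [← Ideal.Quotient.eq, map_mul, map_pow, map_pow, hc]
  have hnot : y₀ * x₀ ^ k ∉ v.asIdeal := by
    intro h
    rcases v.isPrime.mem_or_mem h with h | h
    · exact hy₀v h
    · exact hx₀v (v.isPrime.mem_of_pow_mem _ h)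
  have h0 : s14_lp_IsLocPow p v (algebraMap (𝓞 F) F (y₀ * x₀ ^ k)) :=
    (s14_lp_isLocPow_int_iff hp2 hpv hnot).mpr ⟨c, hmem⟩
  have h1 := s14_lp_isLocPow_mul hp2 v (s14_lp_isLocPow_mul hp2 v h0 hdy)
    (s14_lp_isLocPow_npow hp2 v hdx k)
  have e : algebraMap (𝓞 F) F (y₀ * x₀ ^ k) * (y / algebraMap (𝓞 F) F y₀) *
      (x / algebraMap (𝓞 F) F x₀) ^ k = y * x ^ k := by
    rw [map_mul, map_pow, div_pow]
    field_simp
  rwa [e] at h1

end Fermat.Agent.S14
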