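import Mathlib
import Fermat.Agent.S14.I2Stmt
import Fermat.Agent.S14.Bridge
import Fermat.Agent.S14.LPStmt
import Fermat.Agent.S14.LPCyc

/-!
# S14 (LP) — exports LPint, LP0, LP1 converse in interface shapes (OWNER: helper6)

* `s14_lp_stmt_LPint : s14_i2_stmt_LPint`, `s14_lp_stmt_LP0 : s14_i2_stmt_LP0`
  (shapes of `I2Stmt.lean`);
* `s14_lp_stmt_LPint' : s14_stmt_LPint`, `s14_lp_stmt_LP0' : s14_stmt_LP0`,
  `s14_lp_stmt_LPconv : s14_stmt_LPconv`, `s14_lp_stmt_LPconv_splits : s14_stmt_LPconv_splits`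
  (shapes of `LPStmt.lean`).
-/

set_option autoImplicit false
set_option linter.unusedSectionVars false

namespace Fermat.Agent.S14

open NumberField IsDedekindDomain

theorem s14_lp_stmt_LPint : s14_i2_stmt_LPint := by
  intro F _ _ p hp v hpv x hx
  exact s14_lp_isLocPow_int_iff hp.two_le hpv hx

theorem s14_lp_stmt_LPint' : s14_stmt_LPint := by
  intro F _ _ p hp v hpv x hx
  exact s14_lp_isLocPow_int_iff hp.two_le hpv hx

theorem s14_lp_stmt_LP0 : s14_i2_stmt_LP0 := by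
  intro F _ _ p hp v hpv x y hx hy hxn
  obtain ⟨k, hk, h⟩ := s14_lp_cyclic hp hpv hx hy hxn
  refine ⟨k, hk, ?_⟩
  rw [s14_lp_mem_locPow]
  simpa using h

theorem s14_lp_stmt_LP0' : s14_stmt_LP0 := by
  intro F _ _ p hp v hpv x y hx hy hxn
  obtain ⟨k, hk, h⟩ := s14_lp_cyclic hp hpv hx hy hxn
  refine ⟨k, hk, ?_⟩
  rw [s14_lp_mem_locPow]
  simpa using h

section conv

variable {F N : Type*} [Field F] [NumberField F] [Field N] [NumberField N] [Algebra F N]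

/-- residue degree one means that `𝓞 F → 𝓞 N / w` is onto. -/
theorem s14_lp_surj_of_inertiaDeg (v : HeightOneSpectrum (𝓞 F)) (w : Ideal (𝓞 N)) [w.IsPrime]
    [w.LiesOver v.asIdeal] (hf : w.inertiaDeg (𝓞 F) = 1) :
    ∀ r : 𝓞 N, ∃ c : 𝓞 F, r - algebraMap (𝓞 F) (𝓞 N) c ∈ w := by
  intro r
  have : v.asIdeal.IsMaximal := v.isMaximal
  have : w.IsMaximal := Ideal.IsMaximal.of_liesOver_isMaximal w v.asIdeal
  rw [Ideal.inertiaDeg_eq_of_isMaximal v.asIdeal w] at hf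
  let _ : Field (𝓞 F ⧸ v.asIdeal) := Ideal.Quotient.field _
  let _ : Field (𝓞 N ⧸ w) := Ideal.Quotient.field _
  have h1 := Subalgebra.bot_eq_top_of_finrank_eq_one hf
  have h2 : Ideal.Quotient.mk w r ∈ (⊥ : Subalgebra (𝓞 F ⧸ v.asIdeal) (𝓞 N ⧸ w)) := by
    rw [h1]; exact Algebra.mem_top
  rw [Algebra.mem_bot] at h2
  obtain ⟨cbar, hc⟩ := h2
  obtain ⟨c, rfl⟩ := Ideal.Quotient.mk_surjective cbar
  refine ⟨c, ?_⟩
  rw [← Ideal.Quotient.eq, ← hc]
  rfl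

/-- LP1 converse, residue-degree form. -/
theorem s14_lp_isLocPow_of_inertiaDeg {p : ℕ} (hp : 2 ≤ p) {y : F} {a : N}
    (ha : a ^ p = algebraMap F N y) {v : HeightOneSpectrum (𝓞 F)}
    (hpv : (p : 𝓞 F) ∉ v.asIdeal) (hy : v.valuation F y = 1)
    (w : Ideal (𝓞 N)) [w.IsPrime] [w.LiesOver v.asIdeal] (hf : w.inertiaDeg (𝓞 F) = 1) :
    s14_lp_IsLocPow p v y :=
  s14_lp_isLocPow_of_surj hp ha hpv hy w (s14_lp_surj_of_inertiaDeg v w hf)

/-- LP1 converse, split form. -/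
theorem s14_lp_isLocPow_of_splits [IsGalois F N] {p : ℕ} (hp : 2 ≤ p) {y : F} {a : N}
    (ha : a ^ p = algebraMap F N y) {v : HeightOneSpectrum (𝓞 F)}
    (hpv : (p : 𝓞 F) ∉ v.asIdeal) (hy : v.valuation F y = 1)
    (hs : s14_Splits F N v.asIdeal) : s14_lp_IsLocPow p v y := by
  have : v.asIdeal.IsPrime := v.isPrime
  obtain ⟨w, hw, hwv⟩ := s14_br_exists_over F N v.asIdeal
  have := hw
  have : w.LiesOver v.asIdeal := ⟨hwv.symm⟩
  have hf := ((s14_br_splits_iff F N v.asIdeal).1 hs w hw hwv).2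
  exact s14_lp_isLocPow_of_inertiaDeg hp ha hpv hy w hf

end conv

theorem s14_lp_stmt_LPconv : s14_stmt_LPconv := by
  intro F N _ _ _ _ _ p hp y a ha v hpv hy w hw hwv hsurj
  have := hw
  have : w.LiesOver v.asIdeal := ⟨hwv.symm⟩
  exact s14_lp_isLocPow_of_surj hp.two_le ha hpv hy w hsurj

theorem s14_lp_stmt_LPconv_splits : s14_stmt_LPconv_splits := by
  intro F N _ _ _ _ _ _ p hp y a ha v hpv hy hs
  exact s14_lp_isLocPow_of_splits hp.two_le ha hpv hy hs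

end Fermat.Agent.S14
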