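import Mathlib
import Fermat.Agent.S14.I2Stmt
import Fermat.Agent.S14.LPSplit

/-!
# S14 (LP) — exports LP1, LP2 in the shapes of `I2Stmt.lean` (OWNER: helper6)
-/

set_option autoImplicit false

namespace Fermat.Agent.S14

open NumberField IsDedekindDomain

/-- **(LP1)** in the shape of `I2Stmt.lean`. -/
theorem s14_lp_stmt_LP1 : s14_i2_stmt_LP1 := by
  intro F N _ _ _ _ _ _ p hp hζ y a ha hgen v hpv hy
  obtain ⟨ζ, hζ⟩ := hζ
  exact s14_lp_unramAt hp hζ ha hgen hpv hy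

/-- **(LP2)** in the shape of `I2Stmt.lean`. -/
theorem s14_lp_stmt_LP2 : s14_i2_stmt_LP2 := by
  intro F N _ _ _ _ _ _ p hp hζ y a _ ha hgen v hy
  obtain ⟨ζ, hζ⟩ := hζ
  exact s14_lp_splits hp hζ ha hgen hy

end Fermat.Agent.S14
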