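import Fermat.Agent.S14.I2Main
import Fermat.Agent.S14.I2Sel
import Fermat.Agent.S14.I2Key
import Fermat.Agent.S14.I2NLC
import Fermat.Agent.S14.I2ClassStmt
import Fermat.Agent.S14.I2KummerStmt
import Fermat.Agent.S14.SUnitModP
import Fermat.Agent.S14.LPExport12
import Fermat.Agent.S14.LPExport0

/-!
# S14 (I2) — the second inequality: wiring   (OWNER: helper4)

`s14_i2_of`: `s14_stmt_I2` from (FI), the arithmetic step of the T-selection and the count (LP3);
all other sub-interfaces of `I2Stmt.lean` are plugged in.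
-/

set_option autoImplicit false

namespace Fermat.Agent.S14

theorem s14_i2_of (hFI : s14_stmt_FI) (hNP : s14_i2_stmt_NewPrime) (hLP3 : s14_i2_stmt_LP3) :
    s14_stmt_I2 :=
  s14_i2_main s14_i2s_stmt_S2 s14_su_modp hLP3 (s14_i2n_main s14_lp_stmt_LPint)
    (s14_i2a_main hNP s14_lp_stmt_LP0 s14_su_modp s14_i2k_K3)
    (s14_i2b_main hFI s14_i2k_K1 s14_lp_stmt_LP1 s14_lp_stmt_LP2
      (s14_i2n_main s14_lp_stmt_LPint))

end Fermat.Agent.S14
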