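import Mathlib
import Fermat.Agent.S14.LPDefs
import Fermat.Agent.S14.I2Stmt
import Fermat.Agent.S14.I2Sel
import Fermat.Agent.S14.I2LP3

/-!
# S14 (I2 / LP3) — reduction of the local count to the units at a wild prime
(OWNER: helper4)

`s14_i2_stmt_LP3w` : for `v ∣ p` (`ord_v p = e ≥ 1`) the local `p`-th powers have relative
index at most `p * N(v) ^ e` in the group of units at `v`.

`s14_i2r_main : LP0 → LP3w → s14_i2_stmt_LP3val`:
`[Fˣ : Λ_v] = [Fˣ : U_v Λ_v] [U_v : U_v ∩ Λ_v]`, `[Fˣ : U_v Λ_v] ≤ p` (valuation modulo `p`), and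
for `v ∤ p` the second factor is at most `p` by (LP0).
-/

set_option autoImplicit false

namespace Fermat.Agent.S14

open NumberField IsDedekindDomain

/-- **(LP3, wild units)** for `ord_v p = e ≥ 1`: `[U_v : U_v ∩ Λ_v] ≤ p * N(v) ^ e`. -/
def s14_i2_stmt_LP3w : Prop :=
  ∀ (F : Type) [Field F] [NumberField F] (p : ℕ) (hp : p.Prime),
    (∃ ζ : F, IsPrimitiveRoot ζ p) → ∀ (v : HeightOneSpectrum (𝓞 F)) (e : ℕ), e ≠ 0 →
      v.valuation F (p : F) = WithZero.exp (-(e : ℤ)) →
      (s14_lp_locPow hp v).relIndex (v.valuation F).valuationSubring.unitGroup ≠ 0 ∧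
        (s14_lp_locPow hp v).relIndex (v.valuation F).valuationSubring.unitGroup
          ≤ p * (Ideal.absNorm v.asIdeal) ^ e

/-- the units at `v` together with the local `p`-th powers have index at most `p`. -/
theorem s14_i2r_index_sup_le (F : Type) [Field F] [NumberField F] (p : ℕ) (hp : p.Prime)
    (v : HeightOneSpectrum (𝓞 F)) :
    ((v.valuation F).valuationSubring.unitGroup ⊔ s14_lp_locPow hp v).index ≠ 0 ∧
      ((v.valuation F).valuationSubring.unitGroup ⊔ s14_lp_locPow hp v).index ≤ p := by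
  classical
  set U := (v.valuation F).valuationSubring.unitGroup with hU
  set L := s14_lp_locPow hp v with hL
  obtain ⟨π, hπ⟩ := v.valuation_exists_uniformizer F
  have hπ0 : π ≠ 0 := by
    intro h
    rw [h, map_zero] at hπ
    exact WithZero.exp_ne_zero hπ.symm
  set ϖ : Fˣ := Units.mk0 π hπ0 with hϖ
  let f : Fin p → Fˣ ⧸ (U ⊔ L) := fun k => QuotientGroup.mk (ϖ ^ (k : ℕ))
  have hf : Function.Surjective f := by
    intro q
    obtain ⟨x, rfl⟩ := QuotientGroup.mk_surjective q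
    have hx0 : v.valuation F (x : F) ≠ 0 := (Valuation.ne_zero_iff _).mpr x.ne_zero
    set n : ℤ := -WithZero.log (v.valuation F (x : F)) with hn
    have hp0 : (p : ℤ) ≠ 0 := by exact_mod_cast hp.ne_zero
    have hk0 : 0 ≤ n % (p : ℤ) := Int.emod_nonneg n hp0
    have hk1 : n % (p : ℤ) < p := Int.emod_lt_of_pos n (by exact_mod_cast hp.pos)
    refine ⟨⟨(n % (p : ℤ)).toNat, by omega⟩, ?_⟩
    rw [QuotientGroup.eq]
    -- `(ϖ ^ k)⁻¹ * x = (x * ϖ ^ (-n)) * (ϖ ^ (n / p)) ^ p`
    have hdecomp : (ϖ ^ (n % (p : ℤ)).toNat)⁻¹ * x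
        = (x * ϖ ^ (-n)) * (ϖ ^ (n / (p : ℤ))) ^ p := by
      have h1 : (ϖ ^ (n % (p : ℤ)).toNat) = ϖ ^ (n % (p : ℤ)) := by
        rw [← zpow_natCast, Int.toNat_of_nonneg hk0]
      have h2 : (ϖ ^ (n / (p : ℤ))) ^ p = ϖ ^ ((n / (p : ℤ)) * p) := by
        rw [← zpow_natCast, ← zpow_mul]
      rw [h1, h2, ← zpow_neg, mul_comm _ x, mul_assoc, ← zpow_add]
      congr 2
      have := Int.emod_add_mul_ediv n (p : ℤ)
      linarith [Int.emod_add_mul_ediv n (p : ℤ), mul_comm (n / (p : ℤ)) (p : ℤ)]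
    rw [hdecomp]
    refine Subgroup.mul_mem _ (Subgroup.mem_sup_left ?_)
      (Subgroup.mem_sup_right (s14_lp_pow_mem_locPow hp v _))
    rw [hU, Valuation.mem_unitGroup_iff]
    rw [Units.val_mul, map_mul, Units.val_zpow_eq_zpow_val, map_zpow₀, hϖ, Units.val_mk0, hπ,
      ← WithZero.exp_zsmul, smul_eq_mul, hn]
    have : WithZero.exp (- -WithZero.log (v.valuation F (x : F)) * (-1))
        = (v.valuation F (x : F))⁻¹ := by
      rw [neg_neg, mul_neg, mul_one, WithZero.exp_neg, WithZero.exp_log hx0]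
    rw [this, mul_inv_cancel₀ hx0]
  have hfin : Finite (Fˣ ⧸ (U ⊔ L)) := Finite.of_surjective f hf
  have hcard : Nat.card (Fˣ ⧸ (U ⊔ L)) ≤ p := by
    have := Nat.card_le_card_of_surjective f hf
    simpa using this
  rw [Subgroup.index_eq_card]
  exact ⟨Nat.card_pos.ne', hcard⟩

/-- **(LP3, local)** from (LP0) and the wild unit count. -/
theorem s14_i2r_main (hLP0 : s14_i2_stmt_LP0) (hw : s14_i2_stmt_LP3w) :
    s14_i2_stmt_LP3val := by
  intro F _ _ p hp hζ v e hval
  classical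
  set U := (v.valuation F).valuationSubring.unitGroup with hU
  set L := s14_lp_locPow hp v with hL
  -- the unit part
  have hunit : L.relIndex U ≠ 0 ∧ L.relIndex U ≤ p * (Ideal.absNorm v.asIdeal) ^ e := by
    by_cases he : e = 0
    · subst he
      have hpv : (p : 𝓞 F) ∉ v.asIdeal := by
        intro hmem
        have h1 := s14_lp_val_natCast_lt_one (v := v) hmem
        rw [hval] at h1
        simp at h1
      have := s14_i2a_relIndex_locPow_le hLP0 F p hp v hpv U
        (fun x hx => (Valuation.mem_unitGroup_iff _ _ x).mp hx)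
      simpa using this
    · exact hw F p hp hζ v e he hval
  obtain ⟨hu0, hu1⟩ := hunit
  obtain ⟨hs0, hs1⟩ := s14_i2r_index_sup_le F p hp v
  have h4 : L.relIndex (U ⊔ L) * (U ⊔ L).index = L.index :=
    Subgroup.relIndex_mul_index le_sup_right
  rw [Subgroup.relIndex_sup_right] at h4
  rw [← hU, ← hL] at hs0 hs1
  constructor
  · rw [← h4]
    exact mul_ne_zero hu0 hs0
  · rw [← h4]
    calc L.relIndex U * (U ⊔ L).index ≤ (p * (Ideal.absNorm v.asIdeal) ^ e) * p :=
          Nat.mul_le_mul hu1 hs1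
      _ = p ^ 2 * (Ideal.absNorm v.asIdeal) ^ e := by ring

end Fermat.Agent.S14
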