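import Mathlib
import Fermat.Agent.S14.LPDefs

/-!
# S14 (I2 / LP3w) — the wild unit count: vocabulary and sub-interfaces   (OWNER: helper4)

`s14_lw_U v n = {x ∈ Fˣ | v x = 1 ∧ v (x - 1) ≤ exp (-n)}` (`n = 0`: the units at `v`;
`n ≥ 1`: the principal units of level `n`).

Plan for `s14_i2_stmt_LP3w` (`ord_v (1 - ζ) = e₁`, `ord_v p = e = (p - 1) e₁`, `M = p e₁ + 1`):
`U_M ≤ Λ_v`, so `[U : U ∩ Λ_v] ≤ [U : U ^ p U_M] = [K : U_M]` with
`K = {x ∈ U | x ^ p ∈ U_M}` (D), `K ≤ ⟨ζ⟩ U_{e₁ + 1}` (C), and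
`[U_{e₁ + 1} : U_M] ≤ N(v) ^ (M - e₁ - 1) = N(v) ^ e` (A).
-/

set_option autoImplicit false

namespace Fermat.Agent.S14

open NumberField IsDedekindDomain

section

variable {F : Type*} [Field F] [NumberField F]

/-- the units `x` at `v` with `x ≡ 1 mod v ^ n`. -/
def s14_lw_U (v : HeightOneSpectrum (𝓞 F)) (n : ℕ) : Subgroup Fˣ where
  carrier := {x | v.valuation F (x : F) = 1 ∧
    v.valuation F ((x : F) - 1) ≤ WithZero.exp (-(n : ℤ))}
  one_mem' := by simp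
  mul_mem' := by
    rintro x y ⟨hx, hx1⟩ ⟨hy, hy1⟩
    refine ⟨by rw [Units.val_mul, map_mul, hx, hy, one_mul], ?_⟩
    have e : ((x * y : Fˣ) : F) - 1 = (x : F) * ((y : F) - 1) + ((x : F) - 1) := by
      push_cast; ring
    rw [e]
    refine le_trans (Valuation.map_add _ _ _) (max_le ?_ hx1)
    rw [map_mul, hx, one_mul]
    exact hy1
  inv_mem' := by
    rintro x ⟨hx, hx1⟩
    refine ⟨by rw [Units.val_inv_eq_inv_val, map_inv₀, hx, inv_one], ?_⟩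
    have e : ((x⁻¹ : Fˣ) : F) - 1 = -(((x : F) - 1) * (x : F)⁻¹) := by
      have hx0 : (x : F) ≠ 0 := x.ne_zero
      rw [Units.val_inv_eq_inv_val]
      field_simp
      ring
    rw [e, Valuation.map_neg, map_mul, map_inv₀, hx, inv_one, mul_one]
    exact hx1

theorem s14_lw_mem_U (v : HeightOneSpectrum (𝓞 F)) (n : ℕ) (x : Fˣ) :
    x ∈ s14_lw_U v n ↔ v.valuation F (x : F) = 1 ∧
      v.valuation F ((x : F) - 1) ≤ WithZero.exp (-(n : ℤ)) := Iff.rfl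

end

/-- **(LW-A)** `[U_n : U_{n+1}] ≤ N(v)` for every `n ≥ 0`. -/
def s14_lw_stmt_A : Prop :=
  ∀ (F : Type) [Field F] [NumberField F] (v : HeightOneSpectrum (𝓞 F)) (n : ℕ),
    (s14_lw_U v (n + 1)).relIndex (s14_lw_U v n) ≠ 0 ∧
      (s14_lw_U v (n + 1)).relIndex (s14_lw_U v n) ≤ Ideal.absNorm v.asIdeal

/-- **(LW-C)** pigeonhole: a unit `x` at `v` with `x ^ p ≡ 1 mod v ^ (p e₁ + 1)`
(`e₁ = ord_v (1 - ζ)`) is congruent to some `ζ ^ i` modulo `v ^ (e₁ + 1)`. -/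
def s14_lw_stmt_C : Prop :=
  ∀ (F : Type) [Field F] [NumberField F] (p : ℕ), p.Prime →
    ∀ ζ : F, IsPrimitiveRoot ζ p → ∀ (v : HeightOneSpectrum (𝓞 F)) (e₁ : ℕ),
      v.valuation F (1 - ζ) = WithZero.exp (-(e₁ : ℤ)) →
      ∀ x : F, v.valuation F x = 1 →
        v.valuation F (x ^ p - 1) ≤ WithZero.exp (-((p * e₁ + 1 : ℕ) : ℤ)) →
        ∃ i : ℕ, i < p ∧ v.valuation F (x - ζ ^ i) ≤ WithZero.exp (-((e₁ + 1 : ℕ) : ℤ))

/-- **(LW-D)** abstract counting in a commutative group: if `W ≤ U` has finite index, then the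
index of `W · U ^ p` in `U` is at most the index of `W` in `{x ∈ U | x ^ p ∈ W}`
(kernel and cokernel of the `p`-th power map on the finite group `U / W` have the same
order). -/
def s14_lw_stmt_D : Prop :=
  ∀ (G : Type) [CommGroup G] (U W : Subgroup G) (p : ℕ), W ≤ U → W.relIndex U ≠ 0 →
    (W ⊔ U.map (powMonoidHom p : G →* G)).relIndex U ≠ 0 ∧
      (W ⊔ U.map (powMonoidHom p : G →* G)).relIndex U ≤
        W.relIndex (U ⊓ W.comap (powMonoidHom p : G →* G))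

end Fermat.Agent.S14
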