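import Mathlib
import Fermat.Agent.S14.LPDefs
import Fermat.Agent.S14.I2LP3Red
import Fermat.Agent.S14.I2LWStmt

/-!
# S14 (I2 / LP3w) — the wild unit count from its sub-interfaces   (OWNER: helper4)

`s14_lw_main : LW-A → LW-C → LW-D → s14_i2_stmt_LP3w`.
-/

set_option autoImplicit false

namespace Fermat.Agent.S14

open NumberField IsDedekindDomain

section

variable {F : Type*} [Field F] [NumberField F]

theorem s14_lw_U_zero (v : HeightOneSpectrum (𝓞 F)) :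
    s14_lw_U v 0 = (v.valuation F).valuationSubring.unitGroup := by
  ext x
  rw [s14_lw_mem_U, Valuation.mem_unitGroup_iff]
  constructor
  · exact fun h => h.1
  · intro h
    refine ⟨h, ?_⟩
    have := Valuation.map_sub (v.valuation F) (x : F) 1
    rw [h, map_one, max_self] at this
    simpa using this

theorem s14_lw_U_anti (v : HeightOneSpectrum (𝓞 F)) {a b : ℕ} (hab : a ≤ b) :
    s14_lw_U v b ≤ s14_lw_U v a := by
  intro x hx
  rw [s14_lw_mem_U] at hx ⊢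
  refine ⟨hx.1, hx.2.trans ?_⟩
  rw [WithZero.exp_le_exp]
  omega

end

/-- the chain of the filtration. -/
theorem s14_lw_chain (hA : s14_lw_stmt_A) (F : Type) [Field F] [NumberField F]
    (v : HeightOneSpectrum (𝓞 F)) (a k : ℕ) :
    (s14_lw_U v (a + k)).relIndex (s14_lw_U v a) ≠ 0 ∧
      (s14_lw_U v (a + k)).relIndex (s14_lw_U v a) ≤ (Ideal.absNorm v.asIdeal) ^ k := by
  induction k with
  | zero => simp [Subgroup.relIndex_self]
  | succ k ih =>
    obtain ⟨ih0, ih1⟩ := ih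
    obtain ⟨h0, h1⟩ := hA F v (a + k)
    have hmul := Subgroup.relIndex_mul_relIndex (H := s14_lw_U v (a + k + 1))
      (K := s14_lw_U v (a + k)) (L := s14_lw_U v a)
      (s14_lw_U_anti v (by omega)) (s14_lw_U_anti v (by omega))
    rw [← add_assoc, ← hmul]
    refine ⟨mul_ne_zero h0 ih0, ?_⟩
    rw [pow_succ, mul_comm]
    exact Nat.mul_le_mul ih1 h1

/-- **(LP3w)** the wild unit count. -/
theorem s14_lw_main (hA : s14_lw_stmt_A) (hC : s14_lw_stmt_C) (hD : s14_lw_stmt_D) :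
    s14_i2_stmt_LP3w := by
  intro F _ _ p hp hζ' v e _ hval
  obtain ⟨ζ, hζ⟩ := hζ'
  classical
  -- `e₁ = ord_v (1 - ζ)`
  have hle1 : v.valuation F (1 - ζ) ≤ 1 := s14_lp_val_one_sub_le _ hp hζ
  have hne0 : v.valuation F (1 - ζ) ≠ 0 :=
    (Valuation.ne_zero_iff _).mpr (s14_lp_one_sub_ne_zero hp hζ)
  obtain ⟨e₁, he₁⟩ : ∃ e₁ : ℕ, v.valuation F (1 - ζ) = WithZero.exp (-(e₁ : ℤ)) := by
    refine ⟨(-WithZero.log (v.valuation F (1 - ζ))).toNat, ?_⟩
    have hlog : WithZero.log (v.valuation F (1 - ζ)) ≤ 0 := by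
      rw [← WithZero.exp_le_exp, WithZero.exp_log hne0, WithZero.exp_zero]
      exact hle1
    rw [Int.toNat_of_nonneg (by omega), neg_neg, WithZero.exp_log hne0]
  have hee : e = (p - 1) * e₁ := by
    have h := s14_lp_val_prime (v.valuation F) hp hζ
    rw [hval, he₁, ← WithZero.exp_nsmul, WithZero.exp_inj, nsmul_eq_mul] at h
    have : (e : ℤ) = ((p - 1 : ℕ) : ℤ) * (e₁ : ℤ) := by linarith
    exact_mod_cast this
  set M : ℕ := p * e₁ + 1 with hM
  set U := s14_lw_U v 0 with hU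
  set V := s14_lw_U v (e₁ + 1) with hV
  set W := s14_lw_U v M with hW
  set L := s14_lp_locPow hp v with hL
  have hp1 : 1 ≤ p := hp.one_lt.le
  have hMe : M = (e₁ + 1) + e := by
    rw [hM, hee]
    have : p * e₁ = (p - 1) * e₁ + e₁ := by
      conv_lhs => rw [← Nat.sub_add_cancel hp1]
      ring
    omega
  have hWV : W ≤ V := s14_lw_U_anti v (by omega)
  have hVU : V ≤ U := s14_lw_U_anti v (by omega)
  have hWU : W ≤ U := hWV.trans hVU
  rw [← s14_lw_U_zero, ← hU]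
  -- indices of the filtration
  obtain ⟨hWU0, -⟩ : W.relIndex U ≠ 0 ∧ _ := by
    have := s14_lw_chain hA F v 0 M
    simpa using this
  obtain ⟨hWV0, hWV1⟩ : W.relIndex V ≠ 0 ∧ W.relIndex V ≤ (Ideal.absNorm v.asIdeal) ^ e := by
    have := s14_lw_chain hA F v (e₁ + 1) e
    rwa [← hMe] at this
  -- (B) `W ⊔ U ^ p ≤ L`
  have hWL : W ≤ L := by
    intro x hx
    rw [hL, s14_lp_mem_locPow, s14_lp_isLocPow_iff hp hζ]
    refine ⟨1, one_ne_zero, ?_⟩
    rw [one_pow, div_one, he₁, ← WithZero.exp_nsmul]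
    refine lt_of_le_of_lt hx.2 ?_
    rw [WithZero.exp_lt_exp, hM, nsmul_eq_mul]
    push_cast
    linarith
  have hUpL : U.map (powMonoidHom p : Fˣ →* Fˣ) ≤ L := by
    rintro _ ⟨y, -, rfl⟩
    exact s14_lp_pow_mem_locPow hp v y
  have hsupL : W ⊔ U.map (powMonoidHom p : Fˣ →* Fˣ) ≤ L := sup_le hWL hUpL
  -- (D)
  obtain ⟨hD0, hD1⟩ := hD Fˣ U W p hWU hWU0
  -- (C) `K ≤ Z ⊔ V`
  have hζ0 : ζ ≠ 0 := hζ.ne_zero hp.ne_zero
  set ζu : Fˣ := Units.mk0 ζ hζ0 with hζu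
  set Z := Subgroup.zpowers ζu with hZ
  have hvζ : v.valuation F ζ = 1 := s14_lp_val_root _ hp.ne_zero hζ.pow_eq_one
  have hK : U ⊓ W.comap (powMonoidHom p : Fˣ →* Fˣ) ≤ Z ⊔ V := by
    rintro x ⟨hxU, hxW⟩
    have hx1 : v.valuation F (x : F) = 1 := hxU.1
    have hxp : v.valuation F ((x : F) ^ p - 1) ≤ WithZero.exp (-((p * e₁ + 1 : ℕ) : ℤ)) := by
      have := hxW.2
      rw [hM] at this
      simpa only [powMonoidHom_apply, Units.val_pow_eq_pow_val] using this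
    obtain ⟨i, -, hi⟩ := hC F p hp ζ hζ v e₁ he₁ (x : F) hx1 hxp
    have hdec : x = ζu ^ i * (x * (ζu ^ i)⁻¹) := by
      rw [mul_comm x, ← mul_assoc, mul_inv_cancel, one_mul]
    rw [hdec]
    refine Subgroup.mul_mem _ (Subgroup.mem_sup_left (Subgroup.pow_mem _
      (Subgroup.mem_zpowers ζu) i)) (Subgroup.mem_sup_right ?_)
    rw [hV, s14_lw_mem_U]
    have hvi : v.valuation F (ζ ^ i) = 1 := by rw [map_pow, hvζ, one_pow]
    have hζi0 : ζ ^ i ≠ 0 := pow_ne_zero i hζ0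
    constructor
    · simp [hζu, hx1, hvζ]
    · have e2 : ((x * (ζu ^ i)⁻¹ : Fˣ) : F) - 1 = ((x : F) - ζ ^ i) * (ζ ^ i)⁻¹ := by
        simp only [Units.val_mul, Units.val_inv_eq_inv_val, Units.val_pow_eq_pow_val, hζu,
          Units.val_mk0]
        field_simp
      rw [e2, map_mul, map_inv₀, hvi, inv_one, mul_one]
      exact_mod_cast hi
  -- `[Z ⊔ V : V] ≤ p`
  have hcardZ : Nat.card Z = p := by
    rw [hZ, Nat.card_zpowers]
    have h1 : orderOf (ζu : F) = p := hζ.eq_orderOf.symm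
    rw [← orderOf_units, h1]
  have hVZ : V.relIndex (Z ⊔ V) ∣ p := by
    rw [Subgroup.relIndex_sup_right, ← hcardZ]
    exact Subgroup.relIndex_dvd_card V Z
  have hVZ0 : V.relIndex (Z ⊔ V) ≠ 0 := fun h => hp.ne_zero (by simpa [h] using hVZ)
  have hVZ1 : V.relIndex (Z ⊔ V) ≤ p := Nat.le_of_dvd hp.pos hVZ
  have hmul := Subgroup.relIndex_mul_relIndex (H := W) (K := V) (L := Z ⊔ V) hWV le_sup_right
  have hWZV0 : W.relIndex (Z ⊔ V) ≠ 0 := by
    rw [← hmul]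
    exact mul_ne_zero hWV0 hVZ0
  constructor
  · intro h0
    exact hD0 (Subgroup.relIndex_eq_zero_of_le_left hsupL h0)
  · calc L.relIndex U ≤ (W ⊔ U.map (powMonoidHom p : Fˣ →* Fˣ)).relIndex U :=
          Subgroup.relIndex_le_of_le_left hsupL hD0
      _ ≤ W.relIndex (U ⊓ W.comap (powMonoidHom p : Fˣ →* Fˣ)) := hD1
      _ ≤ W.relIndex (Z ⊔ V) := Subgroup.relIndex_le_of_le_right hK hWZV0
      _ = W.relIndex V * V.relIndex (Z ⊔ V) := hmul.symm
      _ ≤ (Ideal.absNorm v.asIdeal) ^ e * p := Nat.mul_le_mul hWV1 hVZ1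
      _ = p * (Ideal.absNorm v.asIdeal) ^ e := mul_comm _ _

end Fermat.Agent.S14
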