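import Fermat.Agent.S14.I2Wire
import Fermat.Agent.S14.I2LP3Red
import Fermat.Agent.S14.I2LW
import Fermat.Agent.S14.FI

/-!
# S14 (I2) — the second inequality: wiring, part 3   (OWNER: helper4)

`s14_i2_of_lw`: `s14_stmt_I2` from the three sub-statements of the wild unit count; (FI), (Z),
the Kummer theory, the class group, the `S`-unit theorem, the T-selection, the key lemma, the
valuation criterion and the tame local computations are plugged in.
-/

set_option autoImplicit false

namespace Fermat.Agent.S14

theorem s14_i2_of_LP3w (h : s14_i2_stmt_LP3w) : s14_stmt_I2 :=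
  s14_i2_of_val s14_fi_main (s14_i2r_main s14_lp_stmt_LP0 h)

theorem s14_i2_of_lw (hA : s14_lw_stmt_A) (hC : s14_lw_stmt_C) (hD : s14_lw_stmt_D) :
    s14_stmt_I2 :=
  s14_i2_of_LP3w (s14_lw_main hA hC hD)

end Fermat.Agent.S14
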