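import Mathlib
import Fermat.Agent.S14.LPDefs
import Fermat.Agent.S14.LPRes
import Fermat.Agent.S14.I2LWStmt

/-!
# S14 (I2 / LP3w) — (LW-A): one step of the unit filtration   (OWNER: helper8)

`[U_n : U_{n+1}] ≤ N(v)` for the filtration `s14_lw_U v n` of the units at `v`
(`n = 0`: all units at `v`).

* `s14_lwa_lt_exp_iff`   : `x < exp (-n) ↔ x ≤ exp (-(n+1))` in `ℤᵐ⁰`.
* `s14_lwa_div_mem`      : `x, x' ∈ U_n`, `v (x - x') ≤ exp (-(n+1))` ⇒ `x'⁻¹ x ∈ U_{n+1}`.
* `s14_lwa_exists_res`   : every `x ∈ U_n` has a residue `r ∈ 𝓞 F` with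
                           `v ((x - 1) / π ^ n - r) < 1`.
* `s14_lwa_relIndex_le`  : the count, for `F : Type*`.
* `s14_lwa_main : s14_lw_stmt_A`.
-/

set_option autoImplicit false
set_option linter.style.haveILetI false

namespace Fermat.Agent.S14

open NumberField IsDedekindDomain

section

variable {F : Type*} [Field F] [NumberField F]

/-- discreteness of `ℤᵐ⁰`. -/
theorem s14_lwa_lt_exp_iff (x : WithZero (Multiplicative ℤ)) (n : ℕ) :
    x < WithZero.exp (-(n : ℤ)) ↔ x ≤ WithZero.exp (-((n + 1 : ℕ) : ℤ)) := by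
  have h : WithZero.exp (-(n : ℤ)) = WithZero.exp (-((n + 1 : ℕ) : ℤ)) * WithZero.exp 1 := by
    rw [← WithZero.exp_add]
    congr 1
    push_cast
    ring
  rw [h]
  exact WithZero.lt_mul_exp_iff_le WithZero.exp_ne_zero

/-- two elements of `U_n` that are congruent modulo `v ^ (n + 1)` differ by an element of
`U_{n+1}`. -/
theorem s14_lwa_div_mem (v : HeightOneSpectrum (𝓞 F)) (n : ℕ) {x x' : Fˣ}
    (hx : x ∈ s14_lw_U v n) (hx' : x' ∈ s14_lw_U v n)
    (h : v.valuation F ((x : F) - (x' : F)) ≤ WithZero.exp (-((n + 1 : ℕ) : ℤ))) :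
    x'⁻¹ * x ∈ s14_lw_U v (n + 1) := by
  rw [s14_lw_mem_U] at hx hx' ⊢
  have hx0 : (x' : F) ≠ 0 := x'.ne_zero
  refine ⟨by rw [Units.val_mul, Units.val_inv_eq_inv_val, map_mul, map_inv₀, hx.1, hx'.1,
    inv_one, one_mul], ?_⟩
  have e : ((x'⁻¹ * x : Fˣ) : F) - 1 = ((x : F) - (x' : F)) * (x' : F)⁻¹ := by
    rw [Units.val_mul, Units.val_inv_eq_inv_val]
    field_simp
  rw [e, map_mul, map_inv₀, hx'.1, inv_one, mul_one]
  exact h

/-- the residue of `(x - 1) / π ^ n` for `x ∈ U_n`. -/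
theorem s14_lwa_exists_res (v : HeightOneSpectrum (𝓞 F)) (n : ℕ) {π : F}
    (hπ : v.valuation F π = WithZero.exp (-(1 : ℤ))) {x : Fˣ} (hx : x ∈ s14_lw_U v n) :
    ∃ r : 𝓞 F, v.valuation F (((x : F) - 1) / π ^ n - algebraMap (𝓞 F) F r) < 1 := by
  apply s14_lp_exists_int_close
  rw [s14_lw_mem_U] at hx
  have hπn : v.valuation F (π ^ n) = WithZero.exp (-(n : ℤ)) := by
    rw [map_pow, hπ, ← WithZero.exp_nsmul]
    congr 1
    simp
  rw [map_div₀, hπn]
  exact (div_le_one₀ (by simp)).mpr hx.2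

/-- **(LW-A)** for `F : Type*`. -/
theorem s14_lwa_relIndex_le (v : HeightOneSpectrum (𝓞 F)) (n : ℕ) :
    (s14_lw_U v (n + 1)).relIndex (s14_lw_U v n) ≠ 0 ∧
      (s14_lw_U v (n + 1)).relIndex (s14_lw_U v n) ≤ Ideal.absNorm v.asIdeal := by
  classical
  obtain ⟨π, hπ⟩ := v.valuation_exists_uniformizer F
  have hπ0 : π ≠ 0 := by
    intro h
    rw [h, map_zero] at hπ
    exact WithZero.exp_ne_zero hπ.symm
  have hπn : v.valuation F (π ^ n) = WithZero.exp (-(n : ℤ)) := by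
    rw [map_pow, hπ, ← WithZero.exp_nsmul]
    congr 1
    simp
  set U := s14_lw_U v n with hU
  set W := (s14_lw_U v (n + 1)).subgroupOf U with hW
  -- the residue of a representative
  have hres : ∀ x : U, ∃ r : 𝓞 F,
      v.valuation F ((((x : Fˣ) : F) - 1) / π ^ n - algebraMap (𝓞 F) F r) < 1 :=
    fun x => s14_lwa_exists_res v n hπ x.2
  choose g hg using hres
  let f : U ⧸ W → 𝓞 F ⧸ v.asIdeal := fun q => Ideal.Quotient.mk v.asIdeal (g q.out)
  have hf : Function.Injective f := by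
    intro q q' hqq
    have hmem : g q.out - g q'.out ∈ v.asIdeal := (Ideal.Quotient.eq).mp hqq
    have h1 : v.valuation F (algebraMap (𝓞 F) F (g q.out - g q'.out)) < 1 :=
      (v.valuation_lt_one_iff_mem (g q.out - g q'.out)).mpr hmem
    set x : Fˣ := (q.out : Fˣ) with hx
    set x' : Fˣ := (q'.out : Fˣ) with hx'
    -- `(x - x') / π ^ n` has valuation `< 1`
    have h2 : v.valuation F (((x : F) - (x' : F)) / π ^ n) < 1 := by
      have e : ((x : F) - (x' : F)) / π ^ n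
          = ((((x : F) - 1) / π ^ n - algebraMap (𝓞 F) F (g q.out))
              - (((x' : F) - 1) / π ^ n - algebraMap (𝓞 F) F (g q'.out)))
            + algebraMap (𝓞 F) F (g q.out - g q'.out) := by
        rw [map_sub]
        field_simp
        ring
      rw [e]
      refine lt_of_le_of_lt (Valuation.map_add _ _ _) (max_lt ?_ h1)
      exact lt_of_le_of_lt (Valuation.map_sub _ _ _) (max_lt (hg q.out) (hg q'.out))
    have h3 : v.valuation F ((x : F) - (x' : F)) ≤ WithZero.exp (-((n + 1 : ℕ) : ℤ)) := by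
      rw [← s14_lwa_lt_exp_iff]
      rw [map_div₀, hπn] at h2
      exact (div_lt_one₀ (by simp)).mp h2
    have h4 : x'⁻¹ * x ∈ s14_lw_U v (n + 1) := s14_lwa_div_mem v n q.out.2 q'.out.2 h3
    have h5 : (q'.out)⁻¹ * q.out ∈ W := Subgroup.mem_subgroupOf.mpr h4
    have h6 : (QuotientGroup.mk q'.out : U ⧸ W) = QuotientGroup.mk q.out :=
      (QuotientGroup.eq).mpr h5
    rw [QuotientGroup.out_eq', QuotientGroup.out_eq'] at h6
    exact h6.symm
  haveI : Finite (𝓞 F ⧸ v.asIdeal) :=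
    Ideal.finiteQuotientOfFreeOfNeBot v.asIdeal v.ne_bot
  haveI : Finite (U ⧸ W) := Finite.of_injective f hf
  have hcard : Nat.card (U ⧸ W) ≤ Nat.card (𝓞 F ⧸ v.asIdeal) :=
    Nat.card_le_card_of_injective f hf
  have habs : Nat.card (𝓞 F ⧸ v.asIdeal) = Ideal.absNorm v.asIdeal := by
    rw [Ideal.absNorm_apply, Submodule.cardQuot_apply]
  rw [Subgroup.relIndex, Subgroup.index_eq_card, ← habs]
  exact ⟨Nat.card_pos.ne', hcard⟩

end

/-- **(LW-A)** `[U_n : U_{n+1}] ≤ N(v)`. -/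
theorem s14_lwa_main : s14_lw_stmt_A := by
  intro F _ _ v n
  exact s14_lwa_relIndex_le v n

end Fermat.Agent.S14
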