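import Mathlib
import Fermat.Agent.S14.LPDefs
import Fermat.Agent.S14.I2LWStmt

set_option autoImplicit false
set_option linter.style.haveILetI false
set_option linter.unusedSectionVars false
set_option linter.unusedVariables false

/-!
# S14 (I2 / LP3w, step C): the pigeonhole for `p`-th roots of unity modulo `v ^ (p e₁ + 1)`
-/

namespace Fermat.Agent.S14

open NumberField IsDedekindDomain

/-- discreteness of the value group -/
theorem s14_lwc_exp_succ_le {a : WithZero (Multiplicative ℤ)} {n : ℤ}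
    (h : WithZero.exp n < a) : WithZero.exp (n + 1) ≤ a := by
  have ha : a ≠ 0 := ne_of_gt (lt_of_le_of_lt zero_le h)
  rw [← WithZero.exp_log ha] at h ⊢
  rw [WithZero.exp_lt_exp] at h
  rw [WithZero.exp_le_exp]
  omega

/-- the factorisation `x ^ p - 1 = ∏ (x - ζ ^ i)` -/
theorem s14_lwc_factor {K : Type*} [Field K] {p : ℕ} (hp : 0 < p) {ζ : K}
    (hζ : IsPrimitiveRoot ζ p) (x : K) :
    x ^ p - 1 = ∏ i ∈ Finset.range p, (x - ζ ^ i) := by
  have := congrArg (Polynomial.eval x)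
    (X_pow_sub_C_eq_prod hζ hp (one_pow p : (1 : K) ^ p = 1))
  simpa [Polynomial.eval_prod] using this

/-- **(LW-C)**, general form for any valuation with values in `ℤᵐ⁰`. -/
theorem s14_lwc_val {K : Type*} [Field K] (val : Valuation K (WithZero (Multiplicative ℤ)))
    {p : ℕ} (hp : 0 < p) {ζ : K} (hζ : IsPrimitiveRoot ζ p) (e₁ : ℕ) (x : K)
    (hxp : val (x ^ p - 1) ≤ WithZero.exp (-((p * e₁ + 1 : ℕ) : ℤ))) :
    ∃ i : ℕ, i < p ∧ val (x - ζ ^ i) ≤ WithZero.exp (-((e₁ + 1 : ℕ) : ℤ)) := by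
  by_contra hcon
  push Not at hcon
  have hge : ∀ i ∈ Finset.range p, WithZero.exp (-(e₁ : ℤ)) ≤ val (x - ζ ^ i) := by
    intro i hi
    have h1 := s14_lwc_exp_succ_le (hcon i (Finset.mem_range.mp hi))
    have e : (-((e₁ + 1 : ℕ) : ℤ)) + 1 = -(e₁ : ℤ) := by push_cast; ring
    rwa [e] at h1
  have hprod : WithZero.exp (-(e₁ : ℤ)) ^ p ≤ val (x ^ p - 1) := by
    rw [s14_lwc_factor hp hζ x, map_prod]
    calc WithZero.exp (-(e₁ : ℤ)) ^ p
        = ∏ _i ∈ Finset.range p, WithZero.exp (-(e₁ : ℤ)) := by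
          rw [Finset.prod_const, Finset.card_range]
      _ ≤ ∏ i ∈ Finset.range p, val (x - ζ ^ i) := Finset.prod_le_prod' hge
  have hpow : WithZero.exp (-(e₁ : ℤ)) ^ p = WithZero.exp (-((p * e₁ : ℕ) : ℤ)) := by
    rw [← WithZero.exp_nsmul]
    congr 1
    push_cast
    simp
  have hlt : WithZero.exp (-((p * e₁ + 1 : ℕ) : ℤ)) <
      (WithZero.exp (-((p * e₁ : ℕ) : ℤ)) : WithZero (Multiplicative ℤ)) := by
    rw [WithZero.exp_lt_exp]
    push_cast
    omega
  rw [hpow] at hprod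
  exact absurd (lt_of_lt_of_le hlt hprod) (not_lt.mpr hxp)

/-- **(LW-C)** -/
theorem s14_lwc_main : s14_lw_stmt_C := by
  intro F _ _ p hp ζ hζ v e₁ _ x _ hxp
  exact s14_lwc_val (v.valuation F) hp.pos hζ e₁ x hxp

end Fermat.Agent.S14
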