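import Mathlib
import Fermat.Agent.S14.I2LWStmt

/-!
# S14 (I2 / LP3w) — (LW-D): abstract counting in a commutative group   (helper5)

If `W ≤ U` has finite index in the commutative group `G`, then
`[U : W · U ^ p] = [K : W]` with `K = {x ∈ U | x ^ p ∈ W}`.
-/

set_option autoImplicit false

namespace Fermat.Agent.S14

open Subgroup

/-- equality form of (LW-D). -/
theorem s14_lwd_eq {G : Type*} [CommGroup G] (U W : Subgroup G) (p : ℕ) (hWU : W ≤ U)
    (hidx : W.relIndex U ≠ 0) :
    (W ⊔ U.map (powMonoidHom p : G →* G)).relIndex U ≠ 0 ∧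
      (W ⊔ U.map (powMonoidHom p : G →* G)).relIndex U
        = W.relIndex (U ⊓ W.comap (powMonoidHom p : G →* G)) := by
  have hP : U.map (powMonoidHom p : G →* G) ≤ U := by
    rintro _ ⟨x, hx, rfl⟩
    exact U.pow_mem hx p
  have h1 : W.relIndex (W ⊔ U.map (powMonoidHom p : G →* G))
      * (W ⊔ U.map (powMonoidHom p : G →* G)).relIndex U = W.relIndex U :=
    relIndex_mul_relIndex _ _ _ le_sup_left (sup_le hWU hP)
  have hWK : W ≤ U ⊓ W.comap (powMonoidHom p : G →* G) := by
    refine le_inf hWU ?_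
    intro x hx
    exact W.pow_mem hx p
  have h2 : W.relIndex (U ⊓ W.comap (powMonoidHom p : G →* G))
      * (U ⊓ W.comap (powMonoidHom p : G →* G)).relIndex U = W.relIndex U :=
    relIndex_mul_relIndex _ _ _ hWK inf_le_left
  have h3 : (U ⊓ W.comap (powMonoidHom p : G →* G)).relIndex U
      = W.relIndex (W ⊔ U.map (powMonoidHom p : G →* G)) := by
    rw [inf_relIndex_left, relIndex_comap, relIndex_sup_left]
  rw [h3] at h2
  have hc : W.relIndex (W ⊔ U.map (powMonoidHom p : G →* G)) ≠ 0 := by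
    intro h
    rw [h, zero_mul] at h1
    exact hidx h1.symm
  have hne : (W ⊔ U.map (powMonoidHom p : G →* G)).relIndex U ≠ 0 := by
    intro h
    rw [h, mul_zero] at h1
    exact hidx h1.symm
  refine ⟨hne, ?_⟩
  have h4 : W.relIndex (W ⊔ U.map (powMonoidHom p : G →* G))
      * (W ⊔ U.map (powMonoidHom p : G →* G)).relIndex U
      = W.relIndex (W ⊔ U.map (powMonoidHom p : G →* G))
        * W.relIndex (U ⊓ W.comap (powMonoidHom p : G →* G)) := by
    rw [h1, ← h2, mul_comm]
  exact Nat.eq_of_mul_eq_mul_left (Nat.pos_of_ne_zero hc) h4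

/-- **(LW-D)**. -/
theorem s14_lwd_main : s14_lw_stmt_D := by
  intro G _ U W p hWU hidx
  obtain ⟨h1, h2⟩ := s14_lwd_eq U W p hWU hidx
  exact ⟨h1, h2.le⟩

end Fermat.Agent.S14
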