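import Mathlib
import Fermat.Agent.S14.Defs
import Fermat.Agent.S14.LPDefs
import Fermat.Agent.S14.WeakApprox
import Fermat.Agent.S14.I2Stmt
import Fermat.Agent.S14.I2Count

/-!
# S14 (I2) — the second inequality from its sub-interfaces   (OWNER: helper4)

`s14_i2_main : S2 → SU → LP3 → NLC → Sel → Key → s14_stmt_I2`.
-/

set_option autoImplicit false

namespace Fermat.Agent.S14

open NumberField IsDedekindDomain

/-! ## an abstract counting lemma -/

/-- in a commutative group, if `A` has index at most `p` (prime), contains all `p`-th powers and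
does not contain `g0`, then every coset of `A` is represented by a power `g0 ^ k`, `k < p`. -/
theorem s14_i2m_coset {G : Type*} [CommGroup G] (A : Subgroup G) (p : ℕ) (hp : p.Prime)
    (hidx0 : A.index ≠ 0) (hidx : A.index ≤ p) (hpow : ∀ g : G, g ^ p ∈ A) (g0 : G)
    (hg0 : g0 ∉ A) (g : G) : ∃ k : ℕ, k < p ∧ g * g0 ^ k ∈ A := by
  classical
  have : A.FiniteIndex := ⟨hidx0⟩
  have : Finite (G ⧸ A) := Subgroup.finite_quotient_of_finiteIndex
  set x : G ⧸ A := (g0 : G ⧸ A) with hx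
  have hx1 : x ≠ 1 := by
    intro h
    exact hg0 ((QuotientGroup.eq_one_iff g0).mp h)
  have hxp : x ^ p = 1 := by
    rw [hx, ← QuotientGroup.mk_pow]
    exact (QuotientGroup.eq_one_iff _).mpr (hpow g0)
  have hord : orderOf x = p := by
    have hdvd : orderOf x ∣ p := orderOf_dvd_of_pow_eq_one hxp
    rcases (Nat.dvd_prime hp).mp hdvd with h | h
    · exact absurd (orderOf_eq_one_iff.mp h) hx1
    · exact h
  have hcard : Nat.card (Subgroup.zpowers x) = p := by
    rw [Nat.card_zpowers, hord]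
  have htop : Subgroup.zpowers x = ⊤ := by
    apply Subgroup.eq_top_of_le_card
    rw [hcard, ← Subgroup.index_eq_card]
    exact hidx
  have hmem : ((g⁻¹ : G) : G ⧸ A) ∈ Subgroup.zpowers x := by
    rw [htop]; trivial
  obtain ⟨k, hk⟩ := Subgroup.mem_zpowers_iff.mp hmem
  have hk' : x ^ (k % (p : ℤ)).toNat = ((g⁻¹ : G) : G ⧸ A) := by
    rw [← hk, ← zpow_natCast, Int.toNat_of_nonneg (Int.emod_nonneg k (by exact_mod_cast hp.ne_zero)),
      ← hord, zpow_mod_orderOf]
  refine ⟨(k % (p : ℤ)).toNat, ?_, ?_⟩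
  · have := Int.emod_lt_of_pos k (by exact_mod_cast hp.pos : (0 : ℤ) < p)
    omega
  · have h1 : ((g * g0 ^ (k % (p : ℤ)).toNat : G) : G ⧸ A) = 1 := by
      rw [QuotientGroup.mk_mul, QuotientGroup.mk_pow, ← hx, hk', ← QuotientGroup.mk_mul,
        mul_inv_cancel, QuotientGroup.mk_one]
    exact (QuotientGroup.eq_one_iff _).mp h1


/-! ## the count -/

section count

variable {F : Type*} [Field F] [NumberField F]

theorem s14_i2m_pow_le_Lam {p : ℕ} (hp : p.Prime) (S : Finset (HeightOneSpectrum (𝓞 F))) :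
    s14_i2_pow F p ≤ s14_i2_Lam F hp S := by
  rintro x ⟨y, rfl⟩
  simp only [s14_i2_Lam, Subgroup.mem_iInf]
  intro v _
  exact s14_lp_pow_mem_locPow hp v y

end count

/-- **(I2-c)** the count: `[Fˣ : Λ_S · E_{S ∪ T}] ≤ p`. -/
theorem s14_i2m_index (hSU : s14_i2_stmt_SU) (hLP3 : s14_i2_stmt_LP3) (hKey : s14_i2_stmt_Key)
    (F : Type) [Field F] [NumberField F] (p : ℕ) (hp : p.Prime) (hp2 : p ≠ 2)
    (hζ : ∃ ζ : F, IsPrimitiveRoot ζ p) (S T : Finset (HeightOneSpectrum (𝓞 F)))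
    (hpS : ∀ v : HeightOneSpectrum (𝓞 F), (p : 𝓞 F) ∈ v.asIdeal → v ∈ S)
    (hgen : s14_i2_Generates F S) (hdisj : Disjoint S T)
    (hpT : ∀ t ∈ T, (p : 𝓞 F) ∉ t.asIdeal) (honto : s14_i2_Onto F hp S T)
    (hcard : 2 * T.card + 2 = 2 * S.card + Module.finrank ℚ F) :
    (s14_i2_Lam F hp S ⊔ ((S : Set (HeightOneSpectrum (𝓞 F))) ∪ (T : Set _)).unit F).index ≠ 0 ∧
    (s14_i2_Lam F hp S ⊔ ((S : Set (HeightOneSpectrum (𝓞 F))) ∪ (T : Set _)).unit F).index
      ≤ p := by
  classical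
  set Lam := s14_i2_Lam F hp S with hLam
  set E' := ((S : Set (HeightOneSpectrum (𝓞 F))) ∪ (T : Set _)).unit F with hE'
  set P := s14_i2_pow F p with hP
  obtain ⟨h1a, h1b⟩ := hLP3 F p hp hζ S
  have h2 := hSU F p hp hp2 hζ (S ∪ T)
  rw [Finset.coe_union, ← hE', ← hP, Finset.card_union_of_disjoint hdisj] at h2
  -- `Λ ⊓ E' = P ⊓ E'`
  have hinf : Lam ⊓ E' = P ⊓ E' := by
    apply le_antisymm
    · refine le_inf ?_ inf_le_right
      intro y hy
      exact hKey F p hp hp2 hζ S T hpS hgen hdisj hpT honto y hy.2 hy.1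
    · exact inf_le_inf_right _ (s14_i2m_pow_le_Lam hp S)
  have h3 : Lam.relIndex E' = P.relIndex E' := by
    rw [← Subgroup.inf_relIndex_right, hinf, Subgroup.inf_relIndex_right]
  have h4 : Lam.relIndex (Lam ⊔ E') * (Lam ⊔ E').index = Lam.index :=
    Subgroup.relIndex_mul_index le_sup_left
  rw [Subgroup.relIndex_sup_left, h3] at h4
  -- arithmetic
  set m := P.relIndex E' with hm
  set n := Module.finrank ℚ F with hn
  have hm2 : m ^ 2 = (p ^ (2 * S.card + n - 1)) ^ 2 := by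
    rw [h2, ← pow_mul]
    congr 1
    omega
  have hm' : m = p ^ (2 * S.card + n - 1) :=
    Nat.pow_left_injective (n := 2) (by norm_num) hm2
  have hpos : 0 < p ^ (2 * S.card + n - 1) := pow_pos hp.pos _
  constructor
  · intro h0
    rw [h0, mul_zero] at h4
    exact h1a h4.symm
  · have h5 : p ^ (2 * S.card + n - 1) * (Lam ⊔ E').index ≤ p ^ (2 * S.card + n - 1) * p := by
      rw [← hm', h4, hm', ← pow_succ]
      have : 2 * S.card + n - 1 + 1 = 2 * S.card + n := by omega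
      rw [this]
      exact h1b
    exact Nat.le_of_mul_le_mul_left h5 hpos


/-! ## translation to ideals -/

/-- **(I2-d)** if `z ∈ Λ_S · E_{S ∪ T}` represents the ideal `a` (prime to `R ⊆ S`) up to the
correction `xa` (which moves `a` away from `S`), then `a` is norm-like. -/
theorem s14_i2m_normLike_of_mem (hNLC : s14_i2_stmt_NLC)
    (F B : Type) [Field F] [NumberField F] [Field B] [NumberField B] [Algebra F B]
    (p : ℕ) (hp : p.Prime) (R S T : Finset (HeightOneSpectrum (𝓞 F))) (hRS : R ⊆ S)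
    (hsplit : ∀ t ∈ T, s14_Splits F B t.asIdeal)
    (a : Ideal (𝓞 F)) (ha : a ≠ ⊥) (haR : s14_CoprimeTo F R a) (xa z : Fˣ)
    (hxa : ∀ v ∈ S, v.valuation F (xa : F) = WithZero.exp
      (FractionalIdeal.count F v (a : FractionalIdeal (nonZeroDivisors (𝓞 F)) F)))
    (hz : ∀ v : HeightOneSpectrum (𝓞 F), v ∉ S → v.valuation F (z : F) = WithZero.exp
      (-(FractionalIdeal.count F v (a : FractionalIdeal (nonZeroDivisors (𝓞 F)) F)))
        * v.valuation F (xa : F))
    (hzA : z ∈ s14_i2_Lam F hp S ⊔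
      ((S : Set (HeightOneSpectrum (𝓞 F))) ∪ (T : Set _)).unit F) :
    s14_NormLike F B p R ∅ a := by
  classical
  obtain ⟨lam, hlam, e, he, hle⟩ := Subgroup.mem_sup.mp hzA
  -- `λ` has valuation a `p`-th power at every `v ∈ S`
  have hlamv : ∀ v : HeightOneSpectrum (𝓞 F), ∃ zv : F, v ∈ S →
      zv ≠ 0 ∧ v.valuation F (lam : F) = v.valuation F zv ^ p := by
    intro v
    by_cases hv : v ∈ S
    · have h1 : lam ∈ s14_lp_locPow hp v := by
        have := hlam
        simp only [s14_i2_Lam, Subgroup.mem_iInf] at this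
        exact this v hv
      obtain ⟨zv, hzv0, -, hzv⟩ := s14_lp_val_of_isLocPow hp.two_le
        ((s14_lp_mem_locPow hp v lam).mp h1)
      exact ⟨zv, fun _ => ⟨hzv0, hzv⟩⟩
    · exact ⟨1, fun h => absurd h hv⟩
  choose zv hzv using hlamv
  obtain ⟨w, hw0, hw⟩ := s14_wa_exists_valuation (R := 𝓞 F) (K := F) S
    (fun v => WithZero.log (v.valuation F (zv v)))
  -- `λ w ^ p` is a unit at `S`
  have hlw : ∀ v ∈ S, v.valuation F ((lam : F) * w ^ p) = 1 := by
    intro v hv
    obtain ⟨h0, h1⟩ := hzv v hv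
    have hne : v.valuation F (zv v) ≠ 0 := (Valuation.ne_zero_iff _).mpr h0
    rw [map_mul, map_pow, h1, hw v hv, ← mul_pow, WithZero.exp_neg, WithZero.exp_log hne,
      mul_inv_cancel₀ hne, one_pow]
  set x : Fˣ := lam * (Units.mk0 w hw0) ^ p * xa⁻¹ with hx
  have hxval : ∀ v : HeightOneSpectrum (𝓞 F), v.valuation F (x : F) =
      v.valuation F ((lam : F) * w ^ p) * (v.valuation F (xa : F))⁻¹ := by
    intro v
    simp [hx, map_mul]
  refine hNLC F B p hp R ∅ a ha haR (fun t ht => absurd ht (Finset.notMem_empty t))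
    (fun t ht => absurd ht (Finset.notMem_empty t)) x ?_
    (fun t ht => absurd ht (Finset.notMem_empty t)) ?_
  · rintro v (hv | hv)
    · have hvS : v ∈ S := hRS hv
      rw [hxval, hlw v hvS, hxa v hvS, s14_i2c_count_eq_zero v ha (haR v hv)]
      simp
    · exact absurd hv (Finset.notMem_empty v)
  · intro v hvR _ hns
    by_cases hvS : v ∈ S
    · refine ⟨0, ?_⟩
      rw [hxval, hlw v hvS, hxa v hvS, one_mul, ← WithZero.exp_neg]
      simp
    · have hvT : v ∉ T := fun h => hns (hsplit v h)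
      have hev : v.valuation F (e : F) = 1 := by
        have := Set.unit_valuation_eq_one _ F ⟨e, he⟩ (v := v)
          (by simp [hvS, hvT])
        simpa using this
      have hzl : v.valuation F (z : F) = v.valuation F (lam : F) := by
        rw [← hle, Units.val_mul, map_mul, hev, mul_one]
      have hxa0 : v.valuation F (xa : F) ≠ 0 := (Valuation.ne_zero_iff _).mpr xa.ne_zero
      have hw0' : v.valuation F w ≠ 0 := (Valuation.ne_zero_iff _).mpr hw0
      refine ⟨-WithZero.log (v.valuation F w), ?_⟩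
      rw [hxval, map_mul, ← hzl, hz v hvS, map_pow]
      have e1 : WithZero.exp (-(FractionalIdeal.count F v
            (a : FractionalIdeal (nonZeroDivisors (𝓞 F)) F)
              + (p : ℤ) * -WithZero.log (v.valuation F w)))
          = WithZero.exp (-(FractionalIdeal.count F v
            (a : FractionalIdeal (nonZeroDivisors (𝓞 F)) F))) * v.valuation F w ^ p := by
        rw [neg_add, WithZero.exp_add]
        congr 1
        rw [mul_neg, neg_neg, ← nsmul_eq_mul, WithZero.exp_nsmul, WithZero.exp_log hw0']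
      rw [e1]
      field_simp


/-! ## the main theorem -/

/-- the primes above `p` form a finite set. -/
theorem s14_i2m_exists_above (F : Type*) [Field F] [NumberField F] (p : ℕ) (hp : p ≠ 0) :
    ∃ S0 : Finset (HeightOneSpectrum (𝓞 F)),
      ∀ v : HeightOneSpectrum (𝓞 F), (p : 𝓞 F) ∈ v.asIdeal → v ∈ S0 := by
  classical
  have hp0 : (p : 𝓞 F) ≠ 0 := by exact_mod_cast hp
  have hI : (Ideal.span {(p : 𝓞 F)} : Ideal (𝓞 F)) ≠ 0 := by
    simpa [Ideal.span_singleton_eq_bot] using hp0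
  refine ⟨(Ideal.finite_factors hI).toFinset, fun v hv => ?_⟩
  rw [Set.Finite.mem_toFinset]
  exact Ideal.dvd_iff_le.mpr ((Ideal.span_singleton_le_iff_mem _).mpr hv)

/-- every nonzero ideal `b` is represented by an element `zb` of `Fˣ`, up to a correction `xb`
moving `b` away from `S`. -/
theorem s14_i2m_exists_rep (F : Type*) [Field F] [NumberField F]
    (S : Finset (HeightOneSpectrum (𝓞 F))) (hgen : s14_i2_Generates F S)
    (b : Ideal (𝓞 F)) (hb : b ≠ ⊥) :
    ∃ xb zb : Fˣ,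
      (∀ v ∈ S, v.valuation F (xb : F) = WithZero.exp
        (FractionalIdeal.count F v (b : FractionalIdeal (nonZeroDivisors (𝓞 F)) F))) ∧
      (∀ v : HeightOneSpectrum (𝓞 F), v ∉ S → v.valuation F (zb : F) = WithZero.exp
        (-(FractionalIdeal.count F v (b : FractionalIdeal (nonZeroDivisors (𝓞 F)) F)))
          * v.valuation F (xb : F)) := by
  classical
  obtain ⟨s, z₁, hz₁, hs, hmul⟩ := hgen b hb
  obtain ⟨x, hx0, hx⟩ := s14_wa_exists_valuation (R := 𝓞 F) (K := F) S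
    (fun v => -(FractionalIdeal.count F v (b : FractionalIdeal (nonZeroDivisors (𝓞 F)) F)))
  have hz₁F : algebraMap (𝓞 F) F z₁ ≠ 0 := by
    simpa using hz₁
  refine ⟨Units.mk0 x hx0, Units.mk0 (algebraMap (𝓞 F) F z₁) hz₁F * Units.mk0 x hx0, ?_, ?_⟩
  · intro v hv
    rw [Units.val_mk0, hx v hv, neg_neg]
  · intro v hv
    rw [Units.val_mul, Units.val_mk0, Units.val_mk0, map_mul,
      s14_i2c_val_of_mul_eq v hz₁ hmul (fun h => hv (hs v h))]

/-- **(I2)** the second inequality, from its sub-interfaces. -/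
theorem s14_i2_main (hS2 : s14_i2_stmt_S2) (hSU : s14_i2_stmt_SU) (hLP3 : s14_i2_stmt_LP3)
    (hNLC : s14_i2_stmt_NLC) (hSel : s14_i2_stmt_Sel) (hKey : s14_i2_stmt_Key) :
    s14_stmt_I2 := by
  intro F B _ _ _ _ _ _ p hp hp2 hdeg hζ hur R a0 ha0 ha0R hnl a ha haR
  classical
  obtain ⟨Sp, hSp⟩ := s14_i2m_exists_above F p hp.ne_zero
  obtain ⟨S, hS0, hgen⟩ := hS2 F (R ∪ Sp)
  have hRS : R ⊆ S := Finset.subset_union_left.trans hS0
  have hpS : ∀ v : HeightOneSpectrum (𝓞 F), (p : 𝓞 F) ∈ v.asIdeal → v ∈ S :=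
    fun v hv => hS0 (Finset.mem_union_right _ (hSp v hv))
  obtain ⟨T, hdisj, hpT, hsplit, honto, hcard⟩ := hSel F B p hp hp2 hdeg hζ hur S
  obtain ⟨hidx0, hidx⟩ :=
    s14_i2m_index hSU hLP3 hKey F p hp hp2 hζ S T hpS hgen hdisj hpT honto hcard
  obtain ⟨xa, za, hxa, hza⟩ := s14_i2m_exists_rep F S hgen a ha
  obtain ⟨x0, z0, hx0, hz0⟩ := s14_i2m_exists_rep F S hgen a0 ha0
  have hz0A : z0 ∉ s14_i2_Lam F hp S ⊔
      ((S : Set (HeightOneSpectrum (𝓞 F))) ∪ (T : Set _)).unit F := fun h =>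
    hnl (s14_i2m_normLike_of_mem hNLC F B p hp R S T hRS hsplit a0 ha0 ha0R x0 z0 hx0 hz0 h)
  have hpow : ∀ g : Fˣ, g ^ p ∈ s14_i2_Lam F hp S ⊔
      ((S : Set (HeightOneSpectrum (𝓞 F))) ∪ (T : Set _)).unit F := fun g =>
    (le_sup_left : s14_i2_Lam F hp S ≤ _) (s14_i2m_pow_le_Lam hp S ⟨g, rfl⟩)
  obtain ⟨k, hk, hmem⟩ := s14_i2m_coset _ p hp hidx0 hidx hpow z0 hz0A za
  refine ⟨k, hk, ?_⟩
  have hak : a0 ^ k ≠ ⊥ := pow_ne_zero k ha0
  refine s14_i2m_normLike_of_mem hNLC F B p hp R S T hRS hsplit (a * a0 ^ k)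
    (mul_ne_zero ha hak) ?_ (xa * x0 ^ k) (za * z0 ^ k) ?_ ?_ hmem
  · intro v hv hle
    rcases v.isPrime.mul_le.mp hle with h | h
    · exact haR v hv h
    · exact ha0R v hv (v.isPrime.le_of_pow_le h)
  · intro v hv
    rw [Units.val_mul, Units.val_pow_eq_pow_val, map_mul, map_pow, hxa v hv, hx0 v hv,
      s14_i2c_count_mul v ha hak, s14_i2c_count_pow, WithZero.exp_add, ← nsmul_eq_mul,
      WithZero.exp_nsmul]
  · intro v hv
    rw [Units.val_mul, Units.val_pow_eq_pow_val, map_mul, map_pow, hza v hv, hz0 v hv,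
      Units.val_mul, Units.val_pow_eq_pow_val, map_mul, map_pow,
      s14_i2c_count_mul v ha hak, s14_i2c_count_pow, neg_add, WithZero.exp_add, ← nsmul_eq_mul,
      ← smul_neg, WithZero.exp_nsmul]
    rw [mul_pow, mul_mul_mul_comm]

end Fermat.Agent.S14
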