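import Mathlib

/-!
# S14 / SUnit (lead): Dirichlet's S-unit theorem (rank form)

For a number field `F` and a finite set `S` of primes, `E_S = (S : Set _).unit F` (Mathlib's
S-units, a subgroup of `Fˣ`):

* `s14_su_finite`  : `Additive E_S` is a finitely generated `ℤ`-module;
* `s14_su_finrank` : its rank is `NumberField.Units.rank F + S.card`.
-/

set_option autoImplicit false
set_option linter.unusedSectionVars false

namespace Fermat.Agent.S14

open NumberField IsDedekindDomain Module

variable (F : Type*) [Field F] [NumberField F]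

/-- the group of `S`-units of `F`. -/
noncomputable abbrev s14_su_E (S : Finset (HeightOneSpectrum (𝓞 F))) : Subgroup Fˣ :=
  (S : Set (HeightOneSpectrum (𝓞 F))).unit F

theorem s14_su_mem_E (S : Finset (HeightOneSpectrum (𝓞 F))) (x : Fˣ) :
    x ∈ s14_su_E F S ↔ ∀ v : HeightOneSpectrum (𝓞 F), v ∉ S → v.valuation F (x : F) = 1 := by
  constructor
  · intro h v hv
    exact h v (by simpa using hv)
  · intro h v hv
    exact h v (by simpa using hv)

/-- `ord_v` on `S`-units, multiplicatively. -/
noncomputable def s14_su_ord (S : Finset (HeightOneSpectrum (𝓞 F)))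
    (v : HeightOneSpectrum (𝓞 F)) : s14_su_E F S →* Multiplicative ℤ :=
  (v.valuationOfNeZero (K := F)).comp (s14_su_E F S).subtype

theorem s14_su_ord_coe (S : Finset (HeightOneSpectrum (𝓞 F)))
    (v : HeightOneSpectrum (𝓞 F)) (x : s14_su_E F S) :
    ((s14_su_ord F S v x : Multiplicative ℤ) : WithZero (Multiplicative ℤ))
      = v.valuation F ((x : Fˣ) : F) :=
  HeightOneSpectrum.valuationOfNeZero_eq v (x : Fˣ)

theorem s14_su_ord_eq_one_iff (S : Finset (HeightOneSpectrum (𝓞 F)))
    (v : HeightOneSpectrum (𝓞 F)) (x : s14_su_E F S) :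
    s14_su_ord F S v x = 1 ↔ v.valuation F ((x : Fˣ) : F) = 1 := by
  rw [← s14_su_ord_coe F S v x]
  constructor
  · intro h; rw [h]; rfl
  · intro h
    exact WithZero.coe_inj.1 h

/-- the vector of valuations of an `S`-unit (additive hom). -/
noncomputable def s14_su_valHom (S : Finset (HeightOneSpectrum (𝓞 F))) :
    Additive (s14_su_E F S) →+ (S → ℤ) where
  toFun x := fun v => Multiplicative.toAdd (s14_su_ord F S v.1 (Additive.toMul x))
  map_zero' := by
    ext v
    simp
  map_add' x y := by
    ext v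
    simp

/-- the vector of valuations of an `S`-unit (linear map). -/
noncomputable def s14_su_val (S : Finset (HeightOneSpectrum (𝓞 F))) :
    Additive (s14_su_E F S) →ₗ[ℤ] (S → ℤ) :=
  (s14_su_valHom F S).toIntLinearMap

theorem s14_su_val_apply (S : Finset (HeightOneSpectrum (𝓞 F)))
    (x : Additive (s14_su_E F S)) (v : S) :
    s14_su_val F S x v = Multiplicative.toAdd (s14_su_ord F S v.1 (Additive.toMul x)) := rfl

theorem s14_su_val_eq_zero_iff (S : Finset (HeightOneSpectrum (𝓞 F)))
    (x : Additive (s14_su_E F S)) :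
    s14_su_val F S x = 0 ↔
      ∀ v : HeightOneSpectrum (𝓞 F), v.valuation F (((Additive.toMul x : s14_su_E F S) : Fˣ) : F) = 1 := by
  constructor
  · intro hx v
    by_cases hv : v ∈ S
    · have := congrFun hx ⟨v, hv⟩
      rw [s14_su_val_apply] at this
      rw [← s14_su_ord_eq_one_iff]
      exact Multiplicative.toAdd.injective this
    · exact (s14_su_mem_E F S _).1 (Additive.toMul x).2 v hv
  · intro h
    ext v
    rw [s14_su_val_apply, (s14_su_ord_eq_one_iff F S v.1 _).2 (h v.1)]
    rfl

/-- the units of `𝓞 F` as `S`-units. -/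
noncomputable def s14_su_unitsHom (S : Finset (HeightOneSpectrum (𝓞 F))) :
    (𝓞 F)ˣ →* s14_su_E F S where
  toFun u := ⟨Units.map (algebraMap (𝓞 F) F : 𝓞 F →* F) u, (s14_su_mem_E F S _).2 (fun v _ => by
    rw [← HeightOneSpectrum.valuationOfNeZero_eq, HeightOneSpectrum.valuation_of_unit_eq]
    rfl)⟩
  map_one' := by
    ext
    simp
  map_mul' x y := by
    ext
    simp

theorem s14_su_unitsHom_coe (S : Finset (HeightOneSpectrum (𝓞 F))) (u : (𝓞 F)ˣ) :
    (((s14_su_unitsHom F S u : s14_su_E F S) : Fˣ) : F) = algebraMap (𝓞 F) F (u : 𝓞 F) := rfl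

/-- the units of `𝓞 F` inside the `S`-units (linear map). -/
noncomputable def s14_su_incl (S : Finset (HeightOneSpectrum (𝓞 F))) :
    Additive (𝓞 F)ˣ →ₗ[ℤ] Additive (s14_su_E F S) :=
  (MonoidHom.toAdditive (s14_su_unitsHom F S)).toIntLinearMap

theorem s14_su_incl_apply (S : Finset (HeightOneSpectrum (𝓞 F))) (u : Additive (𝓞 F)ˣ) :
    s14_su_incl F S u = Additive.ofMul (s14_su_unitsHom F S (Additive.toMul u)) := rfl

theorem s14_su_incl_injective (S : Finset (HeightOneSpectrum (𝓞 F))) :
    Function.Injective (s14_su_incl F S) := by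
  intro x y h
  rw [s14_su_incl_apply, s14_su_incl_apply] at h
  have h' : s14_su_unitsHom F S (Additive.toMul x) = s14_su_unitsHom F S (Additive.toMul y) :=
    Additive.ofMul.injective h
  have h2 : algebraMap (𝓞 F) F ((Additive.toMul x : (𝓞 F)ˣ) : 𝓞 F)
      = algebraMap (𝓞 F) F ((Additive.toMul y : (𝓞 F)ˣ) : 𝓞 F) := by
    rw [← s14_su_unitsHom_coe F S, ← s14_su_unitsHom_coe F S, h']
  have h3 : ((Additive.toMul x : (𝓞 F)ˣ) : 𝓞 F) = ((Additive.toMul y : (𝓞 F)ˣ) : 𝓞 F) :=
    (IsFractionRing.injective (𝓞 F) F) h2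
  exact Additive.toMul.injective (Units.ext h3)

theorem s14_su_range_incl (S : Finset (HeightOneSpectrum (𝓞 F))) :
    LinearMap.range (s14_su_incl F S) = LinearMap.ker (s14_su_val F S) := by
  ext x
  simp only [LinearMap.mem_range, LinearMap.mem_ker]
  constructor
  · rintro ⟨u, rfl⟩
    rw [s14_su_val_eq_zero_iff]
    intro v
    rw [s14_su_incl_apply]
    change v.valuation F (((s14_su_unitsHom F S (Additive.toMul u) : s14_su_E F S) : Fˣ) : F) = 1
    rw [← s14_su_ord_eq_one_iff F S v]
    exact HeightOneSpectrum.valuation_of_unit_eq v _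
  · intro hx
    rw [s14_su_val_eq_zero_iff] at hx
    set y : Fˣ := ((Additive.toMul x : s14_su_E F S) : Fˣ) with hy
    obtain ⟨a, ha⟩ := HeightOneSpectrum.mem_integers_of_valuation_le_one F (y : F)
      (fun v => (hx v).le)
    obtain ⟨b, hb⟩ := HeightOneSpectrum.mem_integers_of_valuation_le_one F ((y⁻¹ : Fˣ) : F)
      (fun v => by
        rw [Units.val_inv_eq_inv_val, map_inv₀, hx v, inv_one])
    have ha' : algebraMap (𝓞 F) F a = (y : F) := ha
    have hb' : algebraMap (𝓞 F) F b = ((y⁻¹ : Fˣ) : F) := hb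
    have hab : a * b = 1 := by
      apply (IsFractionRing.injective (𝓞 F) F)
      rw [map_mul, map_one, ha', hb']
      simp
    refine ⟨Additive.ofMul ⟨a, b, hab, by rw [mul_comm]; exact hab⟩, ?_⟩
    rw [s14_su_incl_apply]
    apply Additive.toMul.injective
    apply Subtype.ext
    apply Units.ext
    change algebraMap (𝓞 F) F a = _
    exact ha'

/-- a generator of `v ^ h`, `h` the class number. -/
theorem s14_su_exists_gen (v : HeightOneSpectrum (𝓞 F)) :
    ∃ π : 𝓞 F, π ≠ 0 ∧ v.asIdeal ^ (classNumber F) = Ideal.span {π} := by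
  have hI : v.asIdeal ∈ nonZeroDivisors (Ideal (𝓞 F)) :=
    mem_nonZeroDivisors_of_ne_zero v.ne_bot
  have h1 : (ClassGroup.mk0 ⟨v.asIdeal, hI⟩) ^ (classNumber F) = 1 := by
    rw [classNumber]
    exact pow_card_eq_one
  rw [← map_pow, SubmonoidClass.mk_pow, ClassGroup.mk0_eq_one_iff] at h1
  obtain ⟨π, hπ⟩ := h1.principal
  refine ⟨π, ?_, hπ⟩
  rintro rfl
  have : v.asIdeal ^ classNumber F = ⊥ := by
    rw [hπ]
    simp
  exact (pow_ne_zero _ v.ne_bot) this

theorem s14_su_classNumber_pos : 0 < classNumber F := by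
  rw [classNumber]
  exact Fintype.card_pos

theorem s14_su_gen_valuation_self (v : HeightOneSpectrum (𝓞 F)) (π : 𝓞 F)
    (hπ : v.asIdeal ^ (classNumber F) = Ideal.span {π}) :
    v.intValuation π = WithZero.exp (-(classNumber F : ℤ)) := by
  have hem : emultiplicity v.asIdeal (Ideal.span {π}) = (classNumber F : ℕ∞) := by
    rw [← hπ]
    exact emultiplicity_pow_self v.ne_bot (by
      rw [Ideal.isUnit_iff]; exact v.isPrime.ne_top) _
  apply le_antisymm
  · rw [HeightOneSpectrum.intValuation_le_exp_iff_le_emultiplicity, hem]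
  · rw [HeightOneSpectrum.exp_le_intValuation_iff_emultiplicity_le, hem]

theorem s14_su_gen_valuation_other (v w : HeightOneSpectrum (𝓞 F)) (hvw : w ≠ v) (π : 𝓞 F)
    (hπ : v.asIdeal ^ (classNumber F) = Ideal.span {π}) :
    w.intValuation π = 1 := by
  rw [HeightOneSpectrum.intValuation_eq_one_iff]
  intro hmem
  apply hvw
  have h1 : v.asIdeal ^ classNumber F ≤ w.asIdeal := by
    rw [hπ]
    exact (Ideal.span_singleton_le_iff_mem _).2 hmem
  have h2 : v.asIdeal ≤ w.asIdeal := w.isPrime.le_of_pow_le h1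
  have hmax : v.asIdeal.IsMaximal := v.isMaximal
  exact (HeightOneSpectrum.ext (hmax.eq_of_le w.isPrime.ne_top h2)).symm

/-- for `v ∈ S`, an `S`-unit `π_v` with `ord_v π_v = h` and `ord_w π_v = 0` for `w ≠ v`. -/
theorem s14_su_exists_unit (S : Finset (HeightOneSpectrum (𝓞 F)))
    (v : HeightOneSpectrum (𝓞 F)) (hv : v ∈ S) :
    ∃ x : s14_su_E F S,
      v.valuation F ((x : Fˣ) : F) = WithZero.exp (-(classNumber F : ℤ)) ∧
      ∀ w : HeightOneSpectrum (𝓞 F), w ≠ v → w.valuation F ((x : Fˣ) : F) = 1 := by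
  obtain ⟨π, hπ0, hπ⟩ := s14_su_exists_gen F v
  have hπ0' : algebraMap (𝓞 F) F π ≠ 0 := by
    simpa using (IsFractionRing.injective (𝓞 F) F).ne hπ0
  have hother : ∀ w : HeightOneSpectrum (𝓞 F), w ≠ v →
      w.valuation F ((Units.mk0 (algebraMap (𝓞 F) F π) hπ0' : Fˣ) : F) = 1 := by
    intro w hw
    rw [Units.val_mk0, HeightOneSpectrum.valuation_of_algebraMap]
    exact s14_su_gen_valuation_other F v w hw π hπ
  refine ⟨⟨Units.mk0 (algebraMap (𝓞 F) F π) hπ0', ?_⟩, ?_, hother⟩
  · rw [s14_su_mem_E]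
    intro w hw
    exact hother w (by rintro rfl; exact hw hv)
  · change v.valuation F ((Units.mk0 (algebraMap (𝓞 F) F π) hπ0' : Fˣ) : F) = _
    rw [Units.val_mk0, HeightOneSpectrum.valuation_of_algebraMap]
    exact s14_su_gen_valuation_self F v π hπ

open Classical in
theorem s14_su_smul_single_mem_range (S : Finset (HeightOneSpectrum (𝓞 F))) (v : S) :
    ((classNumber F : ℤ) • (Pi.single v (1 : ℤ) : S → ℤ)) ∈ LinearMap.range (s14_su_val F S) := by
  classical
  obtain ⟨x, hx1, hx2⟩ := s14_su_exists_unit F S v.1 v.2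
  refine ⟨-(Additive.ofMul x), ?_⟩
  rw [map_neg]
  ext w
  rw [Pi.neg_apply, s14_su_val_apply, Pi.smul_apply]
  by_cases hwv : w = v
  · subst hwv
    rw [Pi.single_eq_same]
    have h1 : s14_su_ord F S w.1 x = Multiplicative.ofAdd (-(classNumber F : ℤ)) := by
      apply WithZero.coe_inj.1
      rw [s14_su_ord_coe, hx1]
      rfl
    change -(Multiplicative.toAdd (s14_su_ord F S w.1 x)) = _
    rw [h1]
    simp
  · rw [Pi.single_eq_of_ne hwv]
    have hwv' : w.1 ≠ v.1 := fun h => hwv (Subtype.ext h)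
    have h1 : s14_su_ord F S w.1 x = 1 := (s14_su_ord_eq_one_iff F S w.1 x).2 (hx2 w.1 hwv')
    change -(Multiplicative.toAdd (s14_su_ord F S w.1 x)) = _
    rw [h1]
    simp

theorem s14_su_smul_mem_range (S : Finset (HeightOneSpectrum (𝓞 F))) (c : S → ℤ) :
    ((classNumber F : ℤ) • c) ∈ LinearMap.range (s14_su_val F S) := by
  classical
  have hc : c = ∑ v : S, c v • (Pi.single v (1 : ℤ) : S → ℤ) := by
    ext w
    simp [Finset.sum_apply, Pi.single_apply]
  rw [hc, Finset.smul_sum]
  refine Submodule.sum_mem _ (fun v _ => ?_)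
  rw [smul_comm]
  exact Submodule.smul_mem _ _ (s14_su_smul_single_mem_range F S v)

theorem s14_su_finrank_range (S : Finset (HeightOneSpectrum (𝓞 F))) :
    finrank ℤ (LinearMap.range (s14_su_val F S)) = S.card := by
  classical
  apply le_antisymm
  · have := Submodule.finrank_le (LinearMap.range (s14_su_val F S))
    rwa [Module.finrank_fintype_fun_eq_card, Fintype.card_coe] at this
  · let g : (S → ℤ) →ₗ[ℤ] LinearMap.range (s14_su_val F S) :=
      LinearMap.codRestrict _ ((classNumber F : ℤ) • LinearMap.id)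
        (fun c => s14_su_smul_mem_range F S c)
    have hg : Function.Injective g := by
      intro c c' h
      have h' : (classNumber F : ℤ) • c = (classNumber F : ℤ) • c' := congrArg Subtype.val h
      have hne : (classNumber F : ℤ) ≠ 0 := by
        exact_mod_cast (s14_su_classNumber_pos F).ne'
      exact smul_right_injective _ hne h'
    have := LinearMap.finrank_le_finrank_of_injective hg
    rwa [Module.finrank_fintype_fun_eq_card, Fintype.card_coe] at this

/-- **S-unit theorem, finiteness.** -/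
theorem s14_su_finite (S : Finset (HeightOneSpectrum (𝓞 F))) :
    Module.Finite ℤ (Additive (s14_su_E F S)) := by
  have : Module.Finite ℤ (LinearMap.ker (s14_su_val F S)) := by
    rw [← s14_su_range_incl]
    exact Module.Finite.range (s14_su_incl F S)
  have : Module.Finite ℤ (Additive (s14_su_E F S) ⧸ LinearMap.ker (s14_su_val F S)) :=
    Module.Finite.equiv (s14_su_val F S).quotKerEquivRange.symm
  exact Module.Finite.of_submodule_quotient (LinearMap.ker (s14_su_val F S))

/-- **S-unit theorem, rank.** -/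
theorem s14_su_finrank (S : Finset (HeightOneSpectrum (𝓞 F))) :
    finrank ℤ (Additive (s14_su_E F S)) = NumberField.Units.rank F + S.card := by
  have := s14_su_finite F S
  have h1 := (LinearMap.ker (s14_su_val F S)).finrank_quotient_add_finrank
  rw [LinearEquiv.finrank_eq (s14_su_val F S).quotKerEquivRange, s14_su_finrank_range,
    ← s14_su_range_incl, LinearMap.finrank_range_of_inj (s14_su_incl_injective F S),
    NumberField.Units.finrank_eq] at h1
  rw [← h1, add_comm]

end Fermat.Agent.S14
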