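import Mathlib
import Fermat.Agent.S14.Defs
import Fermat.Agent.S14.FIStmt
import Fermat.Agent.S14.Bridge

/-!
# (SU3) part 2 — counting the primes of `N` above a finite set of primes of `F`

`N/F` Galois of prime degree `p`.
* `s14_su3_above_finite` : the set of primes of `N` above `S` is finite.
* `s14_su3_ncard_above` : it has `p * #split + #nonsplit` elements.
* `s14_su3_card_infinitePlace` : `N` has `p` times as many infinite places as `F` (`p` odd).
-/

set_option autoImplicit false
set_option linter.unusedSectionVars false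
set_option linter.style.haveILetI false

namespace Fermat.Agent.S14

open NumberField IsDedekindDomain

section count

variable (F N : Type) [Field F] [NumberField F] [Field N] [NumberField N] [Algebra F N]
  [IsGalois F N]

/-- the primes of `N` above the prime `v` of `F`. -/
def s14_su3_fib (v : HeightOneSpectrum (𝓞 F)) : Set (HeightOneSpectrum (𝓞 N)) :=
  {w | w.under (𝓞 F) = v}

theorem s14_su3_image_fib (v : HeightOneSpectrum (𝓞 F)) :
    HeightOneSpectrum.asIdeal '' (s14_su3_fib F N v) = v.asIdeal.primesOver (𝓞 N) := by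
  ext Q
  constructor
  · rintro ⟨w, hw, rfl⟩
    have hw' : w.under (𝓞 F) = v := hw
    refine ⟨w.isPrime, ⟨?_⟩⟩
    rw [← hw']
    rfl
  · rintro ⟨hQ, hQv⟩
    have hQv' : Q.under (𝓞 F) = v.asIdeal := hQv.over.symm
    have hQ0 : Q ≠ ⊥ := s14_br_ne_bot_of_under F N Q (by rw [hQv']; exact v.ne_bot)
    exact ⟨⟨Q, hQ, hQ0⟩, HeightOneSpectrum.ext hQv', rfl⟩

theorem s14_su3_asIdeal_injective :
    Function.Injective (HeightOneSpectrum.asIdeal : HeightOneSpectrum (𝓞 N) → Ideal (𝓞 N)) :=
  fun _ _ h => HeightOneSpectrum.ext h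

theorem s14_su3_fib_finite (v : HeightOneSpectrum (𝓞 F)) : (s14_su3_fib F N v).Finite := by
  have h1 : (v.asIdeal.primesOver (𝓞 N)).Finite := IsDedekindDomain.primesOver_finite _ _
  rw [← s14_su3_image_fib] at h1
  exact h1.of_finite_image (s14_su3_asIdeal_injective N).injOn

theorem s14_su3_ncard_fib (v : HeightOneSpectrum (𝓞 F)) :
    (s14_su3_fib F N v).ncard = (v.asIdeal.primesOver (𝓞 N)).ncard := by
  rw [← s14_su3_image_fib, Set.ncard_image_of_injective _ (s14_su3_asIdeal_injective N)]

theorem s14_su3_above_eq (S : Finset (HeightOneSpectrum (𝓞 F))) :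
    s14_fi_above F N S = ⋃ v ∈ S, s14_su3_fib F N v := by
  ext w
  simp only [Set.mem_iUnion, exists_prop]
  constructor
  · intro h
    exact ⟨w.under (𝓞 F), h, rfl⟩
  · rintro ⟨v, hv, hw⟩
    have hw' : w.under (𝓞 F) = v := hw
    change w.under (𝓞 F) ∈ S
    rw [hw']; exact hv

theorem s14_su3_above_finite (S : Finset (HeightOneSpectrum (𝓞 F))) :
    (s14_fi_above F N S).Finite := by
  rw [s14_su3_above_eq]
  exact Set.Finite.biUnion S.finite_toSet (fun v _ => s14_su3_fib_finite F N v)

theorem s14_su3_ncard_above_sum (S : Finset (HeightOneSpectrum (𝓞 F))) :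
    (s14_fi_above F N S).ncard = ∑ v ∈ S, (v.asIdeal.primesOver (𝓞 N)).ncard := by
  classical
  have hfin := s14_su3_above_finite F N S
  rw [Set.ncard_eq_toFinset_card _ hfin,
    Finset.card_eq_sum_card_fiberwise (f := fun w : HeightOneSpectrum (𝓞 N) => w.under (𝓞 F))
      (t := S)]
  · refine Finset.sum_congr rfl (fun v hv => ?_)
    rw [← s14_su3_ncard_fib, ← Set.ncard_coe_finset]
    congr 1
    ext w
    simp only [Finset.coe_filter, Set.Finite.mem_toFinset, Set.mem_ofPred_eq]
    constructor
    · rintro ⟨-, h⟩; exact h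
    · intro h
      have h' : w.under (𝓞 F) = v := h
      refine ⟨?_, h'⟩
      change w.under (𝓞 F) ∈ S
      rw [h']; exact hv
  · intro w hw
    have : w ∈ s14_fi_above F N S := by simpa using hw
    exact this

variable {p : ℕ}

theorem s14_su3_ncard_primesOver (hp : p.Prime) (hdeg : Module.finrank F N = p)
    (v : HeightOneSpectrum (𝓞 F)) :
    (s14_Splits F N v.asIdeal → (v.asIdeal.primesOver (𝓞 N)).ncard = p) ∧
    (¬ s14_Splits F N v.asIdeal → (v.asIdeal.primesOver (𝓞 N)).ncard = 1) := by
  haveI := v.isPrime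
  constructor
  · intro h
    rw [← hdeg]
    exact (s14_br_splits_iff_ncard F N v.asIdeal).mp h
  · intro h
    obtain ⟨Q, hQ, hQv⟩ := s14_br_exists_over F N v.asIdeal
    haveI := hQ
    have hfund := s14_br_fundamental F N Q
    rw [hQv, hdeg] at hfund
    have hdvd : (v.asIdeal.primesOver (𝓞 N)).ncard ∣ p := ⟨_, hfund.symm⟩
    rcases (Nat.dvd_prime hp).mp hdvd with h1 | h1
    · exact h1
    · exfalso
      apply h
      rw [s14_br_splits_iff_ncard, hdeg]
      exact h1

theorem s14_su3_ncard_above (hp : p.Prime) (hdeg : Module.finrank F N = p)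
    (S : Finset (HeightOneSpectrum (𝓞 F)))
    [DecidablePred (fun v : HeightOneSpectrum (𝓞 F) => s14_Splits F N v.asIdeal)]
    [DecidablePred (fun v : HeightOneSpectrum (𝓞 F) => ¬ s14_Splits F N v.asIdeal)] :
    (s14_fi_above F N S).ncard
      = p * (S.filter (fun v => s14_Splits F N v.asIdeal)).card
        + (S.filter (fun v => ¬ s14_Splits F N v.asIdeal)).card := by
  classical
  rw [s14_su3_ncard_above_sum]
  have h1 : ∀ v ∈ S, (v.asIdeal.primesOver (𝓞 N)).ncard
      = if s14_Splits F N v.asIdeal then p else 1 := by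
    intro v _
    by_cases h : s14_Splits F N v.asIdeal
    · rw [if_pos h]; exact (s14_su3_ncard_primesOver F N hp hdeg v).1 h
    · rw [if_neg h]; exact (s14_su3_ncard_primesOver F N hp hdeg v).2 h
  rw [Finset.sum_congr rfl h1, Finset.sum_ite, Finset.sum_const, Finset.sum_const,
    smul_eq_mul, smul_eq_mul, mul_one, mul_comm]
  congr!

theorem s14_su3_card_split_add (S : Finset (HeightOneSpectrum (𝓞 F)))
    [DecidablePred (fun v : HeightOneSpectrum (𝓞 F) => s14_Splits F N v.asIdeal)]
    [DecidablePred (fun v : HeightOneSpectrum (𝓞 F) => ¬ s14_Splits F N v.asIdeal)] :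
    (S.filter (fun v => s14_Splits F N v.asIdeal)).card
        + (S.filter (fun v => ¬ s14_Splits F N v.asIdeal)).card = S.card := by
  classical
  rw [← Finset.card_filter_add_card_filter_not (s := S)
    (fun v => s14_Splits F N v.asIdeal)]

theorem s14_su3_card_infinitePlace (hp : p.Prime) (hp2 : p ≠ 2)
    (hdeg : Module.finrank F N = p) :
    Fintype.card (InfinitePlace N) = Fintype.card (InfinitePlace F) * p := by
  have hodd : Odd (Module.finrank F N) := by
    rw [hdeg]; exact hp.odd_of_ne_two hp2
  haveI := IsUnramifiedAtInfinitePlaces_of_odd_finrank (k := F) (K := N) hodd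
  rw [IsUnramifiedAtInfinitePlaces.card_infinitePlace F N, hdeg]

end count

end Fermat.Agent.S14
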