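import Mathlib
import Fermat.Agent.S14.Defs
import Fermat.Agent.S14.FIStmt
import Fermat.Agent.S14.Bridge

/-!
# (SU3) part 1 — Galois action on the `S`-units of `N`, invariants

`N/F` an extension of number fields, `S` a finite set of primes of `F`,
`E' = (s14_fi_above F N S).unit N` the units of `N` outside the primes above `S`.

* `s14_su3_sigma_mem` : `E'` is stable under `Gal(N/F)`.
* `s14_su3_map_mem` : `E_S(F)` maps into `E'`.
* `s14_su3_mem_of_map_mem` : an element of `Fˣ` whose image lies in `E'` is in `E_S(F)`.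
-/

set_option autoImplicit false
set_option linter.unusedSectionVars false
set_option linter.style.haveILetI false

namespace Fermat.Agent.S14

open NumberField IsDedekindDomain

section action

variable (F N : Type) [Field F] [NumberField F] [Field N] [NumberField N] [Algebra F N]

/-- the prime `σ⁻¹ w = {r | σ r ∈ w}` of `𝓞 N`. -/
noncomputable def s14_su3_comap (σ : N ≃ₐ[F] N) (w : HeightOneSpectrum (𝓞 N)) :
    HeightOneSpectrum (𝓞 N) where
  asIdeal := w.asIdeal.comap (MulSemiringAction.toRingHom (N ≃ₐ[F] N) (𝓞 N) σ)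
  isPrime := Ideal.comap_isPrime _ _
  ne_bot := by
    intro h
    obtain ⟨x, hx, hx0⟩ := Submodule.exists_mem_ne_zero_of_ne_bot w.ne_bot
    have h1 : σ⁻¹ • x ∈ w.asIdeal.comap (MulSemiringAction.toRingHom (N ≃ₐ[F] N) (𝓞 N) σ) := by
      rw [Ideal.mem_comap]
      change σ • (σ⁻¹ • x) ∈ w.asIdeal
      rwa [smul_inv_smul]
    rw [h, Ideal.mem_bot] at h1
    exact hx0 ((smul_eq_zero_iff_eq σ⁻¹).mp h1)

theorem s14_su3_mem_comap (σ : N ≃ₐ[F] N) (w : HeightOneSpectrum (𝓞 N)) (r : 𝓞 N) :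
    r ∈ (s14_su3_comap F N σ w).asIdeal ↔ σ • r ∈ w.asIdeal := Iff.rfl

theorem s14_su3_comap_under (σ : N ≃ₐ[F] N) (w : HeightOneSpectrum (𝓞 N)) :
    (s14_su3_comap F N σ w).asIdeal.under (𝓞 F) = w.asIdeal.under (𝓞 F) := by
  ext r
  rw [Ideal.under_def, Ideal.under_def, Ideal.mem_comap, Ideal.mem_comap, s14_su3_mem_comap]
  have : σ • (algebraMap (𝓞 F) (𝓞 N) r) = algebraMap (𝓞 F) (𝓞 N) r := by
    apply Subtype.ext
    change σ ((algebraMap (𝓞 F) (𝓞 N) r : 𝓞 N) : N) = _
    have h2 : ((algebraMap (𝓞 F) (𝓞 N) r : 𝓞 N) : N) = algebraMap F N (r : F) := rfl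
    rw [h2, AlgEquiv.commutes]
    exact h2.symm
  rw [this]

theorem s14_su3_valuation_le_one (σ : N ≃ₐ[F] N) (w : HeightOneSpectrum (𝓞 N)) (x : N)
    (hx : (s14_su3_comap F N σ w).valuation N x ≤ 1) : w.valuation N (σ x) ≤ 1 := by
  obtain ⟨n, d, h⟩ := (s14_su3_comap F N σ w).exists_primeCompl_mul_eq_of_integer x hx
  have hd : σ • (d : 𝓞 N) ∉ w.asIdeal := d.2
  have h1 : σ x * algebraMap (𝓞 N) N (σ • (d : 𝓞 N)) = algebraMap (𝓞 N) N (σ • n) := by
    have := congrArg σ h
    rw [map_mul] at this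
    exact this
  have h2 : w.valuation N (algebraMap (𝓞 N) N (σ • (d : 𝓞 N))) = 1 :=
    (w.valuation_eq_one_iff_notMem).mpr hd
  have h3 : w.valuation N (algebraMap (𝓞 N) N (σ • n)) ≤ 1 := w.valuation_le_one _
  rw [← h1, map_mul, h2, mul_one] at h3
  exact h3

theorem s14_su3_valuation_eq_one (σ : N ≃ₐ[F] N) (w : HeightOneSpectrum (𝓞 N)) (u : Nˣ)
    (hu : (s14_su3_comap F N σ w).valuation N (u : N) = 1) : w.valuation N (σ (u : N)) = 1 := by
  have h1 := s14_su3_valuation_le_one F N σ w (u : N) hu.le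
  have hinv : (s14_su3_comap F N σ w).valuation N ((u⁻¹ : Nˣ) : N) = 1 := by
    rw [Units.val_inv_eq_inv_val, map_inv₀, hu, inv_one]
  have h2 := s14_su3_valuation_le_one F N σ w ((u⁻¹ : Nˣ) : N) hinv.le
  rw [Units.val_inv_eq_inv_val, map_inv₀, map_inv₀] at h2
  have hne : w.valuation N (σ (u : N)) ≠ 0 := by
    rw [Valuation.ne_zero_iff]
    exact (map_ne_zero σ).mpr u.ne_zero
  refine le_antisymm h1 ?_
  exact (inv_le_one₀ (zero_lt_iff.mpr hne)).mp h2

/-- the `S`-units of `N` (outside the primes above `S`) are stable under `Gal(N/F)`. -/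
theorem s14_su3_sigma_mem (S : Finset (HeightOneSpectrum (𝓞 F))) (σ : N ≃ₐ[F] N) (u : Nˣ)
    (hu : u ∈ (s14_fi_above F N S).unit N) :
    Units.map (σ : N →* N) u ∈ (s14_fi_above F N S).unit N := by
  intro w hw
  have hw' : s14_su3_comap F N σ w ∉ s14_fi_above F N S := by
    intro h
    apply hw
    change w.under (𝓞 F) ∈ S
    have h' : (s14_su3_comap F N σ w).under (𝓞 F) ∈ S := h
    have : (s14_su3_comap F N σ w).under (𝓞 F) = w.under (𝓞 F) := by
      apply HeightOneSpectrum.ext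
      exact s14_su3_comap_under F N σ w
    rwa [this] at h'
  exact s14_su3_valuation_eq_one F N σ w u (hu _ hw')

/-- `E_S(F)` maps into the units of `N` outside the primes above `S`. -/
theorem s14_su3_map_mem (S : Finset (HeightOneSpectrum (𝓞 F))) (x : Fˣ)
    (hx : x ∈ (S : Set (HeightOneSpectrum (𝓞 F))).unit F) :
    Units.map (algebraMap F N : F →* N) x ∈ (s14_fi_above F N S).unit N := by
  intro w hw
  have hv : w.under (𝓞 F) ∉ (S : Set (HeightOneSpectrum (𝓞 F))) := hw
  haveI : w.asIdeal.LiesOver (w.under (𝓞 F)).asIdeal := ⟨rfl⟩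
  have h1 := HeightOneSpectrum.valuation_liesOver (K := F) N (w.under (𝓞 F)) w (x : F)
  have h2 : (w.under (𝓞 F)).valuation F (x : F) = 1 := hx _ hv
  rw [h2, one_pow] at h1
  exact h1.symm

/-- an element of `Fˣ` which is a unit of `N` outside the primes above `S` is in `E_S(F)`. -/
theorem s14_su3_mem_of_map_mem [IsGalois F N] (S : Finset (HeightOneSpectrum (𝓞 F))) (x : Fˣ)
    (hx : Units.map (algebraMap F N : F →* N) x ∈ (s14_fi_above F N S).unit N) :
    x ∈ (S : Set (HeightOneSpectrum (𝓞 F))).unit F := by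
  intro v hv
  haveI := v.isPrime
  obtain ⟨Q, hQ, hQv⟩ := s14_br_exists_over F N v.asIdeal
  have hQ0 : Q ≠ ⊥ := s14_br_ne_bot_of_under F N Q (by rw [hQv]; exact v.ne_bot)
  let w : HeightOneSpectrum (𝓞 N) := ⟨Q, hQ, hQ0⟩
  have hwv : w.under (𝓞 F) = v := HeightOneSpectrum.ext hQv
  have hw : w ∉ s14_fi_above F N S := by
    intro h
    apply hv
    have h' : w.under (𝓞 F) ∈ S := h
    rwa [hwv] at h'
  haveI : w.asIdeal.LiesOver v.asIdeal := ⟨hQv.symm⟩
  have h1 := HeightOneSpectrum.valuation_liesOver (K := F) N v w (x : F)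
  have h2 : w.valuation N (algebraMap F N (x : F)) = 1 := hx w hw
  rw [h2] at h1
  have he := Ideal.IsDedekindDomain.ramificationIdx'_ne_zero_of_liesOver w.asIdeal v.ne_bot
  have h3 : (v.valuation F (x : F)) ^ (v.asIdeal.ramificationIdx' w.asIdeal) = 1 := h1
  rcases lt_trichotomy (v.valuation F (x : F)) 1 with h | h | h
  · exact absurd h3 (pow_lt_one₀ zero_le h he).ne
  · exact h
  · exact absurd h3 (one_lt_pow₀ h he).ne'

end action

section group

theorem s14_su3_orderOf {G : Type*} [Group G] {p : ℕ} (hp : p.Prime) (hG : Nat.card G = p)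
    (σ : G) (hσ : σ ≠ 1) : orderOf σ = p := by
  haveI := Fact.mk hp
  exact orderOf_eq_prime (by rw [← hG]; exact pow_card_eq_one') hσ

theorem s14_su3_prod_eq {G : Type*} [Group G] [Fintype G] {p : ℕ} (hp : p.Prime)
    (hG : Nat.card G = p) (σ : G) (hσ : σ ≠ 1) {X : Type*} [CommMonoid X] (f : G → X) :
    ∏ τ : G, f τ = ∏ i ∈ Finset.range p, f (σ ^ i) := by
  classical
  have hord := s14_su3_orderOf hp hG σ hσ
  have hinj : Set.InjOn (fun i : ℕ => σ ^ i) (Finset.range p : Set ℕ) := by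
    intro i hi j hj hij
    rw [Finset.coe_range, Set.mem_Iio, ← hord] at hi hj
    exact pow_injOn_Iio_orderOf hi hj hij
  have himg : (Finset.range p).image (fun i : ℕ => σ ^ i) = Finset.univ := by
    apply Finset.eq_univ_of_card
    rw [Finset.card_image_of_injOn hinj, Finset.card_range, ← Nat.card_eq_fintype_card, hG]
  rw [← himg, Finset.prod_image hinj]

theorem s14_su3_exists_pow {G : Type*} [Group G] [Finite G] {p : ℕ} (hp : p.Prime)
    (hG : Nat.card G = p) (σ : G) (hσ : σ ≠ 1) (τ : G) : ∃ i : ℕ, σ ^ i = τ := by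
  classical
  haveI := Fact.mk hp
  have h := zpowers_eq_top_of_prime_card hG hσ
  have hτ : τ ∈ Subgroup.zpowers σ := by rw [h]; trivial
  obtain ⟨i, -, hi⟩ := Finset.mem_image.mp (mem_zpowers_iff_mem_range_orderOf.mp hτ)
  exact ⟨i, hi⟩

end group

section module

variable (F N : Type) [Field F] [NumberField F] [Field N] [NumberField N] [Algebra F N]
variable (S : Finset (HeightOneSpectrum (𝓞 F)))

/-- the action of `σ ∈ Gal(N/F)` on `E'` (units of `N` outside the primes above `S`). -/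
noncomputable def s14_su3_sigmaE (σ : N ≃ₐ[F] N) :
    ↥((s14_fi_above F N S).unit N) →* ↥((s14_fi_above F N S).unit N) :=
  ((Units.map (σ : N →* N)).comp (Subgroup.subtype _)).codRestrict _
    (fun u => s14_su3_sigma_mem F N S σ u u.2)

/-- the additive `G`-module `M = Additive E'`: action of `σ`. -/
noncomputable def s14_su3_sigmaM (σ : N ≃ₐ[F] N) :
    AddMonoid.End (Additive ↥((s14_fi_above F N S).unit N)) :=
  MonoidHom.toAdditive (s14_su3_sigmaE F N S σ)

/-- the underlying element of `N`. -/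
def s14_su3_val (m : Additive ↥((s14_fi_above F N S).unit N)) : N :=
  (((Additive.toMul m : ↥((s14_fi_above F N S).unit N)) : Nˣ) : N)

variable {F N S}

theorem s14_su3_val_injective : Function.Injective (s14_su3_val F N S) := by
  intro m₁ m₂ h
  have h1 : ((Additive.toMul m₁ : ↥((s14_fi_above F N S).unit N)) : Nˣ)
      = ((Additive.toMul m₂ : ↥((s14_fi_above F N S).unit N)) : Nˣ) := Units.ext h
  have h2 : Additive.toMul m₁ = Additive.toMul m₂ := Subtype.ext h1
  exact Additive.toMul.injective h2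

theorem s14_su3_val_zero : s14_su3_val F N S 0 = 1 := rfl

theorem s14_su3_val_add (m₁ m₂ : Additive ↥((s14_fi_above F N S).unit N)) :
    s14_su3_val F N S (m₁ + m₂) = s14_su3_val F N S m₁ * s14_su3_val F N S m₂ := rfl

theorem s14_su3_val_neg (m : Additive ↥((s14_fi_above F N S).unit N)) :
    s14_su3_val F N S (-m) = (s14_su3_val F N S m)⁻¹ := by
  change ((((Additive.toMul m)⁻¹ : ↥((s14_fi_above F N S).unit N)) : Nˣ) : N) = _
  simp [s14_su3_val]

theorem s14_su3_val_sub (m₁ m₂ : Additive ↥((s14_fi_above F N S).unit N)) :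
    s14_su3_val F N S (m₁ - m₂) = s14_su3_val F N S m₁ / s14_su3_val F N S m₂ := by
  rw [sub_eq_add_neg, s14_su3_val_add, s14_su3_val_neg, div_eq_mul_inv]

theorem s14_su3_val_ne_zero (m : Additive ↥((s14_fi_above F N S).unit N)) :
    s14_su3_val F N S m ≠ 0 := Units.ne_zero _

theorem s14_su3_val_sum {ι : Type*} (s : Finset ι)
    (f : ι → Additive ↥((s14_fi_above F N S).unit N)) :
    s14_su3_val F N S (∑ i ∈ s, f i) = ∏ i ∈ s, s14_su3_val F N S (f i) := by
  classical
  induction s using Finset.induction_on with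
  | empty => simp [s14_su3_val_zero]
  | insert a s ha ih => rw [Finset.sum_insert ha, Finset.prod_insert ha, s14_su3_val_add, ih]

theorem s14_su3_val_sigmaM (σ : N ≃ₐ[F] N) (m : Additive ↥((s14_fi_above F N S).unit N)) :
    s14_su3_val F N S (s14_su3_sigmaM F N S σ m) = σ (s14_su3_val F N S m) := rfl

theorem s14_su3_val_sigmaM_pow (σ : N ≃ₐ[F] N) (i : ℕ)
    (m : Additive ↥((s14_fi_above F N S).unit N)) :
    s14_su3_val F N S ((s14_su3_sigmaM F N S σ ^ i : AddMonoid.End _) m)
      = (σ ^ i) (s14_su3_val F N S m) := by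
  induction i generalizing m with
  | zero => rfl
  | succ i ih =>
    rw [pow_succ, pow_succ]
    change s14_su3_val F N S ((s14_su3_sigmaM F N S σ ^ i : AddMonoid.End _)
      (s14_su3_sigmaM F N S σ m)) = (σ ^ i) (σ (s14_su3_val F N S m))
    rw [ih, s14_su3_val_sigmaM]

/-- an element of `M` from an element of `E'`. -/
def s14_su3_mk (u : Nˣ) (hu : u ∈ (s14_fi_above F N S).unit N) :
    Additive ↥((s14_fi_above F N S).unit N) :=
  Additive.ofMul ⟨u, hu⟩

theorem s14_su3_val_mk (u : Nˣ) (hu : u ∈ (s14_fi_above F N S).unit N) :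
    s14_su3_val F N S (s14_su3_mk u hu) = (u : N) := rfl

theorem s14_su3_exists_mk (m : Additive ↥((s14_fi_above F N S).unit N)) :
    ∃ (u : Nˣ) (hu : u ∈ (s14_fi_above F N S).unit N), m = s14_su3_mk u hu :=
  ⟨(Additive.toMul m).1, (Additive.toMul m).2, rfl⟩

section galois

variable [IsGalois F N] {p : ℕ}

theorem s14_su3_card_gal (hdeg : Module.finrank F N = p) : Nat.card (N ≃ₐ[F] N) = p := by
  rw [IsGalois.card_aut_eq_finrank, hdeg]

theorem s14_su3_sigma_pow (hdeg : Module.finrank F N = p) (σ : N ≃ₐ[F] N) : σ ^ p = 1 := by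
  rw [← s14_su3_card_gal hdeg]
  exact pow_card_eq_one'

theorem s14_su3_sigmaM_pow (hdeg : Module.finrank F N = p) (σ : N ≃ₐ[F] N) :
    (s14_su3_sigmaM F N S σ) ^ p = 1 := by
  refine AddMonoidHom.ext fun m => ?_
  apply s14_su3_val_injective
  refine (s14_su3_val_sigmaM_pow σ p m).trans ?_
  rw [s14_su3_sigma_pow hdeg]
  rfl

/-- the norm operator of `M` is the field norm. -/
theorem s14_su3_val_norm (hp : p.Prime) (hdeg : Module.finrank F N = p) (σ : N ≃ₐ[F] N)
    (hσ : σ ≠ 1) (m : Additive ↥((s14_fi_above F N S).unit N)) :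
    s14_su3_val F N S ((∑ i ∈ Finset.range p, s14_su3_sigmaM F N S σ ^ i : AddMonoid.End _) m)
      = algebraMap F N (Algebra.norm F (s14_su3_val F N S m)) := by
  have h1 : (∑ i ∈ Finset.range p, s14_su3_sigmaM F N S σ ^ i : AddMonoid.End _) m
      = ∑ i ∈ Finset.range p, (s14_su3_sigmaM F N S σ ^ i : AddMonoid.End _) m :=
    AddMonoidHom.finsetSum_apply _ _ _
  rw [h1, s14_su3_val_sum, Algebra.norm_eq_prod_automorphisms,
    s14_su3_prod_eq hp (s14_su3_card_gal hdeg) σ hσ]
  exact Finset.prod_congr rfl (fun i _ => s14_su3_val_sigmaM_pow σ i m)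

theorem s14_su3_mem_ker_iff (σ : N ≃ₐ[F] N) (m : Additive ↥((s14_fi_above F N S).unit N)) :
    m ∈ AddMonoidHom.ker (s14_su3_sigmaM F N S σ - 1 : AddMonoid.End _)
      ↔ σ (s14_su3_val F N S m) = s14_su3_val F N S m := by
  have h1 : m ∈ AddMonoidHom.ker (s14_su3_sigmaM F N S σ - 1 : AddMonoid.End _)
      ↔ s14_su3_sigmaM F N S σ m - m = 0 := Iff.rfl
  rw [h1, sub_eq_zero]
  constructor
  · intro h
    rw [← s14_su3_val_sigmaM, h]
  · intro h
    apply s14_su3_val_injective
    rw [s14_su3_val_sigmaM, h]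

/-- the inclusion `E_S(F) → E'`. -/
noncomputable def s14_su3_iotaE :
    ↥((S : Set (HeightOneSpectrum (𝓞 F))).unit F) →* ↥((s14_fi_above F N S).unit N) :=
  ((Units.map (algebraMap F N : F →* N)).comp (Subgroup.subtype _)).codRestrict _
    (fun x => s14_su3_map_mem F N S x x.2)

/-- the inclusion `Additive E_S(F) → M`. -/
noncomputable def s14_su3_iotaM :
    Additive ↥((S : Set (HeightOneSpectrum (𝓞 F))).unit F)
      →+ Additive ↥((s14_fi_above F N S).unit N) :=
  MonoidHom.toAdditive (s14_su3_iotaE (F := F) (N := N) (S := S))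

theorem s14_su3_val_iotaM (x : Additive ↥((S : Set (HeightOneSpectrum (𝓞 F))).unit F)) :
    s14_su3_val F N S (s14_su3_iotaM (N := N) x)
      = algebraMap F N (((Additive.toMul x : ↥((S : Set (HeightOneSpectrum (𝓞 F))).unit F)) : Fˣ) : F) :=
  rfl

theorem s14_su3_iotaM_injective :
    Function.Injective (s14_su3_iotaM (F := F) (N := N) (S := S)) := by
  intro x y h
  have h1 := congrArg (s14_su3_val F N S) h
  rw [s14_su3_val_iotaM, s14_su3_val_iotaM] at h1
  have h2 := (algebraMap F N).injective h1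
  exact Additive.toMul.injective (Subtype.ext (Units.ext h2))

/-- the invariants of `M` are `E_S(F)`. -/
theorem s14_su3_ker_eq_range (hp : p.Prime) (hdeg : Module.finrank F N = p) (σ : N ≃ₐ[F] N)
    (hσ : σ ≠ 1) :
    AddMonoidHom.ker (s14_su3_sigmaM F N S σ - 1 : AddMonoid.End _)
      = AddMonoidHom.range (s14_su3_iotaM (F := F) (N := N) (S := S)) := by
  ext m
  rw [s14_su3_mem_ker_iff]
  constructor
  · intro h
    have hfix : ∀ τ : N ≃ₐ[F] N, τ (s14_su3_val F N S m) = s14_su3_val F N S m := by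
      intro τ
      obtain ⟨i, rfl⟩ := s14_su3_exists_pow hp (s14_su3_card_gal hdeg) σ hσ τ
      induction i with
      | zero => rfl
      | succ i ih =>
        rw [pow_succ]
        change (σ ^ i) (σ (s14_su3_val F N S m)) = _
        rw [h, ih]
    obtain ⟨x, hx⟩ := (IsGalois.mem_range_algebraMap_iff_fixed (F := F) (E := N)
      (s14_su3_val F N S m)).mpr hfix
    have hx0 : x ≠ 0 := by
      rintro rfl
      rw [map_zero] at hx
      exact s14_su3_val_ne_zero m hx.symm
    obtain ⟨u, hu, rfl⟩ := s14_su3_exists_mk m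
    have hmap : Units.map (algebraMap F N : F →* N) (Units.mk0 x hx0) = u := by
      apply Units.ext
      exact hx
    have hxS : Units.mk0 x hx0 ∈ (S : Set (HeightOneSpectrum (𝓞 F))).unit F := by
      apply s14_su3_mem_of_map_mem F N S
      rw [hmap]; exact hu
    refine ⟨Additive.ofMul ⟨Units.mk0 x hx0, hxS⟩, ?_⟩
    apply s14_su3_val_injective
    rw [s14_su3_val_iotaM]
    exact hx
  · rintro ⟨x, rfl⟩
    rw [s14_su3_val_iotaM, AlgEquiv.commutes]

theorem s14_su3_finrank_ker (hp : p.Prime) (hdeg : Module.finrank F N = p) (σ : N ≃ₐ[F] N)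
    (hσ : σ ≠ 1) :
    Module.finrank ℤ ↥(AddMonoidHom.ker (s14_su3_sigmaM F N S σ - 1 : AddMonoid.End _))
      = Module.finrank ℤ (Additive ↥((S : Set (HeightOneSpectrum (𝓞 F))).unit F)) := by
  rw [s14_su3_ker_eq_range hp hdeg σ hσ]
  exact (LinearEquiv.finrank_eq (AddEquiv.toIntLinearEquiv
    (AddMonoidHom.ofInjective (s14_su3_iotaM_injective (F := F) (N := N) (S := S))))).symm

end galois

end module

end Fermat.Agent.S14
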