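import Fermat.Agent.S14.SUnitGalois
import Fermat.Agent.S14.SUnitCount
import Fermat.Agent.S14.HerbrandLattice

/-!
# (SU3) — the Herbrand quotient of the `S`-units, in the shape consumed by (FI)

`s14_su3_main : s14_su3_stmt_SU1 → s14_stmt_SU3`, where `s14_su3_stmt_SU1` is Dirichlet's
`S`-unit theorem (rank of the `S`-units), proved by the lead in `SUnitModP.lean` (`s14_su_set`).
-/

set_option autoImplicit false
set_option linter.unusedSectionVars false
set_option linter.style.haveILetI false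

namespace Fermat.Agent.S14

open NumberField IsDedekindDomain

/-- Dirichlet's `S`-unit theorem (black box of this file; it is `s14_su_set`). -/
def s14_su3_stmt_SU1 : Prop :=
  ∀ (F : Type) [Field F] [NumberField F] (S : Set (HeightOneSpectrum (𝓞 F))), S.Finite →
    Module.Finite ℤ (Additive ↥(S.unit F)) ∧
      Module.finrank ℤ (Additive ↥(S.unit F)) = NumberField.Units.rank F + S.ncard

/-- a family of elements of `K`, pairwise incongruent modulo `H`, has at most `[K : H]`
members. -/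
theorem s14_su3_card_le_relIndex {M : Type*} [AddCommGroup M] (H K : AddSubgroup M)
    (hidx : H.relIndex K ≠ 0) {ι : Type*} (A : Finset ι) (f : ι → M)
    (hK : ∀ a ∈ A, f a ∈ K) (hne : ∀ a ∈ A, ∀ b ∈ A, a ≠ b → f a - f b ∉ H) :
    A.card ≤ H.relIndex K := by
  classical
  have hfin : Finite (K ⧸ H.addSubgroupOf K) := by
    rw [← AddSubgroup.finiteIndex_iff_finite_quotient]
    exact ⟨hidx⟩
  letI : Fintype (K ⧸ H.addSubgroupOf K) := Fintype.ofFinite _
  have hcard : H.relIndex K = Fintype.card (K ⧸ H.addSubgroupOf K) := by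
    rw [AddSubgroup.relIndex, AddSubgroup.index_eq_card, Nat.card_eq_fintype_card]
  rw [hcard, ← Finset.card_univ, ← Finset.card_attach]
  refine Finset.card_le_card_of_injOn
    (fun a => (QuotientAddGroup.mk (⟨f a.1, hK a.1 a.2⟩ : K) : K ⧸ H.addSubgroupOf K))
    (fun _ _ => Finset.mem_univ _) ?_
  intro a _ b _ hab
  by_contra hne'
  have hne'' : b.1 ≠ a.1 := fun h => hne' (Subtype.ext h.symm)
  apply hne b.1 b.2 a.1 a.2 hne''
  have h2 := (QuotientAddGroup.eq).mp hab
  rw [AddSubgroup.mem_addSubgroupOf] at h2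
  have h3 : f b.1 - f a.1 = -(f a.1) + f b.1 := by abel
  rw [h3]
  exact h2

/-- arithmetic of the ranks. -/
theorem s14_su3_rank_arith (p r s n : ℕ) (hp : 1 ≤ p) (hr : 1 ≤ r) :
    (r * p - 1) + (p * s + n) = ((r - 1) + (s + n)) + (p - 1) * (r + s) := by
  obtain ⟨p', rfl⟩ : ∃ p', p = p' + 1 := ⟨p - 1, by omega⟩
  obtain ⟨r', rfl⟩ : ∃ r', r = r' + 1 := ⟨r - 1, by omega⟩
  have h1 : (r' + 1) * (p' + 1) - 1 = r' * p' + r' + p' := by
    have : (r' + 1) * (p' + 1) = r' * p' + r' + p' + 1 := by ring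
    rw [this]; rfl
  rw [h1]
  simp only [Nat.add_sub_cancel]
  ring

theorem s14_su3_final_arith (h0 p r s n : ℕ) (hp : 0 < p) (hr : 1 ≤ r)
    (hq : h0 * p ^ (r + s) = p ^ ((r - 1) + (s + n))) : h0 * p = p ^ n := by
  obtain ⟨r', rfl⟩ : ∃ r', r = r' + 1 := ⟨r - 1, by omega⟩
  simp only [Nat.add_sub_cancel] at hq
  have hpos : 0 < p ^ (r' + s) := pow_pos hp _
  refine Nat.eq_of_mul_eq_mul_left hpos ?_
  calc p ^ (r' + s) * (h0 * p) = h0 * (p ^ (r' + s) * p) := by ring
    _ = h0 * p ^ (r' + 1 + s) := by rw [← pow_succ]; congr 2; ring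
    _ = p ^ (r' + (s + n)) := hq
    _ = p ^ (r' + s) * p ^ n := by rw [← pow_add, add_assoc]

/-- **(SU3)** in the shape consumed by (FI). -/
theorem s14_su3_main (h1 : s14_su3_stmt_SU1) : s14_stmt_SU3 := by
  intro F N _ _ _ _ _ _ p hp hp2 hdeg S σ hσ hH1 A hA hAne
  classical
  obtain ⟨hfinN, hrkN⟩ := h1 N (s14_fi_above F N S) (s14_su3_above_finite F N S)
  obtain ⟨-, hrkF⟩ := h1 F (S : Set (HeightOneSpectrum (𝓞 F))) S.finite_toSet
  haveI := hfinN
  have hσM : (s14_su3_sigmaM F N S σ) ^ p = 1 := s14_su3_sigmaM_pow hdeg σ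
  have hr : 1 ≤ Fintype.card (InfinitePlace F) := Fintype.card_pos
  have hsn := s14_su3_card_split_add F N S
  have ha : Module.finrank ℤ
      ↥(AddMonoidHom.ker (s14_su3_sigmaM F N S σ - 1 : AddMonoid.End _))
      = (Fintype.card (InfinitePlace F) - 1)
        + ((S.filter (fun v => s14_Splits F N v.asIdeal)).card
          + (S.filter (fun v => ¬ s14_Splits F N v.asIdeal)).card) := by
    rw [s14_su3_finrank_ker hp hdeg σ hσ, hrkF, Set.ncard_coe_finset, hsn]
    rfl
  have hab : Module.finrank ℤ (Additive ↥((s14_fi_above F N S).unit N))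
      = ((Fintype.card (InfinitePlace F) - 1)
        + ((S.filter (fun v => s14_Splits F N v.asIdeal)).card
          + (S.filter (fun v => ¬ s14_Splits F N v.asIdeal)).card))
        + (p - 1) * (Fintype.card (InfinitePlace F)
          + (S.filter (fun v => s14_Splits F N v.asIdeal)).card) := by
    rw [hrkN, s14_su3_ncard_above F N hp hdeg S, ← s14_su3_rank_arith _ _ _ _ hp.one_le hr,
      ← s14_su3_card_infinitePlace F N hp hp2 hdeg]
    rfl
  -- abstract the two operators
  obtain ⟨D0, hD0⟩ : ∃ D0 : Additive ↥((s14_fi_above F N S).unit N)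
      →+ Additive ↥((s14_fi_above F N S).unit N),
      D0 = (s14_su3_sigmaM F N S σ - 1 : AddMonoid.End _) := ⟨_, rfl⟩
  obtain ⟨N0, hN0⟩ : ∃ N0 : Additive ↥((s14_fi_above F N S).unit N)
      →+ Additive ↥((s14_fi_above F N S).unit N),
      N0 = (∑ i ∈ Finset.range p, s14_su3_sigmaM F N S σ ^ i : AddMonoid.End _) := ⟨_, rfl⟩
  have hlat : s14_hq_h D0 N0 ≠ 0 ∧ s14_hq_h N0 D0 ≠ 0 ∧
      s14_hq_h D0 N0 * p ^ (Fintype.card (InfinitePlace F)
          + (S.filter (fun v => s14_Splits F N v.asIdeal)).card)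
        = s14_hq_h N0 D0 * p ^ ((Fintype.card (InfinitePlace F) - 1)
          + ((S.filter (fun v => s14_Splits F N v.asIdeal)).card
            + (S.filter (fun v => ¬ s14_Splits F N v.asIdeal)).card)) := by
    subst hD0 hN0
    exact s14_hq_lattice hp (s14_su3_sigmaM F N S σ) hσM _ _ ha hab
  have hD0ker : ∀ m, m ∈ D0.ker ↔ σ (s14_su3_val F N S m) = s14_su3_val F N S m := by
    subst hD0
    exact s14_su3_mem_ker_iff σ
  have hD0app : ∀ m, D0 m = s14_su3_sigmaM F N S σ m - m := by
    subst hD0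
    intro m
    rfl
  have hN0val : ∀ m, s14_su3_val F N S (N0 m)
      = algebraMap F N (Algebra.norm F (s14_su3_val F N S m)) := by
    subst hN0
    exact s14_su3_val_norm hp hdeg σ hσ
  obtain ⟨h0ne, -, hq⟩ := hlat
  -- `h¹ = 1`
  have hh1 : s14_hq_h N0 D0 = 1 := by
    unfold s14_hq_h
    rw [AddSubgroup.relIndex_eq_one]
    intro m hm
    have hm0 : N0 m = 0 := hm
    have hnorm := hN0val m
    rw [hm0, s14_su3_val_zero] at hnorm
    have hn1 : Algebra.norm F (s14_su3_val F N S m) = 1 := by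
      apply (algebraMap F N).injective
      rw [← hnorm, map_one]
    obtain ⟨u, hu, rfl⟩ := s14_su3_exists_mk m
    obtain ⟨w, hw, huw⟩ := hH1 u hu hn1
    refine ⟨-(s14_su3_mk w hw), ?_⟩
    apply s14_su3_val_injective
    rw [hD0app, map_neg, neg_sub_neg, s14_su3_val_sub, s14_su3_val_sigmaM, s14_su3_val_mk,
      s14_su3_val_mk]
    exact huw.symm
  rw [hh1, one_mul] at hq
  -- `|A| ≤ h⁰`
  have hAle : A.card ≤ s14_hq_h D0 N0 := by
    have hmem : ∀ a ∈ A, Units.map (algebraMap F N : F →* N) a ∈ (s14_fi_above F N S).unit N :=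
      fun a ha' => s14_su3_map_mem F N S a (hA a ha')
    let f : Fˣ → Additive ↥((s14_fi_above F N S).unit N) := fun a =>
      if h : Units.map (algebraMap F N : F →* N) a ∈ (s14_fi_above F N S).unit N
      then s14_su3_mk _ h else 0
    have hf : ∀ a ∈ A, s14_su3_val F N S (f a) = algebraMap F N (a : F) := by
      intro a ha'
      simp only [f, dif_pos (hmem a ha')]
      rfl
    refine s14_su3_card_le_relIndex _ _ h0ne A f ?_ ?_
    · intro a ha'
      rw [hD0ker, hf a ha', AlgEquiv.commutes]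
    · intro a ha' b hb' hab' hmemN
      apply hAne a ha' b hb' hab'
      obtain ⟨m, hm⟩ := hmemN
      obtain ⟨w, hw, rfl⟩ := s14_su3_exists_mk m
      refine ⟨w, hw, ?_⟩
      have h6 := congrArg (s14_su3_val F N S) hm
      rw [hN0val, s14_su3_val_mk, s14_su3_val_sub, hf a ha', hf b hb', ← map_div₀] at h6
      have h7 := (algebraMap F N).injective h6
      rw [h7]
      simp
  -- conclusion
  have key : s14_hq_h D0 N0 * p
      = p ^ (S.filter (fun v => ¬ s14_Splits F N v.asIdeal)).card :=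
    s14_su3_final_arith _ _ _ _ _ hp.pos hr hq
  calc A.card * p ≤ _ * p := Nat.mul_le_mul_right p hAle
    _ = _ := key

end Fermat.Agent.S14
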