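import Mathlib

/-!
# S14 (Z), part 1: elementary inequalities and a finite "Euler product" bound for multisets

Owner: helper2.  Pure Mathlib.
-/

set_option autoImplicit false

namespace Fermat.Agent.S14

open Finset

/-- `(1 - x)⁻¹ ≤ exp (x + 2 x²)` for `0 ≤ x ≤ 1/2`. -/
theorem s14_z_inv_one_sub_le_exp {x : ℝ} (h0 : 0 ≤ x) (h1 : x ≤ 1 / 2) :
    (1 - x)⁻¹ ≤ Real.exp (x + 2 * x ^ 2) := by
  have hpos : 0 < 1 - x := by linarith
  have h2 : (1 - x)⁻¹ = x / (1 - x) + 1 := by
    field_simp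
    ring
  have h3 : x / (1 - x) ≤ x + 2 * x ^ 2 := by
    rw [div_le_iff₀ hpos]
    nlinarith [mul_nonneg (mul_nonneg h0 h0) (by linarith : (0 : ℝ) ≤ 1 - 2 * x)]
  calc (1 - x)⁻¹ = x / (1 - x) + 1 := h2
    _ ≤ Real.exp (x / (1 - x)) := Real.add_one_le_exp _
    _ ≤ Real.exp (x + 2 * x ^ 2) := Real.exp_le_exp.mpr h3

/-- `exp (x - x²) ≤ 1 + x` for `0 ≤ x`. -/
theorem s14_z_exp_le_one_add {x : ℝ} (h0 : 0 ≤ x) : Real.exp (x - x ^ 2) ≤ 1 + x := by
  have hy : x - x ^ 2 < 1 := by nlinarith [sq_nonneg (x - 1 / 2)]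
  have hpos : 0 < 1 - (x - x ^ 2) := by linarith
  have h1 : 1 - (x - x ^ 2) ≤ Real.exp (-(x - x ^ 2)) := by
    have := Real.add_one_le_exp (-(x - x ^ 2))
    linarith
  have hexp : 0 < Real.exp (x - x ^ 2) := Real.exp_pos _
  have h2 : Real.exp (x - x ^ 2) * (1 - (x - x ^ 2)) ≤ 1 := by
    have h3 : Real.exp (x - x ^ 2) * Real.exp (-(x - x ^ 2)) = 1 := by
      rw [← Real.exp_add]
      simp
    calc Real.exp (x - x ^ 2) * (1 - (x - x ^ 2))
        ≤ Real.exp (x - x ^ 2) * Real.exp (-(x - x ^ 2)) :=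
          mul_le_mul_of_nonneg_left h1 hexp.le
      _ = 1 := h3
  have h4 : (1 + x) * (1 - (x - x ^ 2)) ≥ 1 := by nlinarith [pow_nonneg h0 3]
  by_contra hcon
  push Not at hcon
  have : (1 + x) * (1 - (x - x ^ 2)) < Real.exp (x - x ^ 2) * (1 - (x - x ^ 2)) :=
    mul_lt_mul_of_pos_right hcon hpos
  linarith

/-- a finite geometric sum is at most `(1 - x)⁻¹`. -/
theorem s14_z_geom_sum_le {x : ℝ} (h0 : 0 ≤ x) (h1 : x < 1) (n : ℕ) :
    ∑ k ∈ range n, x ^ k ≤ (1 - x)⁻¹ := by
  have hpos : 0 < 1 - x := by linarith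
  have h := geom_sum_mul_neg x n
  have hxn : 0 ≤ x ^ n := pow_nonneg h0 n
  rw [← one_div, le_div_iff₀ hpos, h]
  linarith

/-- **finite Euler product bound**: a sum over finitely many distinct multisets supported on a
finite set `S` of the products of the weights is at most `∏ (1 - x i)⁻¹`. -/
theorem s14_z_sum_multiset_le {ι : Type*} [DecidableEq ι] (S : Finset ι) (x : ι → ℝ)
    (hx0 : ∀ i ∈ S, 0 ≤ x i) (hx1 : ∀ i ∈ S, x i < 1) :
    ∀ M : Finset (Multiset ι), (∀ μ ∈ M, ∀ i ∈ μ, i ∈ S) →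
      ∑ μ ∈ M, (μ.map x).prod ≤ ∏ i ∈ S, (1 - x i)⁻¹ := by
  induction S using Finset.induction_on with
  | empty =>
    intro M hM
    have hM0 : ∀ μ ∈ M, μ = 0 := fun μ hμ =>
      Multiset.eq_zero_of_forall_notMem fun i hi => by simpa using hM μ hμ i hi
    have hsub : M ⊆ {0} := fun μ hμ => by simpa using hM0 μ hμ
    calc ∑ μ ∈ M, (μ.map x).prod ≤ ∑ μ ∈ ({0} : Finset (Multiset ι)), (μ.map x).prod := by
          refine Finset.sum_le_sum_of_subset_of_nonneg hsub fun μ hμ _ => ?_
          have : μ = 0 := by simpa using hμ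
          simp [this]
      _ = 1 := by simp
      _ = ∏ i ∈ (∅ : Finset ι), (1 - x i)⁻¹ := by simp
  | insert a S' ha ih =>
    intro M hM
    have hxa0 : 0 ≤ x a := hx0 a (Finset.mem_insert_self a S')
    have hxa1 : x a < 1 := hx1 a (Finset.mem_insert_self a S')
    have ih' := ih (fun i hi => hx0 i (Finset.mem_insert_of_mem hi))
      (fun i hi => hx1 i (Finset.mem_insert_of_mem hi))
    -- the bound for the rest
    set B : ℝ := ∏ i ∈ S', (1 - x i)⁻¹ with hB
    have hB0 : 0 ≤ B := Finset.prod_nonneg fun i hi =>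
      inv_nonneg.mpr (by linarith [hx1 i (Finset.mem_insert_of_mem hi)])
    -- decomposition of a multiset
    have hdec : ∀ μ : Multiset ι, (μ.map x).prod =
        x a ^ (μ.count a) * ((μ.filter (fun i => ¬ i = a)).map x).prod := by
      intro μ
      conv_lhs => rw [← Multiset.filter_add_not (fun i => i = a) μ]
      rw [Multiset.map_add, Multiset.prod_add, Multiset.filter_eq', Multiset.map_replicate,
        Multiset.prod_replicate]
    set m : ℕ := M.sup (fun μ => μ.count a) with hm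
    have hmaps : ∀ μ ∈ M, μ.count a ∈ range (m + 1) := fun μ hμ => by
      rw [Finset.mem_range, Nat.lt_succ_iff]
      exact Finset.le_sup (f := fun μ => μ.count a) hμ
    rw [← Finset.sum_fiberwise_of_maps_to hmaps]
    have hk : ∀ k ∈ range (m + 1),
        ∑ μ ∈ M with μ.count a = k, (μ.map x).prod ≤ x a ^ k * B := by
      intro k _
      have h1 : ∑ μ ∈ M with μ.count a = k, (μ.map x).prod =
          x a ^ k * ∑ μ ∈ M with μ.count a = k, ((μ.filter (fun i => ¬ i = a)).map x).prod := by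
        rw [Finset.mul_sum]
        refine Finset.sum_congr rfl fun μ hμ => ?_
        rw [hdec μ, (Finset.mem_filter.mp hμ).2]
      rw [h1]
      refine mul_le_mul_of_nonneg_left ?_ (pow_nonneg hxa0 k)
      have hinj : Set.InjOn (fun μ : Multiset ι => μ.filter (fun i => ¬ i = a))
          (↑(M.filter fun μ => μ.count a = k) : Set (Multiset ι)) := by
        intro μ hμ ν hν hμν
        have hμk : μ.count a = k := (Finset.mem_filter.mp (Finset.mem_coe.mp hμ)).2
        have hνk : ν.count a = k := (Finset.mem_filter.mp (Finset.mem_coe.mp hν)).2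
        simp only at hμν
        rw [← Multiset.filter_add_not (fun i => i = a) μ,
          ← Multiset.filter_add_not (fun i => i = a) ν, Multiset.filter_eq', Multiset.filter_eq',
          hμk, hνk, hμν]
      rw [← Finset.sum_image (f := fun ν : Multiset ι => (ν.map x).prod) hinj]
      refine ih' _ ?_
      intro ν hν i hi
      obtain ⟨μ, hμ, rfl⟩ := Finset.mem_image.mp hν
      have hi' := Multiset.mem_filter.mp hi
      have := hM μ (Finset.mem_filter.mp hμ).1 i hi'.1
      rcases Finset.mem_insert.mp this with h | h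
      · exact absurd h hi'.2
      · exact h
    calc ∑ k ∈ range (m + 1), ∑ μ ∈ M with μ.count a = k, (μ.map x).prod
        ≤ ∑ k ∈ range (m + 1), x a ^ k * B := Finset.sum_le_sum hk
      _ = (∑ k ∈ range (m + 1), x a ^ k) * B := by rw [Finset.sum_mul]
      _ ≤ (1 - x a)⁻¹ * B := mul_le_mul_of_nonneg_right (s14_z_geom_sum_le hxa0 hxa1 _) hB0
      _ = ∏ i ∈ insert a S', (1 - x i)⁻¹ := by rw [Finset.prod_insert ha]

end Fermat.Agent.S14
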