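import Fermat.Agent.S14.ZetaEuler

/-!
# S14 (Z), part 5: primes of absolute degree at least two contribute a bounded amount

Owner: helper2.
-/

set_option autoImplicit false
set_option linter.unusedSectionVars false

namespace Fermat.Agent.S14

open NumberField Ideal Filter Topology Finset

variable (K : Type*) [Field K] [NumberField K]

/-- the rational prime below a prime ideal. -/
noncomputable def s14_z_below (P : Ideal (𝓞 K)) : ℕ := absNorm (under ℤ P)

theorem s14_z_below_prime {P : Ideal (𝓞 K)} (hP : P.IsPrime) (hP0 : P ≠ ⊥) :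
    (s14_z_below K P).Prime := by
  have := hP
  have : NeZero P := ⟨hP0⟩
  exact Nat.absNorm_under_prime P

theorem s14_z_absNorm_eq_pow {P : Ideal (𝓞 K)} (hP : P.IsPrime) :
    (s14_z_below K P) ^ P.inertiaDeg ℤ = absNorm P := by
  have := hP
  have : P.LiesOver (span {((s14_z_below K P : ℕ) : ℤ)}) := Int.liesOver_span_absNorm P
  exact Ideal.pow_inertiaDeg (s14_z_below K P) P

theorem s14_z_inertiaDeg_pos {P : Ideal (𝓞 K)} (hP : P.IsPrime) : 0 < P.inertiaDeg ℤ := by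
  have := hP
  exact Ideal.inertiaDeg_pos P ℤ

/-- a prime whose norm is not a prime number has norm at least `ℓ²`. -/
theorem s14_z_sq_le_absNorm {P : Ideal (𝓞 K)} (hP : P.IsPrime) (hP0 : P ≠ ⊥)
    (hnp : ¬ (absNorm P).Prime) : (s14_z_below K P) ^ 2 ≤ absNorm P := by
  have hℓ := s14_z_below_prime K hP hP0
  have hf := s14_z_inertiaDeg_pos K hP
  have h2 : 2 ≤ P.inertiaDeg ℤ := by
    by_contra hlt
    have h1 : P.inertiaDeg ℤ = 1 := by omega
    apply hnp
    rw [← s14_z_absNorm_eq_pow K hP, h1, pow_one]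
    exact hℓ
  rw [← s14_z_absNorm_eq_pow K hP]
  exact Nat.pow_le_pow_right hℓ.pos h2

/-- at most `[K : ℚ]` primes lie over a given rational prime. -/
theorem s14_z_card_fiber_below_le (S : Finset (Ideal (𝓞 K)))
    (hS : ∀ P ∈ S, P.IsPrime ∧ P ≠ ⊥) (ℓ : ℕ) :
    (S.filter fun P => s14_z_below K P = ℓ).card ≤ Module.finrank ℤ (𝓞 K) := by
  classical
  rcases (S.filter fun P => s14_z_below K P = ℓ).eq_empty_or_nonempty with hempty | ⟨P₀, hP₀⟩
  · simp [hempty]
  have hℓ : ℓ.Prime := by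
    have := Finset.mem_filter.mp hP₀
    rw [← this.2]
    exact s14_z_below_prime K (hS P₀ this.1).1 (hS P₀ this.1).2
  set p : Ideal ℤ := span {(ℓ : ℤ)} with hp
  have hpprime : p.IsPrime := by
    rw [hp, span_singleton_prime (by exact_mod_cast hℓ.ne_zero)]
    exact Nat.prime_iff_prime_int.mp hℓ
  have hp0 : p ≠ ⊥ := by
    rw [hp, Ne, span_singleton_eq_bot]
    exact_mod_cast hℓ.ne_zero
  have : p.IsMaximal := hpprime.isMaximal hp0
  let : Fintype (p.primesOver (𝓞 K)) := (IsDedekindDomain.primesOver_finite p (𝓞 K)).fintype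
  have hsum := Ideal.sum_ramification_inertia_eq_finrank p (𝓞 K)
  have hcard : Fintype.card (p.primesOver (𝓞 K)) ≤ Module.finrank ℤ (𝓞 K) := by
    rw [← hsum, Fintype.card_eq_sum_ones]
    refine Finset.sum_le_sum fun q _ => ?_
    have := q.2.1
    exact Nat.one_le_iff_ne_zero.mpr (Nat.mul_ne_zero (Ideal.ramificationIdx_pos q.1 ℤ).ne'
      (Ideal.inertiaDeg_pos q.1 ℤ).ne')
  refine le_trans ?_ hcard
  have hmem : ∀ P ∈ S.filter (fun P => s14_z_below K P = ℓ), P ∈ p.primesOver (𝓞 K) := by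
    intro P hP
    have hP' := Finset.mem_filter.mp hP
    refine ⟨(hS P hP'.1).1, ?_⟩
    have := Int.liesOver_span_absNorm P
    rw [show absNorm (under ℤ P) = ℓ from hP'.2] at this
    exact this
  rw [← Finset.card_univ]
  refine Finset.card_le_card_of_injOn (fun P => if h : P ∈ p.primesOver (𝓞 K) then ⟨P, h⟩ else
    ⟨P₀, hmem P₀ hP₀⟩) (fun _ _ => Finset.mem_univ _) ?_
  intro P hP Q hQ hPQ
  simp only [dif_pos (hmem P hP), dif_pos (hmem Q hQ)] at hPQ
  exact congrArg Subtype.val hPQ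


/-- **(D)** the primes whose norm is not a prime number contribute a bounded amount. -/
theorem s14_z_deg_sum_le {s : ℝ} (hs : 1 ≤ s) (S : Finset (Ideal (𝓞 K)))
    (hS : ∀ P ∈ S, P.IsPrime ∧ P ≠ ⊥) (hnp : ∀ P ∈ S, ¬ (absNorm P).Prime) :
    ∑ P ∈ S, s14_z_w K s P ≤ (Module.finrank ℤ (𝓞 K) : ℝ) * (Real.pi ^ 2 / 6) := by
  classical
  have h1 : ∀ P ∈ S, s14_z_w K s P ≤ 1 / ((s14_z_below K P : ℕ) : ℝ) ^ 2 := by
    intro P hP
    have hℓ := s14_z_below_prime K (hS P hP).1 (hS P hP).2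
    have hsq := s14_z_sq_le_absNorm K (hS P hP).1 (hS P hP).2 (hnp P hP)
    have hℓpos : (0 : ℝ) < ((s14_z_below K P : ℕ) : ℝ) ^ 2 := by
      have : (0 : ℝ) < ((s14_z_below K P : ℕ) : ℝ) := by exact_mod_cast hℓ.pos
      positivity
    have hsq' : ((s14_z_below K P : ℕ) : ℝ) ^ 2 ≤ (absNorm P : ℝ) := by exact_mod_cast hsq
    have hN1 : (1 : ℝ) ≤ (absNorm P : ℝ) := by
      have : (1 : ℝ) ≤ ((s14_z_below K P : ℕ) : ℝ) := by exact_mod_cast hℓ.one_lt.le
      nlinarith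
    have h3 : (absNorm P : ℝ) ≤ (absNorm P : ℝ) ^ s := by
      calc (absNorm P : ℝ) = (absNorm P : ℝ) ^ (1 : ℝ) := (Real.rpow_one _).symm
        _ ≤ (absNorm P : ℝ) ^ s := Real.rpow_le_rpow_of_exponent_le hN1 hs
    rw [s14_z_w_apply, one_div]
    exact inv_anti₀ hℓpos (hsq'.trans h3)
  have h2 : ∑ P ∈ S, 1 / ((s14_z_below K P : ℕ) : ℝ) ^ 2 =
      ∑ n ∈ S.image (s14_z_below K),
        ((S.filter fun P => s14_z_below K P = n).card : ℝ) * (1 / (n : ℝ) ^ 2) := by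
    rw [Finset.sum_comp (fun n : ℕ => 1 / (n : ℝ) ^ 2) (s14_z_below K)]
    refine Finset.sum_congr rfl fun n _ => ?_
    rw [nsmul_eq_mul]
  have h3 : ∑ n ∈ S.image (s14_z_below K),
        ((S.filter fun P => s14_z_below K P = n).card : ℝ) * (1 / (n : ℝ) ^ 2) ≤
      ∑ n ∈ S.image (s14_z_below K), (Module.finrank ℤ (𝓞 K) : ℝ) * (1 / (n : ℝ) ^ 2) := by
    refine Finset.sum_le_sum fun n _ => ?_
    refine mul_le_mul_of_nonneg_right ?_ (by positivity)
    exact_mod_cast s14_z_card_fiber_below_le K S hS n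
  have h4 : ∑ n ∈ S.image (s14_z_below K), (1 / (n : ℝ) ^ 2) ≤ Real.pi ^ 2 / 6 :=
    sum_le_hasSum _ (fun n _ => by positivity) hasSum_zeta_two
  calc ∑ P ∈ S, s14_z_w K s P ≤ ∑ P ∈ S, 1 / ((s14_z_below K P : ℕ) : ℝ) ^ 2 :=
        Finset.sum_le_sum h1
    _ = _ := h2
    _ ≤ _ := h3
    _ = (Module.finrank ℤ (𝓞 K) : ℝ) * ∑ n ∈ S.image (s14_z_below K), (1 / (n : ℝ) ^ 2) := by
        rw [Finset.mul_sum]
    _ ≤ (Module.finrank ℤ (𝓞 K) : ℝ) * (Real.pi ^ 2 / 6) :=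
        mul_le_mul_of_nonneg_left h4 (Nat.cast_nonneg _)

end Fermat.Agent.S14
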