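import Mathlib

/-!
# S14 (Z), part 2: the Dedekind zeta function at real arguments `s > 1`

Owner: helper2.  Pure Mathlib.
-/

set_option autoImplicit false

namespace Fermat.Agent.S14

open NumberField Ideal Filter Topology Finset

variable (K : Type*) [Field K] [NumberField K]

/-- number of ideals of norm `n`. -/
noncomputable def s14_z_coef (n : ℕ) : ℕ := Nat.card {I : Ideal (𝓞 K) // absNorm I = n}

/-- the `n`-th term of the Dedekind zeta function at the real number `s`. -/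
noncomputable def s14_z_term (s : ℝ) (n : ℕ) : ℝ := (s14_z_coef K n : ℝ) / (n : ℝ) ^ s

/-- the Dedekind zeta function at the real number `s`. -/
noncomputable def s14_z_zeta (s : ℝ) : ℝ := ∑' n, s14_z_term K s n

theorem s14_z_term_nonneg (s : ℝ) (n : ℕ) : 0 ≤ s14_z_term K s n :=
  div_nonneg (Nat.cast_nonneg _) (Real.rpow_nonneg (Nat.cast_nonneg _) _)

theorem s14_z_tendsto_partial :
    Tendsto (fun n : ℕ ↦ (∑ k ∈ Icc 1 n, (s14_z_coef K k : ℝ)) / (n : ℝ)) atTop
      (𝓝 (dedekindZeta_residue K)) := by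
  refine ((Ideal.tendsto_norm_le_div_atTop₀ K).comp tendsto_natCast_atTop_atTop).congr fun n ↦ ?_
  simp only [Function.comp_apply, Nat.cast_le, ← Nat.cast_sum, s14_z_coef]
  congr
  rw [← add_left_inj 1, ← card_norm_le_eq_card_norm_le_add_one,
    show Finset.Icc 1 n = Finset.Ioc 0 n from Finset.Icc_succ_left_eq_Ioc _ _,
    show 1 = Nat.card {I : Ideal (𝓞 K) // absNorm I = 0} by simp [Ideal.absNorm_eq_zero_iff],
    Finset.sum_Ioc_add_eq_sum_Icc (n.zero_le),
    ← Finset.card_preimage_eq_sum_card_image_eq (fun k _ ↦ finite_setOfPred_absNorm_eq k)]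
  simp [Set.coe_eq_subtype]

theorem s14_z_lseriesSummable {s : ℝ} (hs : 1 < s) :
    LSeriesSummable (fun n ↦ ((s14_z_coef K n : ℝ) : ℂ)) (s : ℂ) := by
  refine LSeriesSummable_of_sum_norm_bigO_and_nonneg (f := fun n ↦ (s14_z_coef K n : ℝ)) ?_
    (fun _ ↦ Nat.cast_nonneg _) zero_le_one (by simpa using hs)
  exact Asymptotics.isBigO_atTop_natCast_rpow_of_tendsto_div_rpow (by simpa using s14_z_tendsto_partial K)

theorem s14_z_term_eq {s : ℝ} (hs : s ≠ 0) (n : ℕ) :
    LSeries.term (fun n ↦ ((s14_z_coef K n : ℝ) : ℂ)) (s : ℂ) n = ((s14_z_term K s n : ℝ) : ℂ) := by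
  rcases eq_or_ne n 0 with rfl | hn
  · simp [s14_z_term, Real.zero_rpow hs]
  · rw [LSeries.term_of_ne_zero hn, s14_z_term, Complex.ofReal_div,
      Complex.ofReal_cpow (Nat.cast_nonneg n), Complex.ofReal_natCast, Complex.ofReal_natCast]

theorem s14_z_summable {s : ℝ} (hs : 1 < s) : Summable (s14_z_term K s) := by
  have h := s14_z_lseriesSummable K hs
  rw [LSeriesSummable, funext (s14_z_term_eq K (by linarith : s ≠ 0))] at h
  exact Complex.summable_ofReal.mp h

theorem s14_z_zeta_eq {s : ℝ} (hs : 1 < s) :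
    ((s14_z_zeta K s : ℝ) : ℂ) = dedekindZeta K (s : ℂ) := by
  rw [s14_z_zeta, Complex.ofReal_tsum, dedekindZeta, LSeries]
  refine tsum_congr fun n => ?_
  rw [← s14_z_term_eq K (by linarith : s ≠ 0) n]
  rcases eq_or_ne n 0 with rfl | hn
  · simp
  · rw [LSeries.term_of_ne_zero hn, LSeries.term_of_ne_zero hn]
    simp [s14_z_coef]

/-- the residue theorem, real form. -/
theorem s14_z_tendsto :
    Tendsto (fun s : ℝ ↦ (s - 1) * s14_z_zeta K s) (𝓝[>] 1) (𝓝 (dedekindZeta_residue K)) := by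
  have h := tendsto_sub_one_mul_dedekindZeta_nhdsGT K
  have h2 : Tendsto (fun s : ℝ ↦ (((s - 1) * s14_z_zeta K s : ℝ) : ℂ)) (𝓝[>] 1)
      (𝓝 ((dedekindZeta_residue K : ℝ) : ℂ)) := by
    refine h.congr' ?_
    filter_upwards [self_mem_nhdsWithin] with s hs
    rw [Complex.ofReal_mul, s14_z_zeta_eq K hs]
    simp
  exact (Complex.continuous_re.tendsto _).comp h2 |>.congr fun s => by simp

theorem s14_z_zeta_nonneg (s : ℝ) : 0 ≤ s14_z_zeta K s :=
  tsum_nonneg (s14_z_term_nonneg K s)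


/-- the finite set of ideals of norm `n`. -/
noncomputable def s14_z_fiber (n : ℕ) : Finset (Ideal (𝓞 K)) :=
  (finite_setOfPred_absNorm_eq (S := 𝓞 K) n).toFinset

theorem s14_z_mem_fiber {n : ℕ} {I : Ideal (𝓞 K)} : I ∈ s14_z_fiber K n ↔ absNorm I = n := by
  simp [s14_z_fiber]

theorem s14_z_card_fiber (n : ℕ) : (s14_z_fiber K n).card = s14_z_coef K n := by
  rw [s14_z_coef, s14_z_fiber, ← Set.ncard_eq_toFinset_card _ _, ← _root_.Nat.card_coe_set_eq]
  rfl

/-- a finite sum over nonzero ideals of `N(I)^(-s)` is at most `ζ_K(s)`. -/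
theorem s14_z_sum_ideals_le {s : ℝ} (hs : 1 < s) (A : Finset (Ideal (𝓞 K))) :
    ∑ I ∈ A, ((absNorm I : ℝ) ^ s)⁻¹ ≤ s14_z_zeta K s := by
  classical
  have h1 : ∑ I ∈ A, ((absNorm I : ℝ) ^ s)⁻¹ =
      ∑ n ∈ A.image absNorm, ((A.filter fun I => absNorm I = n).card : ℝ) * ((n : ℝ) ^ s)⁻¹ := by
    rw [Finset.sum_comp (fun n : ℕ => ((n : ℝ) ^ s)⁻¹) (fun I : Ideal (𝓞 K) => absNorm I)]
    refine Finset.sum_congr rfl fun n _ => ?_
    rw [nsmul_eq_mul]
  rw [h1]
  calc ∑ n ∈ A.image absNorm, ((A.filter fun I => absNorm I = n).card : ℝ) * ((n : ℝ) ^ s)⁻¹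
      ≤ ∑ n ∈ A.image absNorm, s14_z_term K s n := by
        refine Finset.sum_le_sum fun n _ => ?_
        rw [s14_z_term, div_eq_mul_inv]
        refine mul_le_mul_of_nonneg_right ?_ (inv_nonneg.mpr (Real.rpow_nonneg (Nat.cast_nonneg _) _))
        rw [← s14_z_card_fiber, Nat.cast_le]
        refine Finset.card_le_card fun I hI => ?_
        rw [s14_z_mem_fiber]
        exact (Finset.mem_filter.mp hI).2
    _ ≤ s14_z_zeta K s :=
        (s14_z_summable K hs).sum_le_tsum _ fun n _ => s14_z_term_nonneg K s n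

/-- if every finite sum over nonzero ideals of `N(I)^(-s)` is at most `B`, then `ζ_K(s) ≤ B`. -/
theorem s14_z_zeta_le_of_forall {s : ℝ} (hs : s ≠ 0) {B : ℝ}
    (h : ∀ A : Finset (Ideal (𝓞 K)), (∀ I ∈ A, I ≠ ⊥) → ∑ I ∈ A, ((absNorm I : ℝ) ^ s)⁻¹ ≤ B) :
    s14_z_zeta K s ≤ B := by
  classical
  refine Real.tsum_le_of_sum_le (fun n => s14_z_term_nonneg K s n) fun u => ?_
  -- the ideals with norm in `u \ {0}`
  set A : Finset (Ideal (𝓞 K)) := (u.erase 0).biUnion (s14_z_fiber K) with hAdef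
  have hA : ∀ I ∈ A, I ≠ ⊥ := by
    intro I hI
    obtain ⟨n, hn, hIn⟩ := Finset.mem_biUnion.mp hI
    rw [s14_z_mem_fiber] at hIn
    intro hbot
    rw [hbot, Ideal.absNorm_bot] at hIn
    exact (Finset.mem_erase.mp hn).1 hIn.symm
  have hdisj : Set.PairwiseDisjoint (↑(u.erase 0) : Set ℕ) (s14_z_fiber K) := by
    intro m _ n _ hmn
    rw [Function.onFun, Finset.disjoint_left]
    intro I hIm hIn
    rw [s14_z_mem_fiber] at hIm hIn
    exact hmn (hIm.symm.trans hIn)
  have h2 : ∑ n ∈ u, s14_z_term K s n = ∑ I ∈ A, ((absNorm I : ℝ) ^ s)⁻¹ := by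
    rw [hAdef, Finset.sum_biUnion hdisj]
    have h0 : s14_z_term K s 0 = 0 := by simp [s14_z_term, Real.zero_rpow hs]
    have h3 : ∑ n ∈ u, s14_z_term K s n = ∑ n ∈ u.erase 0, s14_z_term K s n := by
      by_cases hu : 0 ∈ u
      · rw [← Finset.add_sum_erase u _ hu, h0, zero_add]
      · rw [Finset.erase_eq_of_notMem hu]
    rw [h3]
    refine Finset.sum_congr rfl fun n _ => ?_
    rw [s14_z_term, div_eq_mul_inv, ← s14_z_card_fiber, ← nsmul_eq_mul, ← Finset.sum_const]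
    refine Finset.sum_congr rfl fun I hI => ?_
    rw [(s14_z_mem_fiber K).mp hI]
  rw [h2]
  exact h A hA

end Fermat.Agent.S14
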