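import Fermat.Agent.S14.ZetaComb
import Fermat.Agent.S14.ZetaReal

/-!
# S14 (Z), part 3: finite Euler products versus the Dedekind zeta function

Owner: helper2.
-/

set_option autoImplicit false

namespace Fermat.Agent.S14

open NumberField Ideal Filter Topology Finset UniqueFactorizationMonoid

variable (K : Type*) [Field K] [NumberField K]

/-- the weight `I ↦ N(I)^(-s)` as a monoid homomorphism. -/
noncomputable def s14_z_w (s : ℝ) : Ideal (𝓞 K) →* ℝ where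
  toFun I := ((absNorm I : ℝ) ^ s)⁻¹
  map_one' := by simp
  map_mul' I J := by
    simp only [map_mul, Nat.cast_mul]
    rw [Real.mul_rpow (Nat.cast_nonneg _) (Nat.cast_nonneg _), mul_inv]

theorem s14_z_w_apply (s : ℝ) (I : Ideal (𝓞 K)) : s14_z_w K s I = ((absNorm I : ℝ) ^ s)⁻¹ := rfl

theorem s14_z_w_nonneg (s : ℝ) (I : Ideal (𝓞 K)) : 0 ≤ s14_z_w K s I :=
  inv_nonneg.mpr (Real.rpow_nonneg (Nat.cast_nonneg _) _)

theorem s14_z_two_le_absNorm {P : Ideal (𝓞 K)} (hP : P.IsPrime) (hP0 : P ≠ ⊥) :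
    2 ≤ absNorm P := by
  have h0 : absNorm P ≠ 0 := by
    rw [Ne, Ideal.absNorm_eq_zero_iff]
    exact hP0
  have h1 : absNorm P ≠ 1 := by
    rw [Ne, Ideal.absNorm_eq_one_iff]
    exact hP.ne_top
  omega

theorem s14_z_w_le_half {s : ℝ} (hs : 1 ≤ s) {P : Ideal (𝓞 K)} (hP : P.IsPrime) (hP0 : P ≠ ⊥) :
    s14_z_w K s P ≤ 1 / 2 := by
  have h2 : (2 : ℝ) ≤ (absNorm P : ℝ) := by exact_mod_cast s14_z_two_le_absNorm K hP hP0
  have h3 : (2 : ℝ) ≤ (absNorm P : ℝ) ^ s := by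
    calc (2 : ℝ) ≤ (absNorm P : ℝ) := h2
      _ = (absNorm P : ℝ) ^ (1 : ℝ) := (Real.rpow_one _).symm
      _ ≤ (absNorm P : ℝ) ^ s := Real.rpow_le_rpow_of_exponent_le (by linarith) hs
  rw [s14_z_w_apply, one_div]
  exact inv_anti₀ (by norm_num) h3

/-- `w_s(P)² ≤ w_2(P)` for `s ≥ 1`. -/
theorem s14_z_w_sq_le {s : ℝ} (hs : 1 ≤ s) (I : Ideal (𝓞 K)) :
    (s14_z_w K s I) ^ 2 ≤ s14_z_w K 2 I := by
  rw [s14_z_w_apply, s14_z_w_apply]
  rcases Nat.eq_zero_or_pos (absNorm I) with h0 | hpos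
  · rw [h0]
    simp [Real.zero_rpow (by linarith : s ≠ 0)]
  · have h1 : (1 : ℝ) ≤ (absNorm I : ℝ) := by exact_mod_cast hpos
    have hpos' : (0 : ℝ) < (absNorm I : ℝ) := by linarith
    rw [inv_pow]
    refine inv_anti₀ (Real.rpow_pos_of_pos hpos' _) ?_
    calc (absNorm I : ℝ) ^ (2 : ℝ) ≤ (absNorm I : ℝ) ^ (2 * s) :=
          Real.rpow_le_rpow_of_exponent_le h1 (by linarith)
      _ = ((absNorm I : ℝ) ^ s) ^ 2 := by
          rw [mul_comm, Real.rpow_mul hpos'.le, Real.rpow_two]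

/-- distinct sets of nonzero primes have distinct products. -/
theorem s14_z_prod_injOn (S : Finset (Ideal (𝓞 K)))
    (hS : ∀ P ∈ S, P.IsPrime ∧ P ≠ ⊥) :
    Set.InjOn (fun T : Finset (Ideal (𝓞 K)) => ∏ P ∈ T, P) (↑S.powerset : Set (Finset _)) := by
  classical
  have key : ∀ T₁ T₂ : Finset (Ideal (𝓞 K)), T₁ ⊆ S → T₂ ⊆ S →
      (∏ P ∈ T₁, P) = ∏ P ∈ T₂, P → T₁ ⊆ T₂ := by
    intro T₁ T₂ h1 h2 heq P hP
    have hPp : Prime P := Ideal.prime_of_isPrime (hS P (h1 hP)).2 (hS P (h1 hP)).1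
    have hdvd : P ∣ ∏ Q ∈ T₂, Q := heq ▸ Finset.dvd_prod_of_mem _ hP
    obtain ⟨Q, hQ, hPQ⟩ := (Prime.dvd_finsetProd_iff hPp _).mp hdvd
    have hQp : Prime Q := Ideal.prime_of_isPrime (hS Q (h2 hQ)).2 (hS Q (h2 hQ)).1
    have : P = Q := by
      have hass := (Prime.dvd_prime_iff_associated hPp hQp).mp hPQ
      exact associated_iff_eq.mp hass
    exact this ▸ hQ
  intro T₁ hT₁ T₂ hT₂ heq
  have h1 := Finset.mem_powerset.mp (Finset.mem_coe.mp hT₁)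
  have h2 := Finset.mem_powerset.mp (Finset.mem_coe.mp hT₂)
  exact Finset.Subset.antisymm (key T₁ T₂ h1 h2 heq) (key T₂ T₁ h2 h1 heq.symm)

/-- **(U1)** squarefree products: `∏_{P ∈ S} (1 + N(P)^(-s)) ≤ ζ_K(s)`. -/
theorem s14_z_prod_one_add_le {s : ℝ} (hs : 1 < s) (S : Finset (Ideal (𝓞 K)))
    (hS : ∀ P ∈ S, P.IsPrime ∧ P ≠ ⊥) :
    ∏ P ∈ S, (1 + s14_z_w K s P) ≤ s14_z_zeta K s := by
  classical
  rw [Finset.prod_one_add]
  have h1 : ∑ T ∈ S.powerset, ∏ P ∈ T, s14_z_w K s P =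
      ∑ T ∈ S.powerset, ((absNorm (∏ P ∈ T, P) : ℝ) ^ s)⁻¹ := by
    refine Finset.sum_congr rfl fun T _ => ?_
    rw [← map_prod, s14_z_w_apply]
  rw [h1, ← Finset.sum_image (f := fun I : Ideal (𝓞 K) => ((absNorm I : ℝ) ^ s)⁻¹)
    (s14_z_prod_injOn K S hS)]
  exact s14_z_sum_ideals_le K hs _

/-- **(U2)** a finite sum over nonzero ideals is bounded by the finite Euler product over a set
of primes containing all their prime factors. -/
theorem s14_z_sum_le_prod {s : ℝ} (hs : 1 ≤ s) (A : Finset (Ideal (𝓞 K)))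
    (hA : ∀ I ∈ A, I ≠ ⊥) (S : Finset (Ideal (𝓞 K))) (hS : ∀ P ∈ S, P.IsPrime ∧ P ≠ ⊥)
    (hAS : ∀ I ∈ A, ∀ P ∈ normalizedFactors I, P ∈ S) :
    ∑ I ∈ A, s14_z_w K s I ≤ ∏ P ∈ S, (1 - s14_z_w K s P)⁻¹ := by
  classical
  have h1 : ∀ I ∈ A, s14_z_w K s I = ((normalizedFactors I).map (s14_z_w K s)).prod := by
    intro I hI
    conv_lhs => rw [← Ideal.prod_normalizedFactors_eq_self (hA I hI)]
    rw [map_multiset_prod]
  rw [Finset.sum_congr rfl h1]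
  have hinj : Set.InjOn (fun I : Ideal (𝓞 K) => normalizedFactors I) (↑A : Set (Ideal (𝓞 K))) := by
    intro I hI J hJ hIJ
    simp only at hIJ
    rw [← Ideal.prod_normalizedFactors_eq_self (hA I hI),
      ← Ideal.prod_normalizedFactors_eq_self (hA J hJ), hIJ]
  rw [← Finset.sum_image (f := fun μ : Multiset (Ideal (𝓞 K)) => (μ.map (s14_z_w K s)).prod) hinj]
  refine s14_z_sum_multiset_le S (s14_z_w K s) (fun P _ => s14_z_w_nonneg K s P)
    (fun P hP => ?_) _ ?_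
  · have := s14_z_w_le_half K hs (hS P hP).1 (hS P hP).2
    linarith
  · intro μ hμ P hP
    obtain ⟨I, hI, rfl⟩ := Finset.mem_image.mp hμ
    exact hAS I hI P hP

end Fermat.Agent.S14
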