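import Fermat.Agent.S14.ZetaPrimes
import Fermat.Agent.S14.ZetaDeg

/-!
# S14 (Z), part 6: the Galois side

Owner: helper2.  For a Galois extension `N / F` of number fields:
* primes not dividing the different have trivial inertia group;
* primes of `F` which split completely contribute `[N : F]` primes of the same norm.
-/

set_option autoImplicit false
set_option linter.unusedSectionVars false

namespace Fermat.Agent.S14

open NumberField Ideal Filter Topology Finset
open scoped Pointwise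

variable (F N : Type*) [Field F] [NumberField F] [Field N] [NumberField N] [Algebra F N]
  [IsGalois F N]

/-- a prime of `N` not dividing the different has trivial inertia group. -/
theorem s14_z_inertia_eq_bot {Q : Ideal (𝓞 N)} (hQ : Q.IsPrime)
    (hdiff : ¬ Q ∣ differentIdeal (𝓞 F) (𝓞 N)) : Q.inertia (N ≃ₐ[F] N) = ⊥ := by
  have := hQ
  have hunr : Algebra.IsUnramifiedAt (𝓞 F) Q := not_dvd_differentIdeal_iff.mp hdiff
  have he : Q.ramificationIdx (𝓞 F) = 1 := Ideal.ramificationIdx_eq_one Q (𝓞 F)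
  have h1 := Ideal.card_inertia_eq_ramificationIdxIn (G := N ≃ₐ[F] N) (Q.under (𝓞 F)) Q
  rw [Ideal.ramificationIdxIn_eq_ramificationIdx (Q.under (𝓞 F)) Q (N ≃ₐ[F] N), he] at h1
  exact Subgroup.card_eq_one.mp h1

/-- if the decomposition group of `Q` is trivial then the residue degree is one. -/
theorem s14_z_inertiaDeg_eq_one {Q : Ideal (𝓞 N)} (hQ : Q.IsPrime)
    (hst : MulAction.stabilizer (N ≃ₐ[F] N) Q = ⊥) : Q.inertiaDeg (𝓞 F) = 1 := by
  have := hQ
  have h1 := Ideal.card_stabilizer_eq_card_inertia_mul_finrank (G := N ≃ₐ[F] N)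
    (Q.under (𝓞 F)) Q
  rw [hst, Subgroup.card_bot] at h1
  exact Nat.eq_one_of_mul_eq_one_left h1.symm

/-- if the decomposition group of `Q` is trivial then the inertia group has one element. -/
theorem s14_z_card_inertia_eq_one {Q : Ideal (𝓞 N)} (hQ : Q.IsPrime)
    (hst : MulAction.stabilizer (N ≃ₐ[F] N) Q = ⊥) : Nat.card (Q.inertia (N ≃ₐ[F] N)) = 1 := by
  have := hQ
  have h1 := Ideal.card_stabilizer_eq_card_inertia_mul_finrank (G := N ≃ₐ[F] N)
    (Q.under (𝓞 F)) Q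
  rw [hst, Subgroup.card_bot] at h1
  exact Nat.eq_one_of_mul_eq_one_right h1.symm

/-- a prime of `F` all of whose primes above have trivial decomposition group has exactly
`[N : F]` primes above it. -/
theorem s14_z_ncard_primesOver {q : Ideal (𝓞 F)} (hq : q.IsPrime) (hq0 : q ≠ ⊥)
    (hsplit : ∀ Q : Ideal (𝓞 N), Q.IsPrime → Q.under (𝓞 F) = q →
      MulAction.stabilizer (N ≃ₐ[F] N) Q = ⊥) :
    (q.primesOver (𝓞 N)).ncard = Module.finrank F N := by
  have := hq
  have hmax : q.IsMaximal := hq.isMaximal hq0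
  obtain ⟨Q, hQ⟩ := Ideal.nonempty_primesOver (S := 𝓞 N) q
  have hQp : Q.IsPrime := hQ.1
  have hQl : Q.LiesOver q := hQ.2
  have hQu : Q.under (𝓞 F) = q := (Ideal.over_def Q q).symm
  have hst := hsplit Q hQp hQu
  have h1 := Ideal.ncard_primesOver_mul_card_inertia_mul_finrank (G := N ≃ₐ[F] N) q Q
  have hf : Q.inertiaDeg (𝓞 F) = 1 := s14_z_inertiaDeg_eq_one F N hQp hst
  have hi := s14_z_card_inertia_eq_one F N hQp hst
  rw [hi, hf, mul_one, mul_one, IsGalois.card_aut_eq_finrank] at h1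
  exact h1

/-- the norm of a prime above a split prime. -/
theorem s14_z_absNorm_eq_of_split {q : Ideal (𝓞 F)} (hq : q.IsPrime)
    {Q : Ideal (𝓞 N)} (hQ : Q.IsPrime) (hQq : Q.under (𝓞 F) = q)
    (hst : MulAction.stabilizer (N ≃ₐ[F] N) Q = ⊥) : absNorm Q = absNorm q := by
  have := hq
  have := hQ
  have hl : Q.LiesOver q := ⟨hQq.symm⟩
  have h := Ideal.absNorm_pow_inertiaDeg q Q
  rw [s14_z_inertiaDeg_eq_one F N hQ hst, pow_one] at h
  exact h.symm

/-- the finite set of primes of `N` above a nonzero prime `q` of `F`. -/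
noncomputable def s14_z_over (q : Ideal (𝓞 F)) : Finset (Ideal (𝓞 N)) := by
  classical
  exact if h : q.IsPrime ∧ q ≠ ⊥ then
    haveI := h.1.isMaximal h.2
    (IsDedekindDomain.primesOver_finite q (𝓞 N)).toFinset
  else ∅

theorem s14_z_mem_over {q : Ideal (𝓞 F)} (hq : q.IsPrime) (hq0 : q ≠ ⊥) {Q : Ideal (𝓞 N)} :
    Q ∈ s14_z_over F N q ↔ Q.IsPrime ∧ Q.under (𝓞 F) = q := by
  rw [s14_z_over, dif_pos ⟨hq, hq0⟩, Set.Finite.mem_toFinset]
  constructor
  · rintro ⟨h1, h2⟩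
    exact ⟨h1, (Ideal.over_def Q q).symm⟩
  · rintro ⟨h1, h2⟩
    exact ⟨h1, ⟨h2.symm⟩⟩

theorem s14_z_card_over {q : Ideal (𝓞 F)} (hq : q.IsPrime) (hq0 : q ≠ ⊥)
    (hsplit : ∀ Q : Ideal (𝓞 N), Q.IsPrime → Q.under (𝓞 F) = q →
      MulAction.stabilizer (N ≃ₐ[F] N) Q = ⊥) :
    (s14_z_over F N q).card = Module.finrank F N := by
  rw [← s14_z_ncard_primesOver F N hq hq0 hsplit, s14_z_over, dif_pos ⟨hq, hq0⟩,
    Set.ncard_eq_toFinset_card _ _]

/-- **(G)** the split primes of `F` are controlled by `log ζ_N`. -/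
theorem s14_z_split_sum_le {s : ℝ} (hs : 1 < s) (S : Finset (Ideal (𝓞 F)))
    (hS : ∀ q ∈ S, q.IsPrime ∧ q ≠ ⊥)
    (hsplit : ∀ q ∈ S, ∀ Q : Ideal (𝓞 N), Q.IsPrime → Q.under (𝓞 F) = q →
      MulAction.stabilizer (N ≃ₐ[F] N) Q = ⊥) :
    (Module.finrank F N : ℝ) * ∑ q ∈ S, s14_z_w F s q ≤
      Real.log (s14_z_zeta N s) + s14_z_zeta N 2 := by
  classical
  set SN : Finset (Ideal (𝓞 N)) := S.biUnion (s14_z_over F N) with hSN
  have hmem : ∀ Q ∈ SN, Q.IsPrime ∧ Q ≠ ⊥ := by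
    intro Q hQ
    obtain ⟨q, hq, hQq⟩ := Finset.mem_biUnion.mp hQ
    obtain ⟨hQp, hQu⟩ := (s14_z_mem_over F N (hS q hq).1 (hS q hq).2).mp hQq
    refine ⟨hQp, ?_⟩
    have : Q.LiesOver q := ⟨hQu.symm⟩
    exact Ideal.ne_bot_of_liesOver_of_ne_bot (hS q hq).2 Q
  have hdisj : Set.PairwiseDisjoint (↑S : Set (Ideal (𝓞 F))) (s14_z_over F N) := by
    intro q hq q' hq' hne
    rw [Function.onFun, Finset.disjoint_left]
    intro Q hQ hQ'
    have h1 := ((s14_z_mem_over F N (hS q hq).1 (hS q hq).2).mp hQ).2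
    have h2 := ((s14_z_mem_over F N (hS q' hq').1 (hS q' hq').2).mp hQ').2
    exact hne (h1.symm.trans h2)
  have hsum : ∑ Q ∈ SN, s14_z_w N s Q =
      (Module.finrank F N : ℝ) * ∑ q ∈ S, s14_z_w F s q := by
    rw [hSN, Finset.sum_biUnion hdisj, Finset.mul_sum]
    refine Finset.sum_congr rfl fun q hq => ?_
    rw [← s14_z_card_over F N (hS q hq).1 (hS q hq).2 (hsplit q hq), ← nsmul_eq_mul,
      ← Finset.sum_const]
    refine Finset.sum_congr rfl fun Q hQ => ?_
    obtain ⟨hQp, hQq⟩ := (s14_z_mem_over F N (hS q hq).1 (hS q hq).2).mp hQ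
    rw [s14_z_w_apply, s14_z_w_apply,
      s14_z_absNorm_eq_of_split F N (hS q hq).1 hQp hQq (hsplit q hq Q hQp hQq)]
  rw [← hsum]
  exact s14_z_prime_sum_le N hs SN hmem

/-- the finite set of rational primes below the primes dividing the different. -/
noncomputable def s14_z_bad : Finset ℕ := by
  classical
  exact (UniqueFactorizationMonoid.normalizedFactors
    (differentIdeal (𝓞 F) (𝓞 N))).toFinset.image (s14_z_below N)

theorem s14_z_below_under (Q : Ideal (𝓞 N)) :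
    s14_z_below N Q = s14_z_below F (Q.under (𝓞 F)) := by
  rw [s14_z_below, s14_z_below, Ideal.under_under]

theorem s14_z_below_eq_of_absNorm_prime {q : Ideal (𝓞 F)} (hq : q.IsPrime) (hq0 : q ≠ ⊥)
    (hℓ : (absNorm q).Prime) : s14_z_below F q = absNorm q := by
  have h1 := s14_z_absNorm_eq_pow F hq
  have hb := s14_z_below_prime F hq hq0
  have hf := s14_z_inertiaDeg_pos F hq
  have hdvd : s14_z_below F q ∣ absNorm q := by
    rw [← h1]
    exact dvd_pow_self _ hf.ne'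
  exact (Nat.prime_dvd_prime_iff_eq hb hℓ).mp hdvd

/-- primes of prime norm outside the bad set are unramified (trivial inertia groups). -/
theorem s14_z_unram_of_not_bad {q : Ideal (𝓞 F)} (hq : q.IsPrime) (hq0 : q ≠ ⊥)
    (hℓ : (absNorm q).Prime) (hbad : absNorm q ∉ s14_z_bad F N) :
    ∀ Q : Ideal (𝓞 N), Q.IsPrime → Q.under (𝓞 F) = q → Q.inertia (N ≃ₐ[F] N) = ⊥ := by
  classical
  intro Q hQ hQq
  apply s14_z_inertia_eq_bot F N hQ
  intro hdvd
  apply hbad
  rw [s14_z_bad, Finset.mem_image]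
  refine ⟨Q, ?_, ?_⟩
  · rw [Multiset.mem_toFinset, Ideal.mem_normalizedFactors_iff differentIdeal_ne_bot]
    exact ⟨hQ, Ideal.dvd_iff_le.mp hdvd⟩
  · rw [s14_z_below_under F N, hQq, s14_z_below_eq_of_absNorm_prime F hq hq0 hℓ]

end Fermat.Agent.S14
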