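import Fermat.Agent.S14.ZetaEuler

/-!
# S14 (Z), part 4: sums over primes versus `log ζ_K(s)`

Owner: helper2.
-/

set_option autoImplicit false

namespace Fermat.Agent.S14

open NumberField Ideal Filter Topology Finset UniqueFactorizationMonoid

variable (K : Type*) [Field K] [NumberField K]

theorem s14_z_one_le_zeta {s : ℝ} (hs : 1 < s) : 1 ≤ s14_z_zeta K s := by
  have := s14_z_prod_one_add_le K hs ∅ (by simp)
  simpa using this

theorem s14_z_zeta_pos {s : ℝ} (hs : 1 < s) : 0 < s14_z_zeta K s :=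
  lt_of_lt_of_le one_pos (s14_z_one_le_zeta K hs)

theorem s14_z_sum_w_two_le (S : Finset (Ideal (𝓞 K))) :
    ∑ P ∈ S, s14_z_w K 2 P ≤ s14_z_zeta K 2 :=
  s14_z_sum_ideals_le K (by norm_num) S

/-- **(P1)** upper bound for sums over primes. -/
theorem s14_z_prime_sum_le {s : ℝ} (hs : 1 < s) (S : Finset (Ideal (𝓞 K)))
    (hS : ∀ P ∈ S, P.IsPrime ∧ P ≠ ⊥) :
    ∑ P ∈ S, s14_z_w K s P ≤ Real.log (s14_z_zeta K s) + s14_z_zeta K 2 := by
  have hz := s14_z_prod_one_add_le K hs S hS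
  have hexp : Real.exp (∑ P ∈ S, (s14_z_w K s P - (s14_z_w K s P) ^ 2)) ≤
      ∏ P ∈ S, (1 + s14_z_w K s P) := by
    rw [Real.exp_sum]
    exact Finset.prod_le_prod (fun P _ => (Real.exp_pos _).le)
      fun P _ => s14_z_exp_le_one_add (s14_z_w_nonneg K s P)
  have h1 : ∑ P ∈ S, (s14_z_w K s P - (s14_z_w K s P) ^ 2) ≤ Real.log (s14_z_zeta K s) :=
    (Real.le_log_iff_exp_le (s14_z_zeta_pos K hs)).mpr (hexp.trans hz)
  have h2 : ∑ P ∈ S, (s14_z_w K s P) ^ 2 ≤ s14_z_zeta K 2 :=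
    (Finset.sum_le_sum fun P _ => s14_z_w_sq_le K hs.le P).trans (s14_z_sum_w_two_le K S)
  rw [Finset.sum_sub_distrib] at h1
  linarith

/-- **(P2)** lower bound for sums over primes: if all finite sums of `N(P)^(-s)` over nonzero
primes are at most `B`, then `ζ_K(s) ≤ exp (B + 2 ζ_K(2))`. -/
theorem s14_z_zeta_le_exp {s : ℝ} (hs : 1 < s) {B : ℝ}
    (h : ∀ S : Finset (Ideal (𝓞 K)), (∀ P ∈ S, P.IsPrime ∧ P ≠ ⊥) →
      ∑ P ∈ S, s14_z_w K s P ≤ B) :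
    s14_z_zeta K s ≤ Real.exp (B + 2 * s14_z_zeta K 2) := by
  classical
  refine s14_z_zeta_le_of_forall K (by linarith) fun A hA => ?_
  set S : Finset (Ideal (𝓞 K)) := A.biUnion fun I => (normalizedFactors I).toFinset with hSdef
  have hS : ∀ P ∈ S, P.IsPrime ∧ P ≠ ⊥ := by
    intro P hP
    obtain ⟨I, _, hPI⟩ := Finset.mem_biUnion.mp hP
    have hprime := prime_of_normalized_factor P (Multiset.mem_toFinset.mp hPI)
    exact ⟨Ideal.isPrime_of_prime hprime, hprime.ne_zero⟩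
  have hAS : ∀ I ∈ A, ∀ P ∈ normalizedFactors I, P ∈ S := fun I hI P hP =>
    Finset.mem_biUnion.mpr ⟨I, hI, Multiset.mem_toFinset.mpr hP⟩
  have h1 := s14_z_sum_le_prod K hs.le A hA S hS hAS
  have h2 : ∏ P ∈ S, (1 - s14_z_w K s P)⁻¹ ≤
      Real.exp (∑ P ∈ S, (s14_z_w K s P + 2 * (s14_z_w K s P) ^ 2)) := by
    rw [Real.exp_sum]
    refine Finset.prod_le_prod (fun P hP => ?_) fun P hP => ?_
    · have := s14_z_w_le_half K hs.le (hS P hP).1 (hS P hP).2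
      exact inv_nonneg.mpr (by linarith)
    · exact s14_z_inv_one_sub_le_exp (s14_z_w_nonneg K s P)
        (s14_z_w_le_half K hs.le (hS P hP).1 (hS P hP).2)
  have h3 : ∑ P ∈ S, (s14_z_w K s P + 2 * (s14_z_w K s P) ^ 2) ≤ B + 2 * s14_z_zeta K 2 := by
    rw [Finset.sum_add_distrib, ← Finset.mul_sum]
    have h4 : ∑ P ∈ S, (s14_z_w K s P) ^ 2 ≤ s14_z_zeta K 2 :=
      (Finset.sum_le_sum fun P _ => s14_z_w_sq_le K hs.le P).trans (s14_z_sum_w_two_le K S)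
    linarith [h S hS]
  calc ∑ I ∈ A, ((absNorm I : ℝ) ^ s)⁻¹ = ∑ I ∈ A, s14_z_w K s I := rfl
    _ ≤ ∏ P ∈ S, (1 - s14_z_w K s P)⁻¹ := h1
    _ ≤ Real.exp (∑ P ∈ S, (s14_z_w K s P + 2 * (s14_z_w K s P) ^ 2)) := h2
    _ ≤ Real.exp (B + 2 * s14_z_zeta K 2) := Real.exp_le_exp.mpr h3

end Fermat.Agent.S14
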